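import Mathlib
import Fermat.Prelude.Def_FLTPrelim_Ramification
import Fermat.Agent.Lib.FrobeniusExists

/-!
# S13, package G: a homomorphism from the absolute Galois group of the rationals which is
trivial on all inertia groups and has a kernel containing the pointwise fixer of a finite set
is trivial.
-/

set_option autoImplicit false

namespace Fermat.Agent.S13

open Fermat.Agent.Lib.FrobeniusExists
open scoped Pointwise

local notation "Qbar" => AlgebraicClosure ℚ

local instance globalIsAlgebraicQbar : Algebra.IsAlgebraic ℚ Qbar :=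
  AlgebraicClosure.isAlgebraic ℚ
local instance globalIsAlgClosureQbar : IsAlgClosure ℚ Qbar :=
  ⟨inferInstance, inferInstance⟩
local instance globalIsGaloisQbar : IsGalois ℚ Qbar :=
  IsAlgClosure.isGalois ℚ Qbar
local instance globalZbarTopology : TopologicalSpace Zbar := ⊥
local instance globalZbarDiscrete : DiscreteTopology Zbar := ⟨rfl⟩

/-! ### Part 1: a criterion for membership in the inertia group -/

theorem global_isAlgebraic_int (x : Qbar) : IsAlgebraic ℤ x :=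
  (IsFractionRing.isAlgebraic_iff ℤ ℚ Qbar).mpr (Algebra.IsAlgebraic.isAlgebraic x)

/-- elements of `V` are fractions of algebraic integers with denominator a unit of `V`. -/
theorem global_exists_denominator (V : ValuationSubring Qbar) (ℓ : ℕ) (hℓ : ℓ.Prime)
    (hV : (ℓ : Qbar) ∈ V.nonunits) (x : Qbar) (hx : x ∈ V) :
    ∃ s : Zbar, s ∉ primeBelow V ∧ IsIntegral ℤ ((s : Qbar) * x) := by
  obtain ⟨s, hs, hsV, hsx⟩ := exists_denominator V ℓ hℓ hV x hx (global_isAlgebraic_int x)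
  exact ⟨⟨s, hs⟩, fun h => hsV ((V.mem_nonunits_iff).mpr h), hsx⟩

theorem global_smul_not_mem (V : ValuationSubring Qbar) (τ : Qbar ≃ₐ[ℚ] Qbar)
    (hτ : τ • primeBelow V = primeBelow V) (b : Zbar) (hb : b ∉ primeBelow V) :
    τ • b ∉ primeBelow V := by
  intro hmem
  have h1 : τ • b ∈ τ • primeBelow V := hτ.symm ▸ hmem
  exact hb (Ideal.smul_mem_pointwise_smul_iff.mp h1)

theorem global_map_mem (V : ValuationSubring Qbar) (ℓ : ℕ) (hℓ : ℓ.Prime)
    (hV : (ℓ : Qbar) ∈ V.nonunits) (τ : Qbar ≃ₐ[ℚ] Qbar)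
    (hτ : τ • primeBelow V = primeBelow V) (x : Qbar) (hx : x ∈ V) : τ x ∈ V := by
  obtain ⟨s, hsb, hsx⟩ := global_exists_denominator V ℓ hℓ hV x hx
  have h1 : V.valuation (τ (s : Qbar)) = 1 :=
    valuation_eq_one_of_not_mem V _ (global_smul_not_mem V τ hτ _ hsb)
  have h2 : V.valuation (τ ((s : Qbar) * x)) ≤ 1 :=
    (V.valuation_le_one_iff _).mpr (integral_mem V _ (map_isIntegral_int τ hsx))
  rw [map_mul, map_mul, h1, one_mul] at h2
  exact (V.valuation_le_one_iff _).mp h2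

theorem global_mem_decomposition (V : ValuationSubring Qbar) (ℓ : ℕ) (hℓ : ℓ.Prime)
    (hV : (ℓ : Qbar) ∈ V.nonunits) (σ : Qbar ≃ₐ[ℚ] Qbar)
    (hσ : σ • primeBelow V = primeBelow V) : σ ∈ V.decompositionSubgroup ℚ := by
  have hσinv : σ⁻¹ • primeBelow V = primeBelow V := by
    rw [inv_smul_eq_iff]
    exact hσ.symm
  rw [MulAction.mem_stabilizer_iff]
  apply SetLike.ext
  intro x
  rw [ValuationSubring.mem_pointwise_smul_iff_inv_smul_mem]
  constructor
  · intro hx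
    have h1 := global_map_mem V ℓ hℓ hV σ hσ _ hx
    rwa [AlgEquiv.smul_def, ← AlgEquiv.mul_apply, mul_inv_cancel, AlgEquiv.one_apply] at h1
  · intro hx
    exact global_map_mem V ℓ hℓ hV σ⁻¹ hσinv x hx

/-- **Inertia criterion**: an automorphism stabilising the prime of `Zbar` below `V` and acting
trivially on the quotient lies in the inertia group of `V`. -/
theorem mem_inertiaSubgroupIn_of_forall (V : ValuationSubring Qbar) (ℓ : ℕ) (hℓ : ℓ.Prime)
    (hV : (ℓ : Qbar) ∈ V.nonunits) (σ : Qbar ≃ₐ[ℚ] Qbar)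
    (hσQ : σ • primeBelow V = primeBelow V)
    (hσ : ∀ b : Zbar, σ • b - b ∈ primeBelow V) : σ ∈ V.inertiaSubgroupIn ℚ := by
  have hσD := global_mem_decomposition V ℓ hℓ hV σ hσQ
  refine ⟨⟨σ, hσD⟩, MonoidHom.mem_ker.mpr ?_, rfl⟩
  ext y
  obtain ⟨x, rfl⟩ := IsLocalRing.residue_surjective y
  show (⟨σ, hσD⟩ : V.decompositionSubgroup ℚ) • (IsLocalRing.residue V x) = IsLocalRing.residue V x
  rw [← IsLocalRing.ResidueField.residue_smul, ← sub_eq_zero, ← map_sub,
    IsLocalRing.residue_eq_zero_iff, ValuationSubring.valuation_lt_one_iff]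
  obtain ⟨s, hsb, hsx⟩ := global_exists_denominator V ℓ hℓ hV x x.2
  have hs1 : V.valuation (s : Qbar) = 1 := valuation_eq_one_of_not_mem V _ hsb
  have hσs1 : V.valuation (σ (s : Qbar)) = 1 :=
    valuation_eq_one_of_not_mem V _ (global_smul_not_mem V σ hσQ _ hsb)
  have ht1 : V.valuation ((s : Qbar) * x) ≤ 1 :=
    (V.valuation_le_one_iff _).mpr (integral_mem V _ hsx)
  have hFs : V.valuation (σ (s : Qbar) - (s : Qbar)) < 1 := hσ s
  have hFt : V.valuation (σ ((s : Qbar) * x) - (s : Qbar) * x) < 1 := hσ ⟨(s : Qbar) * x, hsx⟩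
  have hcoe : (((⟨σ, hσD⟩ : V.decompositionSubgroup ℚ) • x - x : V) : Qbar)
      = σ (x : Qbar) - (x : Qbar) := rfl
  rw [hcoe]
  have hid : (σ (x : Qbar) - (x : Qbar)) * (σ (s : Qbar) * (s : Qbar)) =
      (σ ((s : Qbar) * x) - (s : Qbar) * x) * (s : Qbar)
        - ((s : Qbar) * x) * (σ (s : Qbar) - (s : Qbar)) := by
    rw [map_mul]
    ring
  have hlhs : V.valuation ((σ (x : Qbar) - (x : Qbar)) * (σ (s : Qbar) * (s : Qbar))) =
      V.valuation (σ (x : Qbar) - (x : Qbar)) := by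
    rw [map_mul, map_mul, hσs1, hs1, one_mul, mul_one]
  rw [← hlhs, hid]
  apply Valuation.map_sub_lt
  · rw [map_mul, hs1, mul_one]
    exact hFt
  · rw [map_mul]
    calc V.valuation ((s : Qbar) * x) * V.valuation (σ (s : Qbar) - (s : Qbar))
        ≤ 1 * V.valuation (σ (s : Qbar) - (s : Qbar)) := mul_le_mul' ht1 le_rfl
      _ < 1 := by rw [one_mul]; exact hFs

/-! ### Part 2: the relative Galois group of an intermediate field acting on `Zbar` -/

/-- The algebraic integers lying in the intermediate field `K`. -/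
noncomputable def intK (K : IntermediateField ℚ Qbar) : Subalgebra ℤ Zbar :=
  (K.toSubalgebra.restrictScalars ℤ).comap Zbar.val

theorem mem_intK (K : IntermediateField ℚ Qbar) (b : Zbar) : b ∈ intK K ↔ (b : Qbar) ∈ K :=
  Iff.rfl

section Relative

variable (K : IntermediateField ℚ Qbar)

instance global_smulCommClass : SMulCommClass K.fixingSubgroup (intK K) Zbar where
  smul_comm g a b := by
    apply Subtype.ext
    show (g : Qbar ≃ₐ[ℚ] Qbar) (((a : Zbar) : Qbar) * (b : Qbar)) =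
      ((a : Zbar) : Qbar) * (g : Qbar ≃ₐ[ℚ] Qbar) (b : Qbar)
    rw [map_mul]
    congr 1
    exact g.2 ⟨((a : Zbar) : Qbar), a.2⟩

theorem global_isInvariant : Algebra.IsInvariant (intK K) Zbar K.fixingSubgroup := by
  constructor
  intro b hb
  have h1 : (b : Qbar) ∈ IntermediateField.fixedField K.fixingSubgroup := by
    intro g
    exact congrArg Subtype.val (hb g)
  rw [InfiniteGalois.fixedField_fixingSubgroup] at h1
  exact ⟨⟨b, h1⟩, rfl⟩

instance global_compactSpace : CompactSpace K.fixingSubgroup :=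
  isCompact_iff_compactSpace.mp (InfiniteGalois.fixingSubgroup_isClosed K).isCompact

theorem global_continuousSMul : ContinuousSMul K.fixingSubgroup Zbar := by
  have := zbar_continuousSMul
  infer_instance

end Relative

/-! ### Part 3: lifting inertia elements of a normal intermediate field -/

/-- **Lifting of inertia elements.** Let `K` be a normal intermediate field of `Qbar / ℚ`, `V` a
valuation subring of `Qbar` over the prime `ℓ` and `τ` an automorphism of `K` acting trivially on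
the integers of `K` modulo the prime below `V`. Then `τ` is the restriction of an element of the
inertia group of `V`. -/
theorem exists_inertia_lift (K : IntermediateField ℚ Qbar) [Normal ℚ K]
    (V : ValuationSubring Qbar) (ℓ : ℕ) (hℓ : ℓ.Prime) (hV : (ℓ : Qbar) ∈ V.nonunits)
    (τ : K ≃ₐ[ℚ] K)
    (hτ : ∀ x : K, IsIntegral ℤ (x : Qbar) →
      V.valuation (((τ x : K) : Qbar) - (x : Qbar)) < 1) :
    ∃ σ : Qbar ≃ₐ[ℚ] Qbar, σ ∈ V.inertiaSubgroupIn ℚ ∧
      ∀ x : K, σ (x : Qbar) = ((τ x : K) : Qbar) := by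
  classical
  set Q := primeBelow V with hQ
  -- Step 1: lift `τ` to `σ0`
  let σ0 : Qbar ≃ₐ[ℚ] Qbar := τ.liftNormal Qbar
  have hσ0 : ∀ x : K, σ0 (x : Qbar) = ((τ x : K) : Qbar) :=
    fun x => AlgEquiv.liftNormal_commutes τ Qbar x
  have hσ0inv : ∀ x : K, σ0⁻¹ (x : Qbar) = ((τ.symm x : K) : Qbar) := by
    intro x
    have h := hσ0 (τ.symm x)
    rw [AlgEquiv.apply_symm_apply] at h
    rw [← h, ← AlgEquiv.mul_apply, inv_mul_cancel, AlgEquiv.one_apply]
  -- `τ` preserves the prime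
  have hτP : ∀ x : K, IsIntegral ℤ (x : Qbar) →
      (V.valuation ((τ x : K) : Qbar) < 1 ↔ V.valuation (x : Qbar) < 1) := by
    intro x hx
    constructor
    · intro h
      have h2 : (x : Qbar) = ((τ x : K) : Qbar) - (((τ x : K) : Qbar) - (x : Qbar)) := by ring
      rw [h2]
      exact Valuation.map_sub_lt _ h (hτ x hx)
    · intro h
      have h2 : ((τ x : K) : Qbar) = (((τ x : K) : Qbar) - (x : Qbar)) + (x : Qbar) := by ring
      rw [h2]
      exact Valuation.map_add_lt _ (hτ x hx) h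
  -- Step 2: `σ0 • Q` and `Q` have the same contraction to the integers of `K`
  have hunder : Q.under (intK K) = (σ0 • Q).under (intK K) := by
    ext a
    rw [Ideal.under_def, Ideal.under_def, Ideal.mem_comap, Ideal.mem_comap]
    show (a : Zbar) ∈ Q ↔ (a : Zbar) ∈ σ0 • Q
    rw [Ideal.mem_pointwise_smul_iff_inv_smul_mem, hQ, mem_primeBelow, mem_primeBelow]
    have hint : IsIntegral ℤ (σ0⁻¹ ((a : Zbar) : Qbar)) := map_isIntegral_int σ0⁻¹ (a : Zbar).2
    have h1 := hσ0inv ⟨((a : Zbar) : Qbar), a.2⟩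
    have h2 := hτP (τ.symm ⟨((a : Zbar) : Qbar), a.2⟩) (by rw [← h1]; exact hint)
    rw [AlgEquiv.apply_symm_apply, ← h1] at h2
    exact h2
  have hinv := global_isInvariant K
  have hcont := global_continuousSMul K
  have hprime : (σ0 • Q).IsPrime := by
    rw [Ideal.pointwise_smul_eq_comap]
    exact Ideal.comap_isPrime _ _
  obtain ⟨g, hg⟩ := Algebra.IsInvariant.exists_smul_of_under_eq_of_profinite
    (A := intK K) (G := K.fixingSubgroup) Q (σ0 • Q) hunder
  have hg' : σ0 • Q = (g : Qbar ≃ₐ[ℚ] Qbar) • Q := hg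
  let σ1 : Qbar ≃ₐ[ℚ] Qbar := (g : Qbar ≃ₐ[ℚ] Qbar)⁻¹ * σ0
  have hσ1Q : σ1 • Q = Q := by
    show ((g : Qbar ≃ₐ[ℚ] Qbar)⁻¹ * σ0) • Q = Q
    rw [mul_smul, hg', inv_smul_smul]
  have hfix : ∀ (h : K.fixingSubgroup) (x : K), (h : Qbar ≃ₐ[ℚ] Qbar) (x : Qbar) = x :=
    fun h x => h.2 x
  have hσ1K : ∀ x : K, σ1 (x : Qbar) = ((τ x : K) : Qbar) := by
    intro x
    show ((g : Qbar ≃ₐ[ℚ] Qbar)⁻¹ * σ0) (x : Qbar) = _
    rw [AlgEquiv.mul_apply, hσ0]
    exact hfix g⁻¹ (τ x)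
  -- Step 3: the automorphism of the residue field induced by `σ1`
  let e := Ideal.Quotient.stabilizerHom Q (Q.under ℤ) (Qbar ≃ₐ[ℚ] Qbar) ⟨σ1, hσ1Q⟩
  have he : ∀ b : Zbar, e (Ideal.Quotient.mk Q b) = Ideal.Quotient.mk Q (σ1 • b) := fun b => rfl
  let φ1 : (Zbar ⧸ Q) ≃ₐ[intK K ⧸ Q.under (intK K)] (Zbar ⧸ Q) :=
    AlgEquiv.ofRingEquiv (f := e.toRingEquiv) (by
      intro r
      obtain ⟨a, rfl⟩ := Ideal.Quotient.mk_surjective r
      show e (Ideal.Quotient.mk Q (a : Zbar)) = Ideal.Quotient.mk Q (a : Zbar)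
      rw [he, Ideal.Quotient.eq, hQ, mem_primeBelow]
      have h1 := hσ1K ⟨((a : Zbar) : Qbar), a.2⟩
      have h2 := hτ ⟨((a : Zbar) : Qbar), a.2⟩ (a : Zbar).2
      rw [← h1] at h2
      exact h2)
  have hφ1 : ∀ b : Zbar, φ1 (Ideal.Quotient.mk Q b) = Ideal.Quotient.mk Q (σ1 • b) := fun b => rfl
  -- Step 4: correct `σ1` by an element of the relative Galois group
  obtain ⟨⟨g2, hg2Q⟩, hg2⟩ := Ideal.Quotient.stabilizerHom_surjective_of_profinite
    (G := K.fixingSubgroup) (Q.under (intK K)) Q φ1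
  have hg2Q' : (g2 : Qbar ≃ₐ[ℚ] Qbar) • Q = Q := hg2Q
  have hg2b : ∀ b : Zbar, Ideal.Quotient.mk Q ((g2 : Qbar ≃ₐ[ℚ] Qbar) • b) =
      Ideal.Quotient.mk Q (σ1 • b) := by
    intro b
    have h := congrArg (fun f => f (Ideal.Quotient.mk Q b)) hg2
    exact h
  let σ : Qbar ≃ₐ[ℚ] Qbar := (g2 : Qbar ≃ₐ[ℚ] Qbar)⁻¹ * σ1
  have hg2inv : (g2 : Qbar ≃ₐ[ℚ] Qbar)⁻¹ • Q = Q := by
    rw [inv_smul_eq_iff]
    exact hg2Q'.symm
  have hσQ : σ • Q = Q := by
    show ((g2 : Qbar ≃ₐ[ℚ] Qbar)⁻¹ * σ1) • Q = Q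
    rw [mul_smul, hσ1Q, hg2inv]
  refine ⟨σ, mem_inertiaSubgroupIn_of_forall V ℓ hℓ hV σ hσQ ?_, ?_⟩
  · intro b
    have h1 : σ1 • b - (g2 : Qbar ≃ₐ[ℚ] Qbar) • b ∈ Q := by
      rw [← Ideal.Quotient.eq]
      exact (hg2b b).symm
    have h2 : (g2 : Qbar ≃ₐ[ℚ] Qbar)⁻¹ • (σ1 • b - (g2 : Qbar ≃ₐ[ℚ] Qbar) • b) ∈
        (g2 : Qbar ≃ₐ[ℚ] Qbar)⁻¹ • Q := Ideal.smul_mem_pointwise_smul_iff.mpr h1
    rw [hg2inv, smul_sub, inv_smul_smul, ← mul_smul] at h2
    exact h2
  · intro x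
    show ((g2 : Qbar ≃ₐ[ℚ] Qbar)⁻¹ * σ1) (x : Qbar) = _
    rw [AlgEquiv.mul_apply, hσ1K]
    exact hfix g2⁻¹ (τ x)

/-! ### Part 4: the global statement -/

open NumberField in
/-- A non-trivial finite Galois extension `K` of `ℚ` inside `Qbar` has a non-trivial automorphism
which lifts to an element of an inertia group of `Qbar`. -/
theorem exists_inertia_ne_one (K : IntermediateField ℚ Qbar) [FiniteDimensional ℚ K]
    [IsGalois ℚ K] (hK : 1 < Module.finrank ℚ K) :
    ∃ (q : ℕ) (_ : q.Prime) (V : ValuationSubring Qbar) (_ : V.LiesOverPrime q)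
      (σ : Qbar ≃ₐ[ℚ] Qbar), σ ∈ V.inertiaSubgroupIn ℚ ∧ ∃ x : K, σ (x : Qbar) ≠ x := by
  classical
  have : NumberField K := ⟨⟩
  obtain ⟨p, hp, hram⟩ := NumberField.exists_not_isUnramifiedAt_int_of_isGalois
    (K := K) (𝒪 := 𝓞 K) hK
  obtain ⟨V, hV⟩ := exists_valuationSubring_over p hp
  -- the integers of `K` inside `Zbar`
  have hint : ∀ x : 𝓞 K, IsIntegral ℤ (((x : K) : Qbar)) := fun x =>
    (x.2 : IsIntegral ℤ (x : K)).map (IsScalarTower.toAlgHom ℤ K Qbar)
  let ι : 𝓞 K →+* Zbar :=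
    ((algebraMap K Qbar).comp (algebraMap (𝓞 K) K)).codRestrict Zbar (fun x => hint x)
  have hι : ∀ x : 𝓞 K, ((ι x : Zbar) : Qbar) = ((x : K) : Qbar) := fun x => rfl
  let P : Ideal (𝓞 K) := (primeBelow V).comap ι
  have hPprime : P.IsPrime := Ideal.comap_isPrime ι (primeBelow V)
  have hpP : ((p : ℕ) : 𝓞 K) ∈ P := by
    show ι ((p : ℕ) : 𝓞 K) ∈ primeBelow V
    rw [mem_primeBelow, hι]
    have : ((((p : ℕ) : 𝓞 K) : K) : Qbar) = (p : Qbar) := by simp
    rw [this]
    exact (V.mem_nonunits_iff).mp hV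
  have hPram := hram P hPprime hpP
  -- the Galois action and the inertia group
  have := (IsIntegralClosure.algebraMap_injective (𝓞 K) ℤ K).isDomain
  have := IsIntegralClosure.isDedekindDomain ℤ ℚ K (𝓞 K)
  have := IsIntegralClosure.isFractionRing_of_finite_extension ℤ ℚ K (𝓞 K)
  have := IsIntegralClosure.finite ℤ ℚ K (𝓞 K)
  have := CharZero.of_module (R := 𝓞 K) K
  let act : MulSemiringAction Gal(K/ℚ) (𝓞 K) := IsIntegralClosure.MulSemiringAction ℤ ℚ K (𝓞 K)
  have := IsGaloisGroup.of_isFractionRing Gal(K/ℚ) ℤ (𝓞 K) ℚ K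
  have hact : ∀ (τ : Gal(K/ℚ)) (x : 𝓞 K), ((τ • x : 𝓞 K) : K) = τ (x : K) := fun τ x =>
    algebraMap_galRestrict_apply ℤ τ x
  have hcard : Nat.card (P.toAddSubgroup.inertia Gal(K/ℚ)) ≠ 1 := by
    intro h1
    apply hPram
    rw [← Ideal.ramificationIdx_eq_one_iff,
      ← Ideal.ramificationIdxIn_eq_ramificationIdx (P.under ℤ) P Gal(K/ℚ),
      ← Ideal.card_inertia_eq_ramificationIdxIn (G := Gal(K/ℚ)) (P.under ℤ) P]
    exact h1
  obtain ⟨τ, hτmem, hτne⟩ : ∃ τ ∈ P.toAddSubgroup.inertia Gal(K/ℚ), τ ≠ 1 := by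
    by_contra hcon
    push Not at hcon
    apply hcard
    have hbot : P.toAddSubgroup.inertia Gal(K/ℚ) = ⊥ := (Subgroup.eq_bot_iff_forall _).mpr hcon
    rw [hbot]
    exact Subgroup.card_bot
  have hτ : ∀ x : K, IsIntegral ℤ (x : Qbar) →
      V.valuation (((τ x : K) : Qbar) - (x : Qbar)) < 1 := by
    intro x hx
    have hxK : IsIntegral ℤ x := (isIntegral_algebraMap_iff (algebraMap K Qbar).injective).mp hx
    let x' : 𝓞 K := ⟨x, hxK⟩
    have h1 := hτmem x'
    have h2 : V.valuation ((ι (τ • x' - x') : Zbar) : Qbar) < 1 := h1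
    rw [hι] at h2
    have h3 : ((τ • x' - x' : 𝓞 K) : K) = τ x - x := by
      rw [show ((τ • x' - x' : 𝓞 K) : K) = ((τ • x' : 𝓞 K) : K) - (x' : K) from rfl, hact]
      rfl
    rw [h3] at h2
    exact h2
  obtain ⟨σ, hσI, hσK⟩ := exists_inertia_lift K V p hp hV τ hτ
  refine ⟨p, hp, V, hV, σ, hσI, ?_⟩
  by_contra hcon
  push Not at hcon
  apply hτne
  apply AlgEquiv.ext
  intro x
  have := hcon x
  rw [hσK] at this
  rw [AlgEquiv.one_apply]
  exact Subtype.ext this

/-- **Global lemma (G3).** A homomorphism from the absolute Galois group of `ℚ` which is trivial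
on the pointwise fixer of a finite set and on every inertia group is trivial. -/
theorem hom_eq_one_of_unramified {G : Type*} [Group G]
    (ψ : (AlgebraicClosure ℚ ≃ₐ[ℚ] AlgebraicClosure ℚ) →* G) (S : Finset (AlgebraicClosure ℚ))
    (hS : ∀ σ : AlgebraicClosure ℚ ≃ₐ[ℚ] AlgebraicClosure ℚ, (∀ x ∈ S, σ x = x) → ψ σ = 1)
    (hunr : ∀ q : ℕ, q.Prime → ∀ A : ValuationSubring (AlgebraicClosure ℚ), A.LiesOverPrime q →
      ∀ σ ∈ A.inertiaSubgroupIn ℚ, ψ σ = 1) :
    ∀ σ, ψ σ = 1 := by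
  classical
  let E : IntermediateField ℚ Qbar := IntermediateField.adjoin ℚ (S : Set Qbar)
  have hEfin : FiniteDimensional ℚ E :=
    IntermediateField.finiteDimensional_adjoin (fun x _ => Algebra.IsIntegral.isIntegral x)
  have hEle : E.fixingSubgroup ≤ ψ.ker := by
    intro σ hσ
    rw [MonoidHom.mem_ker]
    apply hS
    intro x hx
    exact (IntermediateField.mem_fixingSubgroup_iff E σ).mp hσ x
      (IntermediateField.subset_adjoin ℚ _ hx)
  have hopen : IsOpen (ψ.ker : Set (Qbar ≃ₐ[ℚ] Qbar)) :=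
    Subgroup.isOpen_mono hEle (IntermediateField.fixingSubgroup_isOpen E)
  have hclosed : IsClosed (ψ.ker : Set (Qbar ≃ₐ[ℚ] Qbar)) := Subgroup.isClosed_of_isOpen _ hopen
  let H : ClosedSubgroup (Qbar ≃ₐ[ℚ] Qbar) := ⟨ψ.ker, hclosed⟩
  let K : IntermediateField ℚ Qbar := IntermediateField.fixedField ψ.ker
  have hKfix : K.fixingSubgroup = ψ.ker := InfiniteGalois.fixingSubgroup_fixedField H
  have hKfin : FiniteDimensional ℚ K := by
    rw [← InfiniteGalois.isOpen_iff_finite, hKfix]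
    exact hopen
  have hKgal : IsGalois ℚ K := by
    have hn : K.fixingSubgroup.Normal := by rw [hKfix]; exact MonoidHom.normal_ker ψ
    convert (InfiniteGalois.normal_iff_isGalois K).mp hn
    exact Subsingleton.elim _ _
  by_contra hcon
  push Not at hcon
  obtain ⟨σ0, hσ0⟩ := hcon
  have hdeg : 1 < Module.finrank ℚ K := by
    by_contra hle
    have h1 : Module.finrank ℚ K = 1 := by
      have := Module.finrank_pos (R := ℚ) (M := K)
      omega
    have hbot : K = ⊥ := IntermediateField.finrank_eq_one_iff.mp h1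
    have htop : ψ.ker = ⊤ := by
      rw [← hKfix, hbot, IntermediateField.fixingSubgroup_bot]
    apply hσ0
    have : σ0 ∈ ψ.ker := htop ▸ Subgroup.mem_top σ0
    exact this
  obtain ⟨q, hq, V, hVq, σ, hσI, x, hx⟩ := exists_inertia_ne_one K hdeg
  have h1 : ψ σ = 1 := hunr q hq V hVq σ hσI
  have h2 : σ ∈ K.fixingSubgroup := by rw [hKfix]; exact h1
  exact hx ((IntermediateField.mem_fixingSubgroup_iff K σ).mp h2 x x.2)

end Fermat.Agent.S13
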