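import Mathlib
import Fermat.Prelude.Def_FLTPrelim_CofixedLine
import Fermat.Prelude.Def_FLTPrelim_Ramification
import Fermat.Agent.S05
import Fermat.Agent.S05.Inertia
import Fermat.Agent.S13.Global

/-!
# S13, package H: the assembly

`asm_main` proves the conclusion of S13 (a reducible Frey representation has a Galois-stable
cofixed line) from the local inputs of the other packages, taken as hypotheses in the exact
shapes in which they are delivered:

* division polynomials: `E[p]` is finite of cardinality `≤ p²`, nontrivial, its points are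
  `A`-integral when `p` is a unit of `A`, and for `A` over `p` a stable line forces an integral
  torsion point;
* the prime `2`: inertia acts unipotently, and there is no rational point of order `p`;
* the prime `p`: inertia acts trivially on a stable line or on the quotient by it (one `A`);
* all other primes: `Fermat.Agent.S05.result`;
* the global lemma `hom_eq_one_of_unramified`.

This file supplies the linear algebra, the conjugacy of the valuation subrings over a prime,
and the elementary facts on the Frey curve (integral coefficients, nonzero discriminant).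
-/

set_option autoImplicit false

open WeierstrassCurve WeierstrassCurve.Affine WeierstrassCurve.Affine.Point

namespace Fermat.Agent.S13

open Fermat.Agent.Lib.FrobeniusExists
open scoped Pointwise

local notation "Qbar" => AlgebraicClosure ℚ
local notation "GQ" => (AlgebraicClosure ℚ ≃ₐ[ℚ] AlgebraicClosure ℚ)

local instance asmIsAlgebraicQbar : Algebra.IsAlgebraic ℚ Qbar :=
  AlgebraicClosure.isAlgebraic ℚ
local instance asmIsAlgClosureQbar : IsAlgClosure ℚ Qbar :=
  ⟨inferInstance, inferInstance⟩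
local instance asmIsGaloisQbar : IsGalois ℚ Qbar :=
  IsAlgClosure.isGalois ℚ Qbar
local instance asmZbarTopology : TopologicalSpace Zbar := ⊥
local instance asmZbarDiscrete : DiscreteTopology Zbar := ⟨rfl⟩

/-! ### Pure linear algebra: a unipotent operator on a plane with a stable line -/

theorem asm_unipotent {k V : Type*} [Field k] [AddCommGroup V] [Module k V] [Module.Finite k V]
    (hdim : Module.finrank k V ≤ 2) (N : Submodule k V) (hN0 : N ≠ ⊥) (hN2 : N ≠ ⊤)
    (f : V →ₗ[k] V) (hfN : ∀ x ∈ N, f x ∈ N) (hf2 : ∀ x, f (f x) = 0) :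
    (∀ x ∈ N, f x = 0) ∧ (∀ x, f x ∈ N) := by
  have hlt : Module.finrank k N < Module.finrank k V := Submodule.finrank_lt hN2
  have hN1 : Module.finrank k N ≤ 1 := by omega
  have part1 : ∀ x ∈ N, f x = 0 := by
    intro x hx
    by_cases hx0 : x = 0
    · rw [hx0, _root_.map_zero]
    · have hpos : 0 < Module.finrank k N :=
        Module.finrank_pos_iff_exists_ne_zero.mpr ⟨⟨x, hx⟩, fun h => hx0 (congrArg Subtype.val h)⟩
      have h1 : Module.finrank k N = 1 := by omega
      obtain ⟨c, hc⟩ := (finrank_eq_one_iff_of_nonzero' (⟨x, hx⟩ : N)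
        (fun h => hx0 (congrArg Subtype.val h))).mp h1 ⟨f x, hfN x hx⟩
      have hc' : c • x = f x := congrArg Subtype.val hc
      have h2 := hf2 x
      rw [← hc', _root_.map_smul, ← hc', smul_smul] at h2
      rcases smul_eq_zero.mp h2 with h | h
      · have : c = 0 := by
          rcases mul_eq_zero.mp h with h | h <;> exact h
        rw [← hc', this, zero_smul]
      · exact absurd h hx0
  refine ⟨part1, fun x => ?_⟩
  by_contra hfx
  have hlt2 : N < N ⊔ Submodule.span k {f x} := by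
    refine lt_of_le_of_ne le_sup_left fun h => hfx ?_
    rw [h]
    exact Submodule.mem_sup_right (Submodule.mem_span_singleton_self _)
  have h3 : Module.finrank k N < Module.finrank k ↥(N ⊔ Submodule.span k {f x}) :=
    Submodule.finrank_lt_finrank_of_lt hlt2
  have h4 : Module.finrank k ↥(N ⊔ Submodule.span k {f x}) ≤ Module.finrank k V :=
    Submodule.finrank_le _
  have hpos : 0 < Module.finrank k N := by
    by_contra h0
    exact hN0 (Submodule.finrank_eq_zero.mp (by omega))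
  have htop : N ⊔ Submodule.span k {f x} = ⊤ :=
    Submodule.eq_top_of_finrank_eq (by omega)
  have hxmem : x ∈ N ⊔ Submodule.span k {f x} := by rw [htop]; trivial
  obtain ⟨n, hn, y, hy, hxy⟩ := Submodule.mem_sup.mp hxmem
  obtain ⟨a, rfl⟩ := Submodule.mem_span_singleton.mp hy
  have : f x = 0 := by
    rw [← hxy, _root_.map_add, part1 n hn, _root_.map_smul, hf2, smul_zero, add_zero]
  exact hfx (this ▸ N.zero_mem)

/-! ### Conjugacy of the valuation subrings over a prime -/

/-- the prime of `ℤ` below `primeBelow V` for `V` over `ℓ` -/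
theorem asm_under (V : ValuationSubring Qbar) (ℓ : ℕ) (hℓ : ℓ.Prime)
    (hV : (ℓ : Qbar) ∈ V.nonunits) (n : ℤ) :
    n ∈ (primeBelow V).under ℤ ↔ (ℓ : ℤ) ∣ n := by
  rw [Ideal.mem_comap, mem_primeBelow]
  have hcoe : (((algebraMap ℤ Zbar) n : Zbar) : Qbar) = (n : Qbar) := by
    simp
  rw [hcoe]
  constructor
  · intro h
    exact int_dvd_of_mem_nonunits V ℓ hℓ hV n ((V.mem_nonunits_iff).mpr h)
  · rintro ⟨k, rfl⟩
    push_cast
    rw [map_mul]
    calc V.valuation (ℓ : Qbar) * V.valuation (k : Qbar)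
        ≤ V.valuation (ℓ : Qbar) * 1 :=
          mul_le_mul' le_rfl ((V.valuation_le_one_iff _).mpr (intCast_mem V k))
      _ < 1 := by rw [mul_one]; exact (V.mem_nonunits_iff).mp hV

/-- inertia elements stabilise the prime below and act trivially modulo it -/
theorem asm_inertia_prime (V : ValuationSubring Qbar)
    (σ : Qbar ≃ₐ[ℚ] Qbar) (hσ : σ ∈ V.inertiaSubgroupIn ℚ) :
    σ • primeBelow V = primeBelow V ∧ ∀ b : Zbar, σ • b - b ∈ primeBelow V := by
  have hD : σ ∈ V.decompositionSubgroup ℚ := by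
    obtain ⟨τ, -, rfl⟩ := hσ
    exact τ.2
  have hDinv : σ⁻¹ ∈ V.decompositionSubgroup ℚ := inv_mem hD
  have hmem : ∀ τ : Qbar ≃ₐ[ℚ] Qbar, τ ∈ V.decompositionSubgroup ℚ → ∀ x ∈ V, τ x ∈ V := by
    intro τ hτ x hx
    have h1 : τ • V = V := hτ
    have h2 : τ • x ∈ τ • V := ValuationSubring.smul_mem_pointwise_smul τ x V hx
    rw [h1] at h2
    exact h2
  have hval : ∀ τ : Qbar ≃ₐ[ℚ] Qbar, τ ∈ V.decompositionSubgroup ℚ → ∀ b : Zbar,
      b ∈ primeBelow V → τ • b ∈ primeBelow V := by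
    intro τ hτ b hb
    rw [mem_primeBelow] at hb ⊢
    rw [zbar_smul_coe]
    by_contra hcon
    have hb0 : (b : Qbar) ≠ 0 := by
      intro h0
      rw [h0, _root_.map_zero, _root_.map_zero] at hcon
      exact hcon zero_lt_one
    have h1 : V.valuation (τ (b : Qbar)) = 1 :=
      le_antisymm ((V.valuation_le_one_iff _).mpr (hmem τ hτ _ (integral_mem V _ b.2)))
        (not_lt.mp hcon)
    -- then `(τ b)⁻¹ ∈ V`, so `b⁻¹ = τ⁻¹ ((τ b)⁻¹) ∈ V`
    have h2 : (τ (b : Qbar))⁻¹ ∈ V := by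
      rw [← V.valuation_le_one_iff, map_inv₀, h1, inv_one]
    have h3 := hmem τ⁻¹ (inv_mem hτ) _ h2
    rw [map_inv₀] at h3
    have h4 : τ⁻¹ (τ (b : Qbar)) = (b : Qbar) := by
      rw [← AlgEquiv.mul_apply, inv_mul_cancel, AlgEquiv.one_apply]
    rw [h4, ← V.valuation_le_one_iff, map_inv₀] at h3
    have h5 : 1 ≤ V.valuation (b : Qbar) := by
      have hv0 : V.valuation (b : Qbar) ≠ 0 := (Valuation.ne_zero_iff _).mpr hb0
      exact (inv_le_one₀ (zero_lt_iff.mpr hv0)).mp h3
    exact absurd hb (not_lt.mpr h5)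
  refine ⟨?_, fun b => ?_⟩
  · ext b
    rw [Ideal.mem_pointwise_smul_iff_inv_smul_mem]
    constructor
    · intro hb
      have h1 := hval σ hD _ hb
      rwa [smul_inv_smul] at h1
    · intro hb
      exact hval σ⁻¹ hDinv b hb
  · rw [mem_primeBelow]
    have h1 := Fermat.Agent.S05.inertia_sub_mem_nonunits V σ hσ (b : Qbar) (integral_mem V _ b.2)
    exact (V.mem_nonunits_iff).mp h1

/-- **Conjugacy**: the inertia groups of two valuation subrings over the same prime are
conjugate. -/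
theorem asm_conj (V V' : ValuationSubring Qbar) (ℓ : ℕ) (hℓ : ℓ.Prime)
    (hV : (ℓ : Qbar) ∈ V.nonunits) (hV' : (ℓ : Qbar) ∈ V'.nonunits) :
    ∃ g : Qbar ≃ₐ[ℚ] Qbar, ∀ σ ∈ V.inertiaSubgroupIn ℚ,
      g * σ * g⁻¹ ∈ V'.inertiaSubgroupIn ℚ := by
  have := zbar_isInvariant
  have := zbar_continuousSMul
  have hunder : (primeBelow V).under ℤ = (primeBelow V').under ℤ := by
    ext n
    rw [asm_under V ℓ hℓ hV, asm_under V' ℓ hℓ hV']
  obtain ⟨g, hg⟩ := Algebra.IsInvariant.exists_smul_of_under_eq_of_profinite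
    (A := ℤ) (G := Qbar ≃ₐ[ℚ] Qbar) (primeBelow V) (primeBelow V') hunder
  refine ⟨g, fun σ hσ => ?_⟩
  obtain ⟨h1, h2⟩ := asm_inertia_prime V σ hσ
  apply mem_inertiaSubgroupIn_of_forall V' ℓ hℓ hV'
  · rw [hg, mul_smul, mul_smul, inv_smul_smul, h1]
  · intro b
    have h3 : (g * σ * g⁻¹) • b - b = g • (σ • (g⁻¹ • b) - g⁻¹ • b) := by
      rw [mul_smul, mul_smul, smul_sub, smul_inv_smul]
    rw [h3, hg]
    exact Ideal.smul_mem_pointwise_smul g _ _ (h2 _)

/-! ### The Frey curve -/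

/-- the coefficients `a₂`, `a₄` of the Frey curve are integers -/
theorem asm_frey_int (P : FreyPackage) :
    ∃ m n : ℤ, P.freyCurve.a₂ = (m : ℚ) ∧ P.freyCurve.a₄ = (n : ℚ) := by
  have hp5 := P.hp5
  have hb : (2 : ℤ) ∣ P.b := (ZMod.intCast_zmod_eq_zero_iff_dvd P.b 2).1 P.hb2
  obtain ⟨k, hk⟩ := hb
  have ha : (4 : ℤ) ∣ P.a ^ P.p + 1 := by
    have h1 : ((P.a ^ P.p + 1 : ℤ) : ZMod 4) = 0 := by
      push_cast
      rw [P.ha4]
      have h3 : (3 : ZMod 4) = -1 := by decide
      rw [h3, P.hp_odd.neg_one_pow]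
      ring
    exact (ZMod.intCast_zmod_eq_zero_iff_dvd _ 4).1 h1
  obtain ⟨j, hj⟩ := ha
  have hbp : P.b ^ P.p = 16 * (2 ^ (P.p - 4) * k ^ P.p) := by
    rw [hk, mul_pow]
    have : (2 : ℤ) ^ P.p = 2 ^ 4 * 2 ^ (P.p - 4) := by
      rw [← pow_add]
      congr 1
      omega
    rw [this]
    ring
  refine ⟨4 * (2 ^ (P.p - 4) * k ^ P.p) - j, -(P.a ^ P.p) * (2 ^ (P.p - 4) * k ^ P.p), ?_, ?_⟩
  · have h1 : P.freyCurve.a₂ = ((P.b : ℚ) ^ P.p - 1 - (P.a : ℚ) ^ P.p) / 4 := rfl
    have h2 : ((P.b : ℚ)) ^ P.p = 16 * (2 ^ (P.p - 4) * (k : ℚ) ^ P.p) := by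
      exact_mod_cast hbp
    have h3 : ((P.a : ℚ)) ^ P.p + 1 = 4 * (j : ℚ) := by
      exact_mod_cast hj
    rw [h1]
    push_cast
    linear_combination (1 / 4 : ℚ) * h2 - (1 / 4 : ℚ) * h3
  · have h1 : P.freyCurve.a₄ = -((P.a : ℚ) ^ P.p) * ((P.b : ℚ) ^ P.p) / 16 := rfl
    have h2 : ((P.b : ℚ)) ^ P.p = 16 * (2 ^ (P.p - 4) * (k : ℚ) ^ P.p) := by
      exact_mod_cast hbp
    rw [h1]
    push_cast
    linear_combination (-((P.a : ℚ) ^ P.p) / 16) * h2

/-- the coefficients of the Frey curve lie in every valuation subring -/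
theorem asm_frey_coeff_mem (P : FreyPackage) (A : ValuationSubring Qbar) :
    (P.freyCurve⁄Qbar).a₁ ∈ A ∧ (P.freyCurve⁄Qbar).a₂ ∈ A ∧ (P.freyCurve⁄Qbar).a₃ ∈ A ∧
      (P.freyCurve⁄Qbar).a₄ ∈ A ∧ (P.freyCurve⁄Qbar).a₆ ∈ A := by
  obtain ⟨m, n, hm, hn⟩ := asm_frey_int P
  have h1 : (P.freyCurve⁄Qbar).a₁ = 1 := by
    show algebraMap ℚ Qbar P.freyCurve.a₁ = 1
    have : P.freyCurve.a₁ = 1 := rfl
    rw [this, map_one]
  have h2 : (P.freyCurve⁄Qbar).a₂ = (m : Qbar) := by
    show algebraMap ℚ Qbar P.freyCurve.a₂ = _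
    rw [hm, map_intCast]
  have h3 : (P.freyCurve⁄Qbar).a₃ = 0 := by
    show algebraMap ℚ Qbar P.freyCurve.a₃ = 0
    have : P.freyCurve.a₃ = 0 := rfl
    rw [this, _root_.map_zero]
  have h4 : (P.freyCurve⁄Qbar).a₄ = (n : Qbar) := by
    show algebraMap ℚ Qbar P.freyCurve.a₄ = _
    rw [hn, map_intCast]
  have h6 : (P.freyCurve⁄Qbar).a₆ = 0 := by
    show algebraMap ℚ Qbar P.freyCurve.a₆ = 0
    have : P.freyCurve.a₆ = 0 := rfl
    rw [this, _root_.map_zero]
  rw [h1, h2, h3, h4, h6]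
  exact ⟨A.one_mem, intCast_mem A m, A.zero_mem, intCast_mem A n, A.zero_mem⟩

/-- the Frey curve is an elliptic curve -/
theorem asm_frey_isElliptic (P : FreyPackage) : (P.freyCurve⁄Qbar).IsElliptic := by
  have hΔ : P.freyCurve.Δ =
      ((P.a : ℚ) ^ P.p * (P.b : ℚ) ^ P.p * (P.c : ℚ) ^ P.p) ^ 2 / 256 := by
    have hF : (P.a : ℚ) ^ P.p + (P.b : ℚ) ^ P.p = (P.c : ℚ) ^ P.p := by
      exact_mod_cast P.hFLT
    have h1 : P.freyCurve.a₁ = 1 := rfl
    have h2 : P.freyCurve.a₂ = ((P.b : ℚ) ^ P.p - 1 - (P.a : ℚ) ^ P.p) / 4 := rfl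
    have h3 : P.freyCurve.a₃ = 0 := rfl
    have h4 : P.freyCurve.a₄ = -((P.a : ℚ) ^ P.p) * ((P.b : ℚ) ^ P.p) / 16 := rfl
    have h6 : P.freyCurve.a₆ = 0 := rfl
    rw [WeierstrassCurve.Δ, WeierstrassCurve.b₂, WeierstrassCurve.b₄, WeierstrassCurve.b₆,
      WeierstrassCurve.b₈, h1, h2, h3, h4, h6, ← hF]
    ring
  constructor
  show IsUnit ((P.freyCurve.map (algebraMap ℚ Qbar)).Δ)
  rw [WeierstrassCurve.map_Δ, hΔ, isUnit_iff_ne_zero]
  have ha : (P.a : ℚ) ≠ 0 := by exact_mod_cast P.ha0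
  have hb : (P.b : ℚ) ≠ 0 := by exact_mod_cast P.hb0
  have hc : (P.c : ℚ) ≠ 0 := by exact_mod_cast P.hc0
  rw [Ne, map_eq_zero]
  positivity

/-! ### The Galois module `E[p]` of the Frey curve -/

/-- the `p`-torsion of the Frey curve over `ℚ̄` -/
abbrev asmT (P : FreyPackage) : Type :=
  Submodule.torsionBy ℤ (P.freyCurve⁄Qbar).Point P.p

variable (P : FreyPackage)

/-- the action of `σ` as a `ZMod p`-linear map -/
noncomputable def asmLin (σ : GQ) : asmT P →ₗ[ZMod P.p] asmT P :=
  (DistribSMul.toAddMonoidHom (asmT P) σ).toZModLinearMap P.p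

theorem asmLin_apply (σ : GQ) (x : asmT P) : asmLin P σ x = σ • x := rfl

/-- kernel of the action on a Galois-stable submodule `N` -/
def asmKerN (N : Submodule (ZMod P.p) (asmT P)) : Subgroup GQ where
  carrier := {σ | ∀ x ∈ N, σ • x = x}
  mul_mem' := by
    intro σ τ hσ hτ x hx
    rw [mul_smul, hτ x hx, hσ x hx]
  one_mem' := fun x _ => one_smul _ x
  inv_mem' := by
    intro σ hσ x hx
    rw [inv_smul_eq_iff]
    exact (hσ x hx).symm

theorem asmKerN_normal (N : Submodule (ZMod P.p) (asmT P)) (hN : IsGaloisStable ℚ N) :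
    (asmKerN P N).Normal := by
  constructor
  intro σ hσ g x hx
  rw [mul_smul, mul_smul, hσ _ (hN g⁻¹ x hx), smul_inv_smul]

/-- kernel of the action on the quotient by a Galois-stable submodule `N` -/
def asmKerQ (N : Submodule (ZMod P.p) (asmT P)) (hN : IsGaloisStable ℚ N) : Subgroup GQ where
  carrier := {σ | ∀ x : asmT P, σ • x - x ∈ N}
  mul_mem' := by
    intro σ τ hσ hτ x
    have h1 : (σ * τ) • x - x = σ • (τ • x - x) + (σ • x - x) := by
      rw [mul_smul, smul_sub]
      abel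
    rw [h1]
    exact N.add_mem (hN σ _ (hτ x)) (hσ x)
  one_mem' := fun x => by
    rw [one_smul, sub_self]
    exact N.zero_mem
  inv_mem' := by
    intro σ hσ x
    have h1 : σ⁻¹ • x - x = -(σ⁻¹ • (σ • x - x)) := by
      rw [smul_sub, inv_smul_smul]
      abel
    rw [h1]
    exact N.neg_mem (hN σ⁻¹ _ (hσ x))

theorem asmKerQ_normal (N : Submodule (ZMod P.p) (asmT P)) (hN : IsGaloisStable ℚ N) :
    (asmKerQ P N hN).Normal := by
  constructor
  intro σ hσ g x
  have h1 : (g * σ * g⁻¹) • x - x = g • (σ • (g⁻¹ • x) - g⁻¹ • x) := by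
    rw [mul_smul, mul_smul, smul_sub, smul_inv_smul]
  rw [h1]
  exact hN g _ (hσ _)

open Classical in
/-- the coordinates of a point -/
noncomputable def asmCoords :
    (P.freyCurve⁄Qbar).Point → Finset Qbar
  | .zero => ∅
  | .some x y _ => {x, y}

theorem asm_smul_eq_of_fix (σ : GQ) (pt : (P.freyCurve⁄Qbar).Point)
    (h : ∀ a ∈ asmCoords P pt, σ a = a) : σ • pt = pt := by
  cases pt with
  | zero => rfl
  | some x y hxy =>
    have hx : σ x = x := h x (by simp [asmCoords])
    have hy : σ y = y := h y (by simp [asmCoords])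
    rw [algEquiv_smul_def, Point.map_some]
    simp only [Point.some.injEq]
    exact ⟨hx, hy⟩

/-- a normal subgroup of `G_ℚ` containing the fixer of a finite set and all inertia groups is
everything (reformulation of `hom_eq_one_of_unramified`) -/
theorem asm_global (H : Subgroup GQ) [H.Normal] (S : Finset Qbar)
    (hS : ∀ σ : GQ, (∀ a ∈ S, σ a = a) → σ ∈ H)
    (hunr : ∀ q : ℕ, q.Prime → ∀ A : ValuationSubring Qbar, A.LiesOverPrime q →
      ∀ σ ∈ A.inertiaSubgroupIn ℚ, σ ∈ H) (σ : GQ) : σ ∈ H := by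
  have h := hom_eq_one_of_unramified (QuotientGroup.mk' H) S
    (fun τ hτ => (QuotientGroup.eq_one_iff τ).mpr (hS τ hτ))
    (fun q hq A hA τ hτ => (QuotientGroup.eq_one_iff τ).mpr (hunr q hq A hA τ hτ)) σ
  exact (QuotientGroup.eq_one_iff σ).mp h

/-- **Assembly of S13** from the local inputs (see the file header). -/
theorem asm_main (P : FreyPackage)
    (hfin : Finite (asmT P)) (hcard : Nat.card (asmT P) ≤ P.p ^ 2)
    (hex : ∃ T : (P.freyCurve⁄Qbar).Point, T ≠ 0 ∧ P.p • T = 0)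
    (hTI : ∀ A : ValuationSubring Qbar, (P.p : Qbar) ∉ A.nonunits →
      ∀ (x y : Qbar) (h : (P.freyCurve⁄Qbar).Nonsingular x y),
        P.p • (Point.some x y h : (P.freyCurve⁄Qbar).Point) = 0 → x ∈ A)
    (hDP5 : ∀ A : ValuationSubring Qbar, A.LiesOverPrime P.p → Nat.card (asmT P) = P.p ^ 2 →
      ∀ N : Submodule (ZMod P.p) (asmT P), IsGaloisStable ℚ N → Nat.card N = P.p →
        ∃ (x y : Qbar) (h : (P.freyCurve⁄Qbar).Nonsingular x y),
          P.p • (Point.some x y h : (P.freyCurve⁄Qbar).Point) = 0 ∧ x ∈ A)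
    (h2u : ∀ A : ValuationSubring Qbar, A.LiesOverPrime 2 →
      (∀ (x y : Qbar) (h : (P.freyCurve⁄Qbar).Nonsingular x y),
        P.p • (Point.some x y h : (P.freyCurve⁄Qbar).Point) = 0 → x ∈ A) →
      ∀ σ ∈ A.inertiaSubgroupIn ℚ, ∀ T : (P.freyCurve⁄Qbar).Point, P.p • T = 0 →
        σ • (σ • T - T) = σ • T - T)
    (h2r : ∀ A : ValuationSubring Qbar, A.LiesOverPrime 2 →
      (∀ (x y : Qbar) (h : (P.freyCurve⁄Qbar).Nonsingular x y),
        P.p • (Point.some x y h : (P.freyCurve⁄Qbar).Point) = 0 → x ∈ A) →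
      ∀ T : (P.freyCurve⁄Qbar).Point, P.p • T = 0 → (∀ σ : GQ, σ • T = T) → T = 0)
    (hatp : ∀ A : ValuationSubring Qbar, A.LiesOverPrime P.p → Nat.card (asmT P) = P.p ^ 2 →
      ∀ N : Submodule (ZMod P.p) (asmT P), IsGaloisStable ℚ N → Nat.card N = P.p →
      (∃ (x y : Qbar) (h : (P.freyCurve⁄Qbar).Nonsingular x y),
          P.p • (Point.some x y h : (P.freyCurve⁄Qbar).Point) = 0 ∧ x ∈ A) →
      (∀ σ ∈ A.inertiaSubgroupIn ℚ, ∀ x ∈ N, σ • x = x) ∨
      (∀ σ ∈ A.inertiaSubgroupIn ℚ, ∀ x : asmT P, σ • x - x ∈ N))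
    (hred : ¬ GaloisRepIsIrreducible (K := AlgebraicClosure ℚ) ℚ P.freyCurve P.p) :
    HasGaloisStableCofixedLine (K := AlgebraicClosure ℚ) ℚ P.freyCurve P.p := by
  have : Fact P.p.Prime := ⟨P.pp⟩
  have hp5 := P.hp5
  -- `E[p]` is nontrivial
  have hnt : Nontrivial (asmT P) := by
    obtain ⟨T, hT0, hT⟩ := hex
    have hmem : T ∈ Submodule.torsionBy ℤ (P.freyCurve⁄Qbar).Point P.p := by
      rw [Submodule.mem_torsionBy_iff, natCast_zsmul]
      exact hT
    exact ⟨⟨⟨T, hmem⟩, 0, fun h => hT0 (congrArg Subtype.val h)⟩⟩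
  -- the torsion condition for elements of `E[p]`
  have htors : ∀ x : asmT P, P.p • (x : (P.freyCurve⁄Qbar).Point) = 0 := by
    intro x
    have h := x.2
    rw [Submodule.mem_torsionBy_iff, natCast_zsmul] at h
    exact h
  -- a nontrivial proper stable submodule
  obtain ⟨N, hN, hN0, hN1⟩ : ∃ N : Submodule (ZMod P.p) (asmT P),
      IsGaloisStable ℚ N ∧ N ≠ ⊥ ∧ N ≠ ⊤ := by
    by_contra hcon
    apply hred
    refine ⟨hnt, fun N hN => ?_⟩
    by_contra h
    push Not at h
    exact hcon ⟨N, hN, h.1, h.2⟩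
  -- dimensions and cardinalities
  have : Module.Finite (ZMod P.p) (asmT P) := Module.Finite.of_finite
  have hcardV : Nat.card (asmT P) = P.p ^ Module.finrank (ZMod P.p) (asmT P) := by
    rw [Module.natCard_eq_pow_finrank (K := ZMod P.p), Nat.card_zmod]
  have hcardN' : Nat.card N = P.p ^ Module.finrank (ZMod P.p) N := by
    rw [Module.natCard_eq_pow_finrank (K := ZMod P.p), Nat.card_zmod]
  have hdim : Module.finrank (ZMod P.p) (asmT P) ≤ 2 := by
    rw [hcardV] at hcard
    exact (Nat.pow_le_pow_iff_right P.pp.one_lt).mp hcard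
  have hNlt : Module.finrank (ZMod P.p) N < Module.finrank (ZMod P.p) (asmT P) :=
    Submodule.finrank_lt hN1
  have hNpos : 0 < Module.finrank (ZMod P.p) N := by
    by_contra h0
    exact hN0 (Submodule.finrank_eq_zero.mp (by omega))
  have hNcard : Nat.card N = P.p := by
    rw [hcardN', show Module.finrank (ZMod P.p) N = 1 by omega, pow_one]
  have hVcard : Nat.card (asmT P) = P.p ^ 2 := by
    rw [hcardV, show Module.finrank (ZMod P.p) (asmT P) = 2 by omega]
  -- the integrality of torsion points at a valuation subring over `2`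
  have hTI2 : ∀ A : ValuationSubring Qbar, A.LiesOverPrime 2 →
      ∀ (x y : Qbar) (h : (P.freyCurve⁄Qbar).Nonsingular x y),
        P.p • (Point.some x y h : (P.freyCurve⁄Qbar).Point) = 0 → x ∈ A := by
    intro A hA
    apply hTI A
    intro hpA
    have hodd : ¬ ((2 : ℕ) : ℤ) ∣ (P.p : ℤ) := by
      intro h
      have h' : 2 ∣ P.p := by exact_mod_cast h
      have := (Nat.prime_dvd_prime_iff_eq Nat.prime_two P.pp).mp h'
      omega
    have h1 := Fermat.Agent.S05.valuation_intCast_eq_one A Nat.prime_two hA hodd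
    rw [ValuationSubring.mem_nonunits_iff] at hpA
    rw [Int.cast_natCast] at h1
    rw [h1] at hpA
    exact lt_irrefl _ hpA
  -- inertia at `q ≠ p`
  have hq : ∀ q : ℕ, q.Prime → q ≠ P.p → ∀ A : ValuationSubring Qbar,
      A.LiesOverPrime q → ∀ σ ∈ A.inertiaSubgroupIn ℚ,
      (∀ x ∈ N, σ • x = x) ∧ (∀ x : asmT P, σ • x - x ∈ N) := by
    intro q hqprime hqp A hA σ hσ
    by_cases hq2 : q = 2
    · subst hq2
      have hf := asm_unipotent hdim N hN0 hN1 (asmLin P σ - LinearMap.id)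
        (fun x hx => N.sub_mem (hN σ x hx) hx) (fun x => by
          simp only [LinearMap.sub_apply, LinearMap.id_apply, asmLin_apply]
          have h := h2u A hA (hTI2 A hA) σ hσ x.1 (htors x)
          have h' : σ • (σ • x - x) = σ • x - x := Subtype.ext h
          rw [h', sub_self])
      exact ⟨fun x hx => sub_eq_zero.mp (hf.1 x hx), fun x => hf.2 x⟩
    · have hunr := Fermat.Agent.S05.result P hqprime hq2 hqp A hA σ hσ
      exact ⟨fun x _ => hunr x, fun x => by
        have hx : σ • x = x := hunr x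
        rw [hx, sub_self]
        exact N.zero_mem⟩
  -- inertia at `p`: the dichotomy for one valuation subring, transported by conjugacy
  obtain ⟨Ap, hAp⟩ := exists_valuationSubring_over P.p P.pp
  have hp : (∀ A : ValuationSubring Qbar, A.LiesOverPrime P.p →
        ∀ σ ∈ A.inertiaSubgroupIn ℚ, ∀ x ∈ N, σ • x = x) ∨
      (∀ A : ValuationSubring Qbar, A.LiesOverPrime P.p →
        ∀ σ ∈ A.inertiaSubgroupIn ℚ, ∀ x : asmT P, σ • x - x ∈ N) := by
    rcases hatp Ap hAp hVcard N hN hNcard (hDP5 Ap hAp hVcard N hN hNcard) with h | h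
    · left
      intro A hA σ hσ x hx
      obtain ⟨g, hg⟩ := asm_conj A Ap P.p P.pp hA hAp
      have h1 := h _ (hg σ hσ) (g • x) (hN g x hx)
      rw [mul_smul, mul_smul, inv_smul_smul] at h1
      exact smul_left_cancel g h1
    · right
      intro A hA σ hσ x
      obtain ⟨g, hg⟩ := asm_conj A Ap P.p P.pp hA hAp
      have h1 := h _ (hg σ hσ) (g • x)
      rw [mul_smul, mul_smul, inv_smul_smul, ← smul_sub] at h1
      have h2 := hN g⁻¹ _ h1
      rwa [inv_smul_smul] at h2
  -- the finite set of all coordinates of the points of `E[p]`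
  classical
  have := Fintype.ofFinite (asmT P)
  let S : Finset Qbar :=
    Finset.univ.biUnion (fun x : asmT P => asmCoords P x.1)
  have hS : ∀ σ : GQ, (∀ a ∈ S, σ a = a) → ∀ x : asmT P, σ • x = x := by
    intro σ hσ x
    apply Subtype.ext
    exact asm_smul_eq_of_fix P σ x.1
      (fun a ha => hσ a (Finset.mem_biUnion.mpr ⟨x, Finset.mem_univ _, ha⟩))
  rcases hp with hcase | hcase
  · -- the character on `N` is unramified everywhere, hence trivial: a rational point
    exfalso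
    have := asmKerN_normal P N hN
    have hall : ∀ σ : GQ, σ ∈ asmKerN P N :=
      asm_global (asmKerN P N) S (fun σ hσ x _ => hS σ hσ x)
        (fun q hqprime A hA σ hσ => by
          by_cases hqp : q = P.p
          · subst hqp
            exact hcase A hA σ hσ
          · exact (hq q hqprime hqp A hA σ hσ).1)
    obtain ⟨x, hxN, hx0⟩ := (Submodule.ne_bot_iff N).mp hN0
    obtain ⟨A2, hA2⟩ := exists_valuationSubring_over 2 Nat.prime_two
    apply hx0
    apply Subtype.ext
    exact h2r A2 hA2 (hTI2 A2 hA2) x.1 (htors x)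
      (fun σ => congrArg Subtype.val (hall σ x hxN))
  · -- the character on `E[p]/N` is unramified everywhere, hence trivial
    refine ⟨N, hN, hN0, hN1, ?_⟩
    have := asmKerQ_normal P N hN
    have hall : ∀ σ : GQ, σ ∈ asmKerQ P N hN :=
      asm_global (asmKerQ P N hN) S
        (fun σ hσ x => by
          rw [hS σ hσ x, sub_self]
          exact N.zero_mem)
        (fun q hqprime A hA σ hσ => by
          by_cases hqp : q = P.p
          · subst hqp
            exact hcase A hA σ hσ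
          · exact (hq q hqprime hqp A hA σ hσ).2)
    exact fun σ x => hall σ x

end Fermat.Agent.S13
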