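import Mathlib
import Fermat.Prelude.Def_FLTPrelim_FreyPackage
import Fermat.Prelude.Def_FLTPrelim_GaloisRep
import Fermat.Prelude.Def_FLTPrelim_Ramification
import Fermat.Agent.S05.Core
import Fermat.Agent.S05.Inertia
import Fermat.Agent.S05.VarChange

/-!
# S13: basic definitions and plumbing

* `E1 A W`: the kernel of reduction of `W⁄Qbar` with respect to a valuation subring `A`;
* `valuation_map_eq`: inertia elements preserve the valuation;
* `basic_model_hom`: the Galois-equivariant variable change from `y² + x y = x³ + a₂ x² + a₄ x`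
  to a model `y² = x³ + M x² + C x`.
-/

set_option autoImplicit false

open WeierstrassCurve WeierstrassCurve.Affine WeierstrassCurve.Affine.Point
open scoped Pointwise

namespace Fermat.Agent.S13

/-- The kernel of reduction of `W` (a curve over `ℚ`) with respect to a valuation subring of
`AlgebraicClosure ℚ`, in the coordinates of the model `W`: the points `0` and `(x, y)` with
`x ∉ A`. -/
def E1 (A : ValuationSubring (AlgebraicClosure ℚ)) (W : Affine ℚ) :
    Set (W⁄(AlgebraicClosure ℚ)).Point :=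
  {T | T = 0 ∨ ∃ (x y : AlgebraicClosure ℚ) (h : (W⁄(AlgebraicClosure ℚ)).Nonsingular x y),
    T = Point.some x y h ∧ 1 < A.valuation x}

/-- The model `y² = x³ + M x² + C x`. -/
def modelS (M C : ℚ) : Affine ℚ := ⟨0, M, 0, C, 0⟩

section valuation

variable (A : ValuationSubring (AlgebraicClosure ℚ))
  (σ : AlgebraicClosure ℚ ≃ₐ[ℚ] AlgebraicClosure ℚ)

/-- Elements of the inertia group map the valuation ring onto itself. -/
theorem basic_mem_iff (hσ : σ ∈ A.inertiaSubgroupIn ℚ) (a : AlgebraicClosure ℚ) :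
    σ a ∈ A ↔ a ∈ A := by
  obtain ⟨τ, -, rfl⟩ := hσ
  have h1 : (τ : AlgebraicClosure ℚ ≃ₐ[ℚ] AlgebraicClosure ℚ) • A = A := τ.2
  have h2 : (τ : AlgebraicClosure ℚ ≃ₐ[ℚ] AlgebraicClosure ℚ) • a ∈
      (τ : AlgebraicClosure ℚ ≃ₐ[ℚ] AlgebraicClosure ℚ) • A ↔ a ∈ A :=
    ValuationSubring.smul_mem_pointwise_smul_iff
  rw [h1] at h2
  exact h2

/-- Inertia elements move elements of the valuation ring by nonunits (valuation form). -/
theorem basic_inertia_sub_lt (hσ : σ ∈ A.inertiaSubgroupIn ℚ) (a : AlgebraicClosure ℚ)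
    (ha : A.valuation a ≤ 1) : A.valuation (σ a - a) < 1 := by
  have := Fermat.Agent.S05.inertia_sub_mem_nonunits A σ hσ a ((A.valuation_le_one_iff a).mp ha)
  exact (A.mem_nonunits_iff).mp this

theorem basic_le_iff (hσ : σ ∈ A.inertiaSubgroupIn ℚ) (a b : AlgebraicClosure ℚ) :
    A.valuation (σ a) ≤ A.valuation (σ b) ↔ A.valuation a ≤ A.valuation b := by
  by_cases hb : b = 0
  · subst hb
    simp
  · have hσb : σ b ≠ 0 := by simpa using hb
    rw [← Fermat.Agent.S05.v_div_le_one_iff A.valuation hb,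
      ← Fermat.Agent.S05.v_div_le_one_iff A.valuation hσb, ← map_div₀,
      A.valuation_le_one_iff, A.valuation_le_one_iff]
    exact basic_mem_iff A σ hσ (a / b)

theorem basic_pow_mem (hσ : σ ∈ A.inertiaSubgroupIn ℚ) (n : ℕ) :
    σ ^ n ∈ A.inertiaSubgroupIn ℚ := Subgroup.pow_mem _ hσ n

/-- Some positive power of an automorphism fixes a given algebraic number. -/
theorem basic_exists_pow_fix (a : AlgebraicClosure ℚ) :
    ∃ n : ℕ, 0 < n ∧ (σ ^ n) a = a := by
  have halg : IsAlgebraic ℚ a := (AlgebraicClosure.isAlgebraic ℚ).isAlgebraic a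
  have hint : IsIntegral ℚ a := halg.isIntegral
  have hne : minpoly ℚ a ≠ 0 := minpoly.ne_zero hint
  have hfin : ((minpoly ℚ a).rootSet (AlgebraicClosure ℚ)).Finite :=
    Polynomial.rootSet_finite _ _
  have hmem : ∀ k : ℕ, (σ ^ k) a ∈ (minpoly ℚ a).rootSet (AlgebraicClosure ℚ) := by
    intro k
    rw [Polynomial.mem_rootSet_of_ne hne]
    have : Polynomial.aeval ((σ ^ k) a) (minpoly ℚ a) = (σ ^ k) (Polynomial.aeval a (minpoly ℚ a)) :=
      Polynomial.aeval_algHom_apply ((σ ^ k : AlgebraicClosure ℚ ≃ₐ[ℚ] AlgebraicClosure ℚ) :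
        AlgebraicClosure ℚ →ₐ[ℚ] AlgebraicClosure ℚ) a (minpoly ℚ a)
    rw [this, minpoly.aeval, _root_.map_zero]
  have : Finite ((minpoly ℚ a).rootSet (AlgebraicClosure ℚ)) := hfin.to_subtype
  obtain ⟨i, j, hij, heq⟩ := Finite.exists_ne_map_eq_of_infinite
    (fun k : ℕ => (⟨(σ ^ k) a, hmem k⟩ : (minpoly ℚ a).rootSet (AlgebraicClosure ℚ)))
  have heq' : (σ ^ i) a = (σ ^ j) a := congrArg Subtype.val heq
  -- wlog i < j
  have key : ∀ i j : ℕ, i < j → (σ ^ i) a = (σ ^ j) a → ∃ n : ℕ, 0 < n ∧ (σ ^ n) a = a := by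
    intro i j hlt h
    refine ⟨j - i, Nat.sub_pos_of_lt hlt, ?_⟩
    have hj : j = i + (j - i) := by omega
    rw [hj, pow_add, AlgEquiv.mul_apply] at h
    exact ((σ ^ i).injective h).symm
  rcases lt_or_gt_of_ne hij with h | h
  · exact key i j h heq'
  · exact key j i h heq'.symm

/-- Inertia elements preserve the valuation. -/
theorem valuation_map_eq (hσ : σ ∈ A.inertiaSubgroupIn ℚ) (a : AlgebraicClosure ℚ) :
    A.valuation (σ a) = A.valuation a := by
  obtain ⟨n, hn, hfix⟩ := basic_exists_pow_fix σ a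
  -- monotone chains
  have hle : ∀ k : ℕ, A.valuation (σ a) ≤ A.valuation a →
      A.valuation ((σ ^ (k + 1)) a) ≤ A.valuation (σ a) := by
    intro k h
    induction k with
    | zero => simp
    | succ k ih =>
      have h1 : A.valuation (σ ((σ ^ (k + 1)) a)) ≤ A.valuation (σ (σ a)) :=
        (basic_le_iff A σ hσ _ _).mpr ih
      have h2 : A.valuation (σ (σ a)) ≤ A.valuation (σ a) := (basic_le_iff A σ hσ _ _).mpr h
      have h3 : (σ ^ (k + 1 + 1)) a = σ ((σ ^ (k + 1)) a) := by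
        rw [pow_succ' σ (k + 1), AlgEquiv.mul_apply]
      rw [h3]
      exact h1.trans h2
  have hge : ∀ k : ℕ, A.valuation a ≤ A.valuation (σ a) →
      A.valuation (σ a) ≤ A.valuation ((σ ^ (k + 1)) a) := by
    intro k h
    induction k with
    | zero => simp
    | succ k ih =>
      have h1 : A.valuation (σ (σ a)) ≤ A.valuation (σ ((σ ^ (k + 1)) a)) :=
        (basic_le_iff A σ hσ _ _).mpr ih
      have h2 : A.valuation (σ a) ≤ A.valuation (σ (σ a)) := (basic_le_iff A σ hσ _ _).mpr h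
      have h3 : (σ ^ (k + 1 + 1)) a = σ ((σ ^ (k + 1)) a) := by
        rw [pow_succ' σ (k + 1), AlgEquiv.mul_apply]
      rw [h3]
      exact h2.trans h1
  obtain ⟨m, rfl⟩ : ∃ m, n = m + 1 := ⟨n - 1, by omega⟩
  rcases le_total (A.valuation (σ a)) (A.valuation a) with h | h
  · have := hle m h
    rw [hfix] at this
    exact le_antisymm h this
  · have := hge m h
    rw [hfix] at this
    exact le_antisymm this h

end valuation

section transfer

/-- The Galois-equivariant variable change `(x, y) ↦ (x - e, y + x / 2)` from a model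
`W : y² + x y = x³ + a₂ x² + a₄ x` over `ℚ` to `modelS M C : y² = x³ + M x² + C x`, on
`AlgebraicClosure ℚ`-points. -/
theorem basic_model_hom (W : Affine ℚ) (ha₁ : W.a₁ = 1) (ha₃ : W.a₃ = 0) (ha₆ : W.a₆ = 0)
    (e M C : ℚ) (hM : M = W.a₂ + 1 / 4 + 3 * e)
    (hC : C = 3 * e ^ 2 + 2 * (W.a₂ + 1 / 4) * e + W.a₄)
    (he : e ^ 3 + (W.a₂ + 1 / 4) * e ^ 2 + W.a₄ * e = 0) (hC0 : C ≠ 0)
    (hD0 : M ^ 2 - 4 * C ≠ 0) :
    ∃ Φ : (W⁄(AlgebraicClosure ℚ)).Point →+ ((modelS M C)⁄(AlgebraicClosure ℚ)).Point,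
      (∀ T, Φ T = 0 → T = 0) ∧
      (∀ (x y : AlgebraicClosure ℚ) (h : (W⁄(AlgebraicClosure ℚ)).Nonsingular x y),
        ∃ h' : ((modelS M C)⁄(AlgebraicClosure ℚ)).Nonsingular
            (x - algebraMap ℚ (AlgebraicClosure ℚ) e) (y + x / 2),
          Φ (Point.some x y h) = Point.some (x - algebraMap ℚ (AlgebraicClosure ℚ) e)
            (y + x / 2) h') ∧
      (∀ (σ : AlgebraicClosure ℚ ≃ₐ[ℚ] AlgebraicClosure ℚ)
        (T : (W⁄(AlgebraicClosure ℚ)).Point), Φ (σ • T) = σ • Φ T) := by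
  have h₁ : ((modelS M C)⁄(AlgebraicClosure ℚ)).a₁ = 0 := _root_.map_zero _
  have h₃ : ((modelS M C)⁄(AlgebraicClosure ℚ)).a₃ = 0 := _root_.map_zero _
  have h₆ : ((modelS M C)⁄(AlgebraicClosure ℚ)).a₆ = 0 := _root_.map_zero _
  have hM₀ : ((modelS M C)⁄(AlgebraicClosure ℚ)).a₂ = algebraMap ℚ (AlgebraicClosure ℚ) M := rfl
  have hC₀ : ((modelS M C)⁄(AlgebraicClosure ℚ)).a₄ = algebraMap ℚ (AlgebraicClosure ℚ) C := rfl
  have hΔ : ((modelS M C)⁄(AlgebraicClosure ℚ)).Δ ≠ 0 := by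
    have : ((modelS M C)⁄(AlgebraicClosure ℚ)).Δ =
        16 * ((modelS M C)⁄(AlgebraicClosure ℚ)).a₄ ^ 2 *
        (((modelS M C)⁄(AlgebraicClosure ℚ)).a₂ ^ 2 -
          4 * ((modelS M C)⁄(AlgebraicClosure ℚ)).a₄) := by
      simp only [WeierstrassCurve.Δ, WeierstrassCurve.b₂, WeierstrassCurve.b₄,
        WeierstrassCurve.b₆, WeierstrassCurve.b₈, h₁, h₃, h₆]
      ring
    rw [this, hM₀, hC₀]
    have hC0' : algebraMap ℚ (AlgebraicClosure ℚ) C ≠ 0 := by simpa using hC0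
    have hD0' : algebraMap ℚ (AlgebraicClosure ℚ) M ^ 2 -
        4 * algebraMap ℚ (AlgebraicClosure ℚ) C ≠ 0 := by
      have h := (map_ne_zero (algebraMap ℚ (AlgebraicClosure ℚ))).mpr hD0
      simpa using h
    exact mul_ne_zero (mul_ne_zero (by norm_num) (pow_ne_zero _ hC0')) hD0'
  obtain ⟨Φ, hΦinj, hΦ⟩ := Fermat.Agent.S05.exists_varChange_hom (W⁄(AlgebraicClosure ℚ))
      ((modelS M C)⁄(AlgebraicClosure ℚ)) (algebraMap ℚ (AlgebraicClosure ℚ) e) two_ne_zero
      (by show algebraMap ℚ (AlgebraicClosure ℚ) W.a₁ = 1; rw [ha₁, map_one])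
      (by show algebraMap ℚ (AlgebraicClosure ℚ) W.a₃ = 0; rw [ha₃, _root_.map_zero])
      (by show algebraMap ℚ (AlgebraicClosure ℚ) W.a₆ = 0; rw [ha₆, _root_.map_zero])
      h₁ h₃ h₆
      (by
        show algebraMap ℚ (AlgebraicClosure ℚ) M =
          algebraMap ℚ (AlgebraicClosure ℚ) W.a₂ + 1 / 4 +
            3 * algebraMap ℚ (AlgebraicClosure ℚ) e
        rw [hM]; simp)
      (by
        show algebraMap ℚ (AlgebraicClosure ℚ) C =
          3 * algebraMap ℚ (AlgebraicClosure ℚ) e ^ 2 +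
            2 * (algebraMap ℚ (AlgebraicClosure ℚ) W.a₂ + 1 / 4) *
              algebraMap ℚ (AlgebraicClosure ℚ) e + algebraMap ℚ (AlgebraicClosure ℚ) W.a₄
        rw [hC]; simp)
      (by
        show algebraMap ℚ (AlgebraicClosure ℚ) e ^ 3 +
            (algebraMap ℚ (AlgebraicClosure ℚ) W.a₂ + 1 / 4) *
              algebraMap ℚ (AlgebraicClosure ℚ) e ^ 2 +
            algebraMap ℚ (AlgebraicClosure ℚ) W.a₄ * algebraMap ℚ (AlgebraicClosure ℚ) e = 0
        have := congrArg (algebraMap ℚ (AlgebraicClosure ℚ)) he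
        simpa using this)
      hΔ
  refine ⟨Φ, hΦinj, hΦ, ?_⟩
  intro σ S
  show Φ (Point.map (W' := W) σ.toAlgHom S) = Point.map (W' := modelS M C) σ.toAlgHom (Φ S)
  rcases Fermat.Agent.S05.point_cases S with rfl | ⟨x, y, h, rfl⟩
  · rw [Point.map_zero, _root_.map_zero, Point.map_zero]
  · obtain ⟨h', hh'⟩ := hΦ x y h
    rw [Point.map_some, hh', Point.map_some]
    obtain ⟨h'', hh''⟩ := hΦ _ _
      ((W.baseChange_nonsingular σ.toAlgHom.injective x y).mpr h)
    rw [hh'']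
    have hσ2 : σ (2 : AlgebraicClosure ℚ) = 2 := map_ofNat σ 2
    apply Fermat.Agent.S05.some_congr
    · simp
    · simp [hσ2]

end transfer

end Fermat.Agent.S13
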