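import Fermat.Agent.S13.AtPCore
import Fermat.Agent.S13.Basic
import Fermat.Agent.S05.Glue
import Fermat.Agent.S05.FreyData
import Fermat.Prelude.Def_FLTPrelim_Ramification

/-!
# The Frey curve at an odd prime `q` (in particular at `q = p`): kernel of reduction and inertia

For a valuation subring `A` of `ℚ̄` lying over an odd prime `q`, the kernel of reduction
`atpKer W A = {0} ∪ {(x, y) | x ∉ A}` of the Frey curve is a subgroup, and for `σ` in the inertia
group of `A` and `T` a point of order `p` we have `σ T - T ∈ atpKer W A` (also for `q = p`).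

Consequence (`atp_G2`): if `E[p]` has `p²` elements, not all of them in the kernel of reduction,
then for every line `N ⊆ E[p]` stable under inertia, the inertia group acts trivially on `N` or
on `E[p] / N`.
-/

set_option autoImplicit false

namespace Fermat.Agent.S13

open WeierstrassCurve WeierstrassCurve.Affine
open Fermat.Agent.S05

/-- The kernel of reduction of `W` (over `ℚ̄`) with respect to a valuation subring `A` of `ℚ̄`:
the point at infinity and the points whose `x`-coordinate is not in `A`. -/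
def atpKer (W : Affine ℚ) (A : ValuationSubring (AlgebraicClosure ℚ)) :
    Set (W⁄(AlgebraicClosure ℚ)).Point :=
  {T | T = 0 ∨ ∃ (x y : AlgebraicClosure ℚ) (h : (W⁄(AlgebraicClosure ℚ)).Nonsingular x y),
      T = Point.some x y h ∧ x ∉ A}

theorem atp_ker_zero (W : Affine ℚ) (A : ValuationSubring (AlgebraicClosure ℚ)) :
    (0 : (W⁄(AlgebraicClosure ℚ)).Point) ∈ atpKer W A := Or.inl rfl

theorem atp_ker_some (W : Affine ℚ) (A : ValuationSubring (AlgebraicClosure ℚ))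
    {x y : AlgebraicClosure ℚ} (h : (W⁄(AlgebraicClosure ℚ)).Nonsingular x y) :
    Point.some x y h ∈ atpKer W A ↔ x ∉ A := by
  constructor
  · rintro (h0 | ⟨x', y', h', he, hx⟩)
    · exact absurd h0 (Point.some_ne_zero h)
    · rw [Point.some.injEq] at he
      rw [he.1]; exact hx
  · intro hx
    exact Or.inr ⟨x, y, h, rfl, hx⟩

/-- Kernel of reduction and inertia for `W : y² + x y = x³ + a₂ x² + a₄ x` over `ℚ`, given
integral data for a model `y² = x³ + M x² + C x` obtained by `(x, y) ↦ (x - e, y + x / 2)`,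
at an odd prime `q` (the case `q = p` is allowed). -/
theorem atp_glue (W : Affine ℚ) (ha₁ : W.a₁ = 1) (ha₃ : W.a₃ = 0) (ha₆ : W.a₆ = 0)
    {q p : ℕ} (hq : q.Prime) (hq2 : q ≠ 2) (hp : p.Prime) (hpodd : Odd p)
    (e : ℚ) (m g d ε : ℤ) (hε : ε = 1 ∨ ε = -1) (hg0 : g ≠ 0) (hqd : ¬ (q : ℤ) ∣ d)
    (he : e ^ 3 + (W.a₂ + 1 / 4) * e ^ 2 + W.a₄ * e = 0)
    (hM : W.a₂ + 1 / 4 + 3 * e = (m : ℚ) / 4)
    (hC : 3 * e ^ 2 + 2 * (W.a₂ + 1 / 4) * e + W.a₄ = (ε : ℚ) * (g : ℚ) ^ p / 16)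
    (hdisc : ((m : ℚ) / 4) ^ 2 - 4 * ((ε : ℚ) * (g : ℚ) ^ p / 16) = ((d : ℚ) / 4) ^ 2)
    (A : ValuationSubring (AlgebraicClosure ℚ)) (hA : (q : AlgebraicClosure ℚ) ∈ A.nonunits) :
    (∀ T₁ T₂ : (W⁄(AlgebraicClosure ℚ)).Point, T₁ ∈ atpKer W A → T₂ ∈ atpKer W A →
        T₁ + T₂ ∈ atpKer W A) ∧
    (∀ T : (W⁄(AlgebraicClosure ℚ)).Point, T ∈ atpKer W A → -T ∈ atpKer W A) ∧
    (∀ σ : AlgebraicClosure ℚ ≃ₐ[ℚ] AlgebraicClosure ℚ, σ ∈ A.inertiaSubgroupIn ℚ →
      ∀ T : (W⁄(AlgebraicClosure ℚ)).Point, p • T = 0 →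
        Point.map (W' := W) σ.toAlgHom T - T ∈ atpKer W A) := by
  have hq2' : ¬ (q : ℤ) ∣ 2 := by
    intro h
    have h' : q ∣ 2 := by exact_mod_cast h
    exact hq2 ((Nat.prime_dvd_prime_iff_eq hq Nat.prime_two).mp h')
  have hv2 : A.valuation (2 : AlgebraicClosure ℚ) = 1 := by
    have := valuation_intCast_eq_one A hq hA hq2'
    simpa using this
  have hv4 : A.valuation (4 : AlgebraicClosure ℚ) = 1 := by
    have : (4 : AlgebraicClosure ℚ) = 2 * 2 := by norm_num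
    rw [this, map_mul, hv2, one_mul]
  have hv16 : A.valuation (16 : AlgebraicClosure ℚ) = 1 := by
    have : (16 : AlgebraicClosure ℚ) = 4 * 4 := by norm_num
    rw [this, map_mul, hv4, one_mul]
  let W₀ : Affine ℚ := ⟨0, (m : ℚ) / 4, 0, (ε : ℚ) * (g : ℚ) ^ p / 16, 0⟩
  have hM₀ : (W₀⁄(AlgebraicClosure ℚ)).a₂ = (m : AlgebraicClosure ℚ) / 4 := by
    show algebraMap ℚ (AlgebraicClosure ℚ) ((m : ℚ) / 4) = _
    simp
  have hC₀ : (W₀⁄(AlgebraicClosure ℚ)).a₄ =
      (ε : AlgebraicClosure ℚ) * (g : AlgebraicClosure ℚ) ^ p / 16 := by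
    show algebraMap ℚ (AlgebraicClosure ℚ) ((ε : ℚ) * (g : ℚ) ^ p / 16) = _
    simp
  have hD₀ : (W₀⁄(AlgebraicClosure ℚ)).a₂ ^ 2 - 4 * (W₀⁄(AlgebraicClosure ℚ)).a₄ =
      ((d : AlgebraicClosure ℚ) / 4) ^ 2 := by
    have := congrArg (algebraMap ℚ (AlgebraicClosure ℚ)) hdisc
    rw [hM₀, hC₀]
    simpa using this
  have h₁ : (W₀⁄(AlgebraicClosure ℚ)).a₁ = 0 := map_zero _
  have h₃ : (W₀⁄(AlgebraicClosure ℚ)).a₃ = 0 := map_zero _
  have h₆ : (W₀⁄(AlgebraicClosure ℚ)).a₆ = 0 := map_zero _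
  obtain ⟨hvM, hvC, hC0, hD0, hcase⟩ :=
    glue_case A hq hp.ne_zero hA hv4 hv16 m g d ε hε hg0 hqd _ _ hM₀ hC₀ hD₀
  have hΔ : (W₀⁄(AlgebraicClosure ℚ)).Δ ≠ 0 := by
    have : (W₀⁄(AlgebraicClosure ℚ)).Δ = 16 * (W₀⁄(AlgebraicClosure ℚ)).a₄ ^ 2 *
        ((W₀⁄(AlgebraicClosure ℚ)).a₂ ^ 2 - 4 * (W₀⁄(AlgebraicClosure ℚ)).a₄) := by
      simp only [WeierstrassCurve.Δ, WeierstrassCurve.b₂, WeierstrassCurve.b₄,
        WeierstrassCurve.b₆, WeierstrassCurve.b₈, h₁, h₃, h₆]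
      ring
    rw [this]
    exact mul_ne_zero (mul_ne_zero (by norm_num) (pow_ne_zero _ hC0)) hD0
  set e' : AlgebraicClosure ℚ := algebraMap ℚ (AlgebraicClosure ℚ) e with he'def
  have hMrel : (W₀⁄(AlgebraicClosure ℚ)).a₂ =
      algebraMap ℚ (AlgebraicClosure ℚ) W.a₂ + 1 / 4 + 3 * e' := by
    show algebraMap ℚ (AlgebraicClosure ℚ) ((m : ℚ) / 4) =
      algebraMap ℚ (AlgebraicClosure ℚ) W.a₂ + 1 / 4 + 3 * algebraMap ℚ (AlgebraicClosure ℚ) e
    rw [← hM]; simp
  have hCrel : (W₀⁄(AlgebraicClosure ℚ)).a₄ =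
      3 * e' ^ 2 + 2 * (algebraMap ℚ (AlgebraicClosure ℚ) W.a₂ + 1 / 4) * e' +
        algebraMap ℚ (AlgebraicClosure ℚ) W.a₄ := by
    show algebraMap ℚ (AlgebraicClosure ℚ) ((ε : ℚ) * (g : ℚ) ^ p / 16) =
      3 * algebraMap ℚ (AlgebraicClosure ℚ) e ^ 2 +
        2 * (algebraMap ℚ (AlgebraicClosure ℚ) W.a₂ + 1 / 4) *
          algebraMap ℚ (AlgebraicClosure ℚ) e + algebraMap ℚ (AlgebraicClosure ℚ) W.a₄
    rw [← hC]; simp
  have herel : e' ^ 3 + (algebraMap ℚ (AlgebraicClosure ℚ) W.a₂ + 1 / 4) * e' ^ 2 +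
      algebraMap ℚ (AlgebraicClosure ℚ) W.a₄ * e' = 0 := by
    have := congrArg (algebraMap ℚ (AlgebraicClosure ℚ)) he
    rw [he'def]
    simpa using this
  obtain ⟨Φ, hΦinj, hΦ⟩ := exists_varChange_hom (W⁄(AlgebraicClosure ℚ))
      (W₀⁄(AlgebraicClosure ℚ)) e' two_ne_zero
      (by show algebraMap ℚ (AlgebraicClosure ℚ) W.a₁ = 1; rw [ha₁, map_one])
      (by show algebraMap ℚ (AlgebraicClosure ℚ) W.a₃ = 0; rw [ha₃, map_zero])
      (by show algebraMap ℚ (AlgebraicClosure ℚ) W.a₆ = 0; rw [ha₆, map_zero])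
      h₁ h₃ h₆ hMrel hCrel herel hΔ
  -- `e'` is integral
  have hve : A.valuation e' ≤ 1 := by
    by_contra hc
    have hc : 1 < A.valuation e' := not_le.mp hc
    have he0 : e' ≠ 0 := by
      rintro h0; rw [h0, map_zero] at hc; exact absurd hc (not_lt.mpr zero_le)
    have hquad : e' ^ 2 = (W₀⁄(AlgebraicClosure ℚ)).a₂ * e' - (W₀⁄(AlgebraicClosure ℚ)).a₄ := by
      have h0 : e' * (e' ^ 2 - (W₀⁄(AlgebraicClosure ℚ)).a₂ * e' +
          (W₀⁄(AlgebraicClosure ℚ)).a₄) = 0 := by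
        rw [hMrel, hCrel]; linear_combination herel
      have := (mul_eq_zero.mp h0).resolve_left he0
      linear_combination this
    have h1 : A.valuation (e' ^ 2) = A.valuation e' * A.valuation e' := by
      rw [pow_two, map_mul]
    have h2 : A.valuation ((W₀⁄(AlgebraicClosure ℚ)).a₂ * e' - (W₀⁄(AlgebraicClosure ℚ)).a₄) ≤
        A.valuation e' := by
      apply (A.valuation).map_sub_le
      · rw [map_mul]
        calc A.valuation (W₀⁄(AlgebraicClosure ℚ)).a₂ * A.valuation e'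
            ≤ 1 * A.valuation e' := mul_le_mul' hvM le_rfl
          _ = A.valuation e' := one_mul _
      · exact hvC.trans hc.le
    rw [← hquad, h1] at h2
    have hpos : 0 < A.valuation e' := lt_trans zero_lt_one hc
    have h3 : A.valuation e' * 1 < A.valuation e' * A.valuation e' :=
      mul_lt_mul_of_pos_left hc hpos
    rw [mul_one] at h3
    exact absurd h2 (not_le.mpr h3)
  -- the kernels of reduction correspond
  have hker : ∀ T : (W⁄(AlgebraicClosure ℚ)).Point,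
      T ∈ atpKer W A ↔ Φ T ∈ atpE1 A.valuation (W₀⁄(AlgebraicClosure ℚ)) := by
    intro T
    rcases point_cases T with rfl | ⟨x, y, h, rfl⟩
    · rw [map_zero]
      exact ⟨fun _ => atp_E1_zero, fun _ => atp_ker_zero W A⟩
    · obtain ⟨h', hh'⟩ := hΦ x y h
      rw [hh', atp_E1_some, atp_ker_some, ← A.valuation_le_one_iff, not_le]
      constructor
      · intro hx
        rw [(A.valuation).map_sub_eq_of_lt_left (lt_of_le_of_lt hve hx)]
        exact hx
      · intro hx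
        by_contra hc
        have hc : A.valuation x ≤ 1 := not_lt.mp hc
        exact absurd hx (not_lt.mpr ((A.valuation).map_sub_le hc hve))
  refine ⟨?_, ?_, ?_⟩
  · intro T₁ T₂ hT₁ hT₂
    rw [hker] at hT₁ hT₂ ⊢
    rw [map_add]
    exact atp_E1_add h₁ h₃ h₆ hvM hvC hT₁ hT₂
  · intro T hT
    rw [hker] at hT ⊢
    rw [map_neg]
    exact atp_E1_neg hT
  · intro σ hσ T hT
    have hσint : ∀ a : AlgebraicClosure ℚ, A.valuation a ≤ 1 →
        A.valuation ((σ.toAlgHom : AlgebraicClosure ℚ →+* AlgebraicClosure ℚ) a - a) < 1 := by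
      intro a ha
      have := inertia_sub_mem_nonunits A σ hσ a ((A.valuation_le_one_iff a).mp ha)
      exact (A.mem_nonunits_iff).mp this
    have hcomm : ∀ S : (W⁄(AlgebraicClosure ℚ)).Point,
        Φ (Point.map (W' := W) σ.toAlgHom S) = Point.map (W' := W₀) σ.toAlgHom (Φ S) := by
      intro S
      rcases point_cases S with rfl | ⟨x, y, h, rfl⟩
      · rw [map_zero, map_zero, map_zero]
      · obtain ⟨h', hh'⟩ := hΦ x y h
        rw [Point.map_some, hh', Point.map_some]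
        obtain ⟨h'', hh''⟩ := hΦ _ _
          ((W.baseChange_nonsingular σ.toAlgHom.injective x y).mpr h)
        rw [hh'']
        have hσ2 : σ (2 : AlgebraicClosure ℚ) = 2 := map_ofNat σ 2
        apply some_congr
        · simp [he'def]
        · simp [hσ2]
    rw [hker, map_sub, hcomm]
    refine atp_diff_mem_E1 (v := A.valuation)
      (σ.toAlgHom : AlgebraicClosure ℚ →+* AlgebraicClosure ℚ)
      (Point.map (W' := W₀) σ.toAlgHom) h₁ h₃ h₆ hv2 hp hpodd hσint ?_ ?_ (Φ T)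
      (by rw [← map_nsmul, hT, map_zero])
    · intro x y h
      exact ⟨_, Point.map_some _ h⟩
    · rcases hcase with ⟨h1, h2⟩ | ⟨h1, h2, κ, hκ, hκC⟩
      · left; exact ⟨hvM, h1, h2⟩
      · right
        exact ⟨h1, h2, hC0, (g : AlgebraicClosure ℚ), κ, by simp, hκ, hκC⟩

/-- The Frey curve at an odd prime `q` (possibly `q = p`): the kernel of reduction is a
subgroup, and inertia moves `p`-torsion points by elements of the kernel of reduction. -/
theorem atp_frey (P : FreyPackage) {q : ℕ} (hq : q.Prime) (hq2 : q ≠ 2)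
    (A : ValuationSubring (AlgebraicClosure ℚ)) (hA : (q : AlgebraicClosure ℚ) ∈ A.nonunits) :
    (∀ T₁ T₂ : (P.freyCurve⁄(AlgebraicClosure ℚ)).Point, T₁ ∈ atpKer P.freyCurve A →
        T₂ ∈ atpKer P.freyCurve A → T₁ + T₂ ∈ atpKer P.freyCurve A) ∧
    (∀ T : (P.freyCurve⁄(AlgebraicClosure ℚ)).Point, T ∈ atpKer P.freyCurve A →
        -T ∈ atpKer P.freyCurve A) ∧
    (∀ σ : AlgebraicClosure ℚ ≃ₐ[ℚ] AlgebraicClosure ℚ, σ ∈ A.inertiaSubgroupIn ℚ →
      ∀ T : (P.freyCurve⁄(AlgebraicClosure ℚ)).Point, P.p • T = 0 →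
        Point.map (W' := P.freyCurve) σ.toAlgHom T - T ∈ atpKer P.freyCurve A) := by
  obtain ⟨e, m, g, d, ε, hε, hg0, -, hqd, he, hM, hC, hdisc⟩ := frey_local_data P hq
  exact atp_glue P.freyCurve rfl rfl rfl hq hq2 P.pp P.hp_odd e m g d ε hε hg0 hqd
    he hM hC hdisc A hA

open WeierstrassCurve.Affine.Point in
/-- The kernel of reduction inside `E[p]` as a `ZMod p`-submodule (`A` over an odd prime `q`). -/
noncomputable def atpF (P : FreyPackage) {q : ℕ} (hq : q.Prime) (hq2 : q ≠ 2)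
    (A : ValuationSubring (AlgebraicClosure ℚ)) (hA : (q : AlgebraicClosure ℚ) ∈ A.nonunits) :
    Submodule (ZMod P.p)
      (Submodule.torsionBy ℤ (P.freyCurve⁄(AlgebraicClosure ℚ)).Point P.p) :=
  AddSubgroup.toZModSubmodule P.p
    { carrier := {x | (x : (P.freyCurve⁄(AlgebraicClosure ℚ)).Point) ∈ atpKer P.freyCurve A}
      add_mem' := fun ha hb => (atp_frey P hq hq2 A hA).1 _ _ ha hb
      zero_mem' := atp_ker_zero _ _
      neg_mem' := fun ha => (atp_frey P hq hq2 A hA).2.1 _ ha }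

open WeierstrassCurve.Affine.Point in
theorem mem_atpF (P : FreyPackage) {q : ℕ} (hq : q.Prime) (hq2 : q ≠ 2)
    (A : ValuationSubring (AlgebraicClosure ℚ)) (hA : (q : AlgebraicClosure ℚ) ∈ A.nonunits)
    (x : Submodule.torsionBy ℤ (P.freyCurve⁄(AlgebraicClosure ℚ)).Point P.p) :
    x ∈ atpF P hq hq2 A hA ↔
      (x : (P.freyCurve⁄(AlgebraicClosure ℚ)).Point) ∈ atpKer P.freyCurve A := by
  rw [atpF, AddSubgroup.mem_toZModSubmodule]
  rfl

open WeierstrassCurve.Affine.Point in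
/-- Inertia at an odd prime `q` moves every point of `E[p]` by an element of the kernel of
reduction. -/
theorem atp_smul_sub_mem_atpF (P : FreyPackage) {q : ℕ} (hq : q.Prime) (hq2 : q ≠ 2)
    (A : ValuationSubring (AlgebraicClosure ℚ)) (hA : (q : AlgebraicClosure ℚ) ∈ A.nonunits)
    (σ : AlgebraicClosure ℚ ≃ₐ[ℚ] AlgebraicClosure ℚ) (hσ : σ ∈ A.inertiaSubgroupIn ℚ)
    (x : Submodule.torsionBy ℤ (P.freyCurve⁄(AlgebraicClosure ℚ)).Point P.p) :
    σ • x - x ∈ atpF P hq hq2 A hA := by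
  rw [mem_atpF]
  have hx := x.2
  rw [Submodule.mem_torsionBy_iff, natCast_zsmul] at hx
  exact (atp_frey P hq hq2 A hA).2.2 σ hσ x.1 hx

open WeierstrassCurve.Affine.Point in
/-- **(G2), local analysis at `p`.** Let `A` be a valuation subring of `ℚ̄` over `p`, and assume
that `E[p]` has `p²` elements, not all of them in the kernel of reduction at `A`. Let `N` be a
line in `E[p]` stable under the inertia group of `A`. Then either `N` is the kernel of reduction
in `E[p]` and inertia acts trivially on `E[p] / N`, or `N` meets the kernel of reduction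
trivially and inertia acts trivially on `N`. -/
theorem atp_G2 (P : FreyPackage)
    (A : ValuationSubring (AlgebraicClosure ℚ)) (hA : A.LiesOverPrime P.p)
    (hcard : Nat.card (Submodule.torsionBy ℤ (P.freyCurve⁄(AlgebraicClosure ℚ)).Point P.p) =
      P.p ^ 2)
    (N : Submodule (ZMod P.p)
      (Submodule.torsionBy ℤ (P.freyCurve⁄(AlgebraicClosure ℚ)).Point P.p))
    (hN0 : N ≠ ⊥) (hN1 : N ≠ ⊤)
    (hNs : ∀ σ ∈ A.inertiaSubgroupIn ℚ, ∀ x ∈ N, σ • x ∈ N)
    (hE3 : ∃ T : Submodule.torsionBy ℤ (P.freyCurve⁄(AlgebraicClosure ℚ)).Point P.p,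
      (T : (P.freyCurve⁄(AlgebraicClosure ℚ)).Point) ∉ atpKer P.freyCurve A) :
    ((∀ x ∈ N, (x : (P.freyCurve⁄(AlgebraicClosure ℚ)).Point) ∈ atpKer P.freyCurve A) ∧
      ∀ σ ∈ A.inertiaSubgroupIn ℚ,
        ∀ x : Submodule.torsionBy ℤ (P.freyCurve⁄(AlgebraicClosure ℚ)).Point P.p,
          σ • x - x ∈ N) ∨
    ((∀ x ∈ N, (x : (P.freyCurve⁄(AlgebraicClosure ℚ)).Point) ∈ atpKer P.freyCurve A → x = 0) ∧
      ∀ σ ∈ A.inertiaSubgroupIn ℚ, ∀ x ∈ N, σ • x = x) := by
  have : Fact P.p.Prime := ⟨P.pp⟩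
  have hq2 : P.p ≠ 2 := by have := P.hp5; omega
  have hA' : (P.p : AlgebraicClosure ℚ) ∈ A.nonunits := hA
  set F := atpF P P.pp hq2 A hA' with hF
  have hpp : 1 < P.p := P.pp.one_lt
  have hfin : Finite (Submodule.torsionBy ℤ (P.freyCurve⁄(AlgebraicClosure ℚ)).Point P.p) :=
    Nat.finite_of_card_ne_zero (by rw [hcard]; positivity)
  let _ : Fintype (Submodule.torsionBy ℤ (P.freyCurve⁄(AlgebraicClosure ℚ)).Point P.p) :=
    Fintype.ofFinite _
  have hmf : Module.Finite (ZMod P.p)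
      (Submodule.torsionBy ℤ (P.freyCurve⁄(AlgebraicClosure ℚ)).Point P.p) :=
    Module.Finite.of_finite
  have h2 : Module.finrank (ZMod P.p)
      (Submodule.torsionBy ℤ (P.freyCurve⁄(AlgebraicClosure ℚ)).Point P.p) = 2 := by
    have h1 : Fintype.card (Submodule.torsionBy ℤ (P.freyCurve⁄(AlgebraicClosure ℚ)).Point P.p)
        = Fintype.card (ZMod P.p) ^ Module.finrank (ZMod P.p)
          (Submodule.torsionBy ℤ (P.freyCurve⁄(AlgebraicClosure ℚ)).Point P.p) :=
      Module.card_eq_pow_finrank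
    rw [ZMod.card, ← Nat.card_eq_fintype_card, hcard] at h1
    exact (Nat.pow_right_injective hpp h1).symm
  have hNrank : Module.finrank (ZMod P.p) N = 1 := by
    have hlt : Module.finrank (ZMod P.p) N < 2 := h2 ▸ Submodule.finrank_lt hN1
    have hpos : Module.finrank (ZMod P.p) N ≠ 0 := fun h0 => hN0 (Submodule.finrank_eq_zero.mp h0)
    omega
  have hFtop : F ≠ ⊤ := by
    obtain ⟨T, hT⟩ := hE3
    intro htop
    have : T ∈ F := htop ▸ Submodule.mem_top
    rw [hF, mem_atpF] at this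
    exact hT this
  have hFrank : Module.finrank (ZMod P.p) F ≤ 1 := by
    have hlt : Module.finrank (ZMod P.p) F < 2 := h2 ▸ Submodule.finrank_lt hFtop
    omega
  by_cases hle : N ≤ F
  · left
    have hNF : N = F := Submodule.eq_of_le_of_finrank_le hle (by rw [hNrank]; exact hFrank)
    refine ⟨fun x hx => ?_, fun σ hσ x => ?_⟩
    · have : x ∈ F := hle hx
      rwa [hF, mem_atpF] at this
    · rw [hNF]
      exact atp_smul_sub_mem_atpF P P.pp hq2 A hA' σ hσ x
  · right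
    have hlt : N ⊓ F < N := lt_of_le_of_ne inf_le_left (fun h => hle (h ▸ inf_le_right))
    have hbot : N ⊓ F = ⊥ := by
      have := Submodule.finrank_lt_finrank_of_lt hlt
      rw [hNrank] at this
      exact Submodule.finrank_eq_zero.mp (by omega)
    refine ⟨fun x hx hxk => ?_, fun σ hσ x hx => ?_⟩
    · have hxF : x ∈ F := by rw [hF, mem_atpF]; exact hxk
      have : x ∈ N ⊓ F := ⟨hx, hxF⟩
      rw [hbot] at this
      exact (Submodule.mem_bot _).mp this
    · have h1 : σ • x - x ∈ N := N.sub_mem (hNs σ hσ x hx) hx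
      have h3 : σ • x - x ∈ N ⊓ F := ⟨h1, atp_smul_sub_mem_atpF P P.pp hq2 A hA' σ hσ x⟩
      rw [hbot] at h3
      exact sub_eq_zero.mp ((Submodule.mem_bot _).mp h3)

/-- The two descriptions of the kernel of reduction agree. -/
theorem atpKer_eq_E1 (W : Affine ℚ) (A : ValuationSubring (AlgebraicClosure ℚ)) :
    atpKer W A = E1 A W := by
  ext T
  simp only [atpKer, E1, Set.mem_ofPred_eq, ← A.valuation_le_one_iff, not_le]

open WeierstrassCurve.Affine.Point in
/-- (AtP.a) inertia at `p` moves `p`-torsion points by elements of the kernel of reduction. -/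
theorem inertia_p_sub_mem (P : FreyPackage) (A : ValuationSubring (AlgebraicClosure ℚ))
    (hA : (P.p : AlgebraicClosure ℚ) ∈ A.nonunits)
    (σ : AlgebraicClosure ℚ ≃ₐ[ℚ] AlgebraicClosure ℚ) (hσ : σ ∈ A.inertiaSubgroupIn ℚ)
    (T : (P.freyCurve⁄(AlgebraicClosure ℚ)).Point) (hT : P.p • T = 0) :
    σ • T - T ∈ E1 A P.freyCurve := by
  have hq2 : P.p ≠ 2 := by have := P.hp5; omega
  rw [← atpKer_eq_E1]
  exact (atp_frey P P.pp hq2 A hA).2.2 σ hσ T hT

/-- (AtP.b) the kernel of reduction at `p` is closed under subtraction. -/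
theorem E1_sub_mem (P : FreyPackage) (A : ValuationSubring (AlgebraicClosure ℚ))
    (hA : (P.p : AlgebraicClosure ℚ) ∈ A.nonunits)
    {S T : (P.freyCurve⁄(AlgebraicClosure ℚ)).Point}
    (hS : S ∈ E1 A P.freyCurve) (hT : T ∈ E1 A P.freyCurve) : S - T ∈ E1 A P.freyCurve := by
  have hq2 : P.p ≠ 2 := by have := P.hp5; omega
  rw [← atpKer_eq_E1] at hS hT ⊢
  rw [sub_eq_add_neg]
  exact (atp_frey P P.pp hq2 A hA).1 _ _ hS ((atp_frey P P.pp hq2 A hA).2.1 _ hT)

open WeierstrassCurve.Affine.Point in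
/-- **Inertia at `p`**, in the shape used by the assembly: for a Galois-stable line `N` in
`E[p]` (with `card E[p] = p²`) and a valuation subring `A` over `p` such that some nonzero
`p`-torsion point has `A`-integral `x`-coordinate, the inertia group of `A` acts trivially on `N`
or on `E[p] / N`. -/
theorem inertia_at_p' (P : FreyPackage)
    (A : ValuationSubring (AlgebraicClosure ℚ)) (hA : A.LiesOverPrime P.p)
    (hcard : Nat.card (Submodule.torsionBy ℤ (P.freyCurve⁄(AlgebraicClosure ℚ)).Point P.p) =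
      P.p ^ 2)
    (N : Submodule (ZMod P.p)
      (Submodule.torsionBy ℤ (P.freyCurve⁄(AlgebraicClosure ℚ)).Point P.p))
    (hN : IsGaloisStable ℚ N) (hNcard : Nat.card N = P.p)
    (hDP : ∃ (x y : AlgebraicClosure ℚ) (h : (P.freyCurve⁄(AlgebraicClosure ℚ)).Nonsingular x y),
      P.p • (Point.some x y h : (P.freyCurve⁄(AlgebraicClosure ℚ)).Point) = 0 ∧ x ∈ A) :
    (∀ σ ∈ A.inertiaSubgroupIn ℚ, ∀ x ∈ N, σ • x = x) ∨
    (∀ σ ∈ A.inertiaSubgroupIn ℚ,
      ∀ x : Submodule.torsionBy ℤ (P.freyCurve⁄(AlgebraicClosure ℚ)).Point P.p,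
        σ • x - x ∈ N) := by
  have hpp : 1 < P.p := P.pp.one_lt
  have hN0 : N ≠ ⊥ := by
    rintro rfl
    have h1 : Nat.card (⊥ : Submodule (ZMod P.p)
        (Submodule.torsionBy ℤ (P.freyCurve⁄(AlgebraicClosure ℚ)).Point P.p)) = 1 :=
      Nat.card_unique
    omega
  have hN1 : N ≠ ⊤ := by
    rintro rfl
    have h1 : Nat.card (⊤ : Submodule (ZMod P.p)
        (Submodule.torsionBy ℤ (P.freyCurve⁄(AlgebraicClosure ℚ)).Point P.p)) =
        Nat.card (Submodule.torsionBy ℤ (P.freyCurve⁄(AlgebraicClosure ℚ)).Point P.p) :=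
      Nat.card_congr (Equiv.Set.univ _)
    rw [hNcard, hcard] at h1
    have : P.p ^ 2 = P.p * P.p := pow_two _
    nlinarith
  have hE3 : ∃ T : Submodule.torsionBy ℤ (P.freyCurve⁄(AlgebraicClosure ℚ)).Point P.p,
      (T : (P.freyCurve⁄(AlgebraicClosure ℚ)).Point) ∉ atpKer P.freyCurve A := by
    obtain ⟨x, y, h, hT, hx⟩ := hDP
    refine ⟨⟨Point.some x y h, ?_⟩, ?_⟩
    · rw [Submodule.mem_torsionBy_iff, natCast_zsmul]; exact hT
    · show Point.some x y h ∉ atpKer P.freyCurve A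
      rw [atp_ker_some]
      exact fun hc => hc hx
  rcases atp_G2 P A hA hcard N hN0 hN1 (fun σ _ x hx => hN σ x hx) hE3 with ⟨-, h⟩ | ⟨-, h⟩
  · exact Or.inr h
  · exact Or.inl h

end Fermat.Agent.S13
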