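import Mathlib.Tactic

/-!
# An abstract sequence lemma

Given sequences `x v : ℕ → F` (thought of as `x j = x(jP)`, `v j = ψ₂(jP)` for a point `P` of an
elliptic curve all of whose multiples `jP`, `1 ≤ j ≤ L`, are non-zero) satisfying two families of
identities coming from the group law, the sequence `w` defined by
`w 0 = 0`, `w 1 = 1`, `w 2 = v 1`, `w (j+1) = -(x j - x 1) w j ^ 2 / w (j-1)`
satisfies the even/odd recursions of an elliptic divisibility sequence in the range `≤ L`.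
-/

set_option autoImplicit false

namespace Fermat.Agent.S13

variable {F : Type*} [Field F]

/-- The sequence `w` attached to `x : ℕ → F` and `v : F`. -/
noncomputable def dpW (x : ℕ → F) (v : F) : ℕ → F
  | 0 => 0
  | 1 => 1
  | 2 => v
  | (n + 3) => -(x (n + 2) - x 1) * dpW x v (n + 2) ^ 2 / dpW x v (n + 1)

@[simp] lemma dpW_zero (x : ℕ → F) (v : F) : dpW x v 0 = 0 := by rw [dpW]
@[simp] lemma dpW_one (x : ℕ → F) (v : F) : dpW x v 1 = 1 := by rw [dpW]
@[simp] lemma dpW_two (x : ℕ → F) (v : F) : dpW x v 2 = v := by rw [dpW]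
lemma dpW_add_three (x : ℕ → F) (v : F) (n : ℕ) :
    dpW x v (n + 3) = -(x (n + 2) - x 1) * dpW x v (n + 2) ^ 2 / dpW x v (n + 1) := by
  rw [dpW]

/-- The defining relation `w (n+2) w n = -(x (n+1) - x 1) w (n+1) ^ 2`. -/
lemma dpW_rel (x : ℕ → F) (v : F) (n : ℕ) (h : n = 0 ∨ dpW x v n ≠ 0) :
    dpW x v (n + 2) * dpW x v n = -(x (n + 1) - x 1) * dpW x v (n + 1) ^ 2 := by
  rcases n with _ | n
  · simp
  · rcases h with h | h
    · exact absurd h (Nat.succ_ne_zero n)
    · rw [show n + 1 + 2 = n + 3 from rfl, dpW_add_three, div_mul_cancel₀ _ h]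

section main

variable (x v : ℕ → F) (L : ℕ)
  (hx : ∀ a c, 1 ≤ c → c < a → a + c ≤ L → x a ≠ x c)
  (hv : ∀ j, 1 ≤ j → 2 * j ≤ L → v j ≠ 0)
  (hA : ∀ a c, 1 ≤ c → c < a → a + c ≤ L →
    (x a - x c) ^ 2 * (x (a + c) - x (a - c)) = -(v a * v c))
  (hG : ∀ j, 2 ≤ j → 2 * j ≤ L →
    (x (j + 1) - x j) * (x (j - 1) - x j) * (x j - x 1) ^ 2 = v j ^ 2 * (x (2 * j) - x 1))

include hx hv in
/-- Non-vanishing of `w` in the range. -/
lemma dpW_ne_zero : ∀ j, 1 ≤ j → j ≤ L → dpW x (v 1) j ≠ 0 := by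
  intro j
  induction j using Nat.strong_induction_on with
  | _ j ih =>
    intro h1 hL
    rcases j with _ | _ | _ | n
    · omega
    · simp
    · simpa using hv 1 le_rfl (by omega)
    · rw [dpW_add_three]
      have h1 : x (n + 2) - x 1 ≠ 0 := sub_ne_zero.mpr (hx (n + 2) 1 le_rfl (by omega) (by omega))
      have h2 := ih (n + 2) (by omega) (by omega) (by omega)
      have h3 := ih (n + 1) (by omega) (by omega) (by omega)
      exact div_ne_zero (mul_ne_zero (neg_ne_zero.mpr h1) (pow_ne_zero 2 h2)) h3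

include hx hv in
/-- The defining relation in the range. -/
lemma dpW_rel' (n : ℕ) (hn : n ≤ L) :
    dpW x (v 1) (n + 2) * dpW x (v 1) n = -(x (n + 1) - x 1) * dpW x (v 1) (n + 1) ^ 2 := by
  apply dpW_rel
  rcases Nat.eq_zero_or_pos n with h | h
  · exact Or.inl h
  · exact Or.inr (dpW_ne_zero x v L hx hv n h hn)

include hx hv hA hG in
/-- The two key relations, by induction. -/
lemma dpW_main : ∀ j, 1 ≤ j →
    (2 * j ≤ L → v j * dpW x (v 1) j ^ 4 = dpW x (v 1) (2 * j)) ∧
    (2 * j + 1 ≤ L →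
      (x (j + 1) - x j) * dpW x (v 1) (j + 1) ^ 2 * dpW x (v 1) j ^ 2
        = -dpW x (v 1) (2 * j + 1)) := by
  intro j hj
  induction j, hj using Nat.le_induction with
  | base =>
    refine ⟨fun _ => by simp, fun h3 => ?_⟩
    have : dpW x (v 1) 3 = -(x 2 - x 1) * dpW x (v 1) 2 ^ 2 / dpW x (v 1) 1 := dpW_add_three x (v 1) 0
    simp only [dpW_one, dpW_two, div_one] at this
    simp only [dpW_one, dpW_two, show 2 * 1 + 1 = 3 from rfl, show 1 + 1 = 2 from rfl, this]
    ring
  | succ j hj ih =>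
    obtain ⟨ihR, ihG⟩ := ih
    have hR : 2 * (j + 1) ≤ L → v (j + 1) * dpW x (v 1) (j + 1) ^ 4 = dpW x (v 1) (2 * (j + 1)) := by
      intro h2
      have e1 := hA (j + 1) j hj (by omega) (by omega)
      rw [show j + 1 + j = 2 * j + 1 by ring, show j + 1 - j = 1 by omega] at e1
      have e2 := ihG (by omega)
      have e3 := ihR (by omega)
      have e4 := dpW_rel' x v L hx hv (2 * j) (by omega)
      have hne := dpW_ne_zero x v L hx hv (2 * j) (by omega) (by omega)
      rw [show 2 * (j + 1) = 2 * j + 2 by ring]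
      apply mul_right_cancel₀ hne
      linear_combination (-(v (j + 1)) * dpW x (v 1) (j + 1) ^ 4) * e3
        + (dpW x (v 1) (j + 1) ^ 4 * dpW x (v 1) j ^ 4) * e1
        - (x (2 * j + 1) - x 1) * ((x (j + 1) - x j) * dpW x (v 1) (j + 1) ^ 2 * dpW x (v 1) j ^ 2
            - dpW x (v 1) (2 * j + 1)) * e2
        - e4
    refine ⟨hR, fun h3 => ?_⟩
    have e1 := hG (j + 1) (by omega) (by omega)
    rw [show j + 1 - 1 = j by omega, show j + 1 + 1 = j + 2 by ring,
      show 2 * (j + 1) = 2 * j + 2 by ring] at e1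
    have e2 := ihG (by omega)
    have e3 := hR (by omega)
    rw [show 2 * (j + 1) = 2 * j + 2 by ring] at e3
    have e4 := dpW_rel' x v L hx hv (2 * j + 1) (by omega)
    rw [show 2 * j + 1 + 2 = 2 * j + 3 by ring, show 2 * j + 1 + 1 = 2 * j + 2 by ring] at e4
    have e5 := dpW_rel' x v L hx hv j (by omega)
    have hne := dpW_ne_zero x v L hx hv (2 * j + 1) (by omega) (by omega)
    rw [show 2 * (j + 1) + 1 = 2 * j + 3 by ring, show j + 1 + 1 = j + 2 by ring]
    apply mul_right_cancel₀ hne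
    linear_combination
      ((x (j + 2) - x (j + 1)) * dpW x (v 1) (j + 2) ^ 2 * dpW x (v 1) (j + 1) ^ 2) * e2
      - ((x (j + 2) - x (j + 1)) * (x (j + 1) - x j) * dpW x (v 1) (j + 1) ^ 4
          * (dpW x (v 1) (j + 2) * dpW x (v 1) j - (x (j + 1) - x 1) * dpW x (v 1) (j + 1) ^ 2)) * e5
      + (dpW x (v 1) (j + 1) ^ 8) * e1
      + ((v (j + 1) * dpW x (v 1) (j + 1) ^ 4 + dpW x (v 1) (2 * j + 2)) * (x (2 * j + 2) - x 1)) * e3
      + e4

include hx hv in
/-- Odd combination in terms of `x` (purely from the defining relations). -/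
lemma dpW_odd_aux (i : ℕ) (hi : i + 1 ≤ L) :
    dpW x (v 1) (i + 3) * dpW x (v 1) (i + 1) ^ 3 - dpW x (v 1) i * dpW x (v 1) (i + 2) ^ 3
      = -(x (i + 2) - x (i + 1)) * dpW x (v 1) (i + 1) ^ 2 * dpW x (v 1) (i + 2) ^ 2 := by
  have e1 := dpW_rel' x v L hx hv (i + 1) hi
  have e2 := dpW_rel' x v L hx hv i (by omega)
  rw [show i + 1 + 2 = i + 3 by ring, show i + 1 + 1 = i + 2 by ring] at e1
  linear_combination (dpW x (v 1) (i + 1) ^ 2) * e1 - (dpW x (v 1) (i + 2) ^ 2) * e2

include hx hv in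
/-- Even combination in terms of `x` (purely from the defining relations). -/
lemma dpW_even_aux (i : ℕ) (hi : i + 2 ≤ L) :
    dpW x (v 1) (i + 2) * (dpW x (v 1) (i + 4) * dpW x (v 1) (i + 1) ^ 2
        - dpW x (v 1) i * dpW x (v 1) (i + 3) ^ 2)
      = -(x (i + 3) - x (i + 1)) * dpW x (v 1) (i + 3) ^ 2 * dpW x (v 1) (i + 1) ^ 2 := by
  have e1 := dpW_rel' x v L hx hv (i + 2) hi
  have e2 := dpW_rel' x v L hx hv i (by omega)
  rw [show i + 2 + 2 = i + 4 by ring, show i + 2 + 1 = i + 3 by ring] at e1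
  linear_combination (dpW x (v 1) (i + 1) ^ 2) * e1 - (dpW x (v 1) (i + 3) ^ 2) * e2

include hx hv hA hG in
/-- The odd recursion in the range. -/
lemma dpW_odd (i : ℕ) (hi : 2 * (i + 1) + 1 ≤ L) :
    dpW x (v 1) (2 * (i + 1) + 1)
      = dpW x (v 1) (i + 3) * dpW x (v 1) (i + 1) ^ 3 - dpW x (v 1) i * dpW x (v 1) (i + 2) ^ 3 := by
  have e1 := (dpW_main x v L hx hv hA hG (i + 1) (by omega)).2 hi
  have e2 := dpW_odd_aux x v L hx hv i (by omega)
  rw [show i + 1 + 1 = i + 2 by ring] at e1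
  linear_combination e1 - e2

include hx hv hA hG in
/-- The even recursion in the range. -/
lemma dpW_even (i : ℕ) (hi : 2 * (i + 2) ≤ L) :
    dpW x (v 1) (2 * (i + 2)) * dpW x (v 1) 2
      = dpW x (v 1) (i + 2) * (dpW x (v 1) (i + 4) * dpW x (v 1) (i + 1) ^ 2
        - dpW x (v 1) i * dpW x (v 1) (i + 3) ^ 2) := by
  have e1 := (dpW_main x v L hx hv hA hG (i + 2) (by omega)).1 hi
  have e2 := dpW_even_aux x v L hx hv i (by omega)
  have e3 := hA (i + 2) 1 le_rfl (by omega) (by omega)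
  rw [show i + 2 + 1 = i + 3 by ring, show i + 2 - 1 = i + 1 by omega] at e3
  have e4 := dpW_rel' x v L hx hv (i + 1) (by omega)
  rw [show i + 1 + 2 = i + 3 by ring, show i + 1 + 1 = i + 2 by ring] at e4
  rw [dpW_two]
  -- `(w (i+3) w (i+1))² = (x (i+2) - x 1)² w (i+2)⁴`
  linear_combination (-(v 1)) * e1 - e2 + (dpW x (v 1) (i + 2) ^ 4) * e3
    - (x (i + 3) - x (i + 1)) * ((x (i + 2) - x 1) * dpW x (v 1) (i + 2) ^ 2
        - dpW x (v 1) (i + 3) * dpW x (v 1) (i + 1)) * e4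

section ident

variable (a : ℕ → F)
  (hodd : ∀ i : ℕ, a (2 * (i + 1) + 1) = a (i + 3) * a (i + 1) ^ 3 - a i * a (i + 2) ^ 3)
  (heven : ∀ i : ℕ, a (2 * (i + 2)) * a 2
    = a (i + 1) ^ 2 * a (i + 2) * a (i + 4) - a i * a (i + 2) * a (i + 3) ^ 2)
  (h0 : a 0 = 0) (h1 : a 1 = 1) (h2 : a 2 = v 1)
  (h3 : 3 ≤ L → a 3 = dpW x (v 1) 3) (h4 : 4 ≤ L → a 4 = dpW x (v 1) 4)

include hx hv hA hG hodd heven h0 h1 h2 h3 h4 in
/-- A sequence satisfying the even/odd recursions with the right initial values agrees with `w`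
in the range. -/
lemma dpW_eq : ∀ n, n ≤ L → a n = dpW x (v 1) n := by
  intro n
  induction n using Nat.strong_induction_on with
  | _ n ih =>
    intro hn
    rcases n with _ | _ | _ | _ | _ | n
    · simpa using h0
    · simpa using h1
    · simpa using h2
    · exact h3 hn
    · exact h4 hn
    · rcases Nat.even_or_odd' n with ⟨i, hi | hi⟩
      · -- `n + 5 = 2 * (i + 1) + 1 + 2`, i.e. odd index `2 * (i + 2) + 1`
        have e : n + 5 = 2 * ((i + 1) + 1) + 1 := by omega
        rw [e] at hn ⊢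
        rw [hodd (i + 1), dpW_odd x v L hx hv hA hG (i + 1) hn,
          ih (i + 1 + 3) (by omega) (by omega), ih (i + 1 + 1) (by omega) (by omega),
          ih (i + 1) (by omega) (by omega), ih (i + 1 + 2) (by omega) (by omega)]
      · -- even index `2 * (i + 3)`
        have e : n + 5 = 2 * ((i + 1) + 2) := by omega
        rw [e] at hn ⊢
        have hv1 : a 2 ≠ 0 := by rw [h2]; exact hv 1 le_rfl (by omega)
        apply mul_right_cancel₀ hv1
        rw [heven (i + 1), ih (i + 1 + 1) (by omega) (by omega),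
          ih (i + 1 + 2) (by omega) (by omega), ih (i + 1 + 4) (by omega) (by omega),
          ih (i + 1) (by omega) (by omega), ih (i + 1 + 3) (by omega) (by omega), h2]
        have := dpW_even x v L hx hv hA hG (i + 1) hn
        rw [dpW_two] at this
        rw [this]
        ring

include hx hv hA hG hodd heven h0 h1 h2 h3 h4 in
/-- Order detection, odd case: if `L = 2 j` and `x (j+1) = x j` then `a (2 j + 1) = 0`. -/
lemma dpW_order_odd (i : ℕ) (hL : L = 2 * (i + 2)) (hxx : x (i + 3) = x (i + 2)) :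
    a (2 * (i + 2) + 1) = 0 := by
  have E := dpW_eq x v L hx hv hA hG a hodd heven h0 h1 h2 h3 h4
  rw [hodd (i + 1), E (i + 1 + 3) (by omega), E (i + 1 + 1) (by omega), E (i + 1) (by omega),
    E (i + 1 + 2) (by omega), dpW_odd_aux x v L hx hv (i + 1) (by omega),
    show i + 1 + 2 = i + 3 by ring, show i + 1 + 1 = i + 2 by ring, hxx]
  ring

include hx hv hA hG hodd heven h0 h1 h2 h3 h4 in
/-- Order detection, even case: if `L + 1 = 2 j`, `j ≥ 3`, and `x (j+1) = x (j-1)` then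
`a (2 j) = 0`. -/
lemma dpW_order_even (i : ℕ) (hL : L + 1 = 2 * (i + 3)) (hxx : x (i + 4) = x (i + 2)) :
    a (2 * (i + 3)) = 0 := by
  have E := dpW_eq x v L hx hv hA hG a hodd heven h0 h1 h2 h3 h4
  have hv1 : a 2 ≠ 0 := by rw [h2]; exact hv 1 le_rfl (by omega)
  have key : a (2 * (i + 3)) * a 2 = 0 := by
    rw [show i + 3 = i + 1 + 2 by ring, heven (i + 1), E (i + 1 + 1) (by omega),
      E (i + 1 + 2) (by omega), E (i + 1 + 4) (by omega), E (i + 1) (by omega),
      E (i + 1 + 3) (by omega)]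
    have := dpW_even_aux x v L hx hv (i + 1) (by omega)
    rw [show i + 1 + 3 = i + 4 by ring, show i + 1 + 1 = i + 2 by ring, hxx] at this
    rw [show i + 1 + 3 = i + 4 by ring, show i + 1 + 1 = i + 2 by ring]
    linear_combination this
  exact (mul_eq_zero.mp key).resolve_right hv1

include hx hv hA hG hodd heven h0 h1 h2 h3 h4 in
/-- The generic formula for `x (m+1)` in terms of `a`. -/
lemma dpW_gen (m : ℕ) (hm : m + 2 ≤ L) :
    a (m + 1) ≠ 0 ∧ x (m + 1) * a (m + 1) ^ 2 = x 1 * a (m + 1) ^ 2 - a (m + 2) * a m := by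
  have E := dpW_eq x v L hx hv hA hG a hodd heven h0 h1 h2 h3 h4
  rw [E (m + 1) (by omega), E (m + 2) (by omega), E m (by omega)]
  refine ⟨dpW_ne_zero x v L hx hv (m + 1) (by omega) (by omega), ?_⟩
  have := dpW_rel' x v L hx hv m (by omega)
  linear_combination this

end ident

end main

end Fermat.Agent.S13
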