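import Fermat.Agent.S13.DivPolyId
import Fermat.Agent.S13.DivPolySeq

/-!
# Division polynomials at a point of an elliptic curve

For an affine point `P = (x, y)` whose multiples `jP`, `1 ≤ j ≤ L`, are all non-zero, the values
`Ψ_n(P)` for `n ≤ L` are given by the sequence `dpW` attached to `x(jP)` and `ψ₂(jP)`.
Consequences: `Ψ_d(P) = 0` when `d` is the exact order of `P`, and the generic formula
`x(nP) Ψ_n(P)² = x Ψ_n(P)² - Ψ_{n+1}(P) Ψ_{n-1}(P)`.
-/

set_option autoImplicit false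

namespace Fermat.Agent.S13

open WeierstrassCurve WeierstrassCurve.Affine Polynomial

variable {F : Type*} [Field F] [DecidableEq F] {W : Affine F}

/-- The `x`-coordinate of a point (`0` at infinity). -/
def dpX : W.Point → F
  | .zero => 0
  | .some x _ _ => x

/-- The value of `ψ₂` at a point (`0` at infinity). -/
def dpV : W.Point → F
  | .zero => 0
  | .some x y _ => y - W.negY x y

omit [DecidableEq F] in
@[simp] lemma dpX_some {x y : F} (h : W.Nonsingular x y) : dpX (Point.some x y h) = x := rfl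

omit [DecidableEq F] in
@[simp] lemma dpV_some {x y : F} (h : W.Nonsingular x y) :
    dpV (Point.some x y h) = y - W.negY x y := rfl

omit [DecidableEq F] in
lemma dp_pt_cases (A : W.Point) (hA : A ≠ 0) :
    ∃ (x y : F) (h : W.Nonsingular x y), A = Point.some x y h := by
  rcases A with _ | ⟨x, y, h⟩
  · exact absurd rfl hA
  · exact ⟨x, y, h, rfl⟩

omit [DecidableEq F] in
lemma dpX_ne {A C : W.Point} (hA : A ≠ 0) (hC : C ≠ 0) (h1 : A ≠ C) (h2 : A ≠ -C) :
    dpX A ≠ dpX C := by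
  obtain ⟨x₁, y₁, h₁, rfl⟩ := dp_pt_cases A hA
  obtain ⟨x₂, y₂, h₂, rfl⟩ := dp_pt_cases C hC
  intro h
  rcases (Point.X_eq_iff (h₁ := h₁) (h₂ := h₂)).mp h with h | h
  · exact h1 h
  · exact h2 h

omit [DecidableEq F] in
lemma dpX_neg (C : W.Point) : dpX (-C) = dpX C := by
  rcases C with _ | ⟨x, y, h⟩
  · rfl
  · rfl

lemma dpV_ne {A : W.Point} (hA : A ≠ 0) (h : A + A ≠ 0) : dpV A ≠ 0 := by
  obtain ⟨x, y, hxy, rfl⟩ := dp_pt_cases A hA
  intro h0
  exact h (Point.add_self_of_Y_eq (sub_eq_zero.mp h0))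

lemma dpV_eq_zero {A : W.Point} (h : A + A = 0) : dpV A = 0 := by
  rcases A with _ | ⟨x, y, hxy⟩
  · rfl
  · by_contra h0
    have hy : y ≠ W.negY x y := fun e => h0 (sub_eq_zero.mpr e)
    rw [Point.add_self_of_Y_ne hy] at h
    exact Point.some_ne_zero _ h

lemma dp_pt_A {A C : W.Point} (hA : A ≠ 0) (hC : C ≠ 0) (h1 : A ≠ C) (h2 : A ≠ -C) :
    (dpX A - dpX C) ^ 2 * (dpX (A + C) - dpX (A - C)) = -(dpV A * dpV C) := by
  have hne := dpX_ne hA hC h1 h2
  obtain ⟨x₁, y₁, h₁, rfl⟩ := dp_pt_cases A hA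
  obtain ⟨x₂, y₂, h₂, rfl⟩ := dp_pt_cases C hC
  simp only [dpX_some] at hne
  rw [sub_eq_add_neg (Point.some x₁ y₁ h₁), Point.neg_some, Point.add_of_X_ne hne,
    Point.add_of_X_ne hne]
  simp only [dpX_some, dpV_some]
  exact dp_id_A W hne

lemma dp_pt_G {A C : W.Point} (hA : A ≠ 0) (hC : C ≠ 0) (h1 : A ≠ C) (h2 : A ≠ -C)
    (h3 : A + A ≠ 0) :
    (dpX (A + C) - dpX A) * (dpX (A - C) - dpX A) * (dpX A - dpX C) ^ 2
      = dpV A ^ 2 * (dpX (A + A) - dpX C) := by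
  have hne := dpX_ne hA hC h1 h2
  have hV := dpV_ne hA h3
  obtain ⟨x₁, y₁, h₁, rfl⟩ := dp_pt_cases A hA
  obtain ⟨x₂, y₂, h₂, rfl⟩ := dp_pt_cases C hC
  simp only [dpX_some] at hne
  simp only [dpV_some] at hV
  have hy : y₁ ≠ W.negY x₁ y₁ := fun e => hV (sub_eq_zero.mpr e)
  rw [sub_eq_add_neg (Point.some x₁ y₁ h₁), Point.neg_some, Point.add_of_X_ne hne,
    Point.add_of_X_ne hne, Point.add_self_of_Y_ne hy]
  simp only [dpX_some, dpV_some]
  rw [dp_id_G W h₁.1 h₂.1 hne]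
  have e1 := dp_id_D W h₁.1 hy
  have e2 := dp_id_V W h₁.1
  linear_combination -e1 + x₂ * e2

lemma dp_pt_D {A : W.Point} (hA : A ≠ 0) (h : A + A ≠ 0) :
    (dpX (A + A) - dpX A) * dpV A ^ 2 = -(W.Ψ₃.eval (dpX A)) := by
  have hV := dpV_ne hA h
  obtain ⟨x, y, hxy, rfl⟩ := dp_pt_cases A hA
  simp only [dpV_some] at hV
  have hy : y ≠ W.negY x y := fun e => hV (sub_eq_zero.mpr e)
  rw [Point.add_self_of_Y_ne hy]
  simp only [dpX_some, dpV_some]
  have e1 := dp_id_D W hxy.1 hy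
  have e2 := dp_id_V W hxy.1
  simp only [Ψ₃, eval_add, eval_mul, eval_pow, eval_X, eval_C, eval_ofNat]
  linear_combination e1 - x * e2

lemma dp_pt_P {A : W.Point} (hA : A ≠ 0) (h : A + A ≠ 0) :
    dpV (A + A) * dpV A ^ 3 = W.preΨ₄.eval (dpX A) := by
  have hV := dpV_ne hA h
  obtain ⟨x, y, hxy, rfl⟩ := dp_pt_cases A hA
  simp only [dpV_some] at hV
  have hy : y ≠ W.negY x y := fun e => hV (sub_eq_zero.mpr e)
  rw [Point.add_self_of_Y_ne hy]
  simp only [dpX_some, dpV_some]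
  rw [dp_id_P W hxy.1 hy]
  simp only [preΨ₄, eval_add, eval_mul, eval_pow, eval_X, eval_C, eval_ofNat]

/-! ### The sequences attached to the multiples of a point -/

/-- `x(jP)`. -/
def dpXs (P : W.Point) (j : ℕ) : F := dpX (j • P)

/-- `ψ₂(jP)`. -/
def dpVs (P : W.Point) (j : ℕ) : F := dpV (j • P)

/-- `Ψ_n(x, y)`. -/
noncomputable def dpA (W : Affine F) (x y : F) (n : ℕ) : F := (W.Ψ (n : ℤ)).evalEval x y

section seq

variable (P : W.Point) (L : ℕ) (hne : ∀ j, 1 ≤ j → j ≤ L → j • P ≠ 0)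

include hne in
lemma dpPt_ne_add {a c : ℕ} (hc : 1 ≤ c) (hac : a + c ≤ L) : a • P ≠ -(c • P) := by
  intro e
  have : (a + c) • P = 0 := by rw [add_nsmul, e, neg_add_cancel]
  exact hne (a + c) (by omega) hac this

include hne in
lemma dpPt_ne_sub {a c : ℕ} (hc : c < a) (hac : a ≤ L) : a • P ≠ c • P := by
  intro e
  have : (a - c) • P = 0 := by rw [sub_nsmul P hc.le, e, add_neg_cancel]
  exact hne (a - c) (by omega) (by omega) this

include hne in
lemma dpPt_hx : ∀ a c, 1 ≤ c → c < a → a + c ≤ L → dpXs P a ≠ dpXs P c := by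
  intro a c hc hca hL
  exact dpX_ne (hne a (by omega) (by omega)) (hne c hc (by omega))
    (dpPt_ne_sub P L hne hca (by omega)) (dpPt_ne_add P L hne hc hL)

include hne in
lemma dpPt_hv : ∀ j, 1 ≤ j → 2 * j ≤ L → dpVs P j ≠ 0 := by
  intro j hj hL
  refine dpV_ne (hne j hj (by omega)) ?_
  rw [← add_nsmul, ← two_mul]
  exact hne (2 * j) (by omega) hL

include hne in
lemma dpPt_hA : ∀ a c, 1 ≤ c → c < a → a + c ≤ L →
    (dpXs P a - dpXs P c) ^ 2 * (dpXs P (a + c) - dpXs P (a - c)) = -(dpVs P a * dpVs P c) := by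
  intro a c hc hca hL
  have := dp_pt_A (hne a (by omega) (by omega)) (hne c hc (by omega))
    (dpPt_ne_sub P L hne hca (by omega)) (dpPt_ne_add P L hne hc hL)
  simp only [dpXs, dpVs]
  rw [add_nsmul, sub_nsmul P hca.le, ← sub_eq_add_neg]
  exact this

include hne in
lemma dpPt_hG : ∀ j, 2 ≤ j → 2 * j ≤ L →
    (dpXs P (j + 1) - dpXs P j) * (dpXs P (j - 1) - dpXs P j) * (dpXs P j - dpXs P 1) ^ 2
      = dpVs P j ^ 2 * (dpXs P (2 * j) - dpXs P 1) := by
  intro j hj hL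
  have h1 : j • P ≠ P := by
    have := dpPt_ne_sub P L hne (a := j) (c := 1) (by omega) (by omega)
    rwa [one_nsmul] at this
  have h2 : j • P ≠ -P := by
    have := dpPt_ne_add P L hne (a := j) (c := 1) le_rfl (by omega)
    rwa [one_nsmul] at this
  have h3 : j • P + j • P ≠ 0 := by
    rw [← add_nsmul, ← two_mul]
    exact hne (2 * j) (by omega) hL
  have hP : P ≠ 0 := by
    have := hne 1 le_rfl (by omega)
    rwa [one_nsmul] at this
  have := dp_pt_G (hne j (by omega) (by omega)) hP h1 h2 h3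
  simp only [dpXs, dpVs]
  rw [add_nsmul, sub_nsmul P (show 1 ≤ j by omega), one_nsmul, ← sub_eq_add_neg, two_mul,
    add_nsmul]
  exact this

end seq

section dpA

variable {x y : F}

omit [DecidableEq F] in
lemma dpA_zero : dpA W x y 0 = 0 := by simp [dpA]

omit [DecidableEq F] in
lemma dpA_one : dpA W x y 1 = 1 := by simp [dpA]

omit [DecidableEq F] in
lemma dpA_two : dpA W x y 2 = y - W.negY x y := by
  have : W.Ψ ((2 : ℕ) : ℤ) = W.ψ₂ := by
    rw [show ((2 : ℕ) : ℤ) = 2 from rfl, Ψ_two]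
  rw [dpA, this, ψ₂, evalEval_polynomialY, negY]
  ring

omit [DecidableEq F] in
lemma dpA_three : dpA W x y 3 = W.Ψ₃.eval x := by
  have : W.Ψ ((3 : ℕ) : ℤ) = C W.Ψ₃ := by
    rw [show ((3 : ℕ) : ℤ) = 3 from rfl, Ψ_three]
  rw [dpA, this, evalEval_C]

omit [DecidableEq F] in
lemma dpA_four : dpA W x y 4 = W.preΨ₄.eval x * (y - W.negY x y) := by
  have : W.Ψ ((4 : ℕ) : ℤ) = C W.preΨ₄ * W.ψ₂ := by
    rw [show ((4 : ℕ) : ℤ) = 4 from rfl, Ψ_four]
  rw [dpA, this, evalEval_mul, evalEval_C, ψ₂, evalEval_polynomialY, negY]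
  ring

omit [DecidableEq F] in
lemma dpA_odd (hxy : W.Equation x y) (i : ℕ) :
    dpA W x y (2 * (i + 1) + 1)
      = dpA W x y (i + 3) * dpA W x y (i + 1) ^ 3 - dpA W x y i * dpA W x y (i + 2) ^ 3 := by
  have e1 : ((2 * (i + 1) + 1 : ℕ) : ℤ) = 2 * ((i : ℤ) + 1) + 1 := by push_cast; ring
  have e2 : ((i + 3 : ℕ) : ℤ) = (i : ℤ) + 1 + 2 := by push_cast; ring
  have e3 : ((i + 1 : ℕ) : ℤ) = (i : ℤ) + 1 := by push_cast; ring
  have e5 : ((i + 2 : ℕ) : ℤ) = (i : ℤ) + 1 + 1 := by push_cast; ring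
  have key := congrArg (evalEval x y) (W.Ψ_odd ((i : ℤ) + 1))
  rw [add_sub_cancel_right] at key
  have h0 : eval x (eval (C y) W.polynomial) = 0 := hxy
  simp only [evalEval, eval_add, eval_sub, eval_mul, eval_pow, h0, zero_mul, add_zero] at key
  simp only [dpA, evalEval]
  rw [e1, e2, e3, e5, key]

omit [DecidableEq F] in
lemma dpA_even (i : ℕ) :
    dpA W x y (2 * (i + 2)) * dpA W x y 2
      = dpA W x y (i + 1) ^ 2 * dpA W x y (i + 2) * dpA W x y (i + 4)
        - dpA W x y i * dpA W x y (i + 2) * dpA W x y (i + 3) ^ 2 := by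
  have e1 : ((2 * (i + 2) : ℕ) : ℤ) = 2 * ((i : ℤ) + 2) := by push_cast; ring
  have e2 : ((i + 1 : ℕ) : ℤ) = (i : ℤ) + 2 - 1 := by push_cast; ring
  have e3 : ((i + 2 : ℕ) : ℤ) = (i : ℤ) + 2 := by push_cast; ring
  have e4 : ((i + 4 : ℕ) : ℤ) = (i : ℤ) + 2 + 2 := by push_cast; ring
  have e5 : ((i + 3 : ℕ) : ℤ) = (i : ℤ) + 2 + 1 := by push_cast; ring
  have e6 : ((2 : ℕ) : ℤ) = 2 := rfl
  have key := congrArg (evalEval x y) (W.Ψ_even ((i : ℤ) + 2))
  rw [add_sub_cancel_right, ← Ψ_two] at key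
  simp only [evalEval, eval_sub, eval_mul, eval_pow] at key
  simp only [dpA, evalEval]
  rw [e1, e2, e3, e4, e5, e6, key]

end dpA

section main

variable {x y : F} (h : W.Nonsingular x y) (L : ℕ)
  (hne : ∀ j, 1 ≤ j → j ≤ L → j • (Point.some x y h : W.Point) ≠ 0)

lemma dpPt_h2 : dpA W x y 2 = dpVs (Point.some x y h : W.Point) 1 := by
  rw [dpA_two, dpVs, one_nsmul, dpV_some]

include hne in
lemma dpPt_h3 (h3 : 3 ≤ L) :
    dpA W x y 3 = dpW (dpXs (Point.some x y h : W.Point)) (dpVs (Point.some x y h : W.Point) 1) 3 := by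
  have hPP : (Point.some x y h : W.Point) + Point.some x y h ≠ 0 := by
    have := hne 2 (by omega) (by omega)
    rwa [two_nsmul] at this
  have e := dp_pt_D (Point.some_ne_zero h) hPP
  rw [dpA_three, show (3 : ℕ) = 0 + 3 from rfl, dpW_add_three]
  simp only [dpW_one, dpW_two, div_one, dpXs, dpVs, one_nsmul, zero_add, two_nsmul]
  rw [dpX_some] at e ⊢
  linear_combination e

include hne in
lemma dpPt_h4 (h4 : 4 ≤ L) :
    dpA W x y 4 = dpW (dpXs (Point.some x y h : W.Point)) (dpVs (Point.some x y h : W.Point) 1) 4 := by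
  have hPP : (Point.some x y h : W.Point) + Point.some x y h ≠ 0 := by
    have := hne 2 (by omega) (by omega)
    rwa [two_nsmul] at this
  have e := dp_pt_P (Point.some_ne_zero h) hPP
  have e2 := (dpW_main (dpXs (Point.some x y h : W.Point)) (dpVs (Point.some x y h : W.Point)) L
    (dpPt_hx _ L hne) (dpPt_hv _ L hne) (dpPt_hA _ L hne) (dpPt_hG _ L hne) 2 (by omega)).1
    (by omega)
  rw [dpA_four, show (4 : ℕ) = 2 * 2 from rfl, ← e2]
  simp only [dpW_two, dpVs, one_nsmul, two_nsmul]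
  rw [dpX_some] at e
  rw [← e, dpV_some]
  ring

include hne in
/-- In the range where the multiples of `P` are non-zero, `Ψ_n(P)` is given by `dpW`. -/
theorem dpA_eq_dpW : ∀ n, n ≤ L →
    dpA W x y n
      = dpW (dpXs (Point.some x y h : W.Point)) (dpVs (Point.some x y h : W.Point) 1) n :=
  dpW_eq _ _ L (dpPt_hx _ L hne) (dpPt_hv _ L hne) (dpPt_hA _ L hne) (dpPt_hG _ L hne)
    (dpA W x y) (dpA_odd h.1) dpA_even dpA_zero dpA_one (dpPt_h2 h) (dpPt_h3 h L hne)
    (dpPt_h4 h L hne)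

include hne in
/-- `Ψ_n(P) ≠ 0` in the range. -/
theorem dpA_ne_zero (n : ℕ) (h1 : 1 ≤ n) (hn : n ≤ L) : dpA W x y n ≠ 0 := by
  rw [dpA_eq_dpW h L hne n hn]
  exact dpW_ne_zero _ _ L (dpPt_hx _ L hne) (dpPt_hv _ L hne) n h1 hn

include hne in
/-- The generic formula: `x((m+1)P) Ψ_{m+1}(P)² = x Ψ_{m+1}(P)² - Ψ_{m+2}(P) Ψ_m(P)`. -/
theorem dpA_gen (m : ℕ) (hm : m + 2 ≤ L) :
    dpA W x y (m + 1) ≠ 0 ∧
    dpX ((m + 1) • (Point.some x y h : W.Point)) * dpA W x y (m + 1) ^ 2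
      = x * dpA W x y (m + 1) ^ 2 - dpA W x y (m + 2) * dpA W x y m := by
  have := dpW_gen _ _ L (dpPt_hx _ L hne) (dpPt_hv _ L hne) (dpPt_hA _ L hne) (dpPt_hG _ L hne)
    (dpA W x y) (dpA_odd h.1) dpA_even dpA_zero dpA_one (dpPt_h2 h) (dpPt_h3 h L hne)
    (dpPt_h4 h L hne) m hm
  simpa only [dpXs, one_nsmul, dpX_some] using this

end main

/-- `Ψ_d(P) = 0` if `d ≥ 2` is the exact order of `P`. -/
theorem dpA_eq_zero_of_order {x y : F} (h : W.Nonsingular x y) (d : ℕ) (hd : 2 ≤ d)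
    (hlt : ∀ j, 1 ≤ j → j < d → j • (Point.some x y h : W.Point) ≠ 0)
    (hdP : d • (Point.some x y h : W.Point) = 0) : dpA W x y d = 0 := by
  have hP0 : (Point.some x y h : W.Point) ≠ 0 := Point.some_ne_zero h
  rcases d with _ | _ | _ | _ | _ | n
  · omega
  · omega
  · -- d = 2
    rw [dpA_two, ← dpV_some h]
    apply dpV_eq_zero
    rwa [two_nsmul] at hdP
  · -- d = 3
    have hPP : (Point.some x y h : W.Point) + Point.some x y h ≠ 0 := by
      have := hlt 2 (by omega) (by omega)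
      rwa [two_nsmul] at this
    have e := dp_pt_D hP0 hPP
    have e2 : (Point.some x y h : W.Point) + Point.some x y h = -Point.some x y h := by
      apply eq_neg_of_add_eq_zero_left
      rw [← hdP, show (0 + 1 + 1 + 1 : ℕ) = 3 from rfl, succ_nsmul, two_nsmul]
    rw [e2, dpX_neg, sub_self, zero_mul, dpX_some] at e
    rw [dpA_three]
    linear_combination e
  · -- d = 4
    have hPP : (Point.some x y h : W.Point) + Point.some x y h ≠ 0 := by
      have := hlt 2 (by omega) (by omega)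
      rwa [two_nsmul] at this
    have e := dp_pt_P hP0 hPP
    have e2 : dpV ((Point.some x y h : W.Point) + Point.some x y h) = 0 := by
      apply dpV_eq_zero
      rw [← hdP, show (0 + 1 + 1 + 1 + 1 : ℕ) = 2 * 2 from rfl, mul_nsmul, two_nsmul, two_nsmul]
    rw [e2, zero_mul, dpX_some] at e
    rw [dpA_four, ← e, zero_mul]
  · rcases Nat.even_or_odd' n with ⟨i, hi | hi⟩
    · -- d = 2 * (i + 2) + 1
      have hd' : n + 1 + 1 + 1 + 1 + 1 = 2 * (i + 2) + 1 := by omega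
      rw [hd'] at hdP hlt ⊢
      have hne : ∀ j, 1 ≤ j → j ≤ 2 * (i + 2) → j • (Point.some x y h : W.Point) ≠ 0 :=
        fun j h1 h2 => hlt j h1 (by omega)
      refine dpW_order_odd _ _ (2 * (i + 2)) (dpPt_hx _ _ hne) (dpPt_hv _ _ hne) (dpPt_hA _ _ hne)
        (dpPt_hG _ _ hne) (dpA W x y) (dpA_odd h.1) dpA_even dpA_zero dpA_one (dpPt_h2 h)
        (dpPt_h3 h _ hne) (dpPt_h4 h _ hne) i rfl ?_
      have e : (i + 3) • (Point.some x y h : W.Point) = -((i + 2) • Point.some x y h) := by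
        apply eq_neg_of_add_eq_zero_left
        rw [← add_nsmul, ← hdP]
        congr 1
        omega
      rw [dpXs, dpXs, e, dpX_neg]
    · -- d = 2 * (i + 3)
      have hd' : n + 1 + 1 + 1 + 1 + 1 = 2 * (i + 3) := by omega
      rw [hd'] at hdP hlt ⊢
      have hne : ∀ j, 1 ≤ j → j ≤ 2 * i + 5 → j • (Point.some x y h : W.Point) ≠ 0 :=
        fun j h1 h2 => hlt j h1 (by omega)
      refine dpW_order_even _ _ (2 * i + 5) (dpPt_hx _ _ hne) (dpPt_hv _ _ hne) (dpPt_hA _ _ hne)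
        (dpPt_hG _ _ hne) (dpA W x y) (dpA_odd h.1) dpA_even dpA_zero dpA_one (dpPt_h2 h)
        (dpPt_h3 h _ hne) (dpPt_h4 h _ hne) i (by ring) ?_
      have e : (i + 4) • (Point.some x y h : W.Point) = -((i + 2) • Point.some x y h) := by
        apply eq_neg_of_add_eq_zero_left
        rw [← add_nsmul, ← hdP]
        congr 1
        omega
      rw [dpXs, dpXs, e, dpX_neg]

end Fermat.Agent.S13
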