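import Mathlib
import Fermat.Agent.S13.DivPolyPt

/-!
# Torsion points and division polynomials

* `dp_eval_preΨ'_eq_zero` : the `x`-coordinate of a non-zero `p`-torsion point (`p` an odd prime)
  is a root of `preΨ' p`.
* `dp_finite_torsion`, `dp_card_torsion_le` : the `p`-torsion is finite of cardinality `≤ p ^ 2`.
* `dp_mem_of_torsion` : integrality of the coordinates of `p`-torsion points with respect to a
  valuation subring in which `p` is a unit.
-/

set_option autoImplicit false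

namespace Fermat.Agent.S13

open WeierstrassCurve WeierstrassCurve.Affine Polynomial

variable {F : Type*} [Field F] [DecidableEq F] (W : Affine F)

omit [DecidableEq F] in
/-- A point killed by a prime `p` has exact order `p`. -/
theorem dp_nsmul_ne_zero_of_prime {M : Type*} [AddGroup M] {p : ℕ} (hp : p.Prime) {P : M}
    (hP0 : P ≠ 0) (hP : p • P = 0) : ∀ j, 1 ≤ j → j < p → j • P ≠ 0 := by
  intro j h1 h2 hj
  have h3 : addOrderOf P ∣ j := addOrderOf_dvd_of_nsmul_eq_zero hj
  have h4 : addOrderOf P ∣ p := addOrderOf_dvd_of_nsmul_eq_zero hP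
  rcases (Nat.dvd_prime hp).mp h4 with h | h
  · exact hP0 (AddMonoid.addOrderOf_eq_one_iff.mp h)
  · rw [h] at h3
    exact absurd (Nat.le_of_dvd (by omega) h3) (by omega)

/-- **DP1**: the `x`-coordinate of a non-zero `p`-torsion point is a root of `preΨ' p`. -/
theorem dp_eval_preΨ'_eq_zero {p : ℕ} (hp : p.Prime) (hp2 : p ≠ 2) {x y : F}
    (h : W.Nonsingular x y) (hP : p • (Point.some x y h : W.Point) = 0) :
    (W.preΨ' p).eval x = 0 := by
  have h0 := dpA_eq_zero_of_order h p hp.two_le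
    (dp_nsmul_ne_zero_of_prime hp (Point.some_ne_zero h) hP) hP
  have hodd : ¬ Even p := by
    rw [Nat.not_even_iff_odd]
    exact hp.odd_of_ne_two hp2
  rw [dpA, Ψ_ofNat, if_neg hodd, mul_one, evalEval_C] at h0
  exact h0

/-! ### Counting -/

/-- The quadratic polynomial whose roots are the `y` with `(r, y)` on the curve. -/
noncomputable def dpYpoly (r : F) : F[X] :=
  X ^ 2 + C (W.a₁ * r + W.a₃) * X - C (r ^ 3 + W.a₂ * r ^ 2 + W.a₄ * r + W.a₆)

omit [DecidableEq F] in
lemma dpYpoly_natDegree (r : F) : (dpYpoly W r).natDegree = 2 := by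
  unfold dpYpoly
  compute_degree!

omit [DecidableEq F] in
lemma dpYpoly_ne_zero (r : F) : dpYpoly W r ≠ 0 := by
  intro h
  have := dpYpoly_natDegree W r
  rw [h, natDegree_zero] at this
  omega

omit [DecidableEq F] in
lemma dpYpoly_isRoot {r y : F} (h : W.Equation r y) : (dpYpoly W r).IsRoot y := by
  rw [equation_iff] at h
  simp only [dpYpoly, IsRoot.def, eval_add, eval_sub, eval_mul, eval_pow, eval_X, eval_C]
  linear_combination h

omit [DecidableEq F] in
/-- Points as optional coordinate pairs. -/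
def dpCoord : W.Point → Option (F × F)
  | .zero => none
  | .some x y _ => some (x, y)

omit [DecidableEq F] in
lemma dpCoord_injective : Function.Injective (dpCoord W) := by
  rintro (_ | ⟨x, y, h⟩) (_ | ⟨x', y', h'⟩) e
  · rfl
  · simp [dpCoord] at e
  · simp [dpCoord] at e
  · simp only [dpCoord, Option.some.injEq, Prod.mk.injEq] at e
    obtain ⟨rfl, rfl⟩ := e
    rfl

/-- The finite set of (coordinates of) points whose `x`-coordinate lies in `R`, with `0`. -/
noncomputable def dpPts (R : Finset F) : Finset (Option (F × F)) :=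
  insert none ((R.biUnion fun r => (dpYpoly W r).roots.toFinset.image fun y => (r, y)).image some)

lemma dpPts_card_le (R : Finset F) : (dpPts W R).card ≤ 2 * R.card + 1 := by
  unfold dpPts
  refine (Finset.card_insert_le _ _).trans (Nat.succ_le_succ ?_)
  refine Finset.card_image_le.trans (Finset.card_biUnion_le.trans ?_)
  calc ∑ r ∈ R, ((dpYpoly W r).roots.toFinset.image fun y => (r, y)).card
      ≤ ∑ _r ∈ R, 2 := by
        refine Finset.sum_le_sum fun r _ => ?_
        refine Finset.card_image_le.trans ((Multiset.toFinset_card_le _).trans ?_)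
        exact (card_roots' _).trans_eq (dpYpoly_natDegree W r)
    _ = 2 * R.card := by rw [Finset.sum_const, smul_eq_mul, mul_comm]

lemma dpCoord_mem_dpPts {R : Finset F} {x y : F} (h : W.Nonsingular x y) (hx : x ∈ R) :
    dpCoord W (Point.some x y h) ∈ dpPts W R := by
  unfold dpPts
  refine Finset.mem_insert_of_mem (Finset.mem_image.mpr ⟨(x, y), ?_, rfl⟩)
  refine Finset.mem_biUnion.mpr ⟨x, hx, Finset.mem_image.mpr ⟨y, ?_, rfl⟩⟩
  rw [Multiset.mem_toFinset, mem_roots (dpYpoly_ne_zero W x)]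
  exact dpYpoly_isRoot W h.1

lemma dp_torsion_coord_mem {p : ℕ} (hp : p.Prime) (hp2 : p ≠ 2) (hpF : (p : F) ≠ 0)
    (P : W.Point) (hP : p • P = 0) : dpCoord W P ∈ dpPts W (W.preΨ' p).roots.toFinset := by
  rcases P with _ | ⟨x, y, h⟩
  · exact Finset.mem_insert_self _ _
  · apply dpCoord_mem_dpPts
    rw [Multiset.mem_toFinset, mem_roots (W.preΨ'_ne_zero hpF)]
    exact dp_eval_preΨ'_eq_zero W hp hp2 h hP

lemma dp_torsion_set {p : ℕ} (hp : p.Prime) (hp2 : p ≠ 2) (hpF : (p : F) ≠ 0) :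
    {P : W.Point | p • P = 0}.Finite ∧ {P : W.Point | p • P = 0}.ncard ≤ p ^ 2 := by
  have hsub : dpCoord W '' {P : W.Point | p • P = 0}
      ⊆ ↑(dpPts W (W.preΨ' p).roots.toFinset) := by
    rintro _ ⟨P, hP, rfl⟩
    exact dp_torsion_coord_mem W hp hp2 hpF P hP
  have hfin : (dpCoord W '' {P : W.Point | p • P = 0}).Finite :=
    (Finset.finite_toSet _).subset hsub
  refine ⟨hfin.of_finite_image (dpCoord_injective W).injOn, ?_⟩
  rw [← Set.ncard_image_of_injective _ (dpCoord_injective W)]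
  refine (Set.ncard_le_ncard hsub (Finset.finite_toSet _)).trans ?_
  rw [Set.ncard_coe_finset]
  refine (dpPts_card_le W _).trans ?_
  have h1 : (W.preΨ' p).roots.toFinset.card ≤ (p ^ 2 - 1) / 2 := by
    refine (Multiset.toFinset_card_le _).trans ((card_roots' _).trans ?_)
    have := W.natDegree_preΨ'_le p
    rwa [if_neg (by rw [Nat.not_even_iff_odd]; exact hp.odd_of_ne_two hp2)] at this
  have h2 : 1 ≤ p ^ 2 := Nat.one_le_pow _ _ hp.pos
  omega

/-- **DP2**: finiteness of the `p`-torsion. -/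
theorem dp_finite_torsion {p : ℕ} (hp : p.Prime) (hp2 : p ≠ 2) (hpF : (p : F) ≠ 0) :
    Finite (Submodule.torsionBy ℤ W.Point (p : ℤ)) := by
  have h := (dp_torsion_set W hp hp2 hpF).1
  have e : ((Submodule.torsionBy ℤ W.Point (p : ℤ) : Submodule ℤ W.Point) : Set W.Point)
      = {P : W.Point | p • P = 0} := by
    ext P
    simp
  have : Finite ((Submodule.torsionBy ℤ W.Point (p : ℤ) : Submodule ℤ W.Point) : Set W.Point) := by
    rw [e]
    exact h.to_subtype
  exact this

/-- **DP2**: the `p`-torsion has at most `p ^ 2` elements. -/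
theorem dp_card_torsion_le {p : ℕ} (hp : p.Prime) (hp2 : p ≠ 2) (hpF : (p : F) ≠ 0) :
    Nat.card (Submodule.torsionBy ℤ W.Point (p : ℤ)) ≤ p ^ 2 := by
  have h := (dp_torsion_set W hp hp2 hpF).2
  have e : ((Submodule.torsionBy ℤ W.Point (p : ℤ) : Submodule ℤ W.Point) : Set W.Point)
      = {P : W.Point | p • P = 0} := by
    ext P
    simp
  rw [← e] at h
  exact h

/-! ### Integrality -/

/-- **DP4**: if the Weierstrass coefficients lie in a valuation subring `A` in which `p` is a unit,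
then the coordinates of every non-zero `p`-torsion point lie in `A`. -/
theorem dp_mem_of_torsion (A : ValuationSubring F) (h₁ : W.a₁ ∈ A) (h₂ : W.a₂ ∈ A)
    (h₃ : W.a₃ ∈ A) (h₄ : W.a₄ ∈ A) (h₆ : W.a₆ ∈ A) {p : ℕ} (hp : p.Prime) (hp2 : p ≠ 2)
    (hpA : (p : F) ∉ A.nonunits) {x y : F} (h : W.Nonsingular x y)
    (hP : p • (Point.some x y h : W.Point) = 0) : x ∈ A ∧ y ∈ A := by
  let W₀ : WeierstrassCurve A := ⟨⟨W.a₁, h₁⟩, ⟨W.a₂, h₂⟩, ⟨W.a₃, h₃⟩, ⟨W.a₄, h₄⟩, ⟨W.a₆, h₆⟩⟩
  have hW : W₀.map A.subtype = W := by ext <;> rfl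
  have hroot := dp_eval_preΨ'_eq_zero W hp hp2 h hP
  rw [← hW, map_preΨ', eval_map] at hroot
  have hpA0 : ((p : A) : F) = (p : F) := by simp
  have hunit : IsUnit (p : A) := by
    by_contra hnu
    apply hpA
    rw [← hpA0, ValuationSubring.coe_mem_nonunits_iff, IsLocalRing.mem_maximalIdeal]
    exact hnu
  have hp0 : (p : A) ≠ 0 := hunit.ne_zero
  have hodd : ¬ Even p := by
    rw [Nat.not_even_iff_odd]
    exact hp.odd_of_ne_two hp2
  have hlead : (W₀.preΨ' p).leadingCoeff = (p : A) := by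
    rw [leadingCoeff_preΨ' _ hp0, if_neg hodd]
  have hx : x ∈ A := by
    have hint : IsIntegral A x := by
      have hu : IsUnit (W₀.preΨ' p).leadingCoeff := hlead ▸ hunit
      refine ⟨hu.unit⁻¹ • W₀.preΨ' p, monic_of_isUnit_leadingCoeff_inv_smul hu, ?_⟩
      rw [Units.smul_def, eval₂_smul]
      have : eval₂ (algebraMap A F) x (W₀.preΨ' p) = 0 := hroot
      rw [this, mul_zero]
    obtain ⟨a, ha⟩ := IsIntegrallyClosed.isIntegral_iff.mp hint
    rw [← ha]
    exact a.2
  refine ⟨hx, ?_⟩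
  have hb : W.a₁ * x + W.a₃ ∈ A := add_mem (mul_mem h₁ hx) h₃
  have hc : x ^ 3 + W.a₂ * x ^ 2 + W.a₄ * x + W.a₆ ∈ A :=
    add_mem (add_mem (add_mem (pow_mem hx 3) (mul_mem h₂ (pow_mem hx 2)))
      (mul_mem h₄ hx)) h₆
  have hint : IsIntegral A y := by
    refine ⟨X ^ 2 + C (⟨_, hb⟩ : A) * X - C (⟨_, hc⟩ : A), by monicity!, ?_⟩
    have he := (equation_iff _ _).mp h.1
    simp only [eval₂_add, eval₂_sub, eval₂_mul, eval₂_pow, eval₂_X, eval₂_C]
    change y ^ 2 + (W.a₁ * x + W.a₃) * y - (x ^ 3 + W.a₂ * x ^ 2 + W.a₄ * x + W.a₆) = 0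
    linear_combination he
  obtain ⟨a, ha⟩ := IsIntegrallyClosed.isIntegral_iff.mp hint
  rw [← ha]
  exact a.2

end Fermat.Agent.S13
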