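import Mathlib

/-!
Pure polynomial algebra for the existence of `p`-torsion via division polynomials (S13 project,
package DivPoly, step DP3).

* `dpa_eq_linear_mul`: a rational function `Φ / Ψ` with `deg Φ = deg Ψ + 1` over an algebraically
  closed field of characteristic zero which is injective outside a finite set is linear:
  `Φ = a (X + β) Ψ`.
* `dpa_no_linear_involution`: a linear map `x ↦ a (x + β)` with `a ^ 2 ≠ 1` cannot commute with
  the involution `x ↦ C / x` on an infinite set.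
-/

set_option autoImplicit false

open Polynomial

namespace Fermat.Agent.S13

/-- A linear map `x ↦ a (x + β)` with `a ≠ 0`, `a ^ 2 ≠ 1` does not commute with `x ↦ C / x`
(`C ≠ 0`) on an infinite set. -/
theorem dpa_no_linear_involution {K : Type*} [Field K] (a β c : K) (ha0 : a ≠ 0)
    (hc : c ≠ 0) (ha : a ^ 2 ≠ 1) (S : Set K) (hS : S.Infinite)
    (h : ∀ x ∈ S, x ≠ 0 ∧ x + β ≠ 0 ∧ a * (c / x + β) = c / (a * (x + β))) : False := by
  set Q : K[X] := C (a ^ 2 * β) * X ^ 2 + C (a ^ 2 * c + a ^ 2 * β ^ 2 - c) * X +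
    C (a ^ 2 * β * c) with hQ
  have hroot : ∀ x ∈ S, Q.eval x = 0 := by
    intro x hx
    obtain ⟨hx0, hxβ, he⟩ := h x hx
    have h1 : a * (c / x + β) * (a * (x + β)) = c := by
      rw [he, div_mul_cancel₀ _ (mul_ne_zero ha0 hxβ)]
    have h2 : a * (c + β * x) * (a * (x + β)) = c * x := by
      have : a * (c + β * x) * (a * (x + β)) = a * (c / x + β) * (a * (x + β)) * x := by
        field_simp
      rw [this, h1]
    simp only [hQ, eval_add, eval_mul, eval_C, eval_pow, eval_X]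
    linear_combination h2
  have hQ0 : Q = 0 :=
    Polynomial.eq_zero_of_infinite_isRoot Q (hS.mono fun x hx => hroot x hx)
  have hc2 : Q.coeff 2 = a ^ 2 * β := by
    rw [hQ]
    simp only [coeff_add, coeff_C_mul, coeff_X_pow, coeff_X, coeff_C]
    norm_num
  have hc1 : Q.coeff 1 = a ^ 2 * c + a ^ 2 * β ^ 2 - c := by
    rw [hQ]
    simp only [coeff_add, coeff_C_mul, coeff_X_pow, coeff_X, coeff_C]
    norm_num
  rw [hQ0, coeff_zero] at hc2 hc1
  have hβ : β = 0 := by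
    rcases mul_eq_zero.mp hc2.symm with h3 | h3
    · exact absurd (pow_eq_zero_iff (two_ne_zero) |>.mp h3) ha0
    · exact h3
  rw [hβ] at hc1
  have h4 : (a ^ 2 - 1) * c = 0 := by linear_combination -hc1
  rcases mul_eq_zero.mp h4 with h5 | h5
  · exact ha (sub_eq_zero.mp h5)
  · exact hc h5

/-- A rational function `Φ / Ψ` with `deg Φ = deg Ψ + 1` which is injective outside a finite set
(over an algebraically closed field of characteristic zero) is linear. -/
theorem dpa_eq_linear_mul {K : Type*} [Field K] [IsAlgClosed K] [CharZero K] (Φ Ψ : K[X])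
    (hdeg : Φ.natDegree = Ψ.natDegree + 1) (hΨ : Ψ ≠ 0) (B : Finset K)
    (hinj : ∀ x₁ x₂ : K, x₁ ∉ B → x₂ ∉ B →
      Φ.eval x₁ * Ψ.eval x₂ = Φ.eval x₂ * Ψ.eval x₁ → x₁ = x₂) :
    ∃ a β : K, a ≠ 0 ∧ Φ = C a * (X + C β) * Ψ := by
  classical
  have hΦ : Φ ≠ 0 := by
    rintro rfl
    simp at hdeg
  set g : K[X] := EuclideanDomain.gcd Φ Ψ with hg
  obtain ⟨Φ1, hΦ1⟩ := EuclideanDomain.gcd_dvd_left Φ Ψ
  obtain ⟨Ψ1, hΨ1⟩ := EuclideanDomain.gcd_dvd_right Φ Ψ
  rw [← hg] at hΦ1 hΨ1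
  have hg0 : g ≠ 0 := by
    rintro h0
    rw [h0, zero_mul] at hΨ1
    exact hΨ hΨ1
  have hΦ10 : Φ1 ≠ 0 := by
    rintro rfl
    rw [mul_zero] at hΦ1
    exact hΦ hΦ1
  have hΨ10 : Ψ1 ≠ 0 := by
    rintro rfl
    rw [mul_zero] at hΨ1
    exact hΨ hΨ1
  -- coprimality
  have hcop : IsCoprime Φ1 Ψ1 := by
    have h1 := EuclideanDomain.gcd_eq_gcd_ab Φ Ψ
    rw [← hg] at h1
    generalize EuclideanDomain.gcdA Φ Ψ = u at h1
    generalize EuclideanDomain.gcdB Φ Ψ = w at h1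
    refine ⟨u, w, ?_⟩
    have h2 : g * (u * Φ1 + w * Ψ1) = g * 1 := by
      rw [mul_one]
      calc g * (u * Φ1 + w * Ψ1) = (g * Φ1) * u + (g * Ψ1) * w := by ring
        _ = Φ * u + Ψ * w := by rw [← hΦ1, ← hΨ1]
        _ = g := h1.symm
    exact mul_left_cancel₀ hg0 h2
  have hcop_eval : ∀ z : K, Ψ1.eval z = 0 → Φ1.eval z ≠ 0 := by
    intro z hz h0
    obtain ⟨u, w, huw⟩ := hcop
    have := congrArg (Polynomial.eval z) huw
    simp [hz, h0] at this
  -- degrees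
  have hd : Φ1.natDegree = Ψ1.natDegree + 1 := by
    have h1 : Φ.natDegree = g.natDegree + Φ1.natDegree := by
      rw [hΦ1, natDegree_mul hg0 hΦ10]
    have h2 : Ψ.natDegree = g.natDegree + Ψ1.natDegree := by
      rw [hΨ1, natDegree_mul hg0 hΨ10]
    omega
  -- main claim
  have hmain : Ψ1.natDegree = 0 := by
    by_contra hne
    have hd2 : 2 ≤ Φ1.natDegree := by omega
    -- the Wronskian
    set Wr : K[X] := derivative Φ1 * Ψ1 - Φ1 * derivative Ψ1 with hWr
    have hWr0 : Wr ≠ 0 := by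
      intro h0
      have h1 : derivative Φ1 * Ψ1 = Φ1 * derivative Ψ1 := sub_eq_zero.mp h0
      have h2 : Φ1 ∣ derivative Φ1 * Ψ1 := ⟨_, h1⟩
      have h3 : Φ1 ∣ derivative Φ1 := hcop.dvd_of_dvd_mul_right h2
      have h4 : derivative Φ1 = 0 := by
        by_contra hne'
        have h5 := natDegree_le_of_dvd h3 hne'
        have h6 := natDegree_derivative_lt (p := Φ1) (by omega)
        omega
      have h7 := Polynomial.derivative_eq_zero.mp h4
      omega
    -- the finite set of bad points and bad values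
    set Z : Finset K := B ∪ Wr.roots.toFinset with hZ
    set Zc : Finset K := Z.image (fun z => Φ1.eval z / Ψ1.eval z) with hZc
    obtain ⟨c, hc⟩ := Infinite.exists_notMem_finset Zc
    set f : K[X] := Φ1 - C c * Ψ1 with hf
    have hfdeg : f.natDegree = Φ1.natDegree := by
      apply natDegree_sub_eq_left_of_natDegree_lt
      calc (C c * Ψ1).natDegree ≤ Ψ1.natDegree := natDegree_C_mul_le _ _
        _ < Φ1.natDegree := by omega
    have hf0 : f ≠ 0 := by
      intro h0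
      rw [h0, natDegree_zero] at hfdeg
      omega
    -- roots of `f` avoid `Z`
    have hroot_notin : ∀ z : K, f.eval z = 0 → z ∉ Z := by
      intro z hz hzZ
      have h1 : Φ1.eval z = c * Ψ1.eval z := by
        have : f.eval z = Φ1.eval z - c * Ψ1.eval z := by simp [hf]
        rw [this] at hz
        exact sub_eq_zero.mp hz
      by_cases h2 : Ψ1.eval z = 0
      · rw [h2, mul_zero] at h1
        exact hcop_eval z h2 h1
      · apply hc
        rw [hZc, Finset.mem_image]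
        exact ⟨z, hzZ, by rw [h1, mul_div_cancel_right₀ _ h2]⟩
    -- roots of `f` are simple
    have hsimple : ∀ z : K, f.eval z = 0 → (derivative f).eval z ≠ 0 := by
      intro z hz hz'
      apply hroot_notin z hz
      rw [hZ, Finset.mem_union]
      right
      rw [Multiset.mem_toFinset, mem_roots hWr0, IsRoot.def]
      have h1 : Φ1.eval z = c * Ψ1.eval z := by
        have : f.eval z = Φ1.eval z - c * Ψ1.eval z := by simp [hf]
        rw [this] at hz
        exact sub_eq_zero.mp hz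
      have h2 : (derivative Φ1).eval z = c * (derivative Ψ1).eval z := by
        have : (derivative f).eval z = (derivative Φ1).eval z - c * (derivative Ψ1).eval z := by
          simp [hf]
        rw [this] at hz'
        exact sub_eq_zero.mp hz'
      simp only [hWr, eval_sub, eval_mul, h1, h2]
      ring
    -- two distinct roots
    have hfdeg' : f.degree ≠ 0 := by
      rw [degree_eq_natDegree hf0, hfdeg]
      exact_mod_cast (by omega : Φ1.natDegree ≠ 0)
    obtain ⟨x₁, hx₁⟩ := IsAlgClosed.exists_root f hfdeg'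
    set q : K[X] := f /ₘ (X - C x₁) with hq
    have hfq : (X - C x₁) * q = f := mul_divByMonic_eq_iff_isRoot.mpr hx₁
    have hq0 : q ≠ 0 := by
      rintro h0
      rw [h0, mul_zero] at hfq
      exact hf0 hfq.symm
    have hqdeg : q.natDegree + 1 = f.natDegree := by
      rw [← hfq, natDegree_mul (X_sub_C_ne_zero x₁) hq0, natDegree_X_sub_C]
      ring
    have hqdeg' : q.degree ≠ 0 := by
      rw [degree_eq_natDegree hq0]
      exact_mod_cast (by omega : q.natDegree ≠ 0)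
    obtain ⟨x₂, hx₂⟩ := IsAlgClosed.exists_root q hqdeg'
    have hx₂f : f.eval x₂ = 0 := by
      rw [← hfq, eval_mul, hx₂.eq_zero, mul_zero]
    have hne12 : x₁ ≠ x₂ := by
      rintro rfl
      apply hsimple x₁ hx₁
      rw [← hfq, derivative_mul, eval_add, eval_mul, eval_mul, hx₂.eq_zero]
      simp
    have hval : ∀ z : K, f.eval z = 0 → Φ.eval z = c * Ψ.eval z := by
      intro z hz
      have h1 : Φ1.eval z = c * Ψ1.eval z := by
        have : f.eval z = Φ1.eval z - c * Ψ1.eval z := by simp [hf]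
        rw [this] at hz
        exact sub_eq_zero.mp hz
      rw [hΦ1, hΨ1, eval_mul, eval_mul, h1]
      ring
    have hnB : ∀ z : K, f.eval z = 0 → z ∉ B := by
      intro z hz hzB
      exact hroot_notin z hz (by rw [hZ]; exact Finset.mem_union_left _ hzB)
    apply hne12
    apply hinj x₁ x₂ (hnB x₁ hx₁) (hnB x₂ hx₂f)
    rw [hval x₁ hx₁, hval x₂ hx₂f]
    ring
  -- conclusion
  have hΨ1C : Ψ1 = C (Ψ1.coeff 0) := eq_C_of_natDegree_eq_zero hmain
  have hb0 : Ψ1.coeff 0 ≠ 0 := by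
    intro h0
    rw [h0, C_0] at hΨ1C
    exact hΨ10 hΨ1C
  have hΦ1deg : Φ1.natDegree = 1 := by omega
  have hΦ1lin : Φ1 = C (Φ1.coeff 1) * X + C (Φ1.coeff 0) :=
    eq_X_add_C_of_natDegree_le_one hΦ1deg.le
  have ha0 : Φ1.coeff 1 ≠ 0 := by
    intro h0
    have : Φ1.leadingCoeff = 0 := by
      rw [leadingCoeff, hΦ1deg, h0]
    exact hΦ10 (leadingCoeff_eq_zero.mp this)
  refine ⟨Φ1.coeff 1 / Ψ1.coeff 0, Φ1.coeff 0 / Φ1.coeff 1, div_ne_zero ha0 hb0, ?_⟩
  have e1 : C (Φ1.coeff 1 / Ψ1.coeff 0) * (X + C (Φ1.coeff 0 / Φ1.coeff 1)) * C (Ψ1.coeff 0) =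
      C (Φ1.coeff 1) * X + C (Φ1.coeff 0) := by
    have h1 : C (Φ1.coeff 1 / Ψ1.coeff 0) * C (Ψ1.coeff 0) = C (Φ1.coeff 1) := by
      rw [← C_mul, div_mul_cancel₀ _ hb0]
    have h2 : C (Φ1.coeff 1) * C (Φ1.coeff 0 / Φ1.coeff 1) = C (Φ1.coeff 0) := by
      rw [← C_mul, mul_div_cancel₀ _ ha0]
    calc C (Φ1.coeff 1 / Ψ1.coeff 0) * (X + C (Φ1.coeff 0 / Φ1.coeff 1)) * C (Ψ1.coeff 0)
        = (C (Φ1.coeff 1 / Ψ1.coeff 0) * C (Ψ1.coeff 0)) * (X + C (Φ1.coeff 0 / Φ1.coeff 1)) := by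
          ring
      _ = C (Φ1.coeff 1) * X + C (Φ1.coeff 1) * C (Φ1.coeff 0 / Φ1.coeff 1) := by
          rw [h1]; ring
      _ = C (Φ1.coeff 1) * X + C (Φ1.coeff 0) := by rw [h2]
  calc Φ = g * Φ1 := hΦ1
    _ = g * (C (Φ1.coeff 1) * X + C (Φ1.coeff 0)) := by rw [← hΦ1lin]
    _ = g * (C (Φ1.coeff 1 / Ψ1.coeff 0) * (X + C (Φ1.coeff 0 / Φ1.coeff 1)) *
          C (Ψ1.coeff 0)) := by rw [e1]
    _ = C (Φ1.coeff 1 / Ψ1.coeff 0) * (X + C (Φ1.coeff 0 / Φ1.coeff 1)) *
          (g * C (Ψ1.coeff 0)) := by ring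
    _ = C (Φ1.coeff 1 / Ψ1.coeff 0) * (X + C (Φ1.coeff 0 / Φ1.coeff 1)) * Ψ := by
          rw [← hΨ1C, ← hΨ1]

/-- The division polynomial instance of `dpa_eq_linear_mul`: if `x ↦ Φₙ(x) / ΨSqₙ(x)` is injective
outside a finite set then `n² Φₙ = (X + β) ΨSqₙ`. -/
theorem dpa_Φ_eq_linear_mul_ΨSq {K : Type*} [Field K] [IsAlgClosed K] [CharZero K]
    (W : WeierstrassCurve K) (n : ℤ) (hn : n ≠ 0) (B : Finset K)
    (hinj : ∀ x₁ x₂ : K, x₁ ∉ B → x₂ ∉ B →
      (W.Φ n).eval x₁ * (W.ΨSq n).eval x₂ = (W.Φ n).eval x₂ * (W.ΨSq n).eval x₁ → x₁ = x₂) :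
    ∃ β : K, C ((n : K) ^ 2) * W.Φ n = (X + C β) * W.ΨSq n := by
  have hnK : (n : K) ≠ 0 := by exact_mod_cast hn
  have hpos : 1 ≤ n.natAbs ^ 2 := Nat.one_le_pow _ _ (Int.natAbs_pos.mpr hn)
  have hdeg : (W.Φ n).natDegree = (W.ΨSq n).natDegree + 1 := by
    rw [W.natDegree_Φ, W.natDegree_ΨSq hnK]
    omega
  obtain ⟨a, β, ha, h⟩ := dpa_eq_linear_mul (W.Φ n) (W.ΨSq n) hdeg (W.ΨSq_ne_zero hnK) B hinj
  refine ⟨β, ?_⟩
  have hlc := congrArg Polynomial.leadingCoeff h
  have hXβ : (X + C β : K[X]).leadingCoeff = 1 := by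
    rw [leadingCoeff_X_add_C]
  rw [W.leadingCoeff_Φ, leadingCoeff_mul, leadingCoeff_mul, leadingCoeff_C, hXβ, mul_one,
    W.leadingCoeff_ΨSq hnK] at hlc
  have ha' : a * (n : K) ^ 2 = 1 := hlc.symm
  rw [h, ← mul_assoc, ← mul_assoc, ← C_mul, mul_comm ((n : K) ^ 2) a, ha', C_1, one_mul]

/-- The algebraic endgame of the existence of torsion: the map `x ↦ Φₙ(x) / ΨSqₙ(x)` cannot be
injective outside a finite set and commute with an involution `x ↦ c / x` (`c ≠ 0`, `n² ≠ 1`). -/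
theorem dpa_contradiction {K : Type*} [Field K] [IsAlgClosed K] [CharZero K]
    (W : WeierstrassCurve K) (n : ℤ) (hn0 : n ≠ 0) (hn : n ^ 2 ≠ 1) (c : K) (hc : c ≠ 0)
    (B : Finset K)
    (hΨ : ∀ x : K, x ∉ B → (W.ΨSq n).eval x ≠ 0)
    (hinj : ∀ x₁ x₂ : K, x₁ ∉ B → x₂ ∉ B →
      (W.Φ n).eval x₁ * (W.ΨSq n).eval x₂ = (W.Φ n).eval x₂ * (W.ΨSq n).eval x₁ → x₁ = x₂)
    (hinv : ∀ x : K, x ∉ B → x ≠ 0 ∧ c / x ∉ B ∧
      (W.Φ n).eval (c / x) / (W.ΨSq n).eval (c / x) =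
        c / ((W.Φ n).eval x / (W.ΨSq n).eval x)) : False := by
  classical
  have hnK : (n : K) ≠ 0 := by exact_mod_cast hn0
  have hn2 : ((n : K) ^ 2) ≠ 0 := pow_ne_zero 2 hnK
  obtain ⟨β, hβ⟩ := dpa_Φ_eq_linear_mul_ΨSq W n hn0 B hinj
  have hval : ∀ x : K, x ∉ B →
      (W.Φ n).eval x / (W.ΨSq n).eval x = ((n : K) ^ 2)⁻¹ * (x + β) := by
    intro x hx
    have h1 := congrArg (Polynomial.eval x) hβ
    simp only [eval_mul, eval_C, eval_add, eval_X] at h1
    rw [div_eq_iff (hΨ x hx)]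
    field_simp
    linear_combination h1
  have ha : (((n : K) ^ 2)⁻¹) ^ 2 ≠ 1 := by
    intro h1
    apply hn
    have h2 : ((n : K) ^ 2) ^ 2 = 1 := by
      rw [inv_pow] at h1
      exact inv_eq_one.mp h1
    have h3 : ((n ^ 2 : ℤ) : K) ^ 2 = ((1 : ℤ) : K) := by
      push_cast
      exact h2
    have h4 : (n ^ 2) ^ 2 = (1 : ℤ) := by exact_mod_cast h3
    have h5 : 0 ≤ n ^ 2 := sq_nonneg n
    nlinarith
  refine dpa_no_linear_involution (((n : K) ^ 2)⁻¹) β c (inv_ne_zero hn2) hc ha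
    {x : K | x ∉ B ∧ x + β ≠ 0} ?_ ?_
  · have hfin : ({x : K | x ∉ B ∧ x + β ≠ 0}ᶜ : Set K).Finite := by
      apply Set.Finite.subset (B.finite_toSet.union (Set.finite_singleton (-β)))
      intro x hx
      simp only [Set.mem_compl_iff, Set.mem_ofPred_eq, not_and_or, not_not] at hx
      rcases hx with hx | hx
      · exact Or.inl hx
      · exact Or.inr (by rw [Set.mem_singleton_iff]; linear_combination hx)
    exact Set.Finite.infinite_compl hfin |>.mono (by rw [compl_compl])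
  · rintro x ⟨hxB, hxβ⟩
    obtain ⟨hx0, hcx, he⟩ := hinv x hxB
    refine ⟨hx0, hxβ, ?_⟩
    rw [hval x hxB, hval (c / x) hcx] at he
    exact he

end Fermat.Agent.S13
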