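import Mathlib
import Fermat.Agent.S13.DivPolyAlg

/-!
Existence of `p`-torsion (S13 project, package DivPoly, step DP3), glue part.

For a Weierstrass curve `y² + a₁ x y = x³ + a₂ x² + a₄ x` (`a₃ = a₆ = 0`, `Δ ≠ 0`) over an
algebraically closed field of characteristic zero, and an odd prime `p`, there is a nonzero point
of order `p` -- provided the "generic multiplication formula" `x(nP) = Φₙ(x) / ΨSqₙ(x)` (for points
`P` with `kP ≠ 0` for `1 ≤ k ≤ n`), which is taken as a hypothesis here (`dpe_exists_torsion_of`).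
-/

set_option autoImplicit false

open Polynomial WeierstrassCurve WeierstrassCurve.Affine

namespace Fermat.Agent.S13

variable {F : Type*} [Field F]

/-- The generic multiplication formula, as a property of a curve. -/
def DpeGenericFormula [DecidableEq F] (W : Affine F) : Prop :=
  ∀ (x y : F) (h : W.Nonsingular x y) (n : ℕ), 1 ≤ n →
    (∀ k : ℕ, 1 ≤ k → k ≤ n → k • (Point.some x y h : W.Point) ≠ 0) →
    (W.ΨSq n).eval x ≠ 0 ∧
      ∃ (y' : F) (h' : W.Nonsingular ((W.Φ n).eval x / (W.ΨSq n).eval x) y'),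
        n • (Point.some x y h : W.Point) = Point.some _ y' h'

/-- Over an algebraically closed field every `x` is the abscissa of a point. -/
theorem dpe_exists_point [IsAlgClosed F] (W : Affine F) (hΔ : W.Δ ≠ 0) (x : F) :
    ∃ y : F, W.Nonsingular x y := by
  set q : F[X] := X ^ 2 + C (W.a₁ * x + W.a₃) * X - C (x ^ 3 + W.a₂ * x ^ 2 + W.a₄ * x + W.a₆)
    with hq
  have hdeg : q.degree = 2 := by
    rw [hq]
    compute_degree!
  obtain ⟨y, hy⟩ := IsAlgClosed.exists_root q (by rw [hdeg]; norm_num)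
  refine ⟨y, (equation_iff_nonsingular_of_Δ_ne_zero hΔ).mp ?_⟩
  rw [equation_iff]
  have h1 : q.eval y = 0 := hy
  simp only [hq, eval_sub, eval_add, eval_mul, eval_pow, eval_X, eval_C] at h1
  linear_combination h1

section twotorsion

variable [DecidableEq F] (W : Affine F)

/-- The point `(0, 0)` has order two. -/
theorem dpe_two_nsmul_zero (h₃ : W.a₃ = 0) (h0 : W.Nonsingular 0 0) :
    (2 : ℕ) • (Point.some 0 0 h0 : W.Point) = 0 := by
  rw [two_nsmul]
  exact Point.add_self_of_Y_eq (by simp [negY, h₃])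

/-- `p (0,0) = (0,0)` for odd `p`. -/
theorem dpe_odd_nsmul_zero (h₃ : W.a₃ = 0) (h0 : W.Nonsingular 0 0) {p : ℕ} (hp : Odd p) :
    p • (Point.some 0 0 h0 : W.Point) = Point.some 0 0 h0 := by
  obtain ⟨m, rfl⟩ := hp
  rw [add_nsmul, mul_nsmul, dpe_two_nsmul_zero W h₃ h0, nsmul_zero, zero_add, one_nsmul]

omit [DecidableEq F] in
/-- The only point with abscissa `0` is `(0, 0)`. -/
theorem dpe_eq_zero_point (h₃ : W.a₃ = 0) (h₆ : W.a₆ = 0) (h0 : W.Nonsingular 0 0) {y : F}
    (h : W.Nonsingular 0 y) : (Point.some 0 y h : W.Point) = Point.some 0 0 h0 := by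
  have h1 := (equation_iff 0 y).mp h.1
  rw [h₃, h₆] at h1
  have h2 : y ^ 2 = 0 := by linear_combination h1
  have h3 : y = 0 := pow_eq_zero_iff (two_ne_zero) |>.mp h2
  subst h3
  rfl

/-- Translation by `(0, 0)` acts on abscissas by `x ↦ a₄ / x`. -/
theorem dpe_add_zero_point (h₃ : W.a₃ = 0) (h₆ : W.a₆ = 0) (h0 : W.Nonsingular 0 0) {x y : F}
    (h : W.Nonsingular x y) (hx : x ≠ 0) :
    ∃ (y' : F) (h' : W.Nonsingular (W.a₄ / x) y'),
      (Point.some x y h : W.Point) + Point.some 0 0 h0 = Point.some _ y' h' := by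
  have hadd := Point.add_of_X_ne (W := W) (h₁ := h) (h₂ := h0) hx
  have hX : W.addX x 0 (W.slope x 0 y 0) = W.a₄ / x := by
    rw [slope_of_X_ne hx, sub_zero, sub_zero]
    have h1 := (equation_iff x y).mp h.1
    rw [h₃, h₆] at h1
    simp only [addX]
    rw [eq_div_iff hx]
    have h2 : ((y / x) ^ 2 + W.a₁ * (y / x) - W.a₂ - x - 0) * x =
        (y ^ 2 + W.a₁ * x * y - W.a₂ * x ^ 2 - x ^ 3) / x := by
      field_simp
      ring
    rw [h2, div_eq_iff hx]
    linear_combination h1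
  have hns := nonsingular_add h h0 (fun hxy => hx hxy.left)
  refine ⟨W.addY x 0 y (W.slope x 0 y 0), ?_, ?_⟩
  · rw [← hX]; exact hns
  · rw [hadd]
    congr 1

end twotorsion

section main

variable [DecidableEq F] (W : Affine F)

/-- The polynomial whose roots contain the abscissas of the points of exact order `k ≥ 3`. -/
noncomputable def dpeOrderPoly (k : ℕ) : F[X] :=
  W.Φ ((k - 1 : ℕ) : ℤ) - X * W.ΨSq ((k - 1 : ℕ) : ℤ)

omit [DecidableEq F] in
theorem dpeOrderPoly_ne_zero [CharZero F] {k : ℕ} (hk : 3 ≤ k) : dpeOrderPoly W k ≠ 0 := by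
  intro h0
  have hk1 : (((k - 1 : ℕ) : ℤ)).natAbs = k - 1 := Int.natAbs_natCast _
  have hpos : 1 ≤ (k - 1) ^ 2 := Nat.one_le_pow _ _ (by omega)
  have h1 := congrArg (fun q : F[X] => q.coeff ((k - 1) ^ 2)) h0
  simp only [dpeOrderPoly, coeff_sub, coeff_zero] at h1
  have h2 : (W.Φ ((k - 1 : ℕ) : ℤ)).coeff ((k - 1) ^ 2) = 1 := by
    have := W.coeff_Φ ((k - 1 : ℕ) : ℤ)
    rwa [hk1] at this
  have h3 : (X * W.ΨSq ((k - 1 : ℕ) : ℤ)).coeff ((k - 1) ^ 2) = (((k - 1 : ℕ) : ℤ) : F) ^ 2 := by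
    have h4 : (k - 1) ^ 2 = ((k - 1) ^ 2 - 1) + 1 := by omega
    rw [h4, coeff_X_mul]
    have := W.coeff_ΨSq ((k - 1 : ℕ) : ℤ)
    rw [hk1] at this
    rw [this]
  rw [h2, h3] at h1
  have h5 : (((k - 1 : ℕ) : ℤ) : F) ^ 2 = 1 := by linear_combination -h1
  have h6 : (((k - 1) ^ 2 : ℕ) : F) = ((1 : ℕ) : F) := by
    exact_mod_cast h5
  have h7 : (k - 1) ^ 2 = 1 := by exact_mod_cast h6
  have h8 : 2 ≤ k - 1 := by omega
  nlinarith

/-- The polynomial whose roots contain the abscissas of all points of order at most `p`. -/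
noncomputable def dpeBadPoly (p : ℕ) : F[X] :=
  W.Ψ₂Sq * ∏ k ∈ Finset.Icc 3 p, dpeOrderPoly W k

omit [DecidableEq F] in
theorem dpeBadPoly_ne_zero [CharZero F] (p : ℕ) : dpeBadPoly W p ≠ 0 := by
  refine mul_ne_zero (W.Ψ₂Sq_ne_zero (by norm_num)) ?_
  rw [Finset.prod_ne_zero_iff]
  intro k hk
  exact dpeOrderPoly_ne_zero W (Finset.mem_Icc.mp hk).1

/-- Abscissas of points of order at most `p` are roots of `dpeBadPoly`. -/
theorem dpe_bad_root (hGF : DpeGenericFormula W) {x y : F} (h : W.Nonsingular x y) {p : ℕ}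
    (hk : ∃ k : ℕ, 1 ≤ k ∧ k ≤ p ∧ k • (Point.some x y h : W.Point) = 0) :
    (dpeBadPoly W p).eval x = 0 := by
  classical
  -- minimal `k`
  have hex : ∃ k : ℕ, 1 ≤ k ∧ k • (Point.some x y h : W.Point) = 0 := by
    obtain ⟨k, hk1, -, hk3⟩ := hk
    exact ⟨k, hk1, hk3⟩
  set k := Nat.find hex with hkdef
  have hkspec := Nat.find_spec hex
  have hkmin : ∀ j : ℕ, 1 ≤ j → j < k → j • (Point.some x y h : W.Point) ≠ 0 := by
    intro j hj1 hjk h0
    exact Nat.find_min hex hjk ⟨hj1, h0⟩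
  have hkp : k ≤ p := by
    obtain ⟨k', hk1, hk2, hk3⟩ := hk
    exact le_trans (Nat.find_min' hex ⟨hk1, hk3⟩) hk2
  have hk1 : k ≠ 1 := by
    intro h1
    have := hkspec.2
    rw [← hkdef, h1, one_nsmul] at this
    exact Point.some_ne_zero h this
  have hk2 : 2 ≤ k := by
    have := hkspec.1
    rw [← hkdef] at this
    omega
  rw [dpeBadPoly, eval_mul]
  rcases Nat.lt_or_ge k 3 with hlt | hge
  · -- order two
    have hk2' : k = 2 := by omega
    have h2 := hkspec.2
    rw [← hkdef, hk2', two_nsmul] at h2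
    have hy : y = W.negY x y := by
      by_contra hne
      rw [Point.add_self_of_Y_ne hne] at h2
      exact Point.some_ne_zero _ h2
    have h1 := (equation_iff x y).mp h.1
    have h3 : W.Ψ₂Sq.eval x = 0 := by
      simp only [WeierstrassCurve.Ψ₂Sq, eval_add, eval_mul, eval_C, eval_pow, eval_X,
        WeierstrassCurve.b₂, WeierstrassCurve.b₄, WeierstrassCurve.b₆]
      simp only [negY] at hy
      have hy' : 2 * y + W.a₁ * x + W.a₃ = 0 := by linear_combination hy
      linear_combination (2 * y + W.a₁ * x + W.a₃) * hy' - 4 * h1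
    rw [h3, zero_mul]
  · -- order `k ≥ 3`
    have hgf := hGF x y h (k - 1) (by omega) (fun j hj1 hj2 => hkmin j hj1 (by omega))
    obtain ⟨hΨ, y', h', hmul⟩ := hgf
    have hneg : (k - 1) • (Point.some x y h : W.Point) = -Point.some x y h := by
      have h1 : k • (Point.some x y h : W.Point) = 0 := hkspec.2
      have h2 : k = (k - 1) + 1 := by omega
      rw [h2, add_nsmul, one_nsmul] at h1
      exact eq_neg_of_add_eq_zero_left h1
    rw [hmul, Point.neg_some, Point.some.injEq] at hneg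
    have hx : (W.Φ ((k - 1 : ℕ) : ℤ)).eval x / (W.ΨSq ((k - 1 : ℕ) : ℤ)).eval x = x := hneg.1
    have hroot : (dpeOrderPoly W k).eval x = 0 := by
      rw [dpeOrderPoly, eval_sub, eval_mul, eval_X]
      rw [div_eq_iff hΨ] at hx
      linear_combination hx
    have hmem : k ∈ Finset.Icc 3 p := Finset.mem_Icc.mpr ⟨hge, hkp⟩
    rw [eval_prod, Finset.prod_eq_zero hmem hroot, mul_zero]

/-- **Existence of `p`-torsion** from the generic multiplication formula. -/
theorem dpe_exists_torsion_of [IsAlgClosed F] [CharZero F] (hΔ : W.Δ ≠ 0) (h₃ : W.a₃ = 0)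
    (h₆ : W.a₆ = 0) (hGF : DpeGenericFormula W) {p : ℕ} (hp : p.Prime) (hp2 : p ≠ 2) :
    ∃ P : W.Point, P ≠ 0 ∧ p • P = 0 := by
  classical
  by_contra hcon
  have hE : ∀ P : W.Point, p • P = 0 → P = 0 := by
    intro P hP
    by_contra hne
    exact hcon ⟨P, hne, hP⟩
  have hodd : Odd p := hp.odd_of_ne_two hp2
  have hp1 : 1 ≤ p := hp.one_lt.le
  -- `a₄ ≠ 0`
  have ha4 : W.a₄ ≠ 0 := by
    intro h0
    apply hΔ
    simp only [WeierstrassCurve.Δ, WeierstrassCurve.b₂, WeierstrassCurve.b₄, WeierstrassCurve.b₆,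
      WeierstrassCurve.b₈, h₃, h₆, h0]
    ring
  have h0 : W.Nonsingular 0 0 := nonsingular_zero.mpr ⟨h₆, Or.inr ha4⟩
  set T₀ : W.Point := Point.some 0 0 h0 with hT₀
  have hpT₀ : p • T₀ = T₀ := dpe_odd_nsmul_zero W h₃ h0 hodd
  -- the bad set
  set Bad : Finset F := (dpeBadPoly W p).roots.toFinset with hBad
  have hbad : ∀ (x y : F) (h : W.Nonsingular x y),
      (∃ k : ℕ, 1 ≤ k ∧ k ≤ p ∧ k • (Point.some x y h : W.Point) = 0) → x ∈ Bad := by
    intro x y h hk
    rw [hBad, Multiset.mem_toFinset, mem_roots (dpeBadPoly_ne_zero W p)]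
    exact dpe_bad_root W hGF h hk
  set B : Finset F := insert 0 (Bad ∪ Bad.image (fun z => W.a₄ / z)) with hB
  have hB0 : ∀ x : F, x ∉ B → x ≠ 0 := by
    intro x hx h0'
    apply hx
    rw [hB, h0']
    exact Finset.mem_insert_self _ _
  have hBbad : ∀ x : F, x ∉ B → x ∉ Bad := by
    intro x hx hxb
    apply hx
    rw [hB]
    exact Finset.mem_insert_of_mem (Finset.mem_union_left _ hxb)
  have hBinv : ∀ x : F, x ∉ B → W.a₄ / x ∉ B := by
    intro x hx hmem
    have hx0 := hB0 x hx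
    rw [hB, Finset.mem_insert, Finset.mem_union, Finset.mem_image] at hmem
    rcases hmem with h1 | h1 | ⟨z, hz, h1⟩
    · exact div_ne_zero ha4 hx0 h1
    · apply hx
      rw [hB]
      refine Finset.mem_insert_of_mem (Finset.mem_union_right _ ?_)
      rw [Finset.mem_image]
      exact ⟨W.a₄ / x, h1, by field_simp⟩
    · have hz0 : z ≠ 0 := by
        rintro rfl
        rw [div_zero] at h1
        exact div_ne_zero ha4 hx0 h1.symm
      have hxz : x = z := by
        field_simp at h1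
        exact h1
      exact hBbad x hx (hxz ▸ hz)
  -- the generic formula at good points
  have hgood : ∀ (x y : F) (h : W.Nonsingular x y), x ∉ B →
      (W.ΨSq p).eval x ≠ 0 ∧
        ∃ (y' : F) (h' : W.Nonsingular ((W.Φ p).eval x / (W.ΨSq p).eval x) y'),
          p • (Point.some x y h : W.Point) = Point.some _ y' h' := by
    intro x y h hx
    refine hGF x y h p hp1 (fun k hk1 hk2 h0' => ?_)
    exact hBbad x hx (hbad x y h ⟨k, hk1, hk2, h0'⟩)
  have hp0 : (p : ℤ) ≠ 0 := by exact_mod_cast hp.ne_zero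
  have hpsq : (p : ℤ) ^ 2 ≠ 1 := by
    have h2 : 2 ≤ p := hp.two_le
    have h3 : (2 : ℤ) ≤ (p : ℤ) := by exact_mod_cast h2
    intro h4
    nlinarith
  refine dpa_contradiction W (p : ℤ) hp0 hpsq W.a₄ ha4 B ?_ ?_ ?_
  · -- `ΨSq` does not vanish at good abscissas
    intro x hx
    obtain ⟨y, h⟩ := dpe_exists_point W hΔ x
    exact (hgood x y h hx).1
  · -- injectivity
    intro x₁ x₂ hx₁ hx₂ hcross
    obtain ⟨y₁, h₁⟩ := dpe_exists_point W hΔ x₁
    obtain ⟨y₂, h₂⟩ := dpe_exists_point W hΔ x₂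
    obtain ⟨hΨ₁, y₁', h₁', hm₁⟩ := hgood x₁ y₁ h₁ hx₁
    obtain ⟨hΨ₂, y₂', h₂', hm₂⟩ := hgood x₂ y₂ h₂ hx₂
    have hR : (W.Φ p).eval x₁ / (W.ΨSq p).eval x₁ = (W.Φ p).eval x₂ / (W.ΨSq p).eval x₂ := by
      rw [div_eq_div_iff hΨ₁ hΨ₂]
      exact hcross
    have hcases := (Point.X_eq_iff (h₁ := h₁') (h₂ := h₂')).mp hR
    rw [← hm₁, ← hm₂] at hcases
    rcases hcases with hc | hc
    · have h3 : p • ((Point.some x₁ y₁ h₁ : W.Point) - Point.some x₂ y₂ h₂) = 0 := by
        rw [nsmul_sub, hc, sub_self]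
      have h4 := sub_eq_zero.mp (hE _ h3)
      exact (Point.X_eq_iff (h₁ := h₁) (h₂ := h₂)).mpr (Or.inl h4)
    · have h3 : p • ((Point.some x₁ y₁ h₁ : W.Point) + Point.some x₂ y₂ h₂) = 0 := by
        rw [nsmul_add, hc, neg_add_cancel]
      have h4 := eq_neg_of_add_eq_zero_left (hE _ h3)
      exact (Point.X_eq_iff (h₁ := h₁) (h₂ := h₂)).mpr (Or.inr h4)
  · -- compatibility with the translation by `(0, 0)`
    intro x hx
    have hx0 := hB0 x hx
    refine ⟨hx0, hBinv x hx, ?_⟩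
    obtain ⟨y, h⟩ := dpe_exists_point W hΔ x
    obtain ⟨hΨ, y', h', hm⟩ := hgood x y h hx
    obtain ⟨z, hz, hadd⟩ := dpe_add_zero_point W h₃ h₆ h0 h hx0
    obtain ⟨hΨ', z', hz', hm'⟩ := hgood (W.a₄ / x) z hz (hBinv x hx)
    -- `p (P + T₀) = p P + T₀`
    have h1 : p • ((Point.some x y h : W.Point) + T₀) = p • (Point.some x y h : W.Point) + T₀ := by
      rw [nsmul_add, hpT₀]
    rw [hadd, hm', hm] at h1
    -- the abscissa of `p P` is nonzero
    have hR0 : (W.Φ p).eval x / (W.ΨSq p).eval x ≠ 0 := by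
      intro hzero
      have h2 : (Point.some _ y' h' : W.Point) = T₀ := by
        have h'' : W.Nonsingular 0 y' := by rw [← hzero]; exact h'
        have h3 : (Point.some _ y' h' : W.Point) = Point.some 0 y' h'' := by
          congr 1
        rw [h3]
        exact dpe_eq_zero_point W h₃ h₆ h0 h''
      have h4 : p • ((Point.some x y h : W.Point) - T₀) = 0 := by
        rw [nsmul_sub, hm, h2, hpT₀, sub_self]
      have h5 := sub_eq_zero.mp (hE _ h4)
      rw [hT₀, Point.some.injEq] at h5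
      exact hx0 h5.1
    obtain ⟨w, hw, hadd'⟩ := dpe_add_zero_point W h₃ h₆ h0 h' hR0
    rw [hadd', Point.some.injEq] at h1
    exact h1.1

end main

end Fermat.Agent.S13
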