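import Mathlib
import Fermat.Agent.S13.DivPoly
import Fermat.Agent.S13.DivPolyExists

/-!
# The generic multiplication formula and the existence of `p`-torsion

`dp_genericFormula` : for a point `P = (x, y)` with `kP ≠ 0` for `1 ≤ k ≤ n`,
`ΨSq_n(x) ≠ 0` and `x(nP) = Φ_n(x) / ΨSq_n(x)`.
-/

set_option autoImplicit false

namespace Fermat.Agent.S13

open WeierstrassCurve WeierstrassCurve.Affine Polynomial

variable {F : Type*} [Field F] {W : Affine F}

/-- `ψ₂(P)² = Ψ₂Sq(x)` on the curve. -/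
lemma dpv_ψ₂_sq {x y : F} (hxy : W.Equation x y) :
    (W.ψ₂.evalEval x y) ^ 2 = W.Ψ₂Sq.eval x := by
  have h := congrArg (evalEval x y) W.ψ₂_sq
  have h0 : eval x (eval (C y) W.polynomial) = 0 := hxy
  simp only [evalEval, eval_add, eval_mul, eval_pow, eval_C, h0, mul_zero, add_zero] at h
  exact h

/-- `ΨSq_n(x) = Ψ_n(P)²` on the curve. -/
lemma dpv_ΨSq {x y : F} (hxy : W.Equation x y) (n : ℤ) :
    (W.ΨSq n).eval x = ((W.Ψ n).evalEval x y) ^ 2 := by
  rw [WeierstrassCurve.ΨSq, WeierstrassCurve.Ψ]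
  by_cases hn : Even n
  · rw [if_pos hn, if_pos hn, evalEval_mul, evalEval_C, mul_pow, dpv_ψ₂_sq hxy, eval_mul, eval_pow]
  · rw [if_neg hn, if_neg hn, mul_one, mul_one, evalEval_C, eval_pow]

/-- `Φ_n(x) = x Ψ_n(P)² - Ψ_{n+1}(P) Ψ_{n-1}(P)` on the curve. -/
lemma dpv_Φ {x y : F} (hxy : W.Equation x y) (n : ℤ) :
    (W.Φ n).eval x = x * ((W.Ψ n).evalEval x y) ^ 2
      - (W.Ψ (n + 1)).evalEval x y * (W.Ψ (n - 1)).evalEval x y := by
  rw [WeierstrassCurve.Φ, eval_sub, eval_mul, eval_X, dpv_ΨSq hxy]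
  congr 1
  rw [WeierstrassCurve.Ψ, WeierstrassCurve.Ψ]
  by_cases hn : Even n
  · have h1 : ¬ Even (n + 1) := by
      rw [Int.even_add_one]; exact not_not.mpr hn
    have h2 : ¬ Even (n - 1) := by
      rw [Int.even_sub_one]; exact not_not.mpr hn
    rw [if_pos hn, if_neg h1, if_neg h2, mul_one, mul_one, mul_one, evalEval_C, evalEval_C,
      eval_mul]
  · have h1 : Even (n + 1) := by
      rw [Int.even_add_one]; exact hn
    have h2 : Even (n - 1) := by
      rw [Int.even_sub_one]; exact hn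
    rw [if_neg hn, if_pos h1, if_pos h2, evalEval_mul, evalEval_mul, evalEval_C, evalEval_C,
      eval_mul, eval_mul, ← dpv_ψ₂_sq hxy]
    ring

variable [DecidableEq F]

/-- **The generic multiplication formula.** -/
theorem dp_genericFormula (W : Affine F) : DpeGenericFormula W := by
  intro x y h n hn hne
  have hA : dpA W x y n ≠ 0 := dpA_ne_zero h n hne n hn le_rfl
  have hΨSq : (W.ΨSq (n : ℤ)).eval x = dpA W x y n ^ 2 := dpv_ΨSq h.1 n
  have hΦ : (W.Φ (n : ℤ)).eval x
      = x * dpA W x y n ^ 2 - dpA W x y (n + 1) * dpA W x y (n - 1) := by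
    rw [dpv_Φ h.1 n]
    simp only [dpA]
    rw [show ((n + 1 : ℕ) : ℤ) = (n : ℤ) + 1 by push_cast; ring,
      show ((n - 1 : ℕ) : ℤ) = (n : ℤ) - 1 by rw [Nat.cast_sub hn]; simp]
  refine ⟨by rw [hΨSq]; exact pow_ne_zero 2 hA, ?_⟩
  obtain ⟨x', y', h', hP'⟩ := dp_pt_cases (n • (Point.some x y h : W.Point)) (hne n hn le_rfl)
  have key : x' * dpA W x y n ^ 2
      = x * dpA W x y n ^ 2 - dpA W x y (n + 1) * dpA W x y (n - 1) := by
    by_cases hn1 : (n + 1) • (Point.some x y h : W.Point) = 0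
    · have e1 : dpA W x y (n + 1) = 0 :=
        dpA_eq_zero_of_order h (n + 1) (by omega) (fun j h1 h2 => hne j h1 (by omega)) hn1
      have e2 : n • (Point.some x y h : W.Point) = -Point.some x y h := by
        apply eq_neg_of_add_eq_zero_left
        rw [← hn1, succ_nsmul]
      rw [hP', Point.neg_some, Point.some.injEq] at e2
      rw [e1, e2.1]
      ring
    · have hne' : ∀ j, 1 ≤ j → j ≤ n + 1 → j • (Point.some x y h : W.Point) ≠ 0 := by
        intro j h1 h2
        rcases Nat.lt_or_ge j (n + 1) with h3 | h3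
        · exact hne j h1 (by omega)
        · have : j = n + 1 := by omega
          rw [this]
          exact hn1
      have := (dpA_gen h (n + 1) hne' (n - 1) (by omega)).2
      rw [show n - 1 + 1 = n by omega, show n - 1 + 2 = n + 1 by omega, hP', dpX_some] at this
      exact this
  have hx' : x' = (W.Φ (n : ℤ)).eval x / (W.ΨSq (n : ℤ)).eval x := by
    rw [hΦ, hΨSq, eq_div_iff (pow_ne_zero 2 hA)]
    exact key
  subst hx'
  exact ⟨y', h', hP'⟩

/-- **DP3** for curves with `a₃ = a₆ = 0`: existence of a non-zero `p`-torsion point over an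
algebraically closed field of characteristic zero. -/
theorem dp_exists_torsion_of_a₃_a₆ [IsAlgClosed F] [CharZero F] (W : Affine F) (hΔ : W.Δ ≠ 0)
    (h₃ : W.a₃ = 0) (h₆ : W.a₆ = 0) {p : ℕ} (hp : p.Prime) (hp2 : p ≠ 2) :
    ∃ P : W.Point, P ≠ 0 ∧ p • P = 0 :=
  dpe_exists_torsion_of W hΔ h₃ h₆ (dp_genericFormula W) hp hp2

end Fermat.Agent.S13
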