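import Mathlib

/-!
# S13, DivPoly package: DP2 (finiteness and cardinality of `E[p]`) and DP4 (integrality of
`p`-torsion points), both consequences of DP1 (`p`-torsion points are roots of `preΨ' p`).

DP1 itself enters as the hypothesis `DpcRoot W p`, so that this file only needs Mathlib.
-/

set_option autoImplicit false
set_option linter.unusedSectionVars false

namespace Fermat.Agent.S13

open WeierstrassCurve WeierstrassCurve.Affine Polynomial

variable {F : Type*} [Field F] [DecidableEq F] (W : Affine F)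

/-- The statement of DP1 for the curve `W` and the integer `p`: the `x`-coordinates of the
affine points killed by `p` are roots of `preΨ' p`. -/
def DpcRoot (p : ℕ) : Prop :=
  ∀ (x y : F) (h : W.Nonsingular x y), p • (Point.some x y h : W.Point) = 0 →
    (W.preΨ' p).eval x = 0

/-! ### DP4: integrality -/

/-- The Weierstrass curve over a subring `A` containing the coefficients of `W`. -/
def dpcLift (A : ValuationSubring F) (h₁ : W.a₁ ∈ A) (h₂ : W.a₂ ∈ A) (h₃ : W.a₃ ∈ A)
    (h₄ : W.a₄ ∈ A) (h₆ : W.a₆ ∈ A) : WeierstrassCurve A :=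
  ⟨⟨W.a₁, h₁⟩, ⟨W.a₂, h₂⟩, ⟨W.a₃, h₃⟩, ⟨W.a₄, h₄⟩, ⟨W.a₆, h₆⟩⟩

theorem dpc_map_lift (A : ValuationSubring F) (h₁ : W.a₁ ∈ A) (h₂ : W.a₂ ∈ A) (h₃ : W.a₃ ∈ A)
    (h₄ : W.a₄ ∈ A) (h₆ : W.a₆ ∈ A) :
    (dpcLift W A h₁ h₂ h₃ h₄ h₆).map A.subtype = W := by
  ext <;> rfl

/-- an element of `F` which is a root of a polynomial over the valuation ring `A` whose leading
coefficient is a unit of `A` lies in `A`. -/
theorem dpc_mem_of_root (A : ValuationSubring F) (q : Polynomial A) (_hq : q ≠ 0)
    (hlc : (q.leadingCoeff : F) ∉ A.nonunits) (x : F) (hx : (q.map A.subtype).eval x = 0) :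
    x ∈ A := by
  by_contra hxA
  -- then `x⁻¹` is a nonunit of `A`
  have hx0 : x ≠ 0 := fun h => hxA (h ▸ A.zero_mem)
  have hv : 1 < A.valuation x := by
    by_contra hle
    exact hxA ((A.valuation_le_one_iff x).mp (not_lt.mp hle))
  -- valuation of the leading coefficient is one
  have hlc1 : A.valuation (q.leadingCoeff : F) = 1 := by
    refine le_antisymm ((A.valuation_le_one_iff _).mpr q.leadingCoeff.2) ?_
    by_contra hlt
    exact hlc ((A.mem_nonunits_iff).mpr (not_le.mp hlt))
  set n := q.natDegree with hn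
  -- the leading term dominates
  have hsum : (q.map A.subtype).eval x = ∑ i ∈ Finset.range (n + 1), (q.coeff i : F) * x ^ i := by
    rw [eval_eq_sum_range, natDegree_map_eq_of_injective (Subtype.val_injective)]
    refine Finset.sum_congr rfl fun i _ => ?_
    rw [coeff_map]
    rfl
  rw [hsum, Finset.sum_range_succ] at hx
  have hlead : A.valuation ((q.coeff n : F) * x ^ n) = A.valuation x ^ n := by
    rw [map_mul, map_pow]
    have : (q.coeff n : F) = (q.leadingCoeff : F) := rfl
    rw [this, hlc1, one_mul]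
  have hrest : A.valuation (∑ i ∈ Finset.range n, (q.coeff i : F) * x ^ i) < A.valuation x ^ n := by
    by_cases hn0 : n = 0
    · rw [hn0, Finset.range_zero, Finset.sum_empty, map_zero, pow_zero]
      exact zero_lt_one
    apply Valuation.map_sum_lt
    · exact pow_ne_zero _ (ne_of_gt (lt_trans zero_lt_one hv))
    intro i hi
    rw [map_mul, map_pow]
    have hi' : i < n := Finset.mem_range.mp hi
    calc A.valuation (q.coeff i : F) * A.valuation x ^ i
        ≤ 1 * A.valuation x ^ i :=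
          mul_le_mul' ((A.valuation_le_one_iff _).mpr (q.coeff i).2) le_rfl
      _ = A.valuation x ^ i := one_mul _
      _ < A.valuation x ^ n := pow_lt_pow_right₀ hv hi'
  have hne : A.valuation (∑ i ∈ Finset.range n, (q.coeff i : F) * x ^ i + (q.coeff n : F) * x ^ n)
      = A.valuation x ^ n := by
    rw [add_comm, Valuation.map_add_eq_of_lt_left _ (by rw [hlead]; exact hrest), hlead]
  rw [hx, map_zero] at hne
  exact (pow_ne_zero n (ne_of_gt (lt_trans zero_lt_one hv))) hne.symm

/-- **DP4, pointwise form.** A point of a Weierstrass curve with `A`-integral coefficients whose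
`x`-coordinate is a root of `preΨ' p` is `A`-integral as soon as `p` is a unit of `A`. -/
theorem dpc_mem_of_eval_eq_zero (A : ValuationSubring F) (h₁ : W.a₁ ∈ A) (h₂ : W.a₂ ∈ A)
    (h₃ : W.a₃ ∈ A) (h₄ : W.a₄ ∈ A) (h₆ : W.a₆ ∈ A) {p : ℕ} (hp : p.Prime) (hp2 : p ≠ 2)
    (hpA : (p : F) ∉ A.nonunits) {x y : F} (h : W.Equation x y)
    (hroot : (W.preΨ' p).eval x = 0) : x ∈ A ∧ y ∈ A := by
  set WA := dpcLift W A h₁ h₂ h₃ h₄ h₆ with hWA
  have hmap : (WA.preΨ' p).map A.subtype = W.preΨ' p := by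
    rw [← WeierstrassCurve.map_preΨ', hWA, dpc_map_lift]
  have hpF : (p : F) ≠ 0 := by
    intro h0
    apply hpA
    rw [h0, A.mem_nonunits_iff, map_zero]
    exact zero_lt_one
  have hpA0 : ((p : ℕ) : A) ≠ 0 := by
    intro h0
    apply hpF
    have := congrArg (A.subtype) h0
    simpa using this
  have hodd : ¬ Even p := by
    intro he
    exact hp2 ((Nat.Prime.even_iff hp).mp he)
  have hx : x ∈ A := by
    apply dpc_mem_of_root A (WA.preΨ' p) (WA.preΨ'_ne_zero hpA0)
    · rw [WA.leadingCoeff_preΨ' hpA0, if_neg hodd]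
      simpa using hpA
    · rw [hmap]
      exact hroot
  refine ⟨hx, ?_⟩
  -- `y` is a root of a monic quadratic over `A`
  have heq := (W.equation_iff x y).mp h
  by_contra hyA
  have hv : 1 < A.valuation y := by
    by_contra hle
    exact hyA ((A.valuation_le_one_iff y).mp (not_lt.mp hle))
  have hvx : A.valuation x ≤ 1 := (A.valuation_le_one_iff x).mpr hx
  have hv1 : A.valuation W.a₁ ≤ 1 := (A.valuation_le_one_iff _).mpr h₁
  have hv2 : A.valuation W.a₂ ≤ 1 := (A.valuation_le_one_iff _).mpr h₂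
  have hv3 : A.valuation W.a₃ ≤ 1 := (A.valuation_le_one_iff _).mpr h₃
  have hv4 : A.valuation W.a₄ ≤ 1 := (A.valuation_le_one_iff _).mpr h₄
  have hv6 : A.valuation W.a₆ ≤ 1 := (A.valuation_le_one_iff _).mpr h₆
  -- `y ^ 2 = c - b * y` with `b, c ∈ A`
  have hb : A.valuation (W.a₁ * x + W.a₃) ≤ 1 :=
    (A.valuation_le_one_iff _).mpr (A.add_mem _ _ (A.mul_mem _ _ h₁ hx) h₃)
  have hc : A.valuation (x ^ 3 + W.a₂ * x ^ 2 + W.a₄ * x + W.a₆) ≤ 1 :=
    (A.valuation_le_one_iff _).mpr (A.add_mem _ _ (A.add_mem _ _ (A.add_mem _ _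
      (pow_mem hx 3) (A.mul_mem _ _ h₂ (pow_mem hx 2))) (A.mul_mem _ _ h₄ hx)) h₆)
  have hy2 : y ^ 2 = (x ^ 3 + W.a₂ * x ^ 2 + W.a₄ * x + W.a₆) - (W.a₁ * x + W.a₃) * y := by
    linear_combination heq
  have hlt : A.valuation ((x ^ 3 + W.a₂ * x ^ 2 + W.a₄ * x + W.a₆) - (W.a₁ * x + W.a₃) * y)
      < A.valuation y ^ 2 := by
    apply Valuation.map_sub_lt
    · calc A.valuation (x ^ 3 + W.a₂ * x ^ 2 + W.a₄ * x + W.a₆) ≤ 1 := hc
        _ < A.valuation y ^ 2 := one_lt_pow₀ hv (by norm_num)
    · rw [map_mul]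
      calc A.valuation (W.a₁ * x + W.a₃) * A.valuation y ≤ 1 * A.valuation y :=
            mul_le_mul' hb le_rfl
        _ = A.valuation y ^ 1 := by rw [one_mul, pow_one]
        _ < A.valuation y ^ 2 := pow_lt_pow_right₀ hv (by norm_num)
  rw [← hy2, map_pow] at hlt
  exact lt_irrefl _ hlt

/-- **DP4 (from DP1).** Nonzero `p`-torsion points of a Weierstrass curve with `A`-integral
coefficients are `A`-integral as soon as `p` is a unit of `A`. -/
theorem dpc_mem_of_torsion_of (A : ValuationSubring F) (h₁ : W.a₁ ∈ A) (h₂ : W.a₂ ∈ A)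
    (h₃ : W.a₃ ∈ A) (h₄ : W.a₄ ∈ A) (h₆ : W.a₆ ∈ A) {p : ℕ} (hp : p.Prime) (hp2 : p ≠ 2)
    (hR : DpcRoot W p) (hpA : (p : F) ∉ A.nonunits) {x y : F} (h : W.Nonsingular x y)
    (hP : p • (Point.some x y h : W.Point) = 0) : x ∈ A ∧ y ∈ A :=
  dpc_mem_of_eval_eq_zero W A h₁ h₂ h₃ h₄ h₆ hp hp2 hpA h.1 (hR x y h hP)

/-! ### DP2: finiteness and cardinality -/

/-- affine coordinates of a point. -/
def dpcCoord : W.Point → Option (F × F)
  | .zero => none
  | .some x y _ => some (x, y)

theorem dpcCoord_injective : Function.Injective (dpcCoord W) := by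
  intro P Q h
  cases P <;> cases Q <;> simp_all [dpcCoord]

/-- the quadratic satisfied by the `y`-coordinates of the points above `x`. -/
noncomputable def dpcQuad (x : F) : F[X] :=
  C 1 * X ^ 2 + C (W.a₁ * x + W.a₃) * X + C (-(x ^ 3 + W.a₂ * x ^ 2 + W.a₄ * x + W.a₆))

theorem dpcQuad_natDegree (x : F) : (dpcQuad W x).natDegree = 2 :=
  natDegree_quadratic one_ne_zero

theorem dpcQuad_ne_zero (x : F) : dpcQuad W x ≠ 0 := by
  intro h
  have := dpcQuad_natDegree W x
  rw [h, natDegree_zero] at this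
  exact absurd this (by norm_num)

/-- the finite set of candidate coordinates of `p`-torsion points. -/
noncomputable def dpcCand (p : ℕ) : Finset (Option (F × F)) :=
  insert none (((W.preΨ' p).roots.toFinset.biUnion fun x =>
    (dpcQuad W x).roots.toFinset.image (Prod.mk x)).image some)

theorem dpcCand_card_le {p : ℕ} (hp : p.Prime) (hp2 : p ≠ 2) (hpF : (p : F) ≠ 0) :
    (dpcCand W p).card ≤ p ^ 2 := by
  have hodd : ¬ Even p := fun he => hp2 ((Nat.Prime.even_iff hp).mp he)
  have h1 : (W.preΨ' p).roots.toFinset.card ≤ (p ^ 2 - 1) / 2 := by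
    calc (W.preΨ' p).roots.toFinset.card ≤ Multiset.card (W.preΨ' p).roots :=
          Multiset.toFinset_card_le _
      _ ≤ (W.preΨ' p).natDegree := card_roots' _
      _ = (p ^ 2 - 1) / 2 := by rw [W.natDegree_preΨ' hpF, if_neg hodd]
  have h2 : ((W.preΨ' p).roots.toFinset.biUnion fun x =>
      (dpcQuad W x).roots.toFinset.image (Prod.mk x)).card ≤ 2 * ((p ^ 2 - 1) / 2) := by
    calc ((W.preΨ' p).roots.toFinset.biUnion fun x =>
          (dpcQuad W x).roots.toFinset.image (Prod.mk x)).card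
        ≤ ∑ x ∈ (W.preΨ' p).roots.toFinset,
            ((dpcQuad W x).roots.toFinset.image (Prod.mk x)).card := Finset.card_biUnion_le
      _ ≤ ∑ _x ∈ (W.preΨ' p).roots.toFinset, 2 := by
          refine Finset.sum_le_sum fun x _ => ?_
          calc ((dpcQuad W x).roots.toFinset.image (Prod.mk x)).card
              ≤ (dpcQuad W x).roots.toFinset.card := Finset.card_image_le
            _ ≤ Multiset.card (dpcQuad W x).roots := Multiset.toFinset_card_le _
            _ ≤ (dpcQuad W x).natDegree := card_roots' _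
            _ = 2 := dpcQuad_natDegree W x
      _ = (W.preΨ' p).roots.toFinset.card * 2 := by rw [Finset.sum_const, smul_eq_mul]
      _ ≤ 2 * ((p ^ 2 - 1) / 2) := by rw [mul_comm]; exact Nat.mul_le_mul_left 2 h1
  have h3 : 2 * ((p ^ 2 - 1) / 2) ≤ p ^ 2 - 1 := Nat.mul_div_le _ _
  have hp1 : 1 ≤ p ^ 2 := Nat.one_le_pow _ _ hp.pos
  calc (dpcCand W p).card
      ≤ (((W.preΨ' p).roots.toFinset.biUnion fun x =>
          (dpcQuad W x).roots.toFinset.image (Prod.mk x)).image some).card + 1 :=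
        Finset.card_insert_le _ _
    _ ≤ 2 * ((p ^ 2 - 1) / 2) + 1 := Nat.add_le_add_right (le_trans Finset.card_image_le h2) 1
    _ ≤ p ^ 2 := by omega

theorem dpcCoord_mem {p : ℕ} (hR : DpcRoot W p) (hpF : (p : F) ≠ 0)
    (P : W.Point) (hP : p • P = 0) : dpcCoord W P ∈ dpcCand W p := by
  cases P with
  | zero => exact Finset.mem_insert_self _ _
  | some x y h =>
    refine Finset.mem_insert_of_mem (Finset.mem_image_of_mem _ ?_)
    rw [Finset.mem_biUnion]
    refine ⟨x, ?_, Finset.mem_image_of_mem _ ?_⟩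
    · rw [Multiset.mem_toFinset, mem_roots (W.preΨ'_ne_zero hpF)]
      exact hR x y h hP
    · rw [Multiset.mem_toFinset, mem_roots (dpcQuad_ne_zero W x), IsRoot.def]
      have heq := (W.equation_iff x y).mp h.1
      simp only [dpcQuad, eval_add, eval_mul, eval_C, eval_pow, eval_X]
      linear_combination heq

/-- the coordinate map on `p`-torsion points, into the finite set of candidates. -/
noncomputable def dpcTorsionMap {p : ℕ} (hR : DpcRoot W p) (hpF : (p : F) ≠ 0) :
    Submodule.torsionBy ℤ W.Point (p : ℤ) → dpcCand W p := fun P =>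
  ⟨dpcCoord W P.1, dpcCoord_mem W hR hpF P.1 (by
    have := P.2
    rw [Submodule.mem_torsionBy_iff] at this
    rwa [natCast_zsmul] at this)⟩

theorem dpcTorsionMap_injective {p : ℕ} (hR : DpcRoot W p) (hpF : (p : F) ≠ 0) :
    Function.Injective (dpcTorsionMap W hR hpF) := by
  intro P Q h
  exact Subtype.ext (dpcCoord_injective W (congrArg Subtype.val h))

/-- **DP2 (finiteness, from DP1).** -/
theorem dpc_finite_torsion_of {p : ℕ} (hR : DpcRoot W p) (hpF : (p : F) ≠ 0) :
    Finite (Submodule.torsionBy ℤ W.Point (p : ℤ)) :=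
  Finite.of_injective _ (dpcTorsionMap_injective W hR hpF)

/-- **DP2 (cardinality, from DP1).** -/
theorem dpc_card_torsion_le_of {p : ℕ} (hp : p.Prime) (hp2 : p ≠ 2) (hR : DpcRoot W p)
    (hpF : (p : F) ≠ 0) :
    Nat.card (Submodule.torsionBy ℤ W.Point (p : ℤ)) ≤ p ^ 2 := by
  calc Nat.card (Submodule.torsionBy ℤ W.Point (p : ℤ))
      ≤ Nat.card (dpcCand W p) :=
        Nat.card_le_card_of_injective _ (dpcTorsionMap_injective W hR hpF)
    _ = (dpcCand W p).card := Nat.card_eq_finsetCard _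
    _ ≤ p ^ 2 := dpcCand_card_le W hp hp2 hpF

end Fermat.Agent.S13
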