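import Mathlib
import Fermat.Prelude.Def_FLTPrelim_GaloisRep
import Fermat.Prelude.Def_FLTPrelim_Ramification
import Fermat.Agent.S13.DivPolyCard
import Fermat.Agent.S13.DivPoly

/-!
# S13, DivPoly package: DP5

If `E[p]` has `p ^ 2` points and contains a Galois stable line, then over every valuation ring
of `AlgebraicClosure ℚ` above `p` (containing the coefficients of the model) some nonzero
`p`-torsion point has an integral `x`-coordinate.
-/

set_option autoImplicit false
set_option linter.unusedSectionVars false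
set_option linter.style.haveILetI false

namespace Fermat.Agent.S13

open WeierstrassCurve WeierstrassCurve.Affine WeierstrassCurve.Affine.Point Polynomial

section general

variable {F : Type*} [Field F] [DecidableEq F] (W : Affine F)

/-- the `x`-coordinate of a point (`0` for the point at infinity). -/
def dpiX : W.Point → F
  | .zero => 0
  | .some x _ _ => x

/-- two nonzero points with the same `x`-coordinate are equal or opposite. -/
theorem dpi_eq_or_eq_neg {P Q : W.Point} (hP : P ≠ 0) (hQ : Q ≠ 0)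
    (h : dpiX W P = dpiX W Q) : Q = P ∨ Q = -P := by
  cases P with
  | zero => exact absurd rfl hP
  | some x y hxy =>
    cases Q with
    | zero => exact absurd rfl hQ
    | some x' y' hxy' =>
      simp only [dpiX] at h
      subst h
      rcases Y_eq_of_X_eq hxy'.1 hxy.1 rfl with h1 | h1
      · left
        subst h1
        rfl
      · right
        subst h1
        rfl

theorem dpi_root {p : ℕ} (hR : DpcRoot W p) (P : W.Point) (hP0 : P ≠ 0)
    (hP : p • P = 0) : (W.preΨ' p).eval (dpiX W P) = 0 := by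
  cases P with
  | zero => exact absurd rfl hP0
  | some x y h => exact hR x y h hP

theorem dpi_torsion {p : ℕ} (P : Submodule.torsionBy ℤ W.Point (p : ℤ)) : p • P.1 = 0 := by
  have := P.2
  rw [Submodule.mem_torsionBy_iff] at this
  rwa [natCast_zsmul] at this

/-- there are at least `(p ^ 2 - 1) / 2` distinct `x`-coordinates of nonzero `p`-torsion points
when `E[p]` has `p ^ 2` elements. -/
theorem dpi_card_le {p : ℕ}
    [Fintype (Submodule.torsionBy ℤ W.Point (p : ℤ))]
    [DecidableEq (Submodule.torsionBy ℤ W.Point (p : ℤ))]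
    (hcard : Nat.card (Submodule.torsionBy ℤ W.Point (p : ℤ)) = p ^ 2) :
    p ^ 2 - 1 ≤ 2 * ((Finset.univ.filter
      (fun P : Submodule.torsionBy ℤ W.Point (p : ℤ) => P ≠ 0)).image
        (fun P => dpiX W P.1)).card := by
  have hTscard : (Finset.univ.filter
      (fun P : Submodule.torsionBy ℤ W.Point (p : ℤ) => P ≠ 0)).card = p ^ 2 - 1 := by
    rw [Finset.filter_ne', Finset.card_erase_of_mem (Finset.mem_univ _), Finset.card_univ,
      ← Nat.card_eq_fintype_card, hcard]
  rw [← hTscard]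
  apply Finset.card_le_mul_card_image
  intro a ha
  obtain ⟨P, hP, rfl⟩ := Finset.mem_image.mp ha
  have hP0 : P ≠ 0 := (Finset.mem_filter.mp hP).2
  calc (Finset.filter (fun Q : Submodule.torsionBy ℤ W.Point (p : ℤ) =>
          dpiX W Q.1 = dpiX W P.1) (Finset.univ.filter
            (fun P : Submodule.torsionBy ℤ W.Point (p : ℤ) => P ≠ 0))).card
      ≤ ({P, -P} : Finset (Submodule.torsionBy ℤ W.Point (p : ℤ))).card := by
        apply Finset.card_le_card
        intro Q hQ
        rw [Finset.mem_filter] at hQ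
        have hQ0 : Q ≠ 0 := (Finset.mem_filter.mp hQ.1).2
        rcases dpi_eq_or_eq_neg W (P := P.1) (Q := Q.1) (fun h => hP0 (Subtype.ext h))
          (fun h => hQ0 (Subtype.ext h)) hQ.2.symm with h | h
        · exact Finset.mem_insert.mpr (Or.inl (Subtype.ext h))
        · exact Finset.mem_insert.mpr (Or.inr (Finset.mem_singleton.mpr (Subtype.ext h)))
    _ ≤ 2 := Finset.card_le_two

/-- when `E[p]` has `p ^ 2` elements, `preΨ' p` is `p` times the product of the `X - x` over the
`x`-coordinates of the nonzero `p`-torsion points. -/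
theorem dpi_preΨ'_eq {p : ℕ} (hp : p.Prime) (hp2 : p ≠ 2) (hR : DpcRoot W p) (hpF : (p : F) ≠ 0)
    [Fintype (Submodule.torsionBy ℤ W.Point (p : ℤ))]
    [DecidableEq (Submodule.torsionBy ℤ W.Point (p : ℤ))]
    (hcard : Nat.card (Submodule.torsionBy ℤ W.Point (p : ℤ)) = p ^ 2) :
    W.preΨ' p = C (p : F) * ∏ x ∈ ((Finset.univ.filter
      (fun P : Submodule.torsionBy ℤ W.Point (p : ℤ) => P ≠ 0)).image
        (fun P => dpiX W P.1)), (X - C x) := by
  have hle := dpi_card_le W hcard
  set XS := ((Finset.univ.filter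
      (fun P : Submodule.torsionBy ℤ W.Point (p : ℤ) => P ≠ 0)).image
        (fun P => dpiX W P.1)) with hXS
  have hodd : ¬ Even p := fun he => hp2 ((Nat.Prime.even_iff hp).mp he)
  have hne := W.preΨ'_ne_zero hpF
  have hdeg : (W.preΨ' p).natDegree = (p ^ 2 - 1) / 2 := by
    rw [W.natDegree_preΨ' hpF, if_neg hodd]
  have hsub : XS.val ≤ (W.preΨ' p).roots := by
    rw [Multiset.le_iff_subset XS.nodup]
    intro a ha
    obtain ⟨P, hP, rfl⟩ := Finset.mem_image.mp (Finset.mem_val.mp ha)
    have hP0 : P ≠ 0 := (Finset.mem_filter.mp hP).2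
    rw [mem_roots hne, IsRoot.def]
    exact dpi_root W hR P.1 (fun h => hP0 (Subtype.ext h)) (dpi_torsion W P)
  have hcardroots : Multiset.card (W.preΨ' p).roots ≤ Multiset.card XS.val := by
    calc Multiset.card (W.preΨ' p).roots ≤ (W.preΨ' p).natDegree := card_roots' _
      _ = (p ^ 2 - 1) / 2 := hdeg
      _ ≤ XS.card := by omega
  have hroots : (W.preΨ' p).roots = XS.val :=
    (Multiset.eq_of_le_of_card_le hsub hcardroots).symm
  have hcr : Multiset.card (W.preΨ' p).roots = (W.preΨ' p).natDegree := by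
    apply le_antisymm (card_roots' _)
    rw [hroots, hdeg]
    show _ ≤ XS.card
    omega
  have hfac := C_leadingCoeff_mul_prod_multiset_X_sub_C hcr
  rw [W.leadingCoeff_preΨ' hpF, if_neg hodd, hroots] at hfac
  rw [← hfac]
  rfl

end general

section valuation

variable {L : Type*} [Field L]

theorem dpi_one_le_prod {ι : Type*} (A : ValuationSubring L) (s : Finset ι) (f : ι → L)
    (h : ∀ a ∈ s, 1 ≤ A.valuation (f a)) : 1 ≤ ∏ x ∈ s, A.valuation (f x) := by
  apply Finset.prod_induction (fun x => A.valuation (f x)) (fun g => 1 ≤ g)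
  · intro a b ha hb
    calc (1 : A.ValueGroup) = 1 * 1 := (one_mul 1).symm
      _ ≤ a * b := mul_le_mul' ha hb
  · exact le_rfl
  · exact h

theorem dpi_one_lt_prod {ι : Type*} [DecidableEq ι] (A : ValuationSubring L) (s : Finset ι)
    (f : ι → L) (hs : s.Nonempty) (h : ∀ a ∈ s, 1 < A.valuation (f a)) :
    1 < ∏ x ∈ s, A.valuation (f x) := by
  obtain ⟨a, ha⟩ := hs
  rw [← Finset.mul_prod_erase s _ ha]
  calc (1 : A.ValueGroup) < A.valuation (f a) := h a ha
    _ = A.valuation (f a) * 1 := (mul_one _).symm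
    _ ≤ A.valuation (f a) * ∏ x ∈ s.erase a, A.valuation (f x) :=
        mul_le_mul' le_rfl (dpi_one_le_prod A _ f fun b hb =>
          le_of_lt (h b (Finset.mem_of_mem_erase hb)))

theorem dpi_val_int_le (A : ValuationSubring L) (m : ℤ) : A.valuation (m : L) ≤ 1 :=
  (A.valuation_le_one_iff _).mpr (intCast_mem A m)

/-- an integer which is a nonunit of a valuation ring above `p` is divisible by `p`. -/
theorem dpi_dvd_of_val_lt (A : ValuationSubring L) {p : ℕ} (hp : p.Prime)
    (hA : A.LiesOverPrime p) (n : ℤ) (h : A.valuation (n : L) < 1) : (p : ℤ) ∣ n := by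
  by_contra hnd
  have hc : IsCoprime (p : ℤ) n := (Nat.prime_iff_prime_int.mp hp).coprime_iff_not_dvd.mpr hnd
  obtain ⟨u, w, huw⟩ := hc
  have hK : (u : L) * (p : L) + (w : L) * (n : L) = 1 := by
    exact_mod_cast congrArg (Int.cast : ℤ → L) huw
  have hvp : A.valuation (p : L) < 1 := hA
  have hlt : A.valuation ((u : L) * (p : L) + (w : L) * (n : L)) < 1 := by
    apply Valuation.map_add_lt
    · rw [map_mul]
      calc A.valuation (u : L) * A.valuation (p : L) ≤ 1 * A.valuation (p : L) :=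
            mul_le_mul' (dpi_val_int_le A u) le_rfl
        _ = A.valuation (p : L) := one_mul _
        _ < 1 := hvp
    · rw [map_mul]
      calc A.valuation (w : L) * A.valuation (n : L) ≤ 1 * A.valuation (n : L) :=
            mul_le_mul' (dpi_val_int_le A w) le_rfl
        _ = A.valuation (n : L) := one_mul _
        _ < 1 := h
  rw [hK, map_one] at hlt
  exact lt_irrefl _ hlt

/-- a rational number which is not integral at a valuation ring above `p` becomes a non-nonunit
(valuation at least one) after multiplication by `p`. -/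
theorem dpi_val_rat [CharZero L] (A : ValuationSubring L) {p : ℕ} (hp : p.Prime)
    (hA : A.LiesOverPrime p) (q : ℚ) (hq : 1 < A.valuation (q : L)) :
    1 ≤ A.valuation ((p : L) * (q : L)) := by
  have hden0 : (q.den : L) ≠ 0 := Nat.cast_ne_zero.mpr q.den_nz
  have hvden0 : A.valuation (q.den : L) ≠ 0 := (Valuation.ne_zero_iff _).mpr hden0
  have hqd : (q : L) * (q.den : L) = (q.num : L) := by
    have := Rat.mul_den_eq_num q
    exact_mod_cast congrArg (Rat.cast : ℚ → L) this
  -- `v(den) < v(num)`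
  have h1 : A.valuation (q.den : L) < A.valuation (q.num : L) := by
    rw [← hqd, map_mul]
    calc A.valuation (q.den : L) = 1 * A.valuation (q.den : L) := (one_mul _).symm
      _ < A.valuation (q : L) * A.valuation (q.den : L) :=
          mul_lt_mul_of_pos_right hq (zero_lt_iff.mpr hvden0)
  have hden : (p : ℤ) ∣ (q.den : ℤ) := by
    apply dpi_dvd_of_val_lt A hp hA
    rw [Int.cast_natCast]
    exact lt_of_lt_of_le h1 (dpi_val_int_le A q.num)
  have hden' : p ∣ q.den := Int.natCast_dvd_natCast.mp hden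
  have hnum : A.valuation (q.num : L) = 1 := by
    refine le_antisymm (dpi_val_int_le A q.num) ?_
    by_contra hlt
    have hdvd := dpi_dvd_of_val_lt A hp hA q.num (not_le.mp hlt)
    have hdvd' : p ∣ q.num.natAbs := Int.natCast_dvd.mp hdvd
    have hg := Nat.dvd_gcd hdvd' hden'
    rw [Nat.Coprime.gcd_eq_one q.reduced] at hg
    exact hp.one_lt.ne' (Nat.dvd_one.mp hg)
  obtain ⟨d, hd⟩ := hden'
  have hid : (p : L) * (q : L) * (d : L) = (q.num : L) := by
    rw [← hqd, hd]
    push_cast
    ring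
  by_contra hlt
  have hlt' : A.valuation ((p : L) * (q : L)) < 1 := not_le.mp hlt
  have hd1 : A.valuation (d : L) ≤ 1 := by
    have := dpi_val_int_le A (d : ℤ)
    rwa [Int.cast_natCast] at this
  have : A.valuation (q.num : L) < 1 := by
    rw [← hid, map_mul]
    calc A.valuation ((p : L) * (q : L)) * A.valuation (d : L)
        ≤ A.valuation ((p : L) * (q : L)) * 1 := mul_le_mul' le_rfl hd1
      _ = A.valuation ((p : L) * (q : L)) := mul_one _
      _ < 1 := hlt'
  rw [hnum] at this
  exact lt_irrefl _ this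

end valuation

section main

local notation "K" => AlgebraicClosure ℚ

theorem dpiX_smul (E : WeierstrassCurve ℚ) (σ : K ≃ₐ[ℚ] K) (Q : (E⁄K).Point) :
    dpiX (E⁄K) (σ • Q) = σ (dpiX (E⁄K) Q) := by
  cases Q with
  | zero => exact (map_zero σ).symm
  | some x y h => rfl

/-- **DP5 (from DP1).** -/
theorem dpi_exists_integral_torsion_of (E : WeierstrassCurve ℚ) {p : ℕ} (hp : p.Prime)
    (hp2 : p ≠ 2) (hR : DpcRoot (E⁄K) p)
    (A : ValuationSubring K) (hA : A.LiesOverPrime p)
    (h₁ : (E⁄K).a₁ ∈ A) (h₂ : (E⁄K).a₂ ∈ A) (h₃ : (E⁄K).a₃ ∈ A) (h₄ : (E⁄K).a₄ ∈ A)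
    (h₆ : (E⁄K).a₆ ∈ A)
    (hcard : Nat.card (Submodule.torsionBy ℤ (E⁄K).Point (p : ℤ)) = p ^ 2)
    (N : Submodule (ZMod p) (Submodule.torsionBy ℤ (E⁄K).Point p))
    (hN : IsGaloisStable ℚ N) (hNcard : Nat.card N = p) :
    ∃ (x y : K) (h : (E⁄K).Nonsingular x y),
      p • (Point.some x y h : (E⁄K).Point) = 0 ∧ x ∈ A := by
  classical
  by_contra hcon
  push Not at hcon
  have hcon' : ∀ Q : (E⁄K).Point, Q ≠ 0 → p • Q = 0 → dpiX (E⁄K) Q ∉ A := by
    intro Q hQ0 hQ
    cases Q with
    | zero => exact absurd rfl hQ0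
    | some x y h => exact hcon x y h hQ
  have hp3 : 3 ≤ p := lt_of_le_of_ne hp.two_le (Ne.symm hp2)
  have hpK : ((p : ℕ) : K) ≠ 0 := Nat.cast_ne_zero.mpr hp.ne_zero
  have hfin : Finite (Submodule.torsionBy ℤ (E⁄K).Point (p : ℤ)) :=
    Nat.finite_of_card_ne_zero (by rw [hcard]; exact pow_ne_zero 2 hp.ne_zero)
  haveI : Fintype (Submodule.torsionBy ℤ (E⁄K).Point (p : ℤ)) := Fintype.ofFinite _
  have hle := dpi_card_le (E⁄K) hcard
  have hprod := dpi_preΨ'_eq (E⁄K) hp hp2 hR hpK hcard
  set XS : Finset K := ((Finset.univ.filter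
      (fun P : Submodule.torsionBy ℤ (E⁄K).Point (p : ℤ) => P ≠ 0)).image
        (fun P => dpiX (E⁄K) P.1)) with hXS
  -- all `x`-coordinates are non-integral
  have hval : ∀ a ∈ XS, 1 < A.valuation a := by
    intro a ha
    obtain ⟨P, hP, rfl⟩ := Finset.mem_image.mp ha
    have hP0 : P ≠ 0 := (Finset.mem_filter.mp hP).2
    by_contra hle1
    exact hcon' P.1 (fun h => hP0 (Subtype.ext h)) (dpi_torsion (E⁄K) P)
      ((A.valuation_le_one_iff _).mp (not_lt.mp hle1))
  -- the constant coefficient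
  have heval0 : ((E⁄K).preΨ' p).eval 0 = (p : K) * ∏ x ∈ XS, (0 - x) := by
    rw [hprod, eval_mul, eval_C, eval_prod]
    simp
  have hmap : ((dpcLift (E⁄K) A h₁ h₂ h₃ h₄ h₆).preΨ' p).map A.subtype = (E⁄K).preΨ' p := by
    rw [← WeierstrassCurve.map_preΨ', dpc_map_lift]
  have hint : ((E⁄K).preΨ' p).eval 0 ∈ A := by
    rw [← hmap, eval_zero_map]
    exact Subtype.property _
  -- the Galois stable part
  set Ns : Finset (Submodule.torsionBy ℤ (E⁄K).Point (p : ℤ)) :=
    Finset.univ.filter (fun P => P ∈ N ∧ P ≠ 0) with hNs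
  set XN : Finset K := Ns.image (fun P => dpiX (E⁄K) P.1) with hXN
  have hXNsub : XN ⊆ XS := by
    apply Finset.image_subset_image
    intro P hP
    rw [Finset.mem_filter] at hP ⊢
    exact ⟨hP.1, hP.2.2⟩
  have hstab : ∀ σ : K ≃ₐ[ℚ] K, XN.image σ = XN := by
    intro σ
    apply Finset.eq_of_subset_of_card_le
    · intro a ha
      obtain ⟨b, hb, rfl⟩ := Finset.mem_image.mp ha
      obtain ⟨P, hP, rfl⟩ := Finset.mem_image.mp hb
      rw [Finset.mem_filter] at hP
      refine Finset.mem_image.mpr ⟨σ • P, Finset.mem_filter.mpr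
        ⟨Finset.mem_univ _, hN σ P hP.2.1, ?_⟩, ?_⟩
      · rw [Ne, smul_eq_zero_iff_eq]
        exact hP.2.2
      · exact dpiX_smul E σ P.1
    · rw [Finset.card_image_of_injective _ σ.injective]
  have hfix : ∀ σ : K ≃ₐ[ℚ] K, σ (∏ x ∈ XN, x) = ∏ x ∈ XN, x := by
    intro σ
    rw [map_prod]
    conv_rhs => rw [← hstab σ]
    rw [Finset.prod_image (fun a _ b _ h => σ.injective h)]
  have hKalg : Algebra.IsAlgebraic ℚ K := AlgebraicClosure.isAlgebraic ℚ
  have hKcl : IsAlgClosure ℚ K := ⟨inferInstance, inferInstance⟩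
  have hKgal : IsGalois ℚ K := IsAlgClosure.isGalois ℚ K
  obtain ⟨q, hq⟩ := (InfiniteGalois.mem_range_algebraMap_iff_fixed _).mpr hfix
  rw [eq_ratCast] at hq
  -- `N` has a nonzero element
  have hNne : Ns.Nonempty := by
    by_contra hempty
    rw [Finset.not_nonempty_iff_eq_empty] at hempty
    have hall : ∀ P ∈ N, P = 0 := by
      intro P hP
      by_contra hP0
      have : P ∈ Ns := Finset.mem_filter.mpr ⟨Finset.mem_univ _, hP, hP0⟩
      rw [hempty] at this
      exact absurd this (Finset.notMem_empty _)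
    have hsub : Subsingleton N := ⟨fun a b => Subtype.ext ((hall a a.2).trans (hall b b.2).symm)⟩
    have h1 : Nat.card N = 1 := Nat.card_of_subsingleton (0 : N)
    omega
  have hXNne : XN.Nonempty := hNne.image _
  -- cardinalities
  have hNscard : Ns.card ≤ p := by
    have h1 : Nat.card N = (Finset.univ.filter
        (fun P : Submodule.torsionBy ℤ (E⁄K).Point (p : ℤ) => P ∈ N)).card :=
      Nat.subtype_card _ (by simp)
    have h2 : Ns.card ≤ (Finset.univ.filter
        (fun P : Submodule.torsionBy ℤ (E⁄K).Point (p : ℤ) => P ∈ N)).card := by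
      apply Finset.card_le_card
      intro P hP
      rw [Finset.mem_filter] at hP ⊢
      exact ⟨hP.1, hP.2.1⟩
    omega
  have hXNcard : XN.card ≤ p := le_trans Finset.card_image_le hNscard
  have hp2' : 3 * p ≤ p ^ 2 := by nlinarith
  have hdiff : (XS \ XN).Nonempty := by
    rw [Finset.nonempty_iff_ne_empty, Ne, Finset.sdiff_eq_empty_iff_subset]
    intro hsub
    have := Finset.card_le_card hsub
    omega
  -- valuations
  have hcN : 1 < A.valuation (∏ x ∈ XN, x) := by
    rw [map_prod]
    exact dpi_one_lt_prod A XN (fun x => x) hXNne (fun a ha => hval a (hXNsub ha))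
  have hpc : 1 ≤ A.valuation ((p : K) * ∏ x ∈ XN, x) := by
    rw [← hq]
    exact dpi_val_rat A hp hA q (by rw [hq]; exact hcN)
  have hfinal : A.valuation (((E⁄K).preΨ' p).eval 0) =
      A.valuation ((p : K) * ∏ x ∈ XN, x) * ∏ x ∈ XS \ XN, A.valuation x := by
    rw [heval0, map_mul, map_mul, map_prod, map_prod, mul_assoc, mul_comm (∏ x ∈ XN, _),
      Finset.prod_sdiff hXNsub]
    congr 1
    refine Finset.prod_congr rfl fun x _ => ?_
    rw [zero_sub, Valuation.map_neg]
  have hgt : 1 < A.valuation (((E⁄K).preΨ' p).eval 0) := by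
    rw [hfinal]
    calc (1 : A.ValueGroup) < ∏ x ∈ XS \ XN, A.valuation x :=
          dpi_one_lt_prod A _ (fun x => x) hdiff (fun a ha => hval a (Finset.mem_sdiff.mp ha).1)
      _ = 1 * ∏ x ∈ XS \ XN, A.valuation x := (one_mul _).symm
      _ ≤ A.valuation ((p : K) * ∏ x ∈ XN, x) * ∏ x ∈ XS \ XN, A.valuation x :=
          mul_le_mul' hpc le_rfl
  exact absurd ((A.valuation_le_one_iff _).mpr hint) (not_le.mpr hgt)

/-- **DP5** (official statement of the DivPoly package). -/
theorem dp_exists_integral_torsion (E : WeierstrassCurve ℚ) {p : ℕ} (hp : p.Prime) (hp2 : p ≠ 2)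
    (A : ValuationSubring K) (hA : A.LiesOverPrime p)
    (h₁ : (E⁄K).a₁ ∈ A) (h₂ : (E⁄K).a₂ ∈ A) (h₃ : (E⁄K).a₃ ∈ A) (h₄ : (E⁄K).a₄ ∈ A)
    (h₆ : (E⁄K).a₆ ∈ A)
    (hcard : Nat.card (Submodule.torsionBy ℤ (E⁄K).Point (p : ℤ)) = p ^ 2)
    (N : Submodule (ZMod p) (Submodule.torsionBy ℤ (E⁄K).Point p))
    (hN : IsGaloisStable ℚ N) (hNcard : Nat.card N = p) :
    ∃ (x y : K) (h : (E⁄K).Nonsingular x y),
      p • (Point.some x y h : (E⁄K).Point) = 0 ∧ x ∈ A :=
  dpi_exists_integral_torsion_of E hp hp2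
    (fun _ _ h hP => dp_eval_preΨ'_eq_zero (E⁄K) hp hp2 h hP) A hA h₁ h₂ h₃ h₄ h₆ hcard N hN hNcard

end main

end Fermat.Agent.S13
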