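import Mathlib
import Fermat.Agent.S05.Inertia
import Fermat.Prelude.Def_FLTPrelim_Ramification

/-!
# S13, package D (node at the prime 2): plumbing lemmas

Six independent lemmas (g0 .. g5) used by the Frey glue of package D:
existence of valuation subrings of `ℚ̄` over a prime, invariance of the valuation under the
decomposition group, the shape of the Frey coefficients at `2`, valuations and residues of
rational numbers at `2`, and rationality of Galois-fixed points.
-/

set_option autoImplicit false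

namespace Fermat.Agent.S13

open WeierstrassCurve WeierstrassCurve.Affine
open Fermat.Agent.S05

/-! ## (g0) existence of a valuation subring over a prime -/

/-- (g0) a valuation subring of `ℚ̄` over any prime exists -/
theorem two_exists_liesOver (q : ℕ) (hq : q.Prime) :
    ∃ A : ValuationSubring (AlgebraicClosure ℚ), A.LiesOverPrime q := by
  let R : Subring (AlgebraicClosure ℚ) := (Int.castRingHom (AlgebraicClosure ℚ)).range
  have hqR : (q : AlgebraicClosure ℚ) ∈ R := ⟨(q : ℤ), by simp⟩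
  let I : Ideal R := Ideal.span {⟨(q : AlgebraicClosure ℚ), hqR⟩}
  have hI : I ≠ ⊤ := by
    intro h
    have h1 : (1 : R) ∈ I := by rw [h]; trivial
    obtain ⟨a, ha⟩ := Ideal.mem_span_singleton'.mp h1
    obtain ⟨n, hn⟩ := a.2
    have h2 : ((n * (q : ℤ) : ℤ) : AlgebraicClosure ℚ) = ((1 : ℤ) : AlgebraicClosure ℚ) := by
      have h3 := congrArg (Subtype.val) ha
      push_cast
      rw [show ((n : ℤ) : AlgebraicClosure ℚ) = (a : AlgebraicClosure ℚ) from hn]
      simpa using h3
    have h4 : n * (q : ℤ) = 1 := Int.cast_injective h2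
    have h5 : (q : ℤ) ∣ 1 := Dvd.intro_left n h4
    have h6 : q ∣ 1 := by exact_mod_cast h5
    exact hq.one_lt.ne' (Nat.dvd_one.mp h6)
  obtain ⟨B, -, hB⟩ := Ideal.image_subset_nonunits_valuationSubring I hI
  refine ⟨B, hB ⟨⟨(q : AlgebraicClosure ℚ), hqR⟩, Ideal.subset_span rfl, rfl⟩⟩

/-! ## (g1) the decomposition group preserves the valuation -/

section g1

open scoped Pointwise

/-- elements of the decomposition group preserve membership in the valuation subring -/
theorem twog_mem_iff (A : ValuationSubring (AlgebraicClosure ℚ))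
    (σ : AlgebraicClosure ℚ ≃ₐ[ℚ] AlgebraicClosure ℚ) (hσ : σ ∈ A.decompositionSubgroup ℚ)
    (a : AlgebraicClosure ℚ) : σ a ∈ A ↔ a ∈ A := by
  have h : σ • A = A := hσ
  constructor
  · intro ha
    rw [← h] at ha
    exact (ValuationSubring.smul_mem_pointwise_smul_iff (g := σ) (S := A) (x := a)).mp ha
  · intro ha
    have h1 : σ • a ∈ σ • A := ValuationSubring.smul_mem_pointwise_smul σ a A ha
    rw [h] at h1
    exact h1

/-- elements of the decomposition group preserve the order of valuations -/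
theorem twog_le_iff (A : ValuationSubring (AlgebraicClosure ℚ))
    (σ : AlgebraicClosure ℚ ≃ₐ[ℚ] AlgebraicClosure ℚ) (hσ : σ ∈ A.decompositionSubgroup ℚ)
    (a b : AlgebraicClosure ℚ) :
    A.valuation (σ a) ≤ A.valuation (σ b) ↔ A.valuation a ≤ A.valuation b := by
  by_cases hb : b = 0
  · subst hb
    simp
  · have hσb : σ b ≠ 0 := fun h => hb (by simpa using h)
    have h1 : A.valuation a ≤ A.valuation b ↔ a / b ∈ A := by
      rw [← A.valuation_le_one_iff, map_div₀,
        div_le_one₀ (zero_lt_iff.mpr ((A.valuation.ne_zero_iff).mpr hb))]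
    have h2 : A.valuation (σ a) ≤ A.valuation (σ b) ↔ σ a / σ b ∈ A := by
      rw [← A.valuation_le_one_iff, map_div₀,
        div_le_one₀ (zero_lt_iff.mpr ((A.valuation.ne_zero_iff).mpr hσb))]
    rw [h1, h2, ← map_div₀]
    exact twog_mem_iff A σ hσ (a / b)

/-- orbits of elements of `ℚ̄` under a Galois automorphism are finite -/
theorem twog_orbit (σ : AlgebraicClosure ℚ ≃ₐ[ℚ] AlgebraicClosure ℚ) (a : AlgebraicClosure ℚ) :
    ∃ n : ℕ, 0 < n ∧ (σ ^ n) a = a := by
  have halg : IsAlgebraic ℚ a := (AlgebraicClosure.isAlgebraic ℚ).isAlgebraic a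
  have hfin : ((minpoly ℚ a).rootSet (AlgebraicClosure ℚ)).Finite :=
    Polynomial.rootSet_finite _ _
  have hmem : ∀ n : ℕ, (σ ^ n) a ∈ (minpoly ℚ a).rootSet (AlgebraicClosure ℚ) := by
    intro n
    rw [Polynomial.mem_rootSet]
    refine ⟨minpoly.ne_zero halg.isIntegral, ?_⟩
    rw [Polynomial.aeval_algHom_apply, minpoly.aeval, map_zero]
  have : Finite ((minpoly ℚ a).rootSet (AlgebraicClosure ℚ)) := hfin.to_subtype
  obtain ⟨i, j, hij, h⟩ := Finite.exists_ne_map_eq_of_infinite
    (fun n : ℕ => (⟨(σ ^ n) a, hmem n⟩ : (minpoly ℚ a).rootSet (AlgebraicClosure ℚ)))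
  have h' : (σ ^ i) a = (σ ^ j) a := congrArg Subtype.val h
  have key : ∀ i j : ℕ, i < j → (σ ^ i) a = (σ ^ j) a → ∃ n : ℕ, 0 < n ∧ (σ ^ n) a = a := by
    intro i j hlt h'
    refine ⟨j - i, Nat.sub_pos_of_lt hlt, ?_⟩
    have h3 : σ ^ j = σ ^ i * σ ^ (j - i) := by
      rw [← pow_add]
      congr 1
      omega
    rw [h3, AlgEquiv.mul_apply] at h'
    exact ((σ ^ i).injective h').symm
  rcases lt_or_gt_of_ne hij with hlt | hlt
  · exact key i j hlt h'
  · exact key j i hlt h'.symm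

/-- the decomposition group preserves the valuation -/
theorem twog_valuation_map_eq_of_decomp (A : ValuationSubring (AlgebraicClosure ℚ))
    (σ : AlgebraicClosure ℚ ≃ₐ[ℚ] AlgebraicClosure ℚ) (hσ : σ ∈ A.decompositionSubgroup ℚ)
    (a : AlgebraicClosure ℚ) : A.valuation (σ a) = A.valuation a := by
  obtain ⟨n, hn, hna⟩ := twog_orbit σ a
  have hle := twog_le_iff A σ hσ
  have hlt : ∀ x y : AlgebraicClosure ℚ,
      A.valuation (σ x) < A.valuation (σ y) ↔ A.valuation x < A.valuation y := by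
    intro x y
    rw [← not_le, ← not_le, hle]
  have hstep : ∀ k : ℕ, (σ ^ (k + 1)) a = σ ((σ ^ k) a) := by
    intro k
    rw [pow_succ']
    rfl
  obtain ⟨m, rfl⟩ : ∃ m, n = m + 1 := ⟨n - 1, by omega⟩
  by_contra hne
  rcases lt_or_gt_of_ne hne with h | h
  · have key : ∀ k : ℕ, A.valuation ((σ ^ (k + 1)) a) < A.valuation a := by
      intro k
      induction k with
      | zero => simpa using h
      | succ k ih =>
        rw [hstep]
        exact lt_trans ((hlt _ _).mpr ih) h
    have h1 := key m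
    rw [hna] at h1
    exact lt_irrefl _ h1
  · have key : ∀ k : ℕ, A.valuation a < A.valuation ((σ ^ (k + 1)) a) := by
      intro k
      induction k with
      | zero => simpa using h
      | succ k ih =>
        rw [hstep]
        exact lt_trans h ((hlt _ _).mpr ih)
    have h1 := key m
    rw [hna] at h1
    exact lt_irrefl _ h1

/-- (g1) the decomposition group preserves the valuation (orbits of `σ` are finite) -/
theorem two_valuation_map_eq (A : ValuationSubring (AlgebraicClosure ℚ))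
    (σ : AlgebraicClosure ℚ ≃ₐ[ℚ] AlgebraicClosure ℚ) (hσ : σ ∈ A.inertiaSubgroupIn ℚ)
    (a : AlgebraicClosure ℚ) : A.valuation (σ a) = A.valuation a := by
  obtain ⟨τ, -, rfl⟩ := hσ
  exact twog_valuation_map_eq_of_decomp A _ τ.2 a

end g1

/-! ## (g2) the coefficients of the Frey curve at `2` -/

/-- (g2) the coefficients of the Frey curve at `2` -/
theorem two_frey_data (P : FreyPackage) :
    ∃ (A₂ c : ℤ) (m : ℕ), P.freyCurve.a₂ = (A₂ : ℚ) ∧ P.freyCurve.a₄ = (2 : ℚ) ^ m * (c : ℚ) ∧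
      ¬ (2 : ℤ) ∣ c ∧ 0 < m ∧ ¬ P.p ∣ m := by
  have hp5 := P.hp5
  have hpodd := P.hp_odd
  have ha₂ : P.freyCurve.a₂ = ((P.b : ℚ) ^ P.p - 1 - (P.a : ℚ) ^ P.p) / 4 := rfl
  have ha₄ : P.freyCurve.a₄ = -((P.a : ℚ) ^ P.p) * ((P.b : ℚ) ^ P.p) / 16 := rfl
  have h2b : (2 : ℤ) ∣ P.b := (ZMod.intCast_zmod_eq_zero_iff_dvd P.b 2).1 P.hb2
  have h2a : ¬ (2 : ℤ) ∣ P.a := by
    intro h
    have h1 : (2 : ℤ) ∣ gcd P.a P.b := dvd_gcd h h2b
    rw [P.hgcdab] at h1
    exact Int.prime_two.not_dvd_one h1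
  -- `b = 2 ^ k * b'` with `b'` odd
  have hfin : FiniteMultiplicity (2 : ℤ) P.b := Int.finiteMultiplicity_iff.mpr ⟨by decide, P.hb0⟩
  obtain ⟨b', hb', h2b'⟩ := hfin.exists_eq_pow_mul_and_not_dvd
  set k := multiplicity (2 : ℤ) P.b with hk
  have hk1 : 1 ≤ k := by
    rcases Nat.eq_zero_or_pos k with h0 | h0
    · exfalso
      rw [h0, pow_zero, one_mul] at hb'
      exact h2b' (hb' ▸ h2b)
    · exact h0
  have hkp : 5 ≤ k * P.p := by nlinarith
  -- `4 ∣ b ^ p - 1 - a ^ p`
  have h4 : (4 : ℤ) ∣ P.b ^ P.p - 1 - P.a ^ P.p := by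
    apply (ZMod.intCast_zmod_eq_zero_iff_dvd _ 4).1
    push_cast
    rw [P.ha4]
    have hb4 : ((P.b : ZMod 4)) ^ P.p = 0 := by
      obtain ⟨t, ht⟩ := h2b
      have h5 : (4 : ℤ) ∣ P.b ^ P.p := by
        rw [ht, mul_pow]
        have h6 : (4 : ℤ) ∣ 2 ^ P.p := by
          have : (2 : ℤ) ^ P.p = 4 * 2 ^ (P.p - 2) := by
            rw [show (4 : ℤ) = 2 ^ 2 by norm_num, ← pow_add]
            congr 1
            omega
          rw [this]
          exact dvd_mul_right _ _
        exact dvd_mul_of_dvd_left h6 _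
      have h7 := (ZMod.intCast_zmod_eq_zero_iff_dvd (P.b ^ P.p) 4).2 h5
      push_cast at h7
      exact h7
    have h3 : ((3 : ZMod 4)) ^ P.p = -1 := by
      rw [show (3 : ZMod 4) = -1 by decide, hpodd.neg_one_pow]
    rw [hb4, h3]
    decide
  obtain ⟨A₂, hA₂⟩ := h4
  refine ⟨A₂, -(P.a ^ P.p * b' ^ P.p), k * P.p - 4, ?_, ?_, ?_, by omega, ?_⟩
  · rw [ha₂]
    have h8 : ((P.b : ℚ) ^ P.p - 1 - (P.a : ℚ) ^ P.p) = 4 * (A₂ : ℚ) := by
      exact_mod_cast hA₂
    rw [h8]
    ring
  · rw [ha₄]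
    have h9 : (P.b : ℚ) = 2 ^ k * (b' : ℚ) := by exact_mod_cast hb'
    have h10 : (2 : ℚ) ^ (k * P.p) = 2 ^ (k * P.p - 4) * 16 := by
      rw [show (16 : ℚ) = 2 ^ 4 by norm_num, ← pow_add]
      congr 1
      omega
    rw [h9, mul_pow, ← pow_mul, h10]
    push_cast
    ring
  · intro h
    rw [dvd_neg] at h
    rcases Int.prime_two.dvd_or_dvd h with h | h
    · exact h2a (Int.prime_two.dvd_of_dvd_pow h)
    · exact h2b' (Int.prime_two.dvd_of_dvd_pow h)
  · intro h
    have h11 : P.p ∣ k * P.p - (k * P.p - 4) := Nat.dvd_sub (Dvd.intro_left k rfl) h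
    have h12 : k * P.p - (k * P.p - 4) = 4 := by omega
    rw [h12] at h11
    have := Nat.le_of_dvd (by norm_num) h11
    omega

/-! ## (g3), (g4) rational numbers at a place over `2` -/

/-- valuation of a nonzero integer at a place over `2` -/
theorem twog_valuation_int (A : ValuationSubring (AlgebraicClosure ℚ)) (hA : A.LiesOverPrime 2)
    (n : ℤ) (hn : n ≠ 0) :
    ∃ k : ℕ, A.valuation (n : AlgebraicClosure ℚ) = A.valuation (2 : AlgebraicClosure ℚ) ^ k := by
  have hfin : FiniteMultiplicity (2 : ℤ) n := Int.finiteMultiplicity_iff.mpr ⟨by decide, hn⟩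
  obtain ⟨c, hc, h2c⟩ := hfin.exists_eq_pow_mul_and_not_dvd
  refine ⟨multiplicity (2 : ℤ) n, ?_⟩
  have hA' : ((2 : ℕ) : AlgebraicClosure ℚ) ∈ A.nonunits := hA
  have h1 : A.valuation (c : AlgebraicClosure ℚ) = 1 :=
    valuation_intCast_eq_one A Nat.prime_two hA' (by exact_mod_cast h2c)
  have h2 : (n : AlgebraicClosure ℚ) =
      (2 : AlgebraicClosure ℚ) ^ multiplicity (2 : ℤ) n * (c : AlgebraicClosure ℚ) := by
    conv_lhs => rw [hc]
    push_cast
    ring
  rw [h2, map_mul, map_pow, h1, mul_one]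

/-- a rational number as a quotient in `ℚ̄` -/
theorem twog_algebraMap_rat (r : ℚ) :
    algebraMap ℚ (AlgebraicClosure ℚ) r =
      (r.num : AlgebraicClosure ℚ) / (r.den : AlgebraicClosure ℚ) := by
  conv_lhs => rw [← Rat.num_div_den r]
  simp

/-- (g3) rational numbers in a valuation subring over `2`: valuation is a power of `v 2` -/
theorem two_valuation_rat (A : ValuationSubring (AlgebraicClosure ℚ)) (hA : A.LiesOverPrime 2)
    (r : ℚ) (hr : r ≠ 0) :
    ∃ k : ℤ, A.valuation (algebraMap ℚ (AlgebraicClosure ℚ) r) =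
      A.valuation (2 : AlgebraicClosure ℚ) ^ k := by
  obtain ⟨k₁, hk₁⟩ := twog_valuation_int A hA r.num (Rat.num_ne_zero.mpr hr)
  obtain ⟨k₂, hk₂⟩ := twog_valuation_int A hA (r.den : ℤ) (by exact_mod_cast r.den_ne_zero)
  have h20 : A.valuation (2 : AlgebraicClosure ℚ) ≠ 0 :=
    (A.valuation.ne_zero_iff).mpr two_ne_zero
  refine ⟨(k₁ : ℤ) - (k₂ : ℤ), ?_⟩
  rw [twog_algebraMap_rat, map_div₀, hk₁]
  have h3 : A.valuation ((r.den : ℕ) : AlgebraicClosure ℚ) =
      A.valuation (2 : AlgebraicClosure ℚ) ^ k₂ := by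
    rw [← hk₂]
    push_cast
    rfl
  rw [h3, zpow_sub₀ h20, zpow_natCast, zpow_natCast]

/-- (g4) the residue field of `ℚ` at `2` has two elements -/
theorem two_residue_rat (A : ValuationSubring (AlgebraicClosure ℚ)) (hA : A.LiesOverPrime 2)
    (r : ℚ) (hr : A.valuation (algebraMap ℚ (AlgebraicClosure ℚ) r) ≤ 1) :
    A.valuation (algebraMap ℚ (AlgebraicClosure ℚ) r) < 1 ∨
      A.valuation (algebraMap ℚ (AlgebraicClosure ℚ) r - 1) < 1 := by
  have hA' : ((2 : ℕ) : AlgebraicClosure ℚ) ∈ A.nonunits := hA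
  have hden0 : ((r.den : ℕ) : AlgebraicClosure ℚ) ≠ 0 := by exact_mod_cast r.den_ne_zero
  have hcop : Nat.Coprime r.num.natAbs r.den := r.reduced
  rw [twog_algebraMap_rat] at hr ⊢
  by_cases hd : (2 : ℤ) ∣ (r.den : ℤ)
  · -- even denominator: impossible
    exfalso
    have hn : ¬ (2 : ℤ) ∣ r.num := by
      intro hn
      have h1 : 2 ∣ r.num.natAbs := by
        have := Int.natAbs_dvd_natAbs.mpr hn
        simpa using this
      have h2 : 2 ∣ r.den := by exact_mod_cast hd
      have h3 : 2 ∣ Nat.gcd r.num.natAbs r.den := Nat.dvd_gcd h1 h2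
      rw [hcop] at h3
      exact absurd h3 (by norm_num)
    have hvn : A.valuation (r.num : AlgebraicClosure ℚ) = 1 :=
      valuation_intCast_eq_one A Nat.prime_two hA' (by exact_mod_cast hn)
    have hvd : A.valuation ((r.den : ℤ) : AlgebraicClosure ℚ) < 1 :=
      valuation_intCast_lt_one A hA' (by exact_mod_cast hd)
    have hvd' : A.valuation ((r.den : ℕ) : AlgebraicClosure ℚ) < 1 := by
      have : (((r.den : ℕ) : ℤ) : AlgebraicClosure ℚ) = ((r.den : ℕ) : AlgebraicClosure ℚ) := by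
        push_cast
        rfl
      rwa [this] at hvd
    rw [map_div₀, hvn, div_le_one₀ (zero_lt_iff.mpr ((A.valuation.ne_zero_iff).mpr hden0))] at hr
    exact absurd hvd' (not_lt.mpr hr)
  · have hvd : A.valuation ((r.den : ℤ) : AlgebraicClosure ℚ) = 1 :=
      valuation_intCast_eq_one A Nat.prime_two hA' (by exact_mod_cast hd)
    have hvd' : A.valuation ((r.den : ℕ) : AlgebraicClosure ℚ) = 1 := by
      have : (((r.den : ℕ) : ℤ) : AlgebraicClosure ℚ) = ((r.den : ℕ) : AlgebraicClosure ℚ) := by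
        push_cast
        rfl
      rwa [this] at hvd
    by_cases hn : (2 : ℤ) ∣ r.num
    · left
      rw [map_div₀, hvd', div_one]
      exact valuation_intCast_lt_one A hA' (by exact_mod_cast hn)
    · right
      have h5 : (r.num : AlgebraicClosure ℚ) / ((r.den : ℕ) : AlgebraicClosure ℚ) - 1 =
          ((r.num - (r.den : ℤ) : ℤ) : AlgebraicClosure ℚ) / ((r.den : ℕ) : AlgebraicClosure ℚ) := by
        push_cast
        field_simp
      rw [h5, map_div₀, hvd', div_one]
      refine valuation_intCast_lt_one A hA' ?_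
      have h6 : (2 : ℤ) ∣ r.num - (r.den : ℤ) := by omega
      exact_mod_cast h6

/-! ## (g5) Galois-fixed points are rational -/

/-- `ℚ̄ / ℚ` is Galois, for the rational-algebra structure of a characteristic-zero field. -/
theorem twog_isGalois : @IsGalois ℚ _ (AlgebraicClosure ℚ) _ DivisionRing.toRatAlgebra := by
  have h : (DivisionRing.toRatAlgebra : Algebra ℚ (AlgebraicClosure ℚ)) =
      AlgebraicClosure.instAlgebra ℚ := Subsingleton.elim _ _
  rw [h]
  infer_instance

/-- (g5) a point fixed by the whole Galois group has rational coordinates -/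
theorem two_rational_of_fixed (W : Affine ℚ) (x y : AlgebraicClosure ℚ)
    (h : (W⁄(AlgebraicClosure ℚ)).Nonsingular x y)
    (hfix : ∀ σ : AlgebraicClosure ℚ ≃ₐ[ℚ] AlgebraicClosure ℚ,
      σ • (Point.some x y h : (W⁄(AlgebraicClosure ℚ)).Point) = Point.some x y h) :
    (∃ r : ℚ, x = algebraMap ℚ (AlgebraicClosure ℚ) r) ∧
      ∃ s : ℚ, y = algebraMap ℚ (AlgebraicClosure ℚ) s := by
  have hxy : ∀ σ : AlgebraicClosure ℚ ≃ₐ[ℚ] AlgebraicClosure ℚ, σ x = x ∧ σ y = y := by
    intro σ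
    have h1 := hfix σ
    rw [Point.algEquiv_smul_def, Point.map_some] at h1
    have h2 := Point.some.inj h1
    exact ⟨h2.1, h2.2⟩
  have hGal := twog_isGalois
  constructor
  · obtain ⟨r, hr⟩ := (InfiniteGalois.mem_range_algebraMap_iff_fixed (k := ℚ) x).mpr
      (fun σ => (hxy σ).1)
    exact ⟨r, hr.symm⟩
  · obtain ⟨s, hs⟩ := (InfiniteGalois.mem_range_algebraMap_iff_fixed (k := ℚ) y).mpr
      (fun σ => (hxy σ).2)
    exact ⟨s, hs.symm⟩

end Fermat.Agent.S13
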