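import Fermat.Agent.S13.TwoDefs

/-!
# S13, package D (node at the prime 2): component bookkeeping

Port of the nodal analysis of `Fermat/Agent/S05/Core.lean` to residue characteristic `2`, on the
model `Y² = x³ + (A + 1/4) x² + C x` (`A` integral, `C` a nonzero nonunit, `v 2 < 1`).
The slope `ρ = Y / x` is no longer integral, but `ρ - 1/2` is, and `2 ρ` is a unit.
-/

set_option autoImplicit false

namespace Fermat.Agent.S13

open WeierstrassCurve WeierstrassCurve.Affine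
open Fermat.Agent.S05

variable {K : Type*} [Field K] [DecidableEq K] {Γ₀ : Type*} [LinearOrderedCommGroupWithZero Γ₀]
  {v : Valuation K Γ₀} {W : Affine K}

/-! ### Elementary facts -/

omit [DecidableEq K] in
theorem TwoModel.h4ne (hW : TwoModel v W) : (4 : K) ≠ 0 := by
  have : (4 : K) = 2 * 2 := by norm_num
  rw [this]
  exact mul_ne_zero hW.h2ne hW.h2ne

omit [DecidableEq K] in
theorem TwoModel.h4 (hW : TwoModel v W) : v (4 : K) < 1 := by
  have : (4 : K) = 2 * 2 := by norm_num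
  rw [this]
  exact v_mul_lt_one_of_lt_of_le v hW.h2 hW.h2.le

omit [DecidableEq K] in
/-- `4 a₂` is a unit. -/
theorem TwoModel.v_four_mul_a₂ (hW : TwoModel v W) : v (4 * W.a₂) = 1 := by
  have h4 := hW.h4ne
  have e : 4 * W.a₂ = 4 * (W.a₂ - 1 / 4) + 1 := by
    field_simp
    ring
  rw [e]
  exact v_add_eq_one_of_lt_of_eq v (v_mul_lt_one_of_lt_of_le v hW.h4 hW.hA) (map_one v)

omit [DecidableEq K] in
theorem two_int_of_sq_add {t : K} (h : v (t ^ 2 + t) ≤ 1) : v t ≤ 1 := by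
  by_contra hc
  have hc' : 1 < v t := not_le.mp hc
  have h0 : 0 < v t := lt_trans zero_lt_one hc'
  have hlt : v t < v (t ^ 2) := by
    rw [map_pow, pow_two]
    calc v t = v t * 1 := (mul_one _).symm
      _ < v t * v t := mul_lt_mul_of_pos_left hc' h0
  rw [v.map_add_eq_of_lt_left hlt] at h
  exact absurd (lt_trans hc' hlt) (not_lt.mpr h)

omit [DecidableEq K] in
/-- the shifted slope `Y / x - 1/2` is integral at integral points which are not too deep -/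
theorem two_slope_int (hW : TwoModel v W) {x y : K} (hx0 : x ≠ 0)
    (hE : y ^ 2 = x ^ 3 + W.a₂ * x ^ 2 + W.a₄ * x) (hx : v x ≤ 1) (hCx : v W.a₄ ≤ v x) :
    v (y / x - 1 / 2) ≤ 1 := by
  have h2 := hW.h2ne
  have h4 := hW.h4ne
  apply two_int_of_sq_add
  have key : (y / x - 1 / 2) ^ 2 + (y / x - 1 / 2) = x + (W.a₂ - 1 / 4) + W.a₄ / x := by
    have h := rho_sq hx0 hE
    have e : (y / x - 1 / 2) ^ 2 + (y / x - 1 / 2) = (y / x) ^ 2 - 1 / 4 := by
      field_simp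
      ring
    rw [e, h]
    ring
  rw [key]
  exact v.map_add_le (v.map_add_le hx hW.hA) ((v_div_le_one_iff v hx0).mpr hCx)

omit [DecidableEq K] in
/-- `2 ρ` is a unit when `ρ - 1/2` is integral -/
theorem two_two_rho (hW : TwoModel v W) {r : K} (ht : v (r - 1 / 2) ≤ 1) : v (2 * r) = 1 := by
  have h2 := hW.h2ne
  have e : 2 * r = 2 * (r - 1 / 2) + 1 := by
    field_simp
    ring
  rw [e]
  exact v_add_eq_one_of_lt_of_eq v (v_mul_lt_one_of_lt_of_le v hW.h2 ht) (map_one v)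

omit [DecidableEq K] in
/-- If `ρ₁² - ρ₂²` is a unit and `ρ₁ - 1/2, ρ₂ - 1/2` are integral then `ρ₁ ± ρ₂` are units. -/
theorem two_rho_add_unit (hW : TwoModel v W) {x₁ y₁ x₂ y₂ : K} (hx₁ : x₁ ≠ 0) (hx₂ : x₂ ≠ 0)
    (hE₁ : y₁ ^ 2 = x₁ ^ 3 + W.a₂ * x₁ ^ 2 + W.a₄ * x₁)
    (hE₂ : y₂ ^ 2 = x₂ ^ 3 + W.a₂ * x₂ ^ 2 + W.a₄ * x₂)
    (ht₁ : v (y₁ / x₁ - 1 / 2) ≤ 1) (ht₂ : v (y₂ / x₂ - 1 / 2) ≤ 1)
    (hu : v (x₁ - x₂ + W.a₄ / x₁ - W.a₄ / x₂) = 1) :
    v (y₁ / x₁ + y₂ / x₂) = 1 ∧ v (y₁ / x₁ - y₂ / x₂) = 1 := by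
  have h2 := hW.h2ne
  have hprod : (y₁ / x₁ + y₂ / x₂) * (y₁ / x₁ - y₂ / x₂) =
      x₁ - x₂ + W.a₄ / x₁ - W.a₄ / x₂ := by
    linear_combination rho_sq hx₁ hE₁ - rho_sq hx₂ hE₂
  have hadd : v (y₁ / x₁ + y₂ / x₂) ≤ 1 := by
    have e : y₁ / x₁ + y₂ / x₂ = (y₁ / x₁ - 1 / 2) + (y₂ / x₂ - 1 / 2) + 1 := by
      field_simp
      ring
    rw [e]
    exact v.map_add_le (v.map_add_le ht₁ ht₂) (by rw [map_one])
  have hsub : v (y₁ / x₁ - y₂ / x₂) ≤ 1 := by
    have e : y₁ / x₁ - y₂ / x₂ = (y₁ / x₁ - 1 / 2) - (y₂ / x₂ - 1 / 2) := by ring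
    rw [e]
    exact v.map_sub_le ht₁ ht₂
  exact v_eq_one_of_mul_eq_one v hadd hsub (by rw [hprod]; exact hu)

/-! ### The step lemma -/

theorem two_node_step (hW : TwoModel v W)
    {x y : K} (hT : W.Nonsingular x y) (hx1 : v x < 1) (hxC : v W.a₄ < v x)
    (P : W.Point) (γ : Γ₀) (hP : InClass v W (y / x) P γ)
    (hint : ∀ (x' y' : K) (h' : W.Nonsingular x' y'),
      P + Point.some x y hT = Point.some x' y' h' → v x' ≤ 1)
    (hmid : ∀ (x' y' : K) (h' : W.Nonsingular x' y'),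
      P + Point.some x y hT = Point.some x' y' h' → v x' ≤ v W.a₄ → v x' = v W.a₄) :
    InClass v W (y / x) (P + Point.some x y hT) (γ * v x) ∨
      InClass v W (y / x) (P + Point.some x y hT) (γ * v x / v W.a₄ ^ 2) := by
  have h₁ := hW.h₁
  have h₃ := hW.h₃
  have h₆ := hW.h₆
  have hC0 := hW.hC0
  have hC := hW.hC
  have hN0 : 0 < v W.a₄ := v_pos v hC0
  have hx0 : x ≠ 0 := by
    rintro rfl; rw [map_zero] at hxC; exact absurd hxC (not_lt.mpr zero_le)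
  have ht0 : 0 < v x := v_pos v hx0
  have hE := special_equation W h₁ h₃ h₆ hT.1
  have ht : v (y / x - 1 / 2) ≤ 1 := two_slope_int hW hx0 hE hx1.le hxC.le
  have h2ρ : v (2 * (y / x)) = 1 := two_two_rho hW ht
  rcases hP with ⟨rfl, hP⟩ | ⟨hγ1, hγ2, x₁, y₁, hP₁, rfl, hx₁, hρ₁⟩ |
    ⟨hγ1, hγ2, x₁, y₁, hP₁, rfl, hx₁, hρ₁⟩ | ⟨rfl, x₁, y₁, hP₁, rfl, hx₁⟩
  · -- unit class
    left
    rw [one_mul]
    rcases hP with rfl | ⟨x₁, y₁, hP₁, rfl, hx₁⟩
    · rw [zero_add]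
      exact Or.inr (Or.inl ⟨hxC, hx1, x, y, hT, rfl, rfl, by simp⟩)
    · have hx₁0 : x₁ ≠ 0 := by
        rintro rfl; rw [map_zero] at hx₁; exact zero_ne_one hx₁
      have hE₁ := special_equation W h₁ h₃ h₆ hP₁.1
      have hne : x₁ ≠ x := by
        rintro rfl; rw [hx₁] at hx1; exact lt_irrefl _ hx1
      obtain ⟨x₃, y₃, ℓ, β, hP₃, hadd, hch, -⟩ :=
        exists_chord W h₁ h₃ h₆ hP₁ hT (fun h => hne h.1)
      have ht₁ : v (y₁ / x₁ - 1 / 2) ≤ 1 :=
        two_slope_int hW hx₁0 hE₁ hx₁.le (by rw [hx₁]; exact hC.le)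
      have hCx₁ : v (W.a₄ / x₁) < 1 := by rw [map_div₀, hx₁, div_one]; exact hC
      have hCx : v (W.a₄ / x) < 1 := (v_div_lt_one_iff v hx0).mpr hxC
      have hu : v (x₁ - x + W.a₄ / x₁ - W.a₄ / x) = 1 :=
        v_sub_eq_one_of_eq_of_lt v
          (v_add_eq_one_of_eq_of_lt v (v_sub_eq_one_of_eq_of_lt v hx₁ hx1) hCx₁) hCx
      have hs := (two_rho_add_unit hW hx₁0 hx0 hE₁ hE ht₁ ht hu).1
      have hv12 : v (x₁ * x) = v x := by rw [map_mul, hx₁, one_mul]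
      obtain ⟨hx₃, hside⟩ := hch.U1 v hx₁0 hx0 hE₁ hE hs (by rw [hv12]; exact hxC)
        (by rw [hx₁]; exact hC) hx1
      rw [hadd]
      exact Or.inr (Or.inl ⟨hxC, hx1, x₃, y₃, hP₃, rfl, by rw [hx₃, hv12], hside⟩)
  · -- plus class
    have hx₁0 : x₁ ≠ 0 := by
      rintro rfl; rw [map_zero] at hx₁; rw [← hx₁] at hγ1
      exact absurd hγ1 (not_lt.mpr zero_le)
    have hE₁ := special_equation W h₁ h₃ h₆ hP₁.1
    have hs : v (y₁ / x₁ + y / x) = 1 := by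
      have : y₁ / x₁ + y / x = (y₁ / x₁ - y / x) + 2 * (y / x) := by ring
      rw [this]; exact v_add_eq_one_of_lt_of_eq v hρ₁ h2ρ
    have hninv : ¬(x₁ = x ∧ y₁ = -y) := by
      rintro ⟨rfl, rfl⟩
      rw [neg_div, neg_add_cancel, map_zero] at hs
      exact zero_ne_one hs
    obtain ⟨x₃, y₃, ℓ, β, hP₃, hadd, hch, -⟩ := exists_chord W h₁ h₃ h₆ hP₁ hT hninv
    have hv12 : v (x₁ * x) = γ * v x := by rw [map_mul, hx₁]
    rw [hadd]
    rcases lt_trichotomy (v W.a₄) (γ * v x) with hlt | heq | hgt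
    · left
      obtain ⟨hx₃, hside⟩ := hch.U1 v hx₁0 hx0 hE₁ hE hs (by rw [hv12]; exact hlt)
        (by rw [hx₁]; exact hγ1) hx1
      exact Or.inr (Or.inl ⟨hlt, mul_lt_one_of_lt_of_le hγ2 hx1.le, x₃, y₃, hP₃, rfl,
        by rw [hx₃, hv12], hside⟩)
    · left
      have hx₃ := hch.U3 v hx₁0 hx0 hs (by rw [hv12]; exact heq.symm)
      have hx₃' := hmid x₃ y₃ hP₃ hadd hx₃
      exact Or.inr (Or.inr (Or.inr ⟨heq.symm, x₃, y₃, hP₃, rfl, hx₃'⟩))
    · right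
      obtain ⟨hx₃, hside⟩ := hch.U2 v hx₁0 hx0 hC0 hs (by rw [hv12]; exact hgt) hxC
      have hγ0 : 0 < γ := lt_trans hN0 hγ1
      have hγt0 : 0 < γ * v x := mul_pos hγ0 ht0
      have hNN : v W.a₄ ^ 2 < γ * v x := by
        rw [pow_two]; exact mul_lt_mul'' hγ1 hxC zero_le zero_le
      refine Or.inr (Or.inr (Or.inl ⟨?_, ?_, x₃, y₃, hP₃, rfl, ?_, hside⟩))
      · exact (one_lt_div₀ (pow_pos hN0 2)).mpr hNN
      · rw [inv_div, lt_div_iff₀ hγt0, pow_two]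
        exact mul_lt_mul_of_pos_left hgt hN0
      · rw [hx₃, hv12, inv_div]
  · -- minus class
    have hγ0 : 0 < γ := lt_trans zero_lt_one hγ1
    have hx₁0 : x₁ ≠ 0 := by
      rintro rfl; rw [map_zero] at hx₁
      exact (inv_ne_zero hγ0.ne') hx₁.symm
    have hE₁ := special_equation W h₁ h₃ h₆ hP₁.1
    have hx₁1 : v x₁ < 1 := by rw [hx₁]; exact inv_lt_one_of_one_lt₀ hγ1
    by_cases hinv : x₁ = x ∧ y₁ = -y
    · left
      obtain ⟨rfl, rfl⟩ := hinv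
      have h0 : Point.some x₁ (-y) hP₁ + Point.some x₁ y hT = 0 :=
        Point.add_of_Y_eq rfl (by rw [special_negY W h₁ h₃])
      rw [h0, hx₁, mul_inv_cancel₀ hγ0.ne']
      exact Or.inl ⟨rfl, Or.inl rfl⟩
    · obtain ⟨x₃, y₃, ℓ, β, hP₃, hadd, hch, hcase⟩ := exists_chord W h₁ h₃ h₆ hP₁ hT hinv
      have hd : v (y / x - y₁ / x₁) = 1 := by
        have : y / x - y₁ / x₁ = 2 * (y / x) - (y₁ / x₁ + y / x) := by ring
        rw [this]; exact v_sub_eq_one_of_eq_of_lt v h2ρ hρ₁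
      have hne : x₁ ≠ x := by
        rcases hcase with ⟨hne, -⟩ | ⟨rfl, rfl, -, -⟩
        · exact hne
        · exfalso
          rw [sub_self, map_zero] at hd
          exact zero_ne_one hd
      rw [hadd]
      left
      rcases lt_trichotomy (v x₁) (v x) with hlt | heq | hgt
      · obtain ⟨hx₃, hside⟩ := hch.O1 v hx₁0 hx0 hd hlt hx1
        have h1 : 1 < γ * v x := by
          rw [hx₁] at hlt
          have := mul_lt_mul_of_pos_left hlt hγ0
          rwa [mul_inv_cancel₀ hγ0.ne'] at this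
        refine Or.inr (Or.inr (Or.inl ⟨h1, ?_, x₃, y₃, hP₃, rfl, ?_, hside⟩))
        · rw [mul_inv]
          calc v W.a₄ < γ⁻¹ := hγ2
            _ = γ⁻¹ * 1 := (mul_one _).symm
            _ ≤ γ⁻¹ * (v x)⁻¹ := mul_le_mul_right (one_le_inv₀ ht0 |>.mpr hx1.le) _
        · rw [hx₃, hx₁, mul_inv, div_eq_mul_inv]
      · have hx₃ := hch.O3 v hx₁0 hx0 hne hd heq
        have hx₃' := hint x₃ y₃ hP₃ hadd
        have h1 : γ * v x = 1 := by rw [← heq, hx₁, mul_inv_cancel₀ hγ0.ne']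
        rw [h1]
        exact Or.inl ⟨rfl, Or.inr ⟨x₃, y₃, hP₃, rfl, le_antisymm hx₃' hx₃⟩⟩
      · have hd' : v (y₁ / x₁ - y / x) = 1 := by rw [v.map_sub_swap]; exact hd
        obtain ⟨hx₃, hside⟩ := hch.symm.O1 v hx0 hx₁0 hd' hgt hx₁1
        have hside' : v (y₃ / x₃ - y / x) < 1 := by
          have : y₃ / x₃ - y / x = (y₃ / x₃ + y₁ / x₁) - (y₁ / x₁ + y / x) := by ring
          rw [this]; exact v.map_sub_lt hside hρ₁
        have h1 : γ * v x < 1 := by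
          rw [hx₁] at hgt
          have := mul_lt_mul_of_pos_left hgt hγ0
          rwa [mul_inv_cancel₀ hγ0.ne'] at this
        refine Or.inr (Or.inl ⟨?_, h1, x₃, y₃, hP₃, rfl, ?_, hside'⟩)
        · calc v W.a₄ < v x := hxC
            _ = 1 * v x := (one_mul _).symm
            _ ≤ γ * v x := mul_le_mul_left hγ1.le _
        · rw [hx₃, hx₁, div_inv_eq_mul, mul_comm]
  · -- middle class
    right
    have hx₁0 : x₁ ≠ 0 := by
      rintro rfl; rw [map_zero] at hx₁; exact hN0.ne' hx₁.symm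
    have hE₁ := special_equation W h₁ h₃ h₆ hP₁.1
    have hne : x₁ ≠ x := by
      rintro rfl; rw [hx₁] at hxC; exact lt_irrefl _ hxC
    obtain ⟨x₃, y₃, ℓ, β, hP₃, hadd, hch, -⟩ :=
      exists_chord W h₁ h₃ h₆ hP₁ hT (fun h => hne h.1)
    have hx₁1 : v x₁ < 1 := by rw [hx₁]; exact hC
    have hCx₁ : v (W.a₄ / x₁) = 1 := (v_div_eq_one_iff v hx₁0).mpr hx₁.symm
    have hCx : v (W.a₄ / x) < 1 := (v_div_lt_one_iff v hx0).mpr hxC
    have ht₁ : v (y₁ / x₁ - 1 / 2) ≤ 1 :=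
      two_slope_int hW hx₁0 hE₁ hx₁1.le (by rw [hx₁])
    have hu : v (x₁ - x + W.a₄ / x₁ - W.a₄ / x) = 1 :=
      v_sub_eq_one_of_eq_of_lt v
        (v_add_eq_one_of_lt_of_eq v (v.map_sub_lt hx₁1 hx1) hCx₁) hCx
    have hs := (two_rho_add_unit hW hx₁0 hx0 hE₁ hE ht₁ ht hu).1
    have hv12 : v (x₁ * x) = v W.a₄ * v x := by rw [map_mul, hx₁]
    have hlt : v (x₁ * x) < v W.a₄ := by
      rw [hv12]
      calc v W.a₄ * v x < v W.a₄ * 1 := mul_lt_mul_of_pos_left hx1 hN0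
        _ = v W.a₄ := mul_one _
    obtain ⟨hx₃, hside⟩ := hch.U2 v hx₁0 hx0 hC0 hs hlt hxC
    rw [hadd]
    have hNt0 : 0 < v W.a₄ * v x := mul_pos hN0 ht0
    refine Or.inr (Or.inr (Or.inl ⟨?_, ?_, x₃, y₃, hP₃, rfl, ?_, hside⟩))
    · rw [one_lt_div₀ (pow_pos hN0 2), pow_two]
      exact mul_lt_mul_of_pos_left hxC hN0
    · rw [inv_div, lt_div_iff₀ hNt0, pow_two]
      exact mul_lt_mul_of_pos_left (by rw [← hv12]; exact hlt) hN0
    · rw [hx₃, hv12, inv_div]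

/-! ### Doubling -/

omit [DecidableEq K] in
theorem two_four_y_sq {x y : K} (hE : y ^ 2 = x ^ 3 + W.a₂ * x ^ 2 + W.a₄ * x) :
    4 * y ^ 2 = x * (4 * x ^ 2 + 4 * W.a₂ * x + 4 * W.a₄) := by
  rw [hE]
  ring

omit [DecidableEq K] in
/-- `v (4 Y²) = v x` at integral points with `v x = 1` -/
theorem two_four_y_sq_unit (hW : TwoModel v W) {x y : K}
    (hE : y ^ 2 = x ^ 3 + W.a₂ * x ^ 2 + W.a₄ * x) (hx : v x = 1) : v (4 * y ^ 2) = 1 := by
  rw [two_four_y_sq hE, map_mul, hx, one_mul]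
  have h1 : v (4 * x ^ 2) < 1 := by
    rw [map_mul, map_pow, hx, one_pow, mul_one]
    exact hW.h4
  have h2 : v (4 * W.a₂ * x) = 1 := by rw [map_mul, hW.v_four_mul_a₂, hx, one_mul]
  have h3 : v (4 * W.a₄) < 1 := v_mul_lt_one_of_lt_of_le v hW.h4 hW.hC.le
  exact v_add_eq_one_of_eq_of_lt v (v_add_eq_one_of_lt_of_eq v h1 h2) h3

omit [DecidableEq K] in
/-- `v (4 Y²) ≤ v x` at integral points -/
theorem two_four_y_sq_le (hW : TwoModel v W) {x y : K}
    (hE : y ^ 2 = x ^ 3 + W.a₂ * x ^ 2 + W.a₄ * x) (hx : v x ≤ 1) : v (4 * y ^ 2) ≤ v x := by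
  rw [two_four_y_sq hE, map_mul]
  have h1 : v (4 * x ^ 2) ≤ 1 := by
    rw [map_mul, map_pow]
    exact mul_le_one' hW.h4.le (pow_le_one' hx 2)
  have h2 : v (4 * W.a₂ * x) ≤ 1 := by
    rw [map_mul, hW.v_four_mul_a₂, one_mul]
    exact hx
  have h3 : v (4 * W.a₄) ≤ 1 := (v_mul_lt_one_of_lt_of_le v hW.h4 hW.hC.le).le
  calc v x * v (4 * x ^ 2 + 4 * W.a₂ * x + 4 * W.a₄) ≤ v x * 1 :=
        mul_le_mul_right (v.map_add_le (v.map_add_le h1 h2) h3) _
    _ = v x := mul_one _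

omit [DecidableEq K] in
/-- `v (4 Y²) ≤ v x * v C` at points with `v x ≤ v C` -/
theorem two_four_y_sq_mid (hW : TwoModel v W) {x y : K}
    (hE : y ^ 2 = x ^ 3 + W.a₂ * x ^ 2 + W.a₄ * x) (hx : v x ≤ v W.a₄) :
    v (4 * y ^ 2) ≤ v x * v W.a₄ := by
  rw [two_four_y_sq hE, map_mul]
  have hx1 : v x ≤ 1 := hx.trans hW.hC.le
  have h1 : v (4 * x ^ 2) ≤ v W.a₄ := by
    have e : 4 * x ^ 2 = (4 * x) * x := by ring
    rw [e, map_mul]
    calc v (4 * x) * v x ≤ 1 * v x :=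
          mul_le_mul_left (by rw [map_mul]; exact mul_le_one' hW.h4.le hx1) _
      _ = v x := one_mul _
      _ ≤ v W.a₄ := hx
  have h2 : v (4 * W.a₂ * x) ≤ v W.a₄ := by
    rw [map_mul, hW.v_four_mul_a₂, one_mul]
    exact hx
  have h3 : v (4 * W.a₄) ≤ v W.a₄ := by
    rw [map_mul]
    calc v 4 * v W.a₄ ≤ 1 * v W.a₄ := mul_le_mul_left hW.h4.le _
      _ = v W.a₄ := one_mul _
  exact mul_le_mul_right (v.map_add_le (v.map_add_le h1 h2) h3) _

/-- a point of odd order whose double vanishes is zero -/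
theorem two_eq_zero_of_double {p : ℕ} (hodd : Odd p) {T : W.Point} (hpT : p • T = 0)
    (h2T : 2 • T = 0) : T = 0 := by
  obtain ⟨m, rfl⟩ := hodd
  rw [add_nsmul, mul_nsmul, h2T, nsmul_zero, zero_add, one_nsmul] at hpT
  exact hpT

/-- the double of an affine point of odd order is an affine point of the same order -/
theorem two_exists_double {p : ℕ} (hodd : Odd p) {x y : K} (hT : W.Nonsingular x y)
    (hpT : p • Point.some x y hT = 0) :
    ∃ (x₂ y₂ : K) (h₂ : W.Nonsingular x₂ y₂), 2 • Point.some x y hT = Point.some x₂ y₂ h₂ ∧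
      p • Point.some x₂ y₂ h₂ = 0 := by
  rcases point_cases (2 • Point.some x y hT) with h0 | ⟨x₂, y₂, h₂, he⟩
  · exact absurd (two_eq_zero_of_double hodd hpT h0) (Point.some_ne_zero hT)
  · refine ⟨x₂, y₂, h₂, he, ?_⟩
    rw [← he, ← mul_nsmul, mul_comm, mul_nsmul, hpT, nsmul_zero]

/-- A point of odd order `p` with `v x ≤ v C` has `v x = v C` (its double would not be
integral otherwise). -/
theorem two_mid_eq (hW : TwoModel v W) {p : ℕ} (hodd : Odd p) (TI : TwoInt v W p)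
    {x y : K} (hQ : W.Nonsingular x y) (hpQ : p • Point.some x y hQ = 0)
    (hle : v x ≤ v W.a₄) : v x = v W.a₄ := by
  have hN0 : 0 < v W.a₄ := v_pos v hW.hC0
  obtain ⟨x₂, y₂, h₂, hdbl, hp₂⟩ := two_exists_double hodd hQ hpQ
  have hE := special_equation W hW.h₁ hW.h₃ hW.h₆ hQ.1
  obtain ⟨ℓ, β, hch, hy0, hl⟩ := exists_chord_double hW.h₁ hW.h₃ hW.h₆ hQ h₂ hdbl
  have hd := congrArg v (hch.dbl_x3 hE hy0 hl)
  rw [map_mul, map_pow] at hd
  have hx₂ : v x₂ ≤ 1 := TI x₂ y₂ h₂ hp₂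
  by_contra hne
  have hlt : v x < v W.a₄ := lt_of_le_of_ne hle hne
  have hxx : v (x ^ 2) < v W.a₄ := by
    rw [map_pow, pow_two]
    calc v x * v x ≤ v W.a₄ * v W.a₄ := mul_le_mul' hle hle
      _ < v W.a₄ * 1 := mul_lt_mul_of_pos_left hW.hC hN0
      _ = v W.a₄ := mul_one _
  rw [v.map_sub_eq_of_lt_right hxx] at hd
  have h4y : v (4 * y ^ 2) < v W.a₄ ^ 2 := by
    have e : v W.a₄ ^ 2 = v W.a₄ * v W.a₄ := pow_two _
    rw [e]
    calc v (4 * y ^ 2) ≤ v x * v W.a₄ := two_four_y_sq_mid hW hE hle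
      _ < v W.a₄ * v W.a₄ := mul_lt_mul_of_pos_right hlt hN0
  have h4y0 : 0 < v (4 * y ^ 2) := v_pos v (mul_ne_zero hW.h4ne (pow_ne_zero 2 hy0))
  have : v W.a₄ ^ 2 ≤ v (4 * y ^ 2) := by
    rw [← hd]
    calc v (4 * y ^ 2) * v x₂ ≤ v (4 * y ^ 2) * 1 := mul_le_mul_right hx₂ _
      _ = v (4 * y ^ 2) := mul_one _
  exact absurd this (not_le.mpr h4y)

/-! ### Multiples of a point in the annulus -/

/-- The classes of all the multiples of a point of odd order in the annulus. -/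
theorem two_node_multiples (hW : TwoModel v W) {p : ℕ} (hodd : Odd p) (TI : TwoInt v W p)
    {x y : K} (hT : W.Nonsingular x y) (hx1 : v x < 1) (hxC : v W.a₄ < v x)
    (hpT : p • Point.some x y hT = 0) (k : ℕ) :
    ∃ j : ℕ, InClass v W (y / x) (k • Point.some x y hT) (v x ^ k / v W.a₄ ^ (2 * j)) := by
  have hN0 : v W.a₄ ≠ 0 := (v.ne_zero_iff).mpr hW.hC0
  induction k with
  | zero =>
    refine ⟨0, ?_⟩
    rw [zero_nsmul]
    exact Or.inl ⟨by simp, Or.inl rfl⟩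
  | succ k ih =>
    obtain ⟨j, hj⟩ := ih
    have hpk : ∀ (x' y' : K) (h' : W.Nonsingular x' y'),
        k • Point.some x y hT + Point.some x y hT = Point.some x' y' h' →
        p • Point.some x' y' h' = 0 := by
      intro x' y' h' he
      rw [← he, ← succ_nsmul, ← mul_nsmul, mul_comm, mul_nsmul, hpT, nsmul_zero]
    have hint : ∀ (x' y' : K) (h' : W.Nonsingular x' y'),
        k • Point.some x y hT + Point.some x y hT = Point.some x' y' h' → v x' ≤ 1 :=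
      fun x' y' h' he => TI x' y' h' (hpk x' y' h' he)
    have hmid : ∀ (x' y' : K) (h' : W.Nonsingular x' y'),
        k • Point.some x y hT + Point.some x y hT = Point.some x' y' h' →
        v x' ≤ v W.a₄ → v x' = v W.a₄ :=
      fun x' y' h' he hle => two_mid_eq hW hodd TI h' (hpk x' y' h' he) hle
    rcases two_node_step hW hT hx1 hxC _ _ hj hint hmid with hcl | hcl
    · refine ⟨j, ?_⟩
      rw [succ_nsmul]
      have : v x ^ (k + 1) / v W.a₄ ^ (2 * j) = v x ^ k / v W.a₄ ^ (2 * j) * v x := by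
        rw [pow_succ]; field_simp
      rw [this]; exact hcl
    · refine ⟨j + 1, ?_⟩
      rw [succ_nsmul]
      have : v x ^ (k + 1) / v W.a₄ ^ (2 * (j + 1)) =
          v x ^ k / v W.a₄ ^ (2 * j) * v x / v W.a₄ ^ 2 := by
        rw [pow_succ, mul_add, pow_add]; field_simp
      rw [this]; exact hcl

/-- The depth of a point of odd order in the annulus is commensurable with that of `C`. -/
theorem two_annulus_depth (hW : TwoModel v W) {p : ℕ} (hodd : Odd p) (TI : TwoInt v W p)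
    {x y : K} (hT : W.Nonsingular x y) (hx1 : v x < 1) (hxC : v W.a₄ < v x)
    (hpT : p • Point.some x y hT = 0) :
    ∃ j : ℕ, v x ^ p = v W.a₄ ^ (2 * j) := by
  obtain ⟨j, hj⟩ := two_node_multiples hW hodd TI hT hx1 hxC hpT p
  rw [hpT] at hj
  have := hj.eq_one_of_zero
  refine ⟨j, ?_⟩
  have hN0 : v W.a₄ ^ (2 * j) ≠ 0 := pow_ne_zero _ ((v.ne_zero_iff).mpr hW.hC0)
  exact (div_eq_one_iff_eq hN0).mp this

/-- Doubling a point of the annulus lands in the maximal ideal. -/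
theorem two_annulus_double (hW : TwoModel v W)
    {x' y' x y : K} (hT' : W.Nonsingular x' y') (hT : W.Nonsingular x y)
    (hdbl : 2 • Point.some x' y' hT' = Point.some x y hT)
    (hx1 : v x' < 1) (hxC : v W.a₄ < v x') :
    v x < 1 ∧ (v x ≤ v W.a₄ → v (x' * x') = v W.a₄) := by
  have hC0 := hW.hC0
  have hN0 : 0 < v W.a₄ := v_pos v hC0
  have hx0 : x' ≠ 0 := by
    rintro rfl; rw [map_zero] at hxC; exact absurd hxC (not_lt.mpr zero_le)
  have hE := special_equation W hW.h₁ hW.h₃ hW.h₆ hT'.1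
  have ht : v (y' / x' - 1 / 2) ≤ 1 := two_slope_int hW hx0 hE hx1.le hxC.le
  obtain ⟨ℓ, β, hch, -, -⟩ := exists_chord_double hW.h₁ hW.h₃ hW.h₆ hT' hT hdbl
  have hs : v (y' / x' + y' / x') = 1 := by
    have : y' / x' + y' / x' = 2 * (y' / x') := by ring
    rw [this]
    exact two_two_rho hW ht
  have hxx1 : v (x' * x') < 1 := v_mul_lt_one_of_lt_of_le v hx1 hx1.le
  rcases lt_trichotomy (v W.a₄) (v (x' * x')) with hlt | heq | hgt
  · obtain ⟨hx₃, -⟩ := hch.U1 v hx0 hx0 hE hE hs hlt hxC hx1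
    rw [hx₃]
    exact ⟨hxx1, fun hle => absurd hle (not_le.mpr hlt)⟩
  · have hx₃ := hch.U3 v hx0 hx0 hs heq.symm
    exact ⟨lt_of_le_of_lt hx₃ (by rw [heq]; exact hxx1), fun _ => heq.symm⟩
  · obtain ⟨hx₃, -⟩ := hch.U2 v hx0 hx0 hC0 hs hgt hxC
    have hxx0 : 0 < v (x' * x') := v_pos v (mul_ne_zero hx0 hx0)
    have hNN : v W.a₄ ^ 2 < v (x' * x') := by
      rw [pow_two, map_mul]; exact mul_lt_mul'' hxC hxC zero_le zero_le
    rw [hx₃]
    refine ⟨(div_lt_one₀ hxx0).mpr hNN, fun hle => ?_⟩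
    exfalso
    rw [div_le_iff₀ hxx0, pow_two] at hle
    have := le_of_mul_le_mul_left hle hN0
    exact absurd this (not_le.mpr hgt)

/-- There are no points of odd order in the "middle" class. -/
theorem two_no_mid_torsion (hW : TwoModel v W) {p : ℕ} (hodd : Odd p) (TI : TwoInt v W p)
    {x y : K} (hT : W.Nonsingular x y) (hpT : p • Point.some x y hT = 0)
    (hle : v x ≤ v W.a₄) : False := by
  have hC0 := hW.hC0
  have hC := hW.hC
  have hN0 : 0 < v W.a₄ := v_pos v hC0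
  obtain ⟨T', h2T', hpT'⟩ := exists_half hodd _ hpT
  rcases point_cases T' with rfl | ⟨x', y', hT', rfl⟩
  · rw [nsmul_zero] at h2T'
    exact Point.some_ne_zero hT h2T'.symm
  have hE' := special_equation W hW.h₁ hW.h₃ hW.h₆ hT'.1
  have hx'le : v x' ≤ 1 := TI x' y' hT' hpT'
  obtain ⟨ℓ, β, hch, hy0, hl⟩ := exists_chord_double hW.h₁ hW.h₃ hW.h₆ hT' hT h2T'
  have hval : v (4 * y' ^ 2) * v x = v (x' ^ 2 - W.a₄) ^ 2 := by
    have := congrArg v (hch.dbl_x3 hE' hy0 hl)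
    rwa [map_mul, map_pow] at this
  have hy0' : 0 < v (4 * y' ^ 2) := v_pos v (mul_ne_zero hW.h4ne (pow_ne_zero 2 hy0))
  have hxlt : v x < 1 := lt_of_le_of_lt hle hC
  have h5 : v (4 * y' ^ 2) * v x < v (4 * y' ^ 2) := by
    calc v (4 * y' ^ 2) * v x < v (4 * y' ^ 2) * 1 := mul_lt_mul_of_pos_left hxlt hy0'
      _ = v (4 * y' ^ 2) := mul_one _
  rw [hval] at h5
  rcases lt_or_eq_of_le hx'le with hx'lt | hx'1
  · rcases lt_or_ge (v W.a₄) (v x') with hann | hmid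
    · -- annulus
      have h3 := (two_annulus_double hW hT' hT h2T' hx'lt hann).2 hle
      obtain ⟨j, hj⟩ := two_annulus_depth hW hodd TI hT' hx'lt hann hpT'
      have h4 : v W.a₄ ^ p = v W.a₄ ^ (4 * j) := by
        calc v W.a₄ ^ p = (v x' * v x') ^ p := by rw [← h3, map_mul]
          _ = (v x' ^ p) ^ 2 := by rw [← pow_two, ← pow_mul, ← pow_mul, mul_comm]
          _ = v W.a₄ ^ (4 * j) := by
            rw [hj, ← pow_mul]; congr 1; ring
      have h5 : p = 4 * j := by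
        rcases lt_trichotomy p (4 * j) with hlt | heq | hgt
        · exact absurd h4 (ne_of_gt (pow_lt_pow_right_of_lt_one₀ hN0 hC hlt))
        · exact heq
        · exact absurd h4 (ne_of_lt (pow_lt_pow_right_of_lt_one₀ hN0 hC hgt))
      obtain ⟨m, hm⟩ := hodd
      omega
    · -- middle
      have hxx : v (x' ^ 2) < v W.a₄ := by
        rw [map_pow, pow_two]
        calc v x' * v x' ≤ v W.a₄ * v W.a₄ := mul_le_mul' hmid hmid
          _ < v W.a₄ * 1 := mul_lt_mul_of_pos_left hC hN0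
          _ = v W.a₄ := mul_one _
      have h3 : v (x' ^ 2 - W.a₄) = v W.a₄ := v.map_sub_eq_of_lt_right hxx
      have h4 : v (4 * y' ^ 2) ≤ v W.a₄ ^ 2 := by
        have e : v W.a₄ ^ 2 = v W.a₄ * v W.a₄ := pow_two _
        rw [e]
        calc v (4 * y' ^ 2) ≤ v x' * v W.a₄ := two_four_y_sq_mid hW hE' hmid
          _ ≤ v W.a₄ * v W.a₄ := mul_le_mul_left hmid _
      rw [h3] at h5
      exact absurd h4 (not_le.mpr h5)
  · -- unit
    have h3 : v (x' ^ 2 - W.a₄) = 1 := by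
      apply v_sub_eq_one_of_eq_of_lt v _ hC
      rw [map_pow, hx'1, one_pow]
    rw [h3, one_pow] at h5
    exact absurd (two_four_y_sq_le hW hE' hx'le |>.trans hx'le) (not_le.mpr h5)

/-- a point of odd order `p` reducing to the node lies in the annulus, and its depth is
commensurable with that of `C`. -/
theorem two_node_depth (hW : TwoModel v W) {p : ℕ} (hodd : Odd p) (TI : TwoInt v W p)
    {x y : K} (hT : W.Nonsingular x y) (hx1 : v x < 1) (hpT : p • Point.some x y hT = 0) :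
    v W.a₄ < v x ∧ ∃ j : ℕ, v x ^ p = v W.a₄ ^ (2 * j) := by
  have hxC : v W.a₄ < v x := by
    by_contra hc
    exact two_no_mid_torsion hW hodd TI hT hpT (not_lt.mp hc)
  exact ⟨hxC, two_annulus_depth hW hodd TI hT hx1 hxC hpT⟩

end Fermat.Agent.S13
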