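import Fermat.Agent.S05.Core

/-!
# S13, package D (node at the prime 2): no "rational" point of order `p` -- abstract core

Model: `W : Y² = x³ + M x² + C x` over a valued field `(K, v)` with `v 2 < 1`, `4 M` a unit,
`C` a nonzero nonunit.  `R` is a subgroup of points ("rational points") such that unit
`x`-coordinates are `≡ 1`, slopes `Y / x` of two unit-`x` points of `R` are congruent up to
sign, and the valuations of the `x`-coordinates lie in `v 2 ^ ℤ`.  If `v C = v 2 ^ m` with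
`p ∤ m` and the points of order `p` in the annulus `v C < v x < 1` satisfy the depth relation
`v x ^ p = v C ^ (2 j)`, then `R` has no point of order `p` (`p ≥ 5` prime).

The file only uses the (landed) chord calculus of `Fermat/Agent/S05`.
-/

set_option autoImplicit false

namespace Fermat.Agent.S13

open WeierstrassCurve WeierstrassCurve.Affine
open Fermat.Agent.S05

variable {K : Type*} [Field K] [DecidableEq K] {Γ₀ : Type*} [LinearOrderedCommGroupWithZero Γ₀]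
  {v : Valuation K Γ₀} {W : Affine K}

/-- arithmetic core of the annulus case: `k p = 2 j m`, `0 < k < m`, `p ∤ m` is impossible. -/
theorem twor_arith {p : ℕ} (hp : p.Prime) (hp5 : 5 ≤ p) (k : ℤ) (j m : ℕ)
    (hk0 : 0 < k) (hkm : k < m) (hpm : ¬ p ∣ m) (h : k * p = 2 * j * m) : False := by
  have hpZ : Prime (p : ℤ) := Nat.prime_iff_prime_int.mp hp
  have hdvd : (p : ℤ) ∣ 2 * j * m := ⟨k, by rw [← h]; ring⟩
  have hp2 : ¬ (p : ℤ) ∣ 2 := by
    intro h2
    have := Int.le_of_dvd (by norm_num) h2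
    omega
  have hpm' : ¬ (p : ℤ) ∣ (m : ℤ) := by
    intro h2; exact hpm (Int.natCast_dvd_natCast.mp h2)
  rcases hpZ.dvd_or_dvd hdvd with h1 | h1
  · rcases hpZ.dvd_or_dvd h1 with h2 | h2
    · exact hp2 h2
    · obtain ⟨j', hj'⟩ := h2
      have hp0 : (p : ℤ) ≠ 0 := by exact_mod_cast hp.ne_zero
      have hk : k = 2 * j' * m := by
        have : k * p = (2 * j' * m) * p := by rw [h, hj']; ring
        exact mul_right_cancel₀ hp0 this
      have hm0 : (0 : ℤ) < m := lt_trans hk0 hkm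
      have hj0 : 0 < j' := by
        by_contra hc
        have hc' : j' ≤ 0 := not_lt.mp hc
        have : 2 * j' * (m : ℤ) ≤ 0 := by nlinarith
        omega
      nlinarith
  · exact hpm' h1

/-- a point killed by `n` and by a prime `p ∤ n` is zero. -/
theorem twor_eq_zero_of_nsmul {p : ℕ} (hp : p.Prime) {n : ℕ} (hn : ¬ p ∣ n) {T : W.Point}
    (hnT : n • T = 0) (hpT : p • T = 0) : T = 0 := by
  have hdvdn : addOrderOf T ∣ n := addOrderOf_dvd_of_nsmul_eq_zero hnT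
  have hdvdp : addOrderOf T ∣ p := addOrderOf_dvd_of_nsmul_eq_zero hpT
  have hcop : Nat.Coprime n p := by
    rw [Nat.coprime_comm]
    exact (Nat.Prime.coprime_iff_not_dvd hp).mpr hn
  exact AddMonoid.addOrderOf_eq_one_iff.mp (Nat.eq_one_of_dvd_coprimes hcop hdvdn hdvdp)

/-- the doubling data of a point with `2 y ≠ 0`. -/
theorem twor_exists_double (h₁ : W.a₁ = 0) (h₃ : W.a₃ = 0) (h₆ : W.a₆ = 0) {x y : K}
    (h : W.Nonsingular x y) (h2y : 2 * y ≠ 0) :
    ∃ (x₂ y₂ : K) (hP₂ : W.Nonsingular x₂ y₂),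
      Point.some x y h + Point.some x y h = Point.some x₂ y₂ hP₂ ∧
      (2 * y) ^ 2 * x₂ = (x ^ 2 - W.a₄) ^ 2 := by
  have hE := special_equation W h₁ h₃ h₆ h.1
  have hy0 : y ≠ 0 := by
    rintro rfl; exact h2y (mul_zero _)
  have hninv : ¬(x = x ∧ y = -y) := by
    rintro ⟨-, hy⟩
    exact h2y (by linear_combination hy)
  obtain ⟨x₂, y₂, ℓ, β, hP₂, hadd, hch, hsl⟩ := exists_chord W h₁ h₃ h₆ h h hninv
  have hl : 2 * y * ℓ = 3 * x ^ 2 + 2 * W.a₂ * x + W.a₄ := by
    rcases hsl with ⟨hne, -⟩ | ⟨-, -, -, hl⟩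
    · exact absurd rfl hne
    · exact hl
  exact ⟨x₂, y₂, hP₂, hadd, by linear_combination hch.dbl_x3 hE hy0 hl⟩

/-- the unit case: a point of order `p` of `R` cannot have a unit `x`-coordinate. -/
theorem twor_unit (h₁ : W.a₁ = 0) (h₃ : W.a₃ = 0) (h₆ : W.a₆ = 0)
    (h2 : v (2 : K) < 1) (h4M : v (4 * W.a₂) = 1) (hC : v W.a₄ < 1)
    {p : ℕ} (hp : p.Prime) (hp5 : 5 ≤ p)
    (TI : ∀ (x y : K) (h : W.Nonsingular x y), p • Point.some x y h = 0 → v x ≤ 1)
    (R : AddSubgroup W.Point)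
    (hR1 : ∀ (x y : K) (h : W.Nonsingular x y), Point.some x y h ∈ R → v x = 1 →
      v (x - 1) < 1)
    (hR2 : ∀ (x₁ y₁ : K) (h₁ : W.Nonsingular x₁ y₁) (x₂ y₂ : K) (h₂ : W.Nonsingular x₂ y₂),
      Point.some x₁ y₁ h₁ ∈ R → Point.some x₂ y₂ h₂ ∈ R → v x₁ = 1 → v x₂ = 1 →
      v (y₁ / x₁ - y₂ / x₂) < 1 ∨ v (y₁ / x₁ + y₂ / x₂) < 1)
    {x y : K} (h : W.Nonsingular x y) (hT : Point.some x y h ∈ R)
    (hpT : p • Point.some x y h = 0) (heq : v x = 1) : False := by
  have hT0 : Point.some x y h ≠ 0 := Point.some_ne_zero h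
  have hE := special_equation W h₁ h₃ h₆ h.1
  have h4 : v (4 : K) < 1 := by
    have : (4 : K) = 2 * 2 := by norm_num
    rw [this]; exact v_mul_lt_one_of_lt_of_le v h2 h2.le
  have h2y : v (2 * y) = 1 := by
    apply v_eq_one_of_sq_eq_one
    have : (2 * y) ^ 2 = x * (4 * x ^ 2 + 4 * W.a₂ * x + 4 * W.a₄) := by
      linear_combination 4 * hE
    rw [this, map_mul, heq, one_mul]
    refine v_add_eq_one_of_eq_of_lt v (v_add_eq_one_of_lt_of_eq v ?_ ?_) ?_
    · refine v_mul_lt_one_of_lt_of_le v h4 ?_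
      rw [map_pow, heq, one_pow]
    · rw [map_mul, h4M, heq, one_mul]
    · exact v_mul_lt_one_of_lt_of_le v h4 hC.le
  have h2y0 : 2 * y ≠ 0 := by
    intro h0; rw [h0, map_zero] at h2y; exact zero_ne_one h2y
  have hx0 : x ≠ 0 := by
    rintro rfl; rw [map_zero] at heq; exact zero_ne_one heq
  have h2ρ : v (2 * (y / x)) = 1 := by
    have : 2 * (y / x) = 2 * y / x := by ring
    rw [this, map_div₀, h2y, heq, div_one]
  -- the double of `T`
  obtain ⟨x₂, y₂, hP₂, hadd, hdbl⟩ := twor_exists_double h₁ h₃ h₆ h h2y0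
  have hx₂ : v x₂ = 1 := by
    have h3 := congrArg v hdbl
    rw [map_mul, map_pow, map_pow, h2y, one_pow, one_mul] at h3
    rw [h3]
    have : v (x ^ 2 - W.a₄) = 1 :=
      v_sub_eq_one_of_eq_of_lt v (by rw [map_pow, heq, one_pow]) hC
    rw [this, one_pow]
  have hx₂0 : x₂ ≠ 0 := by
    rintro rfl; rw [map_zero] at hx₂; exact zero_ne_one hx₂
  have h2T : Point.some x₂ y₂ hP₂ ∈ R := by
    rw [← hadd]; exact R.add_mem hT hT
  have hxx : v (x₂ - x) < 1 := by
    have : x₂ - x = (x₂ - 1) - (x - 1) := by ring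
    rw [this]
    exact v.map_sub_lt (hR1 x₂ y₂ hP₂ h2T hx₂) (hR1 x y h hT heq)
  have hxx2 : v (x₂ - x) ^ 2 * (v x₂ * v x) < 1 := by
    rw [hx₂, heq, mul_one, mul_one, ← map_pow]
    exact v_sq_lt_one v hxx
  rcases hR2 x y h x₂ y₂ hP₂ hT h2T heq hx₂ with hd | hs
  · -- `T` and `2T` have the same reduction: `T = 2T - T` is in the kernel of reduction
    have hs : v (y / x + y₂ / x₂) = 1 := by
      have : y / x + y₂ / x₂ = 2 * (y / x) - (y / x - y₂ / x₂) := by ring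
      rw [this]; exact v_sub_eq_one_of_eq_of_lt v h2ρ hd
    have hneg : W.Nonsingular x (-y) := by
      have := (nonsingular_neg x y).mpr h
      rwa [special_negY W h₁ h₃] at this
    have h0 : Point.some x y h + Point.some x (-y) hneg = 0 :=
      Point.add_of_Y_eq rfl (by rw [special_negY W h₁ h₃]; ring)
    have hsum : Point.some x₂ y₂ hP₂ + Point.some x (-y) hneg = Point.some x y h := by
      rw [← hadd, add_assoc, h0, add_zero]
    have hninv' : ¬(x₂ = x ∧ y₂ = -(-y)) := by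
      rintro ⟨rfl, hyy⟩
      rw [neg_neg] at hyy
      subst hyy
      have : Point.some x₂ y₂ h = 0 := by
        have e : Point.some x₂ y₂ h + Point.some x₂ y₂ h = Point.some x₂ y₂ h + 0 := by
          rw [add_zero, hadd]
        exact add_left_cancel e
      exact hT0 this
    obtain ⟨x₃, y₃, ℓ', β', hP₃, hadd', hch', -⟩ :=
      exists_chord W h₁ h₃ h₆ hP₂ hneg hninv'
    have hx₃ : x₃ = x := by
      rw [hsum] at hadd'
      have := hadd'
      simp only [Point.some.injEq] at this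
      exact this.1.symm
    have hlt : v (x₂ - x) ^ 2 * (v x₂ * v x) < v (x₂ * -y - x * y₂) ^ 2 := by
      have e : x₂ * -y - x * y₂ = -(x * x₂ * (y / x + y₂ / x₂)) := by
        field_simp; ring
      have hval : v (x₂ * -y - x * y₂) = 1 := by
        rw [e, Valuation.map_neg, map_mul, map_mul, hs, heq, hx₂, one_mul, one_mul]
      rw [hval, one_pow]
      exact hxx2
    have := hch'.diff v hlt
    rw [hx₃, heq] at this
    exact lt_irrefl _ this
  · -- `T` and `-2T` have the same reduction: `3T` is in the kernel of reduction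
    have hd : v (y / x - y₂ / x₂) = 1 := by
      have : y / x - y₂ / x₂ = 2 * (y / x) - (y / x + y₂ / x₂) := by ring
      rw [this]; exact v_sub_eq_one_of_eq_of_lt v h2ρ hs
    have hninv' : ¬(x₂ = x ∧ y₂ = -y) := by
      rintro ⟨rfl, rfl⟩
      -- `3T = 0`
      have h3 : 3 • Point.some x₂ y h = 0 := by
        have h0 : Point.some x₂ (-y) hP₂ + Point.some x₂ y h = 0 :=
          Point.add_of_Y_eq rfl (by rw [special_negY W h₁ h₃])
        rw [show (3 : ℕ) = 2 + 1 from rfl, add_smul, two_smul, one_smul, hadd, h0]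
      have hp3 : ¬ p ∣ 3 := fun hd3 => by
        have := Nat.le_of_dvd (by norm_num) hd3; omega
      exact hT0 (twor_eq_zero_of_nsmul hp hp3 h3 hpT)
    obtain ⟨x₃, y₃, ℓ', β', hP₃, hadd', hch', -⟩ :=
      exists_chord W h₁ h₃ h₆ hP₂ h hninv'
    have hlt : v (x₂ - x) ^ 2 * (v x₂ * v x) < v (x₂ * y - x * y₂) ^ 2 := by
      have e : x₂ * y - x * y₂ = x * x₂ * (y / x - y₂ / x₂) := by
        field_simp
      have hval : v (x₂ * y - x * y₂) = 1 := by
        rw [e, map_mul, map_mul, hd, heq, hx₂, one_mul, one_mul]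
      rw [hval, one_pow]
      exact hxx2
    have h1 := hch'.diff v hlt
    have hp3 : p • Point.some x₃ y₃ hP₃ = 0 := by
      rw [← hadd', ← hadd, smul_add, smul_add, hpT, add_zero, add_zero]
    exact absurd (TI x₃ y₃ hP₃ hp3) (not_le.mpr h1)

/-- the middle case: the double of a point of order `p` with `v x ≤ v C` has a unit
`x`-coordinate. -/
theorem twor_middle (h₁ : W.a₁ = 0) (h₃ : W.a₃ = 0) (h₆ : W.a₆ = 0)
    (h2 : v (2 : K) < 1) (h2ne : (2 : K) ≠ 0) (h4M : v (4 * W.a₂) = 1)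
    (hC0 : W.a₄ ≠ 0) (hC : v W.a₄ < 1) {p : ℕ} (hp : p.Prime) (hp2 : p ≠ 2)
    (TI : ∀ (x y : K) (h : W.Nonsingular x y), p • Point.some x y h = 0 → v x ≤ 1)
    {x y : K} (h : W.Nonsingular x y) (hpT : p • Point.some x y h = 0)
    (hxC : v x ≤ v W.a₄) :
    ∃ (x₂ y₂ : K) (hP₂ : W.Nonsingular x₂ y₂),
      Point.some x y h + Point.some x y h = Point.some x₂ y₂ hP₂ ∧ v x₂ = 1 := by
  have hT0 : Point.some x y h ≠ 0 := Point.some_ne_zero h
  have hE := special_equation W h₁ h₃ h₆ h.1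
  have hpn2 : ¬ p ∣ 2 := fun hd => hp2 ((Nat.prime_dvd_prime_iff_eq hp Nat.prime_two).mp hd)
  have hy0 : y ≠ 0 := by
    rintro rfl
    have h0 : Point.some x 0 h + Point.some x 0 h = 0 :=
      Point.add_of_Y_eq rfl (by rw [special_negY W h₁ h₃]; ring)
    have h2T : 2 • Point.some x 0 h = 0 := by rw [two_smul, h0]
    exact hT0 (twor_eq_zero_of_nsmul hp hpn2 h2T hpT)
  have h2y0 : 2 * y ≠ 0 := mul_ne_zero h2ne hy0
  have hx0 : x ≠ 0 := by
    rintro rfl
    apply hy0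
    have : y ^ 2 = 0 := by rw [hE]; ring
    exact pow_eq_zero_iff two_ne_zero |>.mp this
  obtain ⟨x₂, y₂, hP₂, hadd, hdbl⟩ := twor_exists_double h₁ h₃ h₆ h h2y0
  refine ⟨x₂, y₂, hP₂, hadd, ?_⟩
  have hp2T : p • Point.some x₂ y₂ hP₂ = 0 := by
    rw [← hadd, smul_add, hpT, add_zero]
  refine le_antisymm (TI x₂ y₂ hP₂ hp2T) ?_
  have hN0 : 0 < v W.a₄ := v_pos v hC0
  have ht0 : 0 < v x := v_pos v hx0
  have hx1 : v x < 1 := lt_of_le_of_lt hxC hC
  have h4 : v (4 : K) ≤ 1 := by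
    have : (4 : K) = 2 * 2 := by norm_num
    rw [this]; exact v_mul_le_one v h2.le h2.le
  -- `v (x² - C) = v C`
  have hxx : v (x ^ 2) < v W.a₄ := by
    rw [map_pow, pow_two]
    calc v x * v x ≤ v W.a₄ * v x := mul_le_mul' hxC le_rfl
      _ < v W.a₄ * 1 := mul_lt_mul_of_pos_left hx1 hN0
      _ = v W.a₄ := mul_one _
  have hnum : v (x ^ 2 - W.a₄) = v W.a₄ := v.map_sub_eq_of_lt_right hxx
  -- `v ((2y)²) ≤ v C ^ 2`
  have hden : v ((2 * y) ^ 2) ≤ v W.a₄ ^ 2 := by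
    have : (2 * y) ^ 2 = 4 * x ^ 3 + 4 * W.a₂ * x ^ 2 + 4 * W.a₄ * x := by
      linear_combination 4 * hE
    rw [this]
    have hsq : v x ^ 2 ≤ v W.a₄ ^ 2 := pow_le_pow_left' hxC 2
    refine v.map_add_le (v.map_add_le ?_ ?_) ?_
    · rw [map_mul, map_pow]
      calc v 4 * v x ^ 3 ≤ 1 * v x ^ 2 :=
            mul_le_mul' h4 (pow_le_pow_right_of_le_one' hx1.le (by norm_num))
        _ = v x ^ 2 := one_mul _
        _ ≤ v W.a₄ ^ 2 := hsq
    · rw [map_mul, h4M, one_mul, map_pow]; exact hsq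
    · rw [map_mul, map_mul, pow_two]
      calc v 4 * v W.a₄ * v x ≤ 1 * v W.a₄ * v W.a₄ :=
            mul_le_mul' (mul_le_mul' h4 le_rfl) hxC
        _ = v W.a₄ * v W.a₄ := by rw [one_mul]
  have hden0 : 0 < v ((2 * y) ^ 2) := v_pos v (pow_ne_zero 2 h2y0)
  by_contra hc
  have hc' : v x₂ < 1 := not_le.mp hc
  have h3 : v ((2 * y) ^ 2) * v x₂ = v W.a₄ ^ 2 := by
    rw [← map_mul, hdbl, map_pow, hnum]
  have : v ((2 * y) ^ 2) * v x₂ < v ((2 * y) ^ 2) * 1 := mul_lt_mul_of_pos_left hc' hden0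
  rw [h3, mul_one] at this
  exact absurd hden (not_le.mpr this)

/-- **Core of D3**: no point of order `p ≥ 5` in a subgroup `R` of "rational" points, given the
depth relation for the points of order `p` of `R` in the annulus. -/
theorem twor_core (h₁ : W.a₁ = 0) (h₃ : W.a₃ = 0) (h₆ : W.a₆ = 0)
    (h2 : v (2 : K) < 1) (h2ne : (2 : K) ≠ 0) (h4M : v (4 * W.a₂) = 1)
    (hC0 : W.a₄ ≠ 0) (hC : v W.a₄ < 1) {p : ℕ} (hp : p.Prime) (hp5 : 5 ≤ p)
    (TI : ∀ (x y : K) (h : W.Nonsingular x y), p • Point.some x y h = 0 → v x ≤ 1)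
    (R : AddSubgroup W.Point)
    (hR1 : ∀ (x y : K) (h : W.Nonsingular x y), Point.some x y h ∈ R → v x = 1 →
      v (x - 1) < 1)
    (hR2 : ∀ (x₁ y₁ : K) (h₁ : W.Nonsingular x₁ y₁) (x₂ y₂ : K) (h₂ : W.Nonsingular x₂ y₂),
      Point.some x₁ y₁ h₁ ∈ R → Point.some x₂ y₂ h₂ ∈ R → v x₁ = 1 → v x₂ = 1 →
      v (y₁ / x₁ - y₂ / x₂) < 1 ∨ v (y₁ / x₁ + y₂ / x₂) < 1)
    (hRv : ∀ (x y : K) (h : W.Nonsingular x y), Point.some x y h ∈ R → x ≠ 0 →
      ∃ k : ℤ, v x = v (2 : K) ^ k)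
    (m : ℕ) (hm : v W.a₄ = v (2 : K) ^ m) (hpm : ¬ p ∣ m)
    (hdepth : ∀ (x y : K) (h : W.Nonsingular x y), Point.some x y h ∈ R → v x < 1 →
      v W.a₄ < v x → p • Point.some x y h = 0 → ∃ j : ℕ, v x ^ p = v W.a₄ ^ (2 * j))
    (T : W.Point) (hT : T ∈ R) (hpT : p • T = 0) : T = 0 := by
  by_contra hT0
  obtain ⟨x, y, h, rfl⟩ : ∃ (x y : K) (h : W.Nonsingular x y), T = Point.some x y h := by
    cases T with
    | zero => exact absurd rfl hT0
    | some x y h => exact ⟨x, y, h, rfl⟩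
  have hp2 : p ≠ 2 := by omega
  have hx1 : v x ≤ 1 := TI x y h hpT
  have hg0 : 0 < v (2 : K) := v_pos v h2ne
  rcases lt_or_eq_of_le hx1 with hlt | heq
  · rcases lt_or_ge (v W.a₄) (v x) with hCx | hxC
    · -- the annulus case
      obtain ⟨j, hj⟩ := hdepth x y h hT hlt hCx hpT
      have hx0 : x ≠ 0 := by
        rintro rfl; rw [map_zero] at hCx; exact absurd hCx (not_lt.mpr zero_le)
      obtain ⟨k, hk⟩ := hRv x y h hT hx0
      have hkm : k < m := by
        rw [hk, hm, ← zpow_natCast] at hCx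
        exact (zpow_lt_zpow_iff_right_of_lt_one₀ hg0 h2).mp hCx
      have hk0 : 0 < k := by
        rw [hk] at hlt
        have h' : v (2 : K) ^ k < v (2 : K) ^ (0 : ℤ) := by simpa using hlt
        exact (zpow_lt_zpow_iff_right_of_lt_one₀ hg0 h2).mp h'
      have hkp : k * p = 2 * j * m := by
        rw [hk, hm, ← zpow_natCast, ← zpow_mul, ← pow_mul, ← zpow_natCast] at hj
        have := zpow_right_injective₀ hg0 h2.ne hj
        push_cast at this; linarith
      exact twor_arith hp hp5 k j m hk0 hkm hpm hkp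
    · -- the middle case: pass to `2T`
      obtain ⟨x₂, y₂, hP₂, hadd, hx₂⟩ :=
        twor_middle h₁ h₃ h₆ h2 h2ne h4M hC0 hC hp hp2 TI h hpT hxC
      have h2T : Point.some x₂ y₂ hP₂ ∈ R := by
        rw [← hadd]; exact R.add_mem hT hT
      have hp2T : p • Point.some x₂ y₂ hP₂ = 0 := by
        rw [← hadd, smul_add, hpT, add_zero]
      exact twor_unit h₁ h₃ h₆ h2 h4M hC hp hp5 TI R hR1 hR2 hP₂ h2T hp2T hx₂
  · exact twor_unit h₁ h₃ h₆ h2 h4M hC hp hp5 TI R hR1 hR2 h hT hpT heq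

end Fermat.Agent.S13
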