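import Fermat.Agent.S13.TwoNode
import Fermat.Agent.S13.TwoRatCore

/-!
# S13, package D3 (node at the prime 2): no "rational" point of order `p`

The exact statement `two_no_rational_torsion` of the package D skeleton, obtained from the
abstract core `twor_core` (`TwoRatCore.lean`) and the depth relation `two_node_depth`
(`TwoNode.lean`).
-/

set_option autoImplicit false

namespace Fermat.Agent.S13

open WeierstrassCurve WeierstrassCurve.Affine
open Fermat.Agent.S05

variable {K : Type*} [Field K] [DecidableEq K] {Γ₀ : Type*} [LinearOrderedCommGroupWithZero Γ₀]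
  {v : Valuation K Γ₀} {W : Affine K}

/-- no "rational" point of prime order `p ≥ 5`: `R` is a subgroup of points whose integral
points have slopes in a residue field with two elements and whose `x`-coordinates have
valuations in `v 2 ^ ℤ`. -/
theorem two_no_rational_torsion (hW : TwoModel v W) {p : ℕ} (hp : p.Prime) (hp5 : 5 ≤ p)
    (TI : TwoInt v W p) (R : AddSubgroup W.Point)
    (hR1 : ∀ (x y : K) (h : W.Nonsingular x y), Point.some x y h ∈ R → v x = 1 →
      v (x - 1) < 1)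
    (hR2 : ∀ (x₁ y₁ : K) (h₁ : W.Nonsingular x₁ y₁) (x₂ y₂ : K) (h₂ : W.Nonsingular x₂ y₂),
      Point.some x₁ y₁ h₁ ∈ R → Point.some x₂ y₂ h₂ ∈ R → v x₁ = 1 → v x₂ = 1 →
      v (y₁ / x₁ - y₂ / x₂) < 1 ∨ v (y₁ / x₁ + y₂ / x₂) < 1)
    (hRv : ∀ (x y : K) (h : W.Nonsingular x y), Point.some x y h ∈ R → x ≠ 0 →
      ∃ k : ℤ, v x = v (2 : K) ^ k)
    (m : ℕ) (hm : v W.a₄ = v (2 : K) ^ m) (hpm : ¬ p ∣ m)
    (T : W.Point) (hT : T ∈ R) (hpT : p • T = 0) : T = 0 := by
  have hodd : Odd p := hp.odd_of_ne_two (by omega)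
  exact twor_core hW.h₁ hW.h₃ hW.h₆ hW.h2 hW.h2ne hW.v_four_mul_a₂ hW.hC0 hW.hC hp hp5 TI R
    hR1 hR2 hRv m hm hpm
    (fun x y h _ hx1 _ hpT' => (two_node_depth hW hodd TI h hx1 hpT').2) T hT hpT

end Fermat.Agent.S13
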