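import Fermat.Agent.S13.TwoNode

/-!
# S13, package D (node at the prime 2): inertia acts unipotently on the points of order `p`

On the model `W : Y² = x³ + (A + 1/4) x² + C x` (see `TwoDefs.lean`): a point of order `p` with
unit `x` is fixed by inertia, and for a point `T` of order `p` in the annulus the difference
`σ T - T` is zero or has unit `x`, hence is fixed by inertia.
-/

set_option autoImplicit false

namespace Fermat.Agent.S13

open WeierstrassCurve WeierstrassCurve.Affine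
open Fermat.Agent.S05

variable {K : Type*} [Field K] [DecidableEq K] {Γ₀ : Type*} [LinearOrderedCommGroupWithZero Γ₀]
variable {v : Valuation K Γ₀} {W : Affine K}

omit [DecidableEq K] in
/-- `ρ + σ ρ` is a unit when the shifted slope `ρ - 1/2` is integral. -/
theorem twou_rho_add_sigma (hW : TwoModel v W) (σ : K →+* K)
    (hσ : ∀ a : K, v a ≤ 1 → v (σ a - a) < 1) {x y : K}
    (ht : v (y / x - 1 / 2) ≤ 1) : v (y / x + σ y / σ x) = 1 := by
  have h2 := hW.h2ne
  have hσ2 : σ (1 / 2 : K) = 1 / 2 := by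
    rw [map_div₀, map_one, map_ofNat]
  have hσρ : σ y / σ x = σ (y / x - 1 / 2) + 1 / 2 := by
    rw [map_sub, map_div₀, hσ2]
    ring
  have e : y / x + σ y / σ x =
      2 * (y / x - 1 / 2) + (σ (y / x - 1 / 2) - (y / x - 1 / 2)) + 1 := by
    rw [hσρ]
    field_simp
    ring
  rw [e]
  exact v_add_eq_one_of_lt_of_eq v
    (v.map_add_lt (v_mul_lt_one_of_lt_of_le v hW.h2 ht) (hσ _ ht)) (map_one v)

/-- The difference `φ T - T` as a sum of two affine points, with its torsion property. -/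
theorem twou_exists_chord_diff (hW : TwoModel v W) {p : ℕ} (TI : TwoInt v W p)
    (σ : K →+* K) (φ : W.Point →+ W.Point)
    {x y : K} (hT : W.Nonsingular x y) (hpT : p • Point.some x y hT = 0)
    (hT' : W.Nonsingular (σ x) (σ y))
    (hφT : φ (Point.some x y hT) = Point.some (σ x) (σ y) hT') (hne : ¬(σ x = x ∧ σ y = y)) :
    ∃ (x₃ y₃ ℓ β : K) (hP₃ : W.Nonsingular x₃ y₃),
      φ (Point.some x y hT) - Point.some x y hT = Point.some x₃ y₃ hP₃ ∧
      p • Point.some x₃ y₃ hP₃ = 0 ∧
      Chord W.a₂ W.a₄ (σ x) (σ y) x (-y) x₃ y₃ ℓ β ∧ v x₃ ≤ 1 := by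
  have h₁ := hW.h₁
  have h₃ := hW.h₃
  have h₆ := hW.h₆
  have hneg : W.Nonsingular x (-y) := by
    have := (nonsingular_neg x y).mpr hT
    rwa [special_negY W h₁ h₃] at this
  have e1 : Point.some x (-y) hneg = -Point.some x y hT := by
    rw [Point.neg_some]
    exact some_congr _ _ rfl (special_negY W h₁ h₃ x y).symm
  obtain ⟨x₃, y₃, ℓ, β, hP₃, hadd, hch, -⟩ :=
    exists_chord W h₁ h₃ h₆ hT' hneg (fun h => hne ⟨h.1, by rw [h.2, neg_neg]⟩)
  have hS : φ (Point.some x y hT) - Point.some x y hT = Point.some x₃ y₃ hP₃ := by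
    rw [← hadd, e1, hφT, sub_eq_add_neg]
  have htors : p • Point.some x₃ y₃ hP₃ = 0 := by
    rw [← hS, nsmul_sub, ← map_nsmul, hpT, map_zero, sub_zero]
  exact ⟨x₃, y₃, ℓ, β, hP₃, hS, htors, hch, TI x₃ y₃ hP₃ htors⟩

/-- a point of order `p` with unit `x` is fixed by inertia. -/
theorem two_fixed_of_unit (hW : TwoModel v W) {p : ℕ} (TI : TwoInt v W p)
    (σ : K →+* K) (φ : W.Point →+ W.Point)
    (hσ : ∀ a : K, v a ≤ 1 → v (σ a - a) < 1)
    (hφ : ∀ (x y : K) (h : W.Nonsingular x y), ∃ h' : W.Nonsingular (σ x) (σ y),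
      φ (Point.some x y h) = Point.some (σ x) (σ y) h')
    {x y : K} (hT : W.Nonsingular x y) (hpT : p • Point.some x y hT = 0) (hx : v x = 1) :
    φ (Point.some x y hT) = Point.some x y hT := by
  obtain ⟨hT', hφT⟩ := hφ x y hT
  by_cases hfix : σ x = x ∧ σ y = y
  · rw [hφT]
    exact some_congr _ _ hfix.1 hfix.2
  · exfalso
    obtain ⟨x₃, y₃, ℓ, β, hP₃, -, -, hch, hx₃⟩ :=
      twou_exists_chord_diff hW TI σ φ hT hpT hT' hφT hfix
    have hx0 : x ≠ 0 := by
      rintro rfl
      rw [map_zero] at hx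
      exact zero_ne_one hx
    have hσx0 : σ x ≠ 0 := (map_ne_zero σ).mpr hx0
    have hE := special_equation W hW.h₁ hW.h₃ hW.h₆ hT.1
    have ht : v (y / x - 1 / 2) ≤ 1 :=
      two_slope_int hW hx0 hE hx.le (by rw [hx]; exact hW.hC.le)
    have hs := twou_rho_add_sigma hW σ hσ (x := x) (y := y) ht
    have hσx : v (σ x - x) < 1 := hσ x hx.le
    have hvσx : v (σ x) = 1 := by
      have : σ x = x + (σ x - x) := by ring
      rw [this]
      exact v_add_eq_one_of_eq_of_lt v hx hσx
    have hnum : v (σ x * (-y) - x * σ y) = 1 := by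
      have e : σ x * (-y) - x * σ y = -(σ x * x * (y / x + σ y / σ x)) := by
        field_simp
        ring
      rw [e, Valuation.map_neg, map_mul, map_mul, hvσx, hx, hs, one_mul, one_mul]
    have hlt : v (σ x - x) ^ 2 * (v (σ x) * v x) < v (σ x * (-y) - x * σ y) ^ 2 := by
      rw [hnum, hvσx, hx, one_pow, mul_one, mul_one]
      exact (pow_lt_one_iff two_ne_zero).mpr hσx
    exact absurd hx₃ (not_le.mpr (hch.diff v hlt))

/-- inertia acts unipotently on the points of odd order `p`. -/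
theorem two_unipotent (hW : TwoModel v W) {p : ℕ} (hodd : Odd p) (TI : TwoInt v W p)
    (σ σ' : K →+* K) (φ φ' : W.Point →+ W.Point)
    (hσ : ∀ a : K, v a ≤ 1 → v (σ a - a) < 1) (hσv : ∀ a : K, v (σ a) = v a)
    (hφ : ∀ (x y : K) (h : W.Nonsingular x y), ∃ h' : W.Nonsingular (σ x) (σ y),
      φ (Point.some x y h) = Point.some (σ x) (σ y) h')
    (hσ' : ∀ a : K, v a ≤ 1 → v (σ' a - a) < 1)
    (hφ' : ∀ (x y : K) (h : W.Nonsingular x y), ∃ h' : W.Nonsingular (σ' x) (σ' y),
      φ' (Point.some x y h) = Point.some (σ' x) (σ' y) h')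
    (T : W.Point) (hpT : p • T = 0) : φ' (φ T - T) = φ T - T := by
  rcases point_cases T with rfl | ⟨x, y, hT, rfl⟩
  · rw [map_zero, sub_zero, map_zero]
  have hx1 : v x ≤ 1 := TI x y hT hpT
  rcases lt_or_eq_of_le hx1 with hlt | heq
  · -- the annulus
    obtain ⟨hxC, -⟩ := two_node_depth hW hodd TI hT hlt hpT
    obtain ⟨hT', hφT⟩ := hφ x y hT
    have hx0 : x ≠ 0 := by
      rintro rfl
      rw [map_zero] at hxC
      exact absurd hxC (not_lt.mpr zero_le)
    have hσx0 : σ x ≠ 0 := (map_ne_zero σ).mpr hx0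
    have hE := special_equation W hW.h₁ hW.h₃ hW.h₆ hT.1
    have ht : v (y / x - 1 / 2) ≤ 1 := two_slope_int hW hx0 hE hlt.le hxC.le
    have hs := twou_rho_add_sigma hW σ hσ (x := x) (y := y) ht
    by_cases hfix : σ x = x ∧ σ y = y
    · have h0 : φ (Point.some x y hT) = Point.some x y hT := by
        rw [hφT]
        exact some_congr _ _ hfix.1 hfix.2
      rw [h0, sub_self, map_zero]
    · obtain ⟨x₃, y₃, ℓ, β, hP₃, hS, hpS, hch, hx₃⟩ :=
        twou_exists_chord_diff hW TI σ φ hT hpT hT' hφT hfix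
      have hne : σ x ≠ x := by
        intro hxx
        rcases Y_eq_of_X_eq hT'.1 hT.1 hxx with hyy | hyy
        · exact hfix ⟨hxx, hyy⟩
        · rw [special_negY W hW.h₁ hW.h₃] at hyy
          rw [hxx, hyy] at hs
          have e : y / x + -y / x = 0 := by ring
          rw [e, map_zero] at hs
          exact zero_ne_one hs
      have hd : v (-y / x - σ y / σ x) = 1 := by
        have e : -y / x - σ y / σ x = -(y / x + σ y / σ x) := by ring
        rw [e, Valuation.map_neg, hs]
      have h1 : 1 ≤ v x₃ := hch.O3 v hσx0 hx0 hne hd (hσv x)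
      rw [hS]
      exact two_fixed_of_unit hW TI σ' φ' hσ' hφ' hP₃ hpS (le_antisymm hx₃ h1)
  · rw [two_fixed_of_unit hW TI σ φ hσ hφ hT hpT heq, sub_self, map_zero]

end Fermat.Agent.S13
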