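import Mathlib
import Fermat.Agent.S13.Basic
import Fermat.Agent.S13.TwoNode
import Fermat.Agent.S13.TwoUnip
import Fermat.Agent.S13.TwoRational
import Fermat.Agent.S13.TwoGlue

/-!
# S13, package D (node at the prime 2): the Frey curve at `2`

The model `Y² = x³ + (a₂ + 1/4) x² + a₄ x` of the Frey curve satisfies `TwoModel` for every
valuation subring of `AlgebraicClosure ℚ` above `2`.
-/

set_option autoImplicit false

open WeierstrassCurve WeierstrassCurve.Affine WeierstrassCurve.Affine.Point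

namespace Fermat.Agent.S13

/-- the coefficients of the model of the Frey curve used at `2` -/
noncomputable def twoM (P : FreyPackage) : ℚ := P.freyCurve.a₂ + 1 / 4

/-- the coefficients of the model of the Frey curve used at `2` -/
noncomputable def twoC (P : FreyPackage) : ℚ := P.freyCurve.a₄

theorem two_frey_a₂ (P : FreyPackage) :
    P.freyCurve.a₂ = ((P.b : ℚ) ^ P.p - 1 - (P.a : ℚ) ^ P.p) / 4 := rfl

theorem two_frey_a₄ (P : FreyPackage) :
    P.freyCurve.a₄ = -((P.a : ℚ) ^ P.p) * ((P.b : ℚ) ^ P.p) / 16 := rfl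

theorem twoC_ne_zero (P : FreyPackage) : twoC P ≠ 0 := by
  unfold twoC
  rw [two_frey_a₄]
  have ha : (P.a : ℚ) ≠ 0 := by exact_mod_cast P.ha0
  have hb : (P.b : ℚ) ≠ 0 := by exact_mod_cast P.hb0
  exact div_ne_zero (mul_ne_zero (neg_ne_zero.mpr (pow_ne_zero _ ha)) (pow_ne_zero _ hb))
    (by norm_num)

theorem two_disc_ne_zero (P : FreyPackage) : twoM P ^ 2 - 4 * twoC P ≠ 0 := by
  have hF : (P.a : ℚ) ^ P.p + (P.b : ℚ) ^ P.p = (P.c : ℚ) ^ P.p := by
    exact_mod_cast P.hFLT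
  have hc : (P.c : ℚ) ≠ 0 := by exact_mod_cast P.hc0
  have e : twoM P ^ 2 - 4 * twoC P = ((P.c : ℚ) ^ P.p / 4) ^ 2 := by
    unfold twoM twoC
    rw [two_frey_a₂, two_frey_a₄, ← hF]
    ring
  rw [e]
  exact pow_ne_zero _ (div_ne_zero (pow_ne_zero _ hc) (by norm_num))

/-- the model of the Frey curve at `2` satisfies the hypotheses of the local analysis -/
theorem two_frey_twoModel (P : FreyPackage) (A : ValuationSubring (AlgebraicClosure ℚ))
    (hA : (2 : AlgebraicClosure ℚ) ∈ A.nonunits) :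
    TwoModel A.valuation ((modelS (twoM P) (twoC P))⁄(AlgebraicClosure ℚ)) ∧
      ∃ m : ℕ, A.valuation ((modelS (twoM P) (twoC P))⁄(AlgebraicClosure ℚ)).a₄ =
        A.valuation (2 : AlgebraicClosure ℚ) ^ m ∧ ¬ P.p ∣ m := by
  obtain ⟨A₂, c, m, hA₂, hc, hodd, hm0, hpm⟩ := two_frey_data P
  have hv2 : A.valuation (2 : AlgebraicClosure ℚ) < 1 := (A.mem_nonunits_iff).mp hA
  have hA' : ((2 : ℕ) : AlgebraicClosure ℚ) ∈ A.nonunits := by
    simpa using hA
  have hvc : A.valuation (c : AlgebraicClosure ℚ) = 1 :=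
    Fermat.Agent.S05.valuation_intCast_eq_one A Nat.prime_two hA' (by simpa using hodd)
  have ha₂ : ((modelS (twoM P) (twoC P))⁄(AlgebraicClosure ℚ)).a₂ =
      algebraMap ℚ (AlgebraicClosure ℚ) (twoM P) := rfl
  have ha₄ : ((modelS (twoM P) (twoC P))⁄(AlgebraicClosure ℚ)).a₄ =
      algebraMap ℚ (AlgebraicClosure ℚ) (twoC P) := rfl
  have hC : algebraMap ℚ (AlgebraicClosure ℚ) (twoC P) =
      (2 : AlgebraicClosure ℚ) ^ m * (c : AlgebraicClosure ℚ) := by
    unfold twoC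
    rw [hc]
    simp
  have hvC : A.valuation (algebraMap ℚ (AlgebraicClosure ℚ) (twoC P)) =
      A.valuation (2 : AlgebraicClosure ℚ) ^ m := by
    rw [hC, map_mul, map_pow, hvc, mul_one]
  refine ⟨⟨_root_.map_zero _, _root_.map_zero _, _root_.map_zero _, hv2, two_ne_zero, ?_, ?_, ?_⟩,
    m, by rw [ha₄, hvC], hpm⟩
  · rw [ha₂]
    have e : algebraMap ℚ (AlgebraicClosure ℚ) (twoM P) - 1 / 4 = (A₂ : AlgebraicClosure ℚ) := by
      unfold twoM
      rw [hA₂]
      simp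
    rw [e]
    exact (A.valuation_le_one_iff _).mpr (intCast_mem A A₂)
  · rw [ha₄]
    simpa using twoC_ne_zero P
  · rw [ha₄, hvC]
    exact pow_lt_one₀ zero_le hv2 hm0.ne'

/-- the transfer to the model at `2`: an injective Galois-equivariant homomorphism which is
surjective on points and preserves the `x`-coordinate. -/
theorem two_frey_hom (P : FreyPackage) :
    ∃ Φ : (P.freyCurve⁄(AlgebraicClosure ℚ)).Point →+
        ((modelS (twoM P) (twoC P))⁄(AlgebraicClosure ℚ)).Point,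
      (∀ T, Φ T = 0 → T = 0) ∧
      (∀ (σ : AlgebraicClosure ℚ ≃ₐ[ℚ] AlgebraicClosure ℚ)
        (T : (P.freyCurve⁄(AlgebraicClosure ℚ)).Point), Φ (σ • T) = σ • Φ T) ∧
      (∀ (x y : AlgebraicClosure ℚ)
        (h' : ((modelS (twoM P) (twoC P))⁄(AlgebraicClosure ℚ)).Nonsingular x y),
        ∃ (y₀ : AlgebraicClosure ℚ) (h : (P.freyCurve⁄(AlgebraicClosure ℚ)).Nonsingular x y₀),
          Φ (Point.some x y₀ h) = Point.some x y h') := by
  obtain ⟨Φ, hinj, hΦ, heq⟩ := basic_model_hom P.freyCurve rfl rfl rfl 0 (twoM P) (twoC P)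
    (by unfold twoM; ring) (by unfold twoC; ring) (by ring) (twoC_ne_zero P) (two_disc_ne_zero P)
  refine ⟨Φ, hinj, heq, ?_⟩
  intro x y h'
  have h₁ : (P.freyCurve⁄(AlgebraicClosure ℚ)).a₁ = 1 := by
    show algebraMap ℚ (AlgebraicClosure ℚ) P.freyCurve.a₁ = 1
    rw [show P.freyCurve.a₁ = 1 from rfl, map_one]
  have h₃ : (P.freyCurve⁄(AlgebraicClosure ℚ)).a₃ = 0 := by
    show algebraMap ℚ (AlgebraicClosure ℚ) P.freyCurve.a₃ = 0
    rw [show P.freyCurve.a₃ = 0 from rfl, _root_.map_zero]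
  have h₆ : (P.freyCurve⁄(AlgebraicClosure ℚ)).a₆ = 0 := by
    show algebraMap ℚ (AlgebraicClosure ℚ) P.freyCurve.a₆ = 0
    rw [show P.freyCurve.a₆ = 0 from rfl, _root_.map_zero]
  have ha₂ : ((modelS (twoM P) (twoC P))⁄(AlgebraicClosure ℚ)).a₂ =
      (P.freyCurve⁄(AlgebraicClosure ℚ)).a₂ + 1 / 4 := by
    show algebraMap ℚ (AlgebraicClosure ℚ) (twoM P) =
      algebraMap ℚ (AlgebraicClosure ℚ) P.freyCurve.a₂ + 1 / 4
    unfold twoM
    simp
  have ha₄ : ((modelS (twoM P) (twoC P))⁄(AlgebraicClosure ℚ)).a₄ =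
      (P.freyCurve⁄(AlgebraicClosure ℚ)).a₄ := rfl
  have hE' := Fermat.Agent.S05.special_equation _ (_root_.map_zero _) (_root_.map_zero _)
    (_root_.map_zero _) h'.1
  rw [ha₂, ha₄] at hE'
  have hC0 : (P.freyCurve⁄(AlgebraicClosure ℚ)).a₄ ≠ 0 := by
    show algebraMap ℚ (AlgebraicClosure ℚ) P.freyCurve.a₄ ≠ 0
    have := twoC_ne_zero P
    unfold twoC at this
    simpa using this
  have hD0 : ((P.freyCurve⁄(AlgebraicClosure ℚ)).a₂ + 1 / 4) ^ 2 -
      4 * (P.freyCurve⁄(AlgebraicClosure ℚ)).a₄ ≠ 0 := by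
    have h := (map_ne_zero (algebraMap ℚ (AlgebraicClosure ℚ))).mpr (two_disc_ne_zero P)
    have e : algebraMap ℚ (AlgebraicClosure ℚ) (twoM P ^ 2 - 4 * twoC P) =
        ((P.freyCurve⁄(AlgebraicClosure ℚ)).a₂ + 1 / 4) ^ 2 -
          4 * (P.freyCurve⁄(AlgebraicClosure ℚ)).a₄ := by
      rw [← ha₂, ← ha₄]
      simp
      rfl
    rwa [e] at h
  have hΔ : (P.freyCurve⁄(AlgebraicClosure ℚ)).Δ ≠ 0 := by
    have : (P.freyCurve⁄(AlgebraicClosure ℚ)).Δ =
        16 * (P.freyCurve⁄(AlgebraicClosure ℚ)).a₄ ^ 2 *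
          (((P.freyCurve⁄(AlgebraicClosure ℚ)).a₂ + 1 / 4) ^ 2 -
            4 * (P.freyCurve⁄(AlgebraicClosure ℚ)).a₄) := by
      simp only [WeierstrassCurve.Δ, WeierstrassCurve.b₂, WeierstrassCurve.b₄,
        WeierstrassCurve.b₆, WeierstrassCurve.b₈, h₁, h₃, h₆]
      ring
    rw [this]
    exact mul_ne_zero (mul_ne_zero (by norm_num) (pow_ne_zero _ hC0)) hD0
  have hE : (P.freyCurve⁄(AlgebraicClosure ℚ)).Equation x (y - x / 2) := by
    rw [Affine.equation_iff, h₁, h₃, h₆]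
    linear_combination hE'
  have hns : (P.freyCurve⁄(AlgebraicClosure ℚ)).Nonsingular x (y - x / 2) :=
    (Affine.equation_iff_nonsingular_of_Δ_ne_zero hΔ).mp hE
  refine ⟨y - x / 2, hns, ?_⟩
  obtain ⟨h'', hh''⟩ := hΦ x (y - x / 2) hns
  rw [hh'']
  apply Fermat.Agent.S05.some_congr
  · simp
  · ring

/-- integrality of the `p`-torsion transfers to the model at `2` -/
theorem two_frey_twoInt (P : FreyPackage) (A : ValuationSubring (AlgebraicClosure ℚ))
    (hTI : ∀ (x y : AlgebraicClosure ℚ)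
      (h : (P.freyCurve⁄(AlgebraicClosure ℚ)).Nonsingular x y),
      P.p • Point.some x y h = 0 → A.valuation x ≤ 1)
    (Φ : (P.freyCurve⁄(AlgebraicClosure ℚ)).Point →+
        ((modelS (twoM P) (twoC P))⁄(AlgebraicClosure ℚ)).Point)
    (hinj : ∀ T, Φ T = 0 → T = 0)
    (hsurj : ∀ (x y : AlgebraicClosure ℚ)
        (h' : ((modelS (twoM P) (twoC P))⁄(AlgebraicClosure ℚ)).Nonsingular x y),
        ∃ (y₀ : AlgebraicClosure ℚ) (h : (P.freyCurve⁄(AlgebraicClosure ℚ)).Nonsingular x y₀),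
          Φ (Point.some x y₀ h) = Point.some x y h') :
    TwoInt A.valuation ((modelS (twoM P) (twoC P))⁄(AlgebraicClosure ℚ)) P.p := by
  intro x y h' hp
  obtain ⟨y₀, h, hΦ⟩ := hsurj x y h'
  refine hTI x y₀ h (hinj _ ?_)
  rw [map_nsmul, hΦ, hp]

end Fermat.Agent.S13
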