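import Mathlib
import Fermat.Agent.S13.TwoFrey

/-!
# S13, package RatTors: the Frey curve has no rational point of order `p`
-/

set_option autoImplicit false

open WeierstrassCurve WeierstrassCurve.Affine WeierstrassCurve.Affine.Point

namespace Fermat.Agent.S13

/-- the subgroup of Galois-fixed points of a curve over `ℚ` -/
noncomputable def twoFixed (W : Affine ℚ) : AddSubgroup (W⁄(AlgebraicClosure ℚ)).Point where
  carrier := {S | ∀ σ : AlgebraicClosure ℚ ≃ₐ[ℚ] AlgebraicClosure ℚ, σ • S = S}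
  zero_mem' := fun σ => (Point.map (W' := W) σ.toAlgHom).map_zero
  add_mem' := fun {a b} ha hb σ => by
    have h1 : σ • (a + b) = σ • a + σ • b := (Point.map (W' := W) σ.toAlgHom).map_add a b
    rw [h1, ha σ, hb σ]
  neg_mem' := fun {a} ha σ => by
    have h1 : σ • (-a) = -(σ • a) := (Point.map (W' := W) σ.toAlgHom).map_neg a
    rw [h1, ha σ]

theorem mem_twoFixed (W : Affine ℚ) (S : (W⁄(AlgebraicClosure ℚ)).Point) :
    S ∈ twoFixed W ↔ ∀ σ : AlgebraicClosure ℚ ≃ₐ[ℚ] AlgebraicClosure ℚ, σ • S = S := Iff.rfl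

/-- (RatTors) the Frey curve has no rational point of order `p`. -/
theorem no_rational_torsion (P : FreyPackage) (A : ValuationSubring (AlgebraicClosure ℚ))
    (hA : (2 : AlgebraicClosure ℚ) ∈ A.nonunits)
    (hTI : ∀ (x y : AlgebraicClosure ℚ) (h : (P.freyCurve⁄(AlgebraicClosure ℚ)).Nonsingular x y),
      P.p • Point.some x y h = 0 → A.valuation x ≤ 1)
    (T : (P.freyCurve⁄(AlgebraicClosure ℚ)).Point) (hT : P.p • T = 0)
    (hrat : ∀ σ : AlgebraicClosure ℚ ≃ₐ[ℚ] AlgebraicClosure ℚ, σ • T = T) : T = 0 := by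
  obtain ⟨Φ, hinj, heq, hsurj⟩ := two_frey_hom P
  obtain ⟨hW, m, hm, hpm⟩ := two_frey_twoModel P A hA
  have TI := two_frey_twoInt P A hTI Φ hinj hsurj
  have hA' : A.LiesOverPrime 2 := by
    show ((2 : ℕ) : AlgebraicClosure ℚ) ∈ A.nonunits
    simpa using hA
  have hv2 : A.valuation (2 : AlgebraicClosure ℚ) < 1 := (A.mem_nonunits_iff).mp hA
  apply hinj
  refine two_no_rational_torsion hW P.pp P.hp5 TI (twoFixed (modelS (twoM P) (twoC P)))
    ?_ ?_ ?_ m hm hpm (Φ T) ?_ ?_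
  · -- units are `≡ 1`
    intro x y h hmem hx
    obtain ⟨⟨r, rfl⟩, -⟩ := two_rational_of_fixed (modelS (twoM P) (twoC P)) x y h
      ((mem_twoFixed _ _).mp hmem)
    rcases two_residue_rat A hA' r hx.le with h1 | h1
    · exact absurd hx (ne_of_lt h1)
    · exact h1
  · -- slopes
    intro x₁ y₁ h₁ x₂ y₂ h₂ hm₁ hm₂ hx₁ hx₂
    obtain ⟨⟨r₁, rfl⟩, ⟨s₁, rfl⟩⟩ := two_rational_of_fixed (modelS (twoM P) (twoC P)) x₁ y₁ h₁
      ((mem_twoFixed _ _).mp hm₁)
    obtain ⟨⟨r₂, rfl⟩, ⟨s₂, rfl⟩⟩ := two_rational_of_fixed (modelS (twoM P) (twoC P)) x₂ y₂ h₂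
      ((mem_twoFixed _ _).mp hm₂)
    have hx₁0 : algebraMap ℚ (AlgebraicClosure ℚ) r₁ ≠ 0 := by
      intro h0
      rw [h0, _root_.map_zero] at hx₁
      exact zero_ne_one hx₁
    have hx₂0 : algebraMap ℚ (AlgebraicClosure ℚ) r₂ ≠ 0 := by
      intro h0
      rw [h0, _root_.map_zero] at hx₂
      exact zero_ne_one hx₂
    have hE₁ := Fermat.Agent.S05.special_equation _ hW.h₁ hW.h₃ hW.h₆ h₁.1
    have hE₂ := Fermat.Agent.S05.special_equation _ hW.h₁ hW.h₃ hW.h₆ h₂.1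
    have ht₁ := two_slope_int hW hx₁0 hE₁ hx₁.le (by rw [hx₁]; exact hW.hC.le)
    have ht₂ := two_slope_int hW hx₂0 hE₂ hx₂.le (by rw [hx₂]; exact hW.hC.le)
    have e₁ : algebraMap ℚ (AlgebraicClosure ℚ) s₁ / algebraMap ℚ (AlgebraicClosure ℚ) r₁ - 1 / 2
        = algebraMap ℚ (AlgebraicClosure ℚ) (s₁ / r₁ - 1 / 2) := by
      simp
    have e₂ : algebraMap ℚ (AlgebraicClosure ℚ) s₂ / algebraMap ℚ (AlgebraicClosure ℚ) r₂ - 1 / 2
        = algebraMap ℚ (AlgebraicClosure ℚ) (s₂ / r₂ - 1 / 2) := by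
      simp
    rw [e₁] at ht₁
    rw [e₂] at ht₂
    have hsub : algebraMap ℚ (AlgebraicClosure ℚ) s₁ / algebraMap ℚ (AlgebraicClosure ℚ) r₁ -
        algebraMap ℚ (AlgebraicClosure ℚ) s₂ / algebraMap ℚ (AlgebraicClosure ℚ) r₂ =
        algebraMap ℚ (AlgebraicClosure ℚ) (s₁ / r₁ - 1 / 2) -
          algebraMap ℚ (AlgebraicClosure ℚ) (s₂ / r₂ - 1 / 2) := by
      rw [← e₁, ← e₂]
      ring
    have hadd : algebraMap ℚ (AlgebraicClosure ℚ) s₁ / algebraMap ℚ (AlgebraicClosure ℚ) r₁ +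
        algebraMap ℚ (AlgebraicClosure ℚ) s₂ / algebraMap ℚ (AlgebraicClosure ℚ) r₂ =
        algebraMap ℚ (AlgebraicClosure ℚ) (s₁ / r₁ - 1 / 2) +
          algebraMap ℚ (AlgebraicClosure ℚ) (s₂ / r₂ - 1 / 2) + 1 := by
      rw [← e₁, ← e₂]
      ring
    rw [hsub, hadd]
    have hr₁ := two_residue_rat A hA' _ ht₁
    have hr₂ := two_residue_rat A hA' _ ht₂
    generalize algebraMap ℚ (AlgebraicClosure ℚ) (s₁ / r₁ - 1 / 2) = a at hr₁ ⊢
    generalize algebraMap ℚ (AlgebraicClosure ℚ) (s₂ / r₂ - 1 / 2) = b at hr₂ ⊢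
    rcases hr₁ with ha | ha <;> rcases hr₂ with hb | hb
    · exact Or.inl (A.valuation.map_sub_lt ha hb)
    · right
      have e : a + b + 1 = a + (b - 1) + 2 := by ring
      rw [e]
      exact A.valuation.map_add_lt (A.valuation.map_add_lt ha hb) hv2
    · right
      have e : a + b + 1 = (a - 1) + b + 2 := by ring
      rw [e]
      exact A.valuation.map_add_lt (A.valuation.map_add_lt ha hb) hv2
    · left
      have e : a - b = (a - 1) - (b - 1) := by ring
      rw [e]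
      exact A.valuation.map_sub_lt ha hb
  · -- valuations
    intro x y h hmem hx0
    obtain ⟨⟨r, rfl⟩, -⟩ := two_rational_of_fixed (modelS (twoM P) (twoC P)) x y h
      ((mem_twoFixed _ _).mp hmem)
    have hr : r ≠ 0 := by
      rintro rfl
      exact hx0 (_root_.map_zero _)
    exact two_valuation_rat A hA' r hr
  · rw [mem_twoFixed]
    intro σ
    rw [← heq, hrat σ]
  · rw [← map_nsmul, hT, _root_.map_zero]

/-- (D-G4) the Frey curve has no rational point of order `p` -/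
theorem two_no_rational_torsion_frey (P : FreyPackage)
    (A : ValuationSubring (AlgebraicClosure ℚ)) (hA : A.LiesOverPrime 2)
    (hTI : ∀ (x y : AlgebraicClosure ℚ)
      (h : (P.freyCurve⁄(AlgebraicClosure ℚ)).Nonsingular x y),
      P.p • (Point.some x y h : (P.freyCurve⁄(AlgebraicClosure ℚ)).Point) = 0 → x ∈ A)
    (T : (P.freyCurve⁄(AlgebraicClosure ℚ)).Point) (hT : P.p • T = 0)
    (hfix : ∀ σ : AlgebraicClosure ℚ ≃ₐ[ℚ] AlgebraicClosure ℚ, σ • T = T) : T = 0 := by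
  have hA' : (2 : AlgebraicClosure ℚ) ∈ A.nonunits := by
    have h : ((2 : ℕ) : AlgebraicClosure ℚ) ∈ A.nonunits := hA
    simpa using h
  exact no_rational_torsion P A hA'
    (fun x y h hp => (A.valuation_le_one_iff x).mpr (hTI x y h hp)) T hT hfix

end Fermat.Agent.S13
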