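import Mathlib
import Fermat.Agent.S13.TwoFrey

/-!
# S13, package Two: inertia at `2` acts unipotently on the `p`-torsion of the Frey curve
-/

set_option autoImplicit false

open WeierstrassCurve WeierstrassCurve.Affine WeierstrassCurve.Affine.Point

namespace Fermat.Agent.S13

/-- (D-unip) two inertia elements at `2`: `(σ' - 1)(σ - 1)` kills the `p`-torsion of the Frey
curve (hypotheses in valuation form). -/
theorem two_unipotent_frey_val (P : FreyPackage) (A : ValuationSubring (AlgebraicClosure ℚ))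
    (hA : (2 : AlgebraicClosure ℚ) ∈ A.nonunits)
    (hTI : ∀ (x y : AlgebraicClosure ℚ)
      (h : (P.freyCurve⁄(AlgebraicClosure ℚ)).Nonsingular x y),
      P.p • Point.some x y h = 0 → A.valuation x ≤ 1)
    (σ σ' : AlgebraicClosure ℚ ≃ₐ[ℚ] AlgebraicClosure ℚ) (hσ : σ ∈ A.inertiaSubgroupIn ℚ)
    (hσ' : σ' ∈ A.inertiaSubgroupIn ℚ)
    (T : (P.freyCurve⁄(AlgebraicClosure ℚ)).Point) (hT : P.p • T = 0) :
    σ' • (σ • T - T) = σ • T - T := by
  obtain ⟨Φ, hinj, heq, hsurj⟩ := two_frey_hom P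
  obtain ⟨hW, -⟩ := two_frey_twoModel P A hA
  have TI := two_frey_twoInt P A hTI Φ hinj hsurj
  have key := two_unipotent hW P.hp_odd TI
    (σ.toAlgHom : AlgebraicClosure ℚ →+* AlgebraicClosure ℚ)
    (σ'.toAlgHom : AlgebraicClosure ℚ →+* AlgebraicClosure ℚ)
    (Point.map (W' := modelS (twoM P) (twoC P)) σ.toAlgHom)
    (Point.map (W' := modelS (twoM P) (twoC P)) σ'.toAlgHom)
    (fun a ha => basic_inertia_sub_lt A σ hσ a ha) (fun a => valuation_map_eq A σ hσ a)
    (fun x y h => ⟨_, Point.map_some _ h⟩)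
    (fun a ha => basic_inertia_sub_lt A σ' hσ' a ha)
    (fun x y h => ⟨_, Point.map_some _ h⟩)
    (Φ T) (by rw [← map_nsmul, hT, _root_.map_zero])
  have e1 : Φ (σ' • (σ • T - T)) = σ' • (σ • Φ T - Φ T) := by
    rw [heq, map_sub, heq]
  have e2 : Φ (σ' • (σ • T - T) - (σ • T - T)) = 0 := by
    rw [map_sub, e1, map_sub, heq]
    exact sub_eq_zero.mpr key
  exact sub_eq_zero.mp (hinj _ e2)

/-- (Two) inertia at 2 acts unipotently on `E[p]`. -/
theorem unipotent_two (P : FreyPackage) (A : ValuationSubring (AlgebraicClosure ℚ))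
    (hA : (2 : AlgebraicClosure ℚ) ∈ A.nonunits)
    (hTI : ∀ (x y : AlgebraicClosure ℚ) (h : (P.freyCurve⁄(AlgebraicClosure ℚ)).Nonsingular x y),
      P.p • Point.some x y h = 0 → A.valuation x ≤ 1)
    (σ : AlgebraicClosure ℚ ≃ₐ[ℚ] AlgebraicClosure ℚ) (hσ : σ ∈ A.inertiaSubgroupIn ℚ)
    (T : (P.freyCurve⁄(AlgebraicClosure ℚ)).Point) (hT : P.p • T = 0) :
    σ • (σ • T - T) = σ • T - T :=
  two_unipotent_frey_val P A hA hTI σ σ hσ hσ T hT

/-- (D-unip) inertia at `2` acts unipotently on the `p`-torsion of the Frey curve -/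
theorem two_unipotent_frey (P : FreyPackage) (A : ValuationSubring (AlgebraicClosure ℚ))
    (hA : A.LiesOverPrime 2)
    (hTI : ∀ (x y : AlgebraicClosure ℚ)
      (h : (P.freyCurve⁄(AlgebraicClosure ℚ)).Nonsingular x y),
      P.p • (Point.some x y h : (P.freyCurve⁄(AlgebraicClosure ℚ)).Point) = 0 → x ∈ A)
    (σ σ' : AlgebraicClosure ℚ ≃ₐ[ℚ] AlgebraicClosure ℚ) (hσ : σ ∈ A.inertiaSubgroupIn ℚ)
    (hσ' : σ' ∈ A.inertiaSubgroupIn ℚ)
    (T : (P.freyCurve⁄(AlgebraicClosure ℚ)).Point) (hT : P.p • T = 0) :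
    σ' • (σ • T - T) = σ • T - T := by
  have hA' : (2 : AlgebraicClosure ℚ) ∈ A.nonunits := by
    have h : ((2 : ℕ) : AlgebraicClosure ℚ) ∈ A.nonunits := hA
    simpa using h
  exact two_unipotent_frey_val P A hA'
    (fun x y h hp => (A.valuation_le_one_iff x).mpr (hTI x y h hp)) σ σ' hσ hσ' T hT

end Fermat.Agent.S13
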