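import Fermat.Agent.S05.Core
import Fermat.Agent.S05.FormalGroup

/-!
# Torsion of odd prime order on `y² = x³ + M x² + C x` over a valued field, in any residue
characteristic

This is the variant of `Fermat.Agent.S05.fixed_of_torsion` which does not assume that the order
`p` of the torsion point is a unit of the valuation ring.  The kernel of reduction
`atpE1 = {0} ∪ {(x, y) | 1 < v x}` is a subgroup, and for an "inertia-like" endomorphism `σ`
(moving every integral element by a non-unit) the point `φ T - T` lies in the kernel of reduction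
for every point `T` of odd prime order `p`.
-/

set_option autoImplicit false

namespace Fermat.Agent.S13

open WeierstrassCurve WeierstrassCurve.Affine
open Fermat.Agent.S05

variable {K : Type*} [Field K] [DecidableEq K] {Γ₀ : Type*} [LinearOrderedCommGroupWithZero Γ₀]
  (v : Valuation K Γ₀) (W : Affine K)

/-- The kernel of reduction: the point at infinity and the points with non-integral `x`. -/
def atpE1 : Set W.Point :=
  {P | P = 0 ∨ ∃ (x y : K) (h : W.Nonsingular x y), P = Point.some x y h ∧ 1 < v x}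

variable {v W}

omit [DecidableEq K] in
theorem atp_E1_zero : (0 : W.Point) ∈ atpE1 v W := Or.inl rfl

omit [DecidableEq K] in
theorem atp_E1_some {x y : K} (h : W.Nonsingular x y) :
    Point.some x y h ∈ atpE1 v W ↔ 1 < v x := by
  constructor
  · rintro (h0 | ⟨x', y', h', he, hx⟩)
    · exact absurd h0 (Point.some_ne_zero h)
    · rw [Point.some.injEq] at he
      rw [he.1]; exact hx
  · intro hx
    exact Or.inr ⟨x, y, h, rfl, hx⟩

theorem atp_E1_neg {P : W.Point} (hP : P ∈ atpE1 v W) : -P ∈ atpE1 v W := by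
  rcases hP with rfl | ⟨x, y, h, rfl, hx⟩
  · rw [neg_zero]; exact atp_E1_zero
  · rw [Point.neg_some]
    exact (atp_E1_some _).mpr hx

theorem atp_E1_add (h₁ : W.a₁ = 0) (h₃ : W.a₃ = 0) (h₆ : W.a₆ = 0)
    (hM : v W.a₂ ≤ 1) (hC : v W.a₄ ≤ 1) {P Q : W.Point}
    (hP : P ∈ atpE1 v W) (hQ : Q ∈ atpE1 v W) : P + Q ∈ atpE1 v W := by
  rcases hP with rfl | ⟨x₁, y₁, hP₁, rfl, hx₁⟩
  · rw [zero_add]; exact hQ
  rcases hQ with rfl | ⟨x₂, y₂, hP₂, rfl, hx₂⟩
  · rw [add_zero]; exact (atp_E1_some _).mpr hx₁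
  by_cases hinv : x₁ = x₂ ∧ y₁ = -y₂
  · have : Point.some x₁ y₁ hP₁ + Point.some x₂ y₂ hP₂ = 0 :=
      Point.add_of_Y_eq hinv.1 (by rw [special_negY W h₁ h₃]; exact hinv.2)
    rw [this]; exact atp_E1_zero
  · obtain ⟨x₃, y₃, ℓ, β, hP₃, hsum, hch, -⟩ := exists_chord W h₁ h₃ h₆ hP₁ hP₂ hinv
    rw [hsum]
    have hE₁ := special_equation W h₁ h₃ h₆ hP₁.1
    have hE₂ := special_equation W h₁ h₃ h₆ hP₂.1
    have hE₃ := special_equation W h₁ h₃ h₆ hP₃.1
    exact (atp_E1_some _).mpr (fg_core v hM hC hch hE₁ hE₂ hE₃ hx₁ hx₂).1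

theorem atp_E1_nsmul (h₁ : W.a₁ = 0) (h₃ : W.a₃ = 0) (h₆ : W.a₆ = 0)
    (hM : v W.a₂ ≤ 1) (hC : v W.a₄ ≤ 1) {P : W.Point}
    (hP : P ∈ atpE1 v W) (k : ℕ) : k • P ∈ atpE1 v W := by
  induction k with
  | zero => rw [zero_nsmul]; exact atp_E1_zero
  | succ k ih => rw [succ_nsmul]; exact atp_E1_add h₁ h₃ h₆ hM hC ih hP

theorem atp_E1_sub (h₁ : W.a₁ = 0) (h₃ : W.a₃ = 0) (h₆ : W.a₆ = 0)
    (hM : v W.a₂ ≤ 1) (hC : v W.a₄ ≤ 1) {P Q : W.Point}
    (hP : P ∈ atpE1 v W) (hQ : Q ∈ atpE1 v W) : P - Q ∈ atpE1 v W := by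
  rw [sub_eq_add_neg]
  exact atp_E1_add h₁ h₃ h₆ hM hC hP (atp_E1_neg hQ)

/-- A nonzero multiple of a point of prime order outside the kernel of reduction is outside the
kernel of reduction. -/
theorem atp_nsmul_not_mem (h₁ : W.a₁ = 0) (h₃ : W.a₃ = 0) (h₆ : W.a₆ = 0)
    (hM : v W.a₂ ≤ 1) (hC : v W.a₄ ≤ 1) {p : ℕ} (hp : p.Prime) {T : W.Point}
    (hpT : p • T = 0) (hT1 : T ∉ atpE1 v W) (k : ℕ) (hk : k • T ≠ 0) :
    k • T ∉ atpE1 v W := by
  intro hmem
  have hndvd : ¬ p ∣ k := by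
    rintro ⟨m, rfl⟩
    exact hk (by rw [mul_nsmul, hpT, nsmul_zero])
  have hcop : Nat.Coprime k p := ((Nat.Prime.coprime_iff_not_dvd hp).mpr hndvd).symm
  obtain ⟨m, -, hm⟩ := Nat.exists_mul_mod_eq_one_of_coprime hcop hp.one_lt
  have hkm : k * m = p * (k * m / p) + 1 := by
    have := Nat.div_add_mod (k * m) p
    rw [hm] at this
    exact this.symm
  have hT : m • (k • T) = T := by
    rw [← mul_nsmul, hkm, add_nsmul, mul_nsmul, hpT, nsmul_zero, zero_add, one_nsmul]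
  exact hT1 (hT ▸ atp_E1_nsmul h₁ h₃ h₆ hM hC hmem m)

/-- The multiples of a point of prime order outside the kernel of reduction are integral. -/
theorem atp_nsmul_integral (h₁ : W.a₁ = 0) (h₃ : W.a₃ = 0) (h₆ : W.a₆ = 0)
    (hM : v W.a₂ ≤ 1) (hC : v W.a₄ ≤ 1) {p : ℕ} (hp : p.Prime) {T : W.Point}
    (hpT : p • T = 0) (hT1 : T ∉ atpE1 v W) (k : ℕ) {x' y' : K} (h' : W.Nonsingular x' y')
    (hk : k • T = Point.some x' y' h') : v x' ≤ 1 := by
  have h0 : k • T ≠ 0 := by rw [hk]; exact Point.some_ne_zero h'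
  have := atp_nsmul_not_mem h₁ h₃ h₆ hM hC hp hpT hT1 k h0
  rw [hk, atp_E1_some] at this
  exact not_lt.mp this

/-- A point of odd order whose double lies in the kernel of reduction lies in the kernel of
reduction. -/
theorem atp_mem_of_two_nsmul (h₁ : W.a₁ = 0) (h₃ : W.a₃ = 0) (h₆ : W.a₆ = 0)
    (hM : v W.a₂ ≤ 1) (hC : v W.a₄ ≤ 1) {p : ℕ} (hodd : Odd p) {T : W.Point}
    (hpT : p • T = 0) (h2T : 2 • T ∈ atpE1 v W) : T ∈ atpE1 v W := by
  obtain ⟨m, rfl⟩ := hodd
  have hT : (m + 1) • (2 • T) = T := by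
    rw [← mul_nsmul']
    have : (m + 1) * 2 = (2 * m + 1) + 1 := by ring
    rw [this, add_nsmul, hpT, zero_add, one_nsmul]
  exact hT ▸ atp_E1_nsmul h₁ h₃ h₆ hM hC h2T (m + 1)

/-- A torsion point of odd order outside the kernel of reduction with `v x ≤ v C` has
`v x = v C` (translate by `(0, 0)`). -/
theorem atp_mid_eq (h₁ : W.a₁ = 0) (h₃ : W.a₃ = 0) (h₆ : W.a₆ = 0)
    (hM : v W.a₂ ≤ 1) (hC : v W.a₄ ≤ 1) (hC0 : W.a₄ ≠ 0)
    {p : ℕ} (hodd : Odd p)
    {x y : K} (hQ : W.Nonsingular x y) (hpQ : p • Point.some x y hQ = 0)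
    (hQ1 : Point.some x y hQ ∉ atpE1 v W)
    (hle : v x ≤ v W.a₄) : v x = v W.a₄ := by
  have hT₀ : W.Nonsingular 0 0 := (nonsingular_zero).mpr ⟨h₆, Or.inr hC0⟩
  have h2T₀ : (2 : ℕ) • Point.some 0 0 hT₀ = 0 := by
    rw [two_nsmul]
    exact Point.add_self_of_Y_eq (by rw [special_negY W h₁ h₃]; simp)
  have hx0 : x ≠ 0 := by
    rintro rfl
    have hy : y = 0 := by
      have := special_equation W h₁ h₃ h₆ hQ.1
      have : y ^ 2 = 0 := by rw [this]; ring
      exact pow_eq_zero_iff (two_ne_zero) |>.mp this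
    subst hy
    obtain ⟨m, rfl⟩ := hodd
    have : (2 * m + 1) • Point.some 0 0 hQ = Point.some 0 0 hQ := by
      rw [add_nsmul, mul_nsmul, h2T₀, nsmul_zero, zero_add, one_nsmul]
    rw [this] at hpQ
    exact Point.some_ne_zero hQ hpQ
  obtain ⟨x₃, y₃, ℓ, β, hP₃, hadd, hch, -⟩ :=
    exists_chord W h₁ h₃ h₆ hQ hT₀ (fun h => hx0 h.1)
  have hprod : x * x₃ = W.a₄ := hch.mul_eq_of_zero
  have hx₃ : v x₃ ≤ 1 := by
    by_contra hc
    have hmem : Point.some x₃ y₃ hP₃ ∈ atpE1 v W := (atp_E1_some _).mpr (not_le.mp hc)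
    have h2 : 2 • Point.some x y hQ ∈ atpE1 v W := by
      have : 2 • Point.some x y hQ = 2 • Point.some x₃ y₃ hP₃ := by
        rw [← hadd, nsmul_add, h2T₀, add_zero]
      rw [this]
      exact atp_E1_nsmul h₁ h₃ h₆ hM hC hmem 2
    exact hQ1 (atp_mem_of_two_nsmul h₁ h₃ h₆ hM hC hodd hpQ h2)
  refine le_antisymm hle ?_
  rw [← hprod, map_mul]
  calc v x * v x₃ ≤ v x * 1 := mul_le_mul_right hx₃ _
    _ = v x := mul_one _

/-- The classes of all the multiples of a torsion point in the annulus. -/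
theorem atp_node_multiples (h₁ : W.a₁ = 0) (h₃ : W.a₃ = 0) (h₆ : W.a₆ = 0)
    (hM : v W.a₂ = 1) (hC0 : W.a₄ ≠ 0) (hC : v W.a₄ < 1) (h2 : v (2 : K) = 1)
    {p : ℕ} (hp : p.Prime) (hodd : Odd p)
    {x y : K} (hT : W.Nonsingular x y) (hx1 : v x < 1) (hxC : v W.a₄ < v x)
    (hpT : p • Point.some x y hT = 0) (k : ℕ) :
    ∃ j : ℕ, InClass v W (y / x) (k • Point.some x y hT) (v x ^ k / v W.a₄ ^ (2 * j)) := by
  have hN0 : v W.a₄ ≠ 0 := (v.ne_zero_iff).mpr hC0
  have hT1 : Point.some x y hT ∉ atpE1 v W := by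
    rw [atp_E1_some]; exact not_lt.mpr hx1.le
  induction k with
  | zero =>
    refine ⟨0, ?_⟩
    rw [zero_nsmul]
    exact Or.inl ⟨by simp, Or.inl rfl⟩
  | succ k ih =>
    obtain ⟨j, hj⟩ := ih
    have hpk : ∀ (x' y' : K) (h' : W.Nonsingular x' y'),
        k • Point.some x y hT + Point.some x y hT = Point.some x' y' h' →
        p • Point.some x' y' h' = 0 := by
      intro x' y' h' he
      rw [← he, ← succ_nsmul, ← mul_nsmul, mul_comm, mul_nsmul, hpT, nsmul_zero]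
    have hint : ∀ (x' y' : K) (h' : W.Nonsingular x' y'),
        k • Point.some x y hT + Point.some x y hT = Point.some x' y' h' → v x' ≤ 1 :=
      fun x' y' h' he => atp_nsmul_integral h₁ h₃ h₆ hM.le hC.le hp hpT hT1 (k + 1) h'
        (by rw [succ_nsmul]; exact he)
    have hmid : ∀ (x' y' : K) (h' : W.Nonsingular x' y'),
        k • Point.some x y hT + Point.some x y hT = Point.some x' y' h' →
        v x' ≤ v W.a₄ → v x' = v W.a₄ := by
      intro x' y' h' he hle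
      refine atp_mid_eq h₁ h₃ h₆ hM.le hC.le hC0 hodd h' (hpk x' y' h' he) ?_ hle
      rw [atp_E1_some]
      exact not_lt.mpr (hint x' y' h' he)
    rcases node_step h₁ h₃ h₆ hM hC0 hC h2 hT hx1 hxC _ _ hj hint hmid with hcl | hcl
    · refine ⟨j, ?_⟩
      rw [succ_nsmul]
      have : v x ^ (k + 1) / v W.a₄ ^ (2 * j) = v x ^ k / v W.a₄ ^ (2 * j) * v x := by
        rw [pow_succ]; field_simp
      rw [this]; exact hcl
    · refine ⟨j + 1, ?_⟩
      rw [succ_nsmul]
      have : v x ^ (k + 1) / v W.a₄ ^ (2 * (j + 1)) =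
          v x ^ k / v W.a₄ ^ (2 * j) * v x / v W.a₄ ^ 2 := by
        rw [pow_succ, mul_add, pow_add]; field_simp
      rw [this]; exact hcl

/-- The depth of a torsion point in the annulus is commensurable with that of `C`. -/
theorem atp_node_depth (h₁ : W.a₁ = 0) (h₃ : W.a₃ = 0) (h₆ : W.a₆ = 0)
    (hM : v W.a₂ = 1) (hC0 : W.a₄ ≠ 0) (hC : v W.a₄ < 1) (h2 : v (2 : K) = 1)
    {p : ℕ} (hp : p.Prime) (hodd : Odd p)
    {x y : K} (hT : W.Nonsingular x y) (hx1 : v x < 1) (hxC : v W.a₄ < v x)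
    (hpT : p • Point.some x y hT = 0) :
    ∃ j : ℕ, v x ^ p = v W.a₄ ^ (2 * j) := by
  obtain ⟨j, hj⟩ := atp_node_multiples h₁ h₃ h₆ hM hC0 hC h2 hp hodd hT hx1 hxC hpT p
  rw [hpT] at hj
  have := hj.eq_one_of_zero
  refine ⟨j, ?_⟩
  have hN0 : v W.a₄ ^ (2 * j) ≠ 0 := pow_ne_zero _ ((v.ne_zero_iff).mpr hC0)
  exact (div_eq_one_iff_eq hN0).mp this

/-- There are no torsion points of odd prime order in the "middle" class outside the kernel of
reduction. -/
theorem atp_no_mid_torsion (h₁ : W.a₁ = 0) (h₃ : W.a₃ = 0) (h₆ : W.a₆ = 0)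
    (hM : v W.a₂ = 1) (hC0 : W.a₄ ≠ 0) (hC : v W.a₄ < 1) (h2 : v (2 : K) = 1)
    {p : ℕ} (hp : p.Prime) (hodd : Odd p)
    {x y : K} (hT : W.Nonsingular x y) (hpT : p • Point.some x y hT = 0)
    (hle : v x ≤ v W.a₄) : False := by
  have hN0 : 0 < v W.a₄ := v_pos v hC0
  have hT1 : Point.some x y hT ∉ atpE1 v W := by
    rw [atp_E1_some]; exact not_lt.mpr (hle.trans hC.le)
  obtain ⟨T', h2T', hpT'⟩ := exists_half hodd _ hpT
  rcases point_cases T' with rfl | ⟨x', y', hT', rfl⟩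
  · rw [nsmul_zero] at h2T'
    exact Point.some_ne_zero hT h2T'.symm
  have hE' := special_equation W h₁ h₃ h₆ hT'.1
  have hx'le : v x' ≤ 1 := by
    by_contra hc
    have hmem : Point.some x' y' hT' ∈ atpE1 v W := (atp_E1_some _).mpr (not_le.mp hc)
    exact hT1 (h2T' ▸ atp_E1_nsmul h₁ h₃ h₆ hM.le hC.le hmem 2)
  have hy'le : v y' ≤ 1 := v_y_le_one v hE' hM.le hC.le hx'le
  obtain ⟨ℓ, β, hch, hy0, hl⟩ := exists_chord_double h₁ h₃ h₆ hT' hT h2T'
  have hval := hch.dbl_val v hE' hy0 hl h2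
  have hy0' : 0 < v y' ^ 2 := pow_pos (v_pos v hy0) 2
  have hxlt : v x < 1 := lt_of_le_of_lt hle hC
  rcases lt_or_eq_of_le hx'le with hx'lt | hx'1
  · rcases lt_or_ge (v W.a₄) (v x') with hann | hmid
    · -- annulus
      have h3 := (annulus_double h₁ h₃ h₆ hM hC0 h2 hT' hT h2T' hx'lt hann).2 hle
      obtain ⟨j, hj⟩ := atp_node_depth h₁ h₃ h₆ hM hC0 hC h2 hp hodd hT' hx'lt hann hpT'
      have h4 : v W.a₄ ^ p = v W.a₄ ^ (4 * j) := by
        calc v W.a₄ ^ p = (v x' * v x') ^ p := by rw [← h3, map_mul]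
          _ = (v x' ^ p) ^ 2 := by rw [← pow_two, ← pow_mul, ← pow_mul, mul_comm]
          _ = v W.a₄ ^ (4 * j) := by
            rw [hj, ← pow_mul]; congr 1; ring
      have h5 : p = 4 * j := by
        rcases lt_trichotomy p (4 * j) with hlt | heq | hgt
        · exact absurd h4 (ne_of_gt (pow_lt_pow_right_of_lt_one₀ hN0 hC hlt))
        · exact heq
        · exact absurd h4 (ne_of_lt (pow_lt_pow_right_of_lt_one₀ hN0 hC hgt))
      obtain ⟨m, hm⟩ := hodd
      omega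
    · -- middle
      have hxx : v (x' ^ 2) < v W.a₄ := by
        rw [map_pow, pow_two]
        calc v x' * v x' ≤ v W.a₄ * v W.a₄ := mul_le_mul' hmid hmid
          _ < v W.a₄ * 1 := mul_lt_mul_of_pos_left hC hN0
          _ = v W.a₄ := mul_one _
      have h3 : v (x' ^ 2 - W.a₄) = v W.a₄ := v.map_sub_eq_of_lt_right hxx
      have h4 : v y' ^ 2 ≤ v W.a₄ ^ 2 := by
        rw [← map_pow, hE']
        have e : x' ^ 3 + W.a₂ * x' ^ 2 + W.a₄ * x' = x' * (x' ^ 2 + W.a₂ * x' + W.a₄) := by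
          ring
        have hMx : v (W.a₂ * x') ≤ v W.a₄ := by
          rw [map_mul]
          calc v W.a₂ * v x' ≤ 1 * v x' := mul_le_mul_left hM.le _
            _ = v x' := one_mul _
            _ ≤ v W.a₄ := hmid
        rw [e, map_mul]
        calc v x' * v (x' ^ 2 + W.a₂ * x' + W.a₄) ≤ v W.a₄ * v W.a₄ :=
              mul_le_mul' hmid (v.map_add_le (v.map_add_le hxx.le hMx) le_rfl)
          _ = v W.a₄ ^ 2 := (pow_two _).symm
      rw [h3] at hval
      have h5 : v x * v y' ^ 2 < 1 * v y' ^ 2 := mul_lt_mul_of_pos_right hxlt hy0'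
      rw [hval, one_mul] at h5
      exact absurd h4 (not_le.mpr h5)
  · -- unit
    have h3 : v (x' ^ 2 - W.a₄) = 1 := by
      apply v_sub_eq_one_of_eq_of_lt v _ hC
      rw [map_pow, hx'1, one_pow]
    rw [h3, one_pow] at hval
    have h5 : v x * v y' ^ 2 < 1 * v y' ^ 2 := mul_lt_mul_of_pos_right hxlt hy0'
    rw [hval, one_mul] at h5
    exact absurd (pow_le_one' hy'le 2) (not_le.mpr h5)

section fixed

variable (σ : K →+* K) (φ : W.Point →+ W.Point)

/-- The difference `φ T - T` as an affine point given by a chord, when `σ x ≠ x`. -/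
theorem atp_chord_diff (h₁ : W.a₁ = 0) (h₃ : W.a₃ = 0) (h₆ : W.a₆ = 0)
    {x y : K} (hT : W.Nonsingular x y)
    (hT' : W.Nonsingular (σ x) (σ y))
    (hφT : φ (Point.some x y hT) = Point.some (σ x) (σ y) hT') (hxx : σ x ≠ x) :
    ∃ (x₃ y₃ ℓ β : K) (hP₃ : W.Nonsingular x₃ y₃),
      φ (Point.some x y hT) - Point.some x y hT = Point.some x₃ y₃ hP₃ ∧
      Chord W.a₂ W.a₄ (σ x) (σ y) x (-y) x₃ y₃ ℓ β := by
  have hneg : W.Nonsingular x (-y) := by
    have := (nonsingular_neg x y).mpr hT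
    rwa [special_negY W h₁ h₃] at this
  have e1 : Point.some x (-y) hneg = -Point.some x y hT := by
    rw [Point.neg_some]
    exact some_congr _ _ rfl (special_negY W h₁ h₃ x y).symm
  obtain ⟨x₃, y₃, ℓ, β, hP₃, hadd, hch, -⟩ :=
    exists_chord W h₁ h₃ h₆ hT' hneg (fun h => hxx h.1)
  exact ⟨x₃, y₃, ℓ, β, hP₃, by rw [hφT, sub_eq_add_neg, ← e1, hadd], hch⟩

/-- For a point with unit coordinates, `φ T - T` lies in the kernel of reduction. -/
theorem atp_diff_unit (h₁ : W.a₁ = 0) (h₃ : W.a₃ = 0) (h₆ : W.a₆ = 0) (h2 : v (2 : K) = 1)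
    (hσ : ∀ a : K, v a ≤ 1 → v (σ a - a) < 1)
    (hφ : ∀ (x y : K) (h : W.Nonsingular x y), ∃ h' : W.Nonsingular (σ x) (σ y),
      φ (Point.some x y h) = Point.some (σ x) (σ y) h')
    {x y : K} (hT : W.Nonsingular x y)
    (hx : v x = 1) (hy : v y = 1) :
    φ (Point.some x y hT) - Point.some x y hT ∈ atpE1 v W := by
  obtain ⟨hT', hφT⟩ := hφ x y hT
  have hσx : v (σ x - x) < 1 := hσ x hx.le
  have hσy : v (σ y - y) < 1 := hσ y hy.le
  by_cases hxx : σ x = x
  · have : φ (Point.some x y hT) = Point.some x y hT := by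
      rw [hφT]
      rcases Y_eq_of_X_eq hT'.1 hT.1 hxx with hyy | hyy
      · exact some_congr _ _ hxx hyy
      · exfalso
        rw [special_negY W h₁ h₃] at hyy
        rw [hyy] at hσy
        have : -y - y = -(2 * y) := by ring
        rw [this, Valuation.map_neg, map_mul, h2, hy, one_mul] at hσy
        exact lt_irrefl _ hσy
    rw [this, sub_self]; exact atp_E1_zero
  · obtain ⟨x₃, y₃, ℓ, β, hP₃, hsub, hch⟩ := atp_chord_diff σ φ h₁ h₃ h₆ hT hT' hφT hxx
    rw [hsub, atp_E1_some]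
    have hvσx : v (σ x) = 1 := by
      have : σ x = x + (σ x - x) := by ring
      rw [this]; exact v_add_eq_one_of_eq_of_lt v hx hσx
    have hnum : v (σ x * (-y) - x * σ y) = 1 := by
      have : σ x * (-y) - x * σ y = -(2 * (x * y) + ((σ x - x) * y + x * (σ y - y))) := by ring
      rw [this, Valuation.map_neg]
      apply v_add_eq_one_of_eq_of_lt v
      · rw [map_mul, map_mul, h2, hx, hy, one_mul, one_mul]
      · exact v.map_add_lt (v_mul_lt_one_of_lt_of_le v hσx hy.le)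
          (v_mul_lt_one_of_le_of_lt v hx.le hσy)
    have hlt : v (σ x - x) ^ 2 * (v (σ x) * v x) < v (σ x * (-y) - x * σ y) ^ 2 := by
      rw [hnum, hvσx, hx, one_pow, mul_one, mul_one]
      exact (pow_lt_one_iff two_ne_zero).mpr hσx
    exact hch.diff v hlt

/-- For a torsion point of odd prime order in the annulus, `φ T - T` lies in the kernel of
reduction, provided `C` is a unit times a `p`-th power of a fixed element. -/
theorem atp_diff_annulus (h₁ : W.a₁ = 0) (h₃ : W.a₃ = 0) (h₆ : W.a₆ = 0)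
    (hM : v W.a₂ = 1) (hC0 : W.a₄ ≠ 0) (hC : v W.a₄ < 1) (h2 : v (2 : K) = 1)
    {p : ℕ} (hp : p.Prime) (hodd : Odd p)
    (hσ : ∀ a : K, v a ≤ 1 → v (σ a - a) < 1)
    (hφ : ∀ (x y : K) (h : W.Nonsingular x y), ∃ h' : W.Nonsingular (σ x) (σ y),
      φ (Point.some x y h) = Point.some (σ x) (σ y) h')
    {g κ : K} (hσg : σ g = g) (hκ : v κ = 1) (hCg : W.a₄ = κ * g ^ p)
    {x y : K} (hT : W.Nonsingular x y) (hpT : p • Point.some x y hT = 0)
    (hx1 : v x < 1) (hxC : v W.a₄ < v x) :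
    φ (Point.some x y hT) - Point.some x y hT ∈ atpE1 v W := by
  have hp0 : p ≠ 0 := hp.ne_zero
  have hx0 : x ≠ 0 := by
    rintro rfl; rw [map_zero] at hxC; exact absurd hxC (not_lt.mpr zero_le)
  have ht0 : 0 < v x := v_pos v hx0
  have hE := special_equation W h₁ h₃ h₆ hT.1
  have hρ : v (y / x) = 1 := annulus_rho v hx0 hE hM hx1 hxC
  obtain ⟨j, hj⟩ := atp_node_depth h₁ h₃ h₆ hM hC0 hC h2 hp hodd hT hx1 hxC hpT
  have hg0 : g ≠ 0 := by
    rintro rfl
    rw [zero_pow hp0, mul_zero] at hCg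
    exact hC0 hCg
  -- `v x = v (g ^ (2 * j))`
  have hvx : v x = v (g ^ (2 * j)) := by
    have : v x ^ p = v (g ^ (2 * j)) ^ p := by
      rw [hj, hCg, map_mul, hκ, one_mul, map_pow, map_pow, ← pow_mul, ← pow_mul, mul_comm]
    exact (pow_left_inj hp0).mp this
  have hgj0 : g ^ (2 * j) ≠ 0 := pow_ne_zero _ hg0
  have hε : v (x / g ^ (2 * j)) = 1 := (v_div_eq_one_iff v hgj0).mpr hvx
  have hσε := hσ _ hε.le
  have hσx : v (σ x - x) < v x := by
    have : σ x - x = (σ (x / g ^ (2 * j)) - x / g ^ (2 * j)) * g ^ (2 * j) := by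
      rw [map_div₀, map_pow, hσg]; field_simp
    rw [this, map_mul, hvx]
    calc v (σ (x / g ^ (2 * j)) - x / g ^ (2 * j)) * v (g ^ (2 * j))
        < 1 * v (g ^ (2 * j)) := mul_lt_mul_of_pos_right hσε (v_pos v hgj0)
      _ = v (g ^ (2 * j)) := one_mul _
  have hvσx : v (σ x) = v x := by
    have : σ x = x + (σ x - x) := by ring
    rw [this]; exact v.map_add_eq_of_lt_left hσx
  have hσx0 : σ x ≠ 0 := by
    intro h0; rw [h0, map_zero] at hvσx; exact ht0.ne' hvσx.symm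
  have hσρ : v (σ y / σ x - y / x) < 1 := by
    have := hσ _ hρ.le
    rwa [map_div₀] at this
  obtain ⟨hT', hφT⟩ := hφ x y hT
  by_cases hxx : σ x = x
  · have : φ (Point.some x y hT) = Point.some x y hT := by
      rw [hφT]
      rcases Y_eq_of_X_eq hT'.1 hT.1 hxx with hyy | hyy
      · exact some_congr _ _ hxx hyy
      · exfalso
        rw [special_negY W h₁ h₃] at hyy
        rw [hyy, hxx] at hσρ
        have : -y / x - y / x = -(2 * (y / x)) := by ring
        rw [this, Valuation.map_neg, map_mul, h2, hρ, one_mul] at hσρ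
        exact lt_irrefl _ hσρ
    rw [this, sub_self]; exact atp_E1_zero
  · obtain ⟨x₃, y₃, ℓ, β, hP₃, hsub, hch⟩ := atp_chord_diff σ φ h₁ h₃ h₆ hT hT' hφT hxx
    rw [hsub, atp_E1_some]
    have hnum : v (σ x * (-y) - x * σ y) = v x * v x := by
      have : σ x * (-y) - x * σ y = -(x * σ x * (2 * (y / x) + (σ y / σ x - y / x))) := by
        field_simp; ring
      rw [this, Valuation.map_neg, map_mul, map_mul, hvσx]
      have : v (2 * (y / x) + (σ y / σ x - y / x)) = 1 := by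
        apply v_add_eq_one_of_eq_of_lt v _ hσρ
        rw [map_mul, h2, hρ, one_mul]
      rw [this, mul_one]
    have hlt : v (σ x - x) ^ 2 * (v (σ x) * v x) < v (σ x * (-y) - x * σ y) ^ 2 := by
      rw [hnum, hvσx, pow_two (v x * v x)]
      have h3 : v (σ x - x) ^ 2 < v x * v x := by
        rw [← pow_two]; exact pow_lt_pow_left₀ hσx zero_le two_ne_zero
      exact mul_lt_mul_of_pos_right h3 (mul_pos ht0 ht0)
    exact hch.diff v hlt

/-- `φ` preserves the kernel of reduction. -/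
theorem atp_E1_map
    (hσ : ∀ a : K, v a ≤ 1 → v (σ a - a) < 1)
    (hφ : ∀ (x y : K) (h : W.Nonsingular x y), ∃ h' : W.Nonsingular (σ x) (σ y),
      φ (Point.some x y h) = Point.some (σ x) (σ y) h')
    {P : W.Point} (hP : P ∈ atpE1 v W) : φ P ∈ atpE1 v W := by
  rcases hP with rfl | ⟨x, y, h, rfl, hx⟩
  · rw [map_zero]; exact atp_E1_zero
  · obtain ⟨h', hφT⟩ := hφ x y h
    rw [hφT, atp_E1_some]
    have hx0 : x ≠ 0 := by
      rintro rfl; rw [map_zero] at hx; exact absurd hx (not_lt.mpr zero_le)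
    have hinv : v x⁻¹ < 1 := by
      rw [map_inv₀]; exact inv_lt_one_of_one_lt₀ hx
    have h1 : v (σ x⁻¹) < 1 := by
      have : σ x⁻¹ = x⁻¹ + (σ x⁻¹ - x⁻¹) := by ring
      rw [this]
      exact v.map_add_lt hinv (hσ _ hinv.le)
    rw [map_inv₀, map_inv₀] at h1
    have hσx0 : σ x ≠ 0 := fun h0 => hx0 ((map_eq_zero σ).mp h0)
    have hpos : 0 < v (σ x) := v_pos v hσx0
    by_contra hc
    have hc' : v (σ x) ≤ 1 := not_lt.mp hc
    have : 1 ≤ (v (σ x))⁻¹ := (one_le_inv₀ hpos).mpr hc'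
    exact absurd h1 (not_lt.mpr this)

/-- **Main local theorem, any residue characteristic ≠ 2.** Let `W : y² = x³ + M x² + C x` over
a valued field with `v 2 = 1`, with either good reduction or nodal reduction at the origin (`C`
a nonzero non-unit of the shape unit times a `p`-th power of a `σ`-fixed element). Let `σ` be a
ring endomorphism moving every integral element by a non-unit, acting on the points through the
additive map `φ`. Then `φ T - T` lies in the kernel of reduction for every point `T` of odd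
prime order `p`. -/
theorem atp_diff_mem_E1 (h₁ : W.a₁ = 0) (h₃ : W.a₃ = 0) (h₆ : W.a₆ = 0) (h2 : v (2 : K) = 1)
    {p : ℕ} (hp : p.Prime) (hodd : Odd p)
    (hσ : ∀ a : K, v a ≤ 1 → v (σ a - a) < 1)
    (hφ : ∀ (x y : K) (h : W.Nonsingular x y), ∃ h' : W.Nonsingular (σ x) (σ y),
      φ (Point.some x y h) = Point.some (σ x) (σ y) h')
    (hcase : (v W.a₂ ≤ 1 ∧ v W.a₄ = 1 ∧ v (W.a₂ ^ 2 - 4 * W.a₄) = 1) ∨
      (v W.a₂ = 1 ∧ v W.a₄ < 1 ∧ W.a₄ ≠ 0 ∧
        ∃ g κ : K, σ g = g ∧ v κ = 1 ∧ W.a₄ = κ * g ^ p))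
    (T : W.Point) (hpT : p • T = 0) : φ T - T ∈ atpE1 v W := by
  have hM' : v W.a₂ ≤ 1 := by
    rcases hcase with h | h
    · exact h.1
    · exact h.1.le
  have hC' : v W.a₄ ≤ 1 := by
    rcases hcase with h | h
    · exact h.2.1.le
    · exact h.2.1.le
  by_cases hT1 : T ∈ atpE1 v W
  · exact atp_E1_sub h₁ h₃ h₆ hM' hC' (atp_E1_map σ φ hσ hφ hT1) hT1
  rcases point_cases T with rfl | ⟨x, y, hT, rfl⟩
  · exact absurd atp_E1_zero hT1
  obtain ⟨T', h2T', hpT'⟩ := exists_half hodd _ hpT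
  rcases point_cases T' with rfl | ⟨x', y', hT', rfl⟩
  · rw [nsmul_zero] at h2T'
    exact absurd h2T'.symm (Point.some_ne_zero hT)
  have key : φ (Point.some x' y' hT') - Point.some x' y' hT' ∈ atpE1 v W →
      φ (Point.some x y hT) - Point.some x y hT ∈ atpE1 v W := by
    intro h
    have : φ (Point.some x y hT) - Point.some x y hT =
        2 • (φ (Point.some x' y' hT') - Point.some x' y' hT') := by
      rw [← h2T', map_nsmul, nsmul_sub]
    rw [this]
    exact atp_E1_nsmul h₁ h₃ h₆ hM' hC' h 2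
  have hxle : v x ≤ 1 := by
    rw [atp_E1_some] at hT1; exact not_lt.mp hT1
  have hT1' : Point.some x' y' hT' ∉ atpE1 v W := by
    intro hmem
    exact hT1 (h2T' ▸ atp_E1_nsmul h₁ h₃ h₆ hM' hC' hmem 2)
  have hx'le : v x' ≤ 1 := by
    rw [atp_E1_some] at hT1'; exact not_lt.mp hT1'
  have hE' := special_equation W h₁ h₃ h₆ hT'.1
  obtain ⟨ℓ, β, hch, hy0, hl⟩ := exists_chord_double h₁ h₃ h₆ hT' hT h2T'
  have hval := hch.dbl_val v hE' hy0 hl h2
  have e : y' ^ 2 = x' * (x' ^ 2 + W.a₂ * x' + W.a₄) := by rw [hE']; ring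
  have hx'2 : v (x' ^ 2) ≤ 1 := by rw [map_pow]; exact pow_le_one' hx'le 2
  rcases hcase with ⟨hM, hC, hdisc⟩ | ⟨hM, hC, hC0, g, κ, hσg, hκ, hCg⟩
  · -- good reduction
    have hy'le : v y' ≤ 1 := v_y_le_one v hE' hM hC.le hx'le
    have hq : v (x' ^ 2 + W.a₂ * x' + W.a₄) ≤ 1 :=
      v.map_add_le (v.map_add_le hx'2 (v_mul_le_one v hM hx'le)) hC.le
    have hy'1 : v y' = 1 := by
      by_contra hne
      have hy'lt : v y' < 1 := lt_of_le_of_ne hy'le hne
      have hunit : v (x' ^ 2 - W.a₄) = 1 := by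
        by_contra hne2
        have hlt : v (x' ^ 2 - W.a₄) < 1 := lt_of_le_of_ne (v.map_sub_le hx'2 hC.le) hne2
        have hx'1 : v x' = 1 := by
          by_contra hne3
          have h3 : v x' < 1 := lt_of_le_of_ne hx'le hne3
          exact hne2 (v_sub_eq_one_of_lt_of_eq v (v_sq_lt_one v h3) hC)
        have hq' : v (x' ^ 2 + W.a₂ * x' + W.a₄) < 1 := by
          have h3 := congrArg v e
          rw [map_pow, map_mul, hx'1, one_mul] at h3
          rw [← h3]; exact (pow_lt_one_iff two_ne_zero).mpr hy'lt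
        have hid : W.a₄ * (W.a₂ ^ 2 - 4 * W.a₄) = -(W.a₂ ^ 2 * (x' ^ 2 - W.a₄)) +
            ((x' ^ 2 + W.a₂ * x' + W.a₄) - (x' ^ 2 - W.a₄)) * (W.a₂ * x' - 2 * W.a₄) := by
          ring
        have h4 : v (W.a₄ * (W.a₂ ^ 2 - 4 * W.a₄)) < 1 := by
          rw [hid]
          apply v.map_add_lt
          · rw [Valuation.map_neg]
            refine v_mul_lt_one_of_le_of_lt v ?_ hlt
            rw [map_pow]; exact pow_le_one' hM 2
          · refine v_mul_lt_one_of_lt_of_le v (v.map_sub_lt hq' hlt) ?_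
            refine v.map_sub_le (v_mul_le_one v hM hx'le) ?_
            rw [map_mul, h2, one_mul]; exact hC.le
        rw [map_mul, hC, hdisc, one_mul] at h4
        exact lt_irrefl _ h4
      rw [hunit, one_pow] at hval
      have h5 : v x * v y' ^ 2 < 1 :=
        Right.mul_lt_one_of_le_of_lt hxle ((pow_lt_one_iff two_ne_zero).mpr hy'lt)
      rw [hval] at h5
      exact lt_irrefl _ h5
    have hx'1 : v x' = 1 :=
      (v_eq_one_of_mul_eq_one v hx'le hq (by rw [← e, map_pow, hy'1, one_pow])).1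
    exact key (atp_diff_unit σ φ h₁ h₃ h₆ h2 hσ hφ hT' hx'1 hy'1)
  · -- nodal reduction
    rcases lt_or_eq_of_le hxle with hxlt | hx1
    · rcases lt_or_ge (v W.a₄) (v x) with hann | hmid
      · exact atp_diff_annulus σ φ h₁ h₃ h₆ hM hC0 hC h2 hp hodd hσ hφ hσg hκ hCg hT hpT
          hxlt hann
      · exact (atp_no_mid_torsion h₁ h₃ h₆ hM hC0 hC h2 hp hodd hT hpT hmid).elim
    · have hx'1 : v x' = 1 := by
        by_contra hne
        have hx'lt : v x' < 1 := lt_of_le_of_ne hx'le hne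
        rcases lt_or_ge (v W.a₄) (v x') with hann | hmid
        · have h3 := (annulus_double h₁ h₃ h₆ hM hC0 h2 hT' hT h2T' hx'lt hann).1
          rw [hx1] at h3
          exact lt_irrefl _ h3
        · exact atp_no_mid_torsion h₁ h₃ h₆ hM hC0 hC h2 hp hodd hT' hpT' hmid
      have hunit : v (x' ^ 2 - W.a₄) = 1 :=
        v_sub_eq_one_of_eq_of_lt v (by rw [map_pow, hx'1, one_pow]) hC
      rw [hunit, one_pow, hx1, one_mul] at hval
      have hy'1 : v y' = 1 := (pow_eq_one_iff_left two_ne_zero).mp hval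
      exact key (atp_diff_unit σ φ h₁ h₃ h₆ h2 hσ hφ hT' hx'1 hy'1)

end fixed

end Fermat.Agent.S13
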