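import Fermat.Agent.S05.FormalGroup
import Mathlib

/-!
# S13, package B: the valuation budget of the `p`-torsion in the kernel of reduction

For the curve `y^2 = x^3 + M x^2 + C x` over a valued field `(K, v)` with `v M ≤ 1`, `v C ≤ 1`
and distinct nonzero `p`-torsion points `T` with `1 < v (x T)` (the kernel of reduction), the
formal parameters `z T = x T / y T` satisfy

  `v p ≤ ∏ T, v (z T)`      (`torsion_budget`),

provided `v` has rank one (`harch`).  No power series and no completeness are used: the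
multiples `k • T` are computed by the exact group law in the coordinates `z = x / y`, `w = 1 / y`
and approximated modulo every power of `z T` by *universal* polynomials with integral
coefficients ("jet calculus"); an interpolation argument then bounds the constant term `p`.
-/

set_option autoImplicit false

namespace Fermat.Agent.S13

open Polynomial

section Jets

variable {K : Type*} [Field K] {Γ₀ : Type*} [LinearOrderedCommGroupWithZero Γ₀]
  (v : Valuation K Γ₀)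

/-- Polynomials with `v`-integral coefficients. -/
def bud_intPoly : Subring K[X] where
  carrier := {Q | ∀ i, v (Q.coeff i) ≤ 1}
  mul_mem' := by
    intro P Q hP hQ i
    rw [Polynomial.coeff_mul]
    refine v.map_sum_le fun x _ => ?_
    rw [map_mul]
    exact mul_le_one' (hP _) (hQ _)
  one_mem' := by
    intro i
    rw [Polynomial.coeff_one]
    split_ifs <;> simp
  add_mem' := by
    intro P Q hP hQ i
    rw [Polynomial.coeff_add]
    exact v.map_add_le (hP i) (hQ i)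
  zero_mem' := by
    intro i
    simp
  neg_mem' := by
    intro P hP i
    rw [Polynomial.coeff_neg, Valuation.map_neg]
    exact hP i

theorem bud_mem_intPoly {Q : K[X]} : Q ∈ bud_intPoly v ↔ ∀ i, v (Q.coeff i) ≤ 1 := Iff.rfl

theorem bud_C_mem_intPoly {c : K} (hc : v c ≤ 1) : C c ∈ bud_intPoly v := by
  intro i
  rw [Polynomial.coeff_C]
  split_ifs
  · exact hc
  · simp

theorem bud_X_mem_intPoly : (X : K[X]) ∈ bud_intPoly v := by
  intro i
  rw [Polynomial.coeff_X]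
  split_ifs <;> simp

theorem bud_divX_mem_intPoly {Q : K[X]} (hQ : Q ∈ bud_intPoly v) : Q.divX ∈ bud_intPoly v := by
  intro i
  rw [Polynomial.coeff_divX]
  exact hQ _

theorem bud_eval_le_one {Q : K[X]} (hQ : Q ∈ bud_intPoly v) {t : K} (ht : v t ≤ 1) :
    v (Q.eval t) ≤ 1 := by
  rw [Polynomial.eval_eq_sum_range]
  refine v.map_sum_le fun i _ => ?_
  rw [map_mul, map_pow]
  exact mul_le_one' (hQ i) (pow_le_one₀ zero_le ht)

theorem bud_eval_le_self {Q : K[X]} (hQ : Q ∈ bud_intPoly v) (h0 : Q.coeff 0 = 0) {t : K}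
    (ht : v t ≤ 1) : v (Q.eval t) ≤ v t := by
  have h := Polynomial.divX_mul_X_add Q
  rw [h0, map_zero, add_zero] at h
  rw [← h, Polynomial.eval_mul, Polynomial.eval_X, map_mul]
  calc v (Q.divX.eval t) * v t ≤ 1 * v t := by
        gcongr
        exact bud_eval_le_one v (bud_divX_mem_intPoly v hQ) ht
    _ = v t := one_mul _

variable {ι : Type*} (z : ι → K)

/-- `f` is approximated, modulo every power of `z`, by polynomials in `z` with integral
coefficients and prescribed `1`-jet `a + b T`. -/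
def BudUAj (f : ι → K) (a b : K) : Prop :=
  ∀ n : ℕ, ∃ Q : K[X], Q ∈ bud_intPoly v ∧ Q.coeff 0 = a ∧ Q.coeff 1 = b ∧
    ∀ i : ι, v (f i - Q.eval (z i)) ≤ v (z i) ^ n

variable {v z}

theorem BudUAj.congr {f g : ι → K} {a b : K} (h : BudUAj v z f a b) (hfg : ∀ i, g i = f i) :
    BudUAj v z g a b := by
  intro n
  obtain ⟨Q, hQ, h0, h1, hQf⟩ := h n
  exact ⟨Q, hQ, h0, h1, fun i => by rw [hfg]; exact hQf i⟩

theorem BudUAj.congr_jet {f : ι → K} {a b a' b' : K} (h : BudUAj v z f a b) (ha : a = a')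
    (hb : b = b') : BudUAj v z f a' b' := by
  subst ha
  subst hb
  exact h

theorem BudUAj.le_one (hz : ∀ i, v (z i) ≤ 1) {f : ι → K} {a b : K} (h : BudUAj v z f a b) (i : ι) :
    v (f i) ≤ 1 := by
  obtain ⟨Q, hQ, -, -, hQf⟩ := h 0
  have h1 := hQf i
  rw [pow_zero] at h1
  have : f i = (f i - Q.eval (z i)) + Q.eval (z i) := by ring
  rw [this]
  exact v.map_add_le h1 (bud_eval_le_one v hQ (hz i))

theorem BudUAj.le_self (hz : ∀ i, v (z i) ≤ 1) {f : ι → K} {b : K} (h : BudUAj v z f 0 b) (i : ι) :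
    v (f i) ≤ v (z i) := by
  obtain ⟨Q, hQ, h0, -, hQf⟩ := h 1
  have h1 := hQf i
  rw [pow_one] at h1
  have : f i = (f i - Q.eval (z i)) + Q.eval (z i) := by ring
  rw [this]
  exact v.map_add_le h1 (bud_eval_le_self v hQ h0 (hz i))

theorem bud_uaj_const (z : ι → K) {c : K} (hc : v c ≤ 1) : BudUAj v z (fun _ => c) c 0 := by
  intro n
  refine ⟨C c, bud_C_mem_intPoly v hc, by simp, by simp, fun i => ?_⟩
  simp

theorem bud_uaj_id (z : ι → K) : BudUAj v z z 0 1 := by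
  intro n
  refine ⟨X, bud_X_mem_intPoly v, by simp, by simp, fun i => ?_⟩
  simp

theorem BudUAj.add {f g : ι → K} {a b a' b' : K} (hf : BudUAj v z f a b) (hg : BudUAj v z g a' b') :
    BudUAj v z (fun i => f i + g i) (a + a') (b + b') := by
  intro n
  obtain ⟨Q, hQ, h0, h1, hQf⟩ := hf n
  obtain ⟨R, hR, h0', h1', hRg⟩ := hg n
  refine ⟨Q + R, Subring.add_mem _ hQ hR, by simp [h0, h0'], by simp [h1, h1'], fun i => ?_⟩
  have : f i + g i - (Q + R).eval (z i) = (f i - Q.eval (z i)) + (g i - R.eval (z i)) := by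
    rw [Polynomial.eval_add]
    ring
  rw [this]
  exact v.map_add_le (hQf i) (hRg i)

theorem BudUAj.neg {f : ι → K} {a b : K} (hf : BudUAj v z f a b) :
    BudUAj v z (fun i => -f i) (-a) (-b) := by
  intro n
  obtain ⟨Q, hQ, h0, h1, hQf⟩ := hf n
  refine ⟨-Q, Subring.neg_mem _ hQ, by simp [h0], by simp [h1], fun i => ?_⟩
  have : -f i - (-Q).eval (z i) = -(f i - Q.eval (z i)) := by
    rw [Polynomial.eval_neg]
    ring
  rw [this, Valuation.map_neg]
  exact hQf i

theorem BudUAj.sub {f g : ι → K} {a b a' b' : K} (hf : BudUAj v z f a b) (hg : BudUAj v z g a' b') :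
    BudUAj v z (fun i => f i - g i) (a - a') (b - b') := by
  have h := hf.add hg.neg
  refine (h.congr fun i => ?_).congr_jet ?_ ?_ <;> ring

theorem BudUAj.mul (hz : ∀ i, v (z i) ≤ 1) {f g : ι → K} {a b a' b' : K} (hf : BudUAj v z f a b)
    (hg : BudUAj v z g a' b') :
    BudUAj v z (fun i => f i * g i) (a * a') (a * b' + b * a') := by
  intro n
  obtain ⟨Q, hQ, h0, h1, hQf⟩ := hf n
  obtain ⟨R, hR, h0', h1', hRg⟩ := hg n
  refine ⟨Q * R, Subring.mul_mem _ hQ hR, by simp [Polynomial.mul_coeff_zero, h0, h0'],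
    by rw [Polynomial.mul_coeff_one, h0, h1, h0', h1'], fun i => ?_⟩
  have : f i * g i - (Q * R).eval (z i) =
      f i * (g i - R.eval (z i)) + R.eval (z i) * (f i - Q.eval (z i)) := by
    rw [Polynomial.eval_mul]
    ring
  rw [this]
  refine v.map_add_le ?_ ?_
  · rw [map_mul]
    calc v (f i) * v (g i - R.eval (z i)) ≤ 1 * v (z i) ^ n := by
          gcongr
          · exact hf.le_one hz i
          · exact hRg i
      _ = v (z i) ^ n := one_mul _
  · rw [map_mul]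
    calc v (R.eval (z i)) * v (f i - Q.eval (z i)) ≤ 1 * v (z i) ^ n := by
          gcongr
          · exact bud_eval_le_one v hR (hz i)
          · exact hQf i
      _ = v (z i) ^ n := one_mul _

theorem BudUAj.const_mul (hz : ∀ i, v (z i) ≤ 1) {f : ι → K} {a b : K} (hf : BudUAj v z f a b)
    {c : K} (hc : v c ≤ 1) : BudUAj v z (fun i => c * f i) (c * a) (c * b) := by
  have h := (bud_uaj_const z hc).mul hz hf
  exact h.congr_jet rfl (by ring)

/-- Inversion of `1 + f` for `f` with vanishing constant term. -/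
theorem BudUAj.inv_one_add (hz : ∀ i, v (z i) < 1) {f : ι → K} {b : K} (hf : BudUAj v z f 0 b) :
    BudUAj v z (fun i => (1 + f i)⁻¹) 1 (-b) := by
  intro n
  obtain ⟨Q, hQ, h0, h1, hQf⟩ := hf n
  -- `R 0 = 1`, `R (j + 1) = 1 - Q * R j`
  let R : ℕ → K[X] := fun j => Nat.rec 1 (fun _ r => 1 - Q * r) j
  have hR0 : R 0 = 1 := rfl
  have hRs : ∀ j, R (j + 1) = 1 - Q * R j := fun j => rfl
  have hRmem : ∀ j, R j ∈ bud_intPoly v := by
    intro j
    induction j with
    | zero => exact Subring.one_mem _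
    | succ j ih =>
      rw [hRs]
      exact Subring.sub_mem _ (Subring.one_mem _) (Subring.mul_mem _ hQ ih)
  have hRc0 : ∀ j, (R j).coeff 0 = 1 := by
    intro j
    induction j with
    | zero => simp [hR0]
    | succ j ih =>
      rw [hRs]
      simp [Polynomial.mul_coeff_zero, h0]
  have hRc1 : ∀ j, (R (j + 1)).coeff 1 = -b := by
    intro j
    rw [hRs, Polynomial.coeff_sub, Polynomial.mul_coeff_one, h0, h1, hRc0]
    simp [Polynomial.coeff_one]
  have herr : ∀ j t, (1 + Q.eval t) * (R j).eval t - 1 = -(-Q.eval t) ^ (j + 1) := by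
    intro j t
    induction j with
    | zero => simp [hR0]
    | succ j ih =>
      rw [hRs, Polynomial.eval_sub, Polynomial.eval_one, Polynomial.eval_mul]
      have h2 : (1 + Q.eval t) * (1 - Q.eval t * (R j).eval t) - 1 =
          -Q.eval t * ((1 + Q.eval t) * (R j).eval t - 1) := by ring
      rw [h2, ih]
      ring
  refine ⟨R (n + 1), hRmem (n + 1), hRc0 (n + 1), hRc1 n, fun i => ?_⟩
  have hzi := hz i
  have hfi : v (f i) ≤ v (z i) := hf.le_self (fun i => (hz i).le) i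
  have hqi : v (Q.eval (z i)) ≤ v (z i) := bud_eval_le_self v hQ h0 hzi.le
  have h1f : v (1 + f i) = 1 := v.map_one_add_of_lt (lt_of_le_of_lt hfi hzi)
  have h1q : v (1 + Q.eval (z i)) = 1 := v.map_one_add_of_lt (lt_of_le_of_lt hqi hzi)
  have hne1 : 1 + f i ≠ 0 := by
    intro h
    rw [h, map_zero] at h1f
    exact zero_ne_one h1f
  have hkey : ((1 + f i)⁻¹ - (R (n + 1)).eval (z i)) * ((1 + f i) * (1 + Q.eval (z i))) =
      (Q.eval (z i) - f i) -
        (1 + f i) * ((1 + Q.eval (z i)) * (R (n + 1)).eval (z i) - 1) := by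
    field_simp
    ring
  have hval := congrArg v hkey
  rw [map_mul, map_mul, h1f, h1q, mul_one, mul_one] at hval
  rw [hval, herr (n + 1) (z i)]
  refine v.map_sub_le ?_ ?_
  · rw [Valuation.map_sub_swap]
    exact hQf i
  · rw [map_mul, h1f, one_mul, Valuation.map_neg, map_pow, Valuation.map_neg]
    calc v (Q.eval (z i)) ^ (n + 1 + 1) ≤ v (z i) ^ (n + 1 + 1) := pow_le_pow_left₀ zero_le hqi _
      _ ≤ v (z i) ^ n := pow_le_pow_of_le_one zero_le hzi.le (by omega)

/-- The solution `w` of `w = z^3 + a₂ z^2 w + a₄ z w^2` is approximated by universal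
polynomials in `z`. -/
theorem bud_uaj_w (hz : ∀ i, v (z i) < 1) {a₂ a₄ : K} (h₂ : v a₂ ≤ 1) (h₄ : v a₄ ≤ 1) (w : ι → K)
    (hw1 : ∀ i, v (w i) ≤ 1)
    (hw : ∀ i, w i = z i ^ 3 + a₂ * z i ^ 2 * w i + a₄ * z i * w i ^ 2) :
    BudUAj v z w 0 0 := by
  let Wp : ℕ → K[X] := fun j => Nat.rec 0 (fun _ r => X ^ 3 + C a₂ * X ^ 2 * r + C a₄ * X * r ^ 2) j
  have hW0 : Wp 0 = 0 := rfl
  have hWs : ∀ j, Wp (j + 1) = X ^ 3 + C a₂ * X ^ 2 * Wp j + C a₄ * X * Wp j ^ 2 := fun j => rfl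
  have hWmem : ∀ j, Wp j ∈ bud_intPoly v := by
    intro j
    induction j with
    | zero => exact Subring.zero_mem _
    | succ j ih =>
      rw [hWs]
      have hX := bud_X_mem_intPoly v
      exact Subring.add_mem _ (Subring.add_mem _ (Subring.pow_mem _ hX 3)
        (Subring.mul_mem _ (Subring.mul_mem _ (bud_C_mem_intPoly v h₂) (Subring.pow_mem _ hX 2)) ih))
        (Subring.mul_mem _ (Subring.mul_mem _ (bud_C_mem_intPoly v h₄) hX) (Subring.pow_mem _ ih 2))
  have hWdvd : ∀ j, (X : K[X]) ^ 2 ∣ Wp j := by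
    intro j
    induction j with
    | zero => rw [hW0]; exact dvd_zero _
    | succ j ih =>
      rw [hWs]
      refine dvd_add (dvd_add ⟨X, by ring⟩ (Dvd.dvd.mul_right (Dvd.intro_left _ rfl) _)) ?_
      exact Dvd.dvd.mul_left (dvd_pow ih two_ne_zero) _
  have herr : ∀ j i, v (w i - (Wp j).eval (z i)) ≤ v (z i) ^ j := by
    intro j i
    induction j with
    | zero => simpa [hW0] using hw1 i
    | succ j ih =>
      have h1 : w i - (Wp (j + 1)).eval (z i) =
          (w i - (Wp j).eval (z i)) *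
            (a₂ * z i ^ 2 + a₄ * z i * (w i + (Wp j).eval (z i))) := by
        conv_lhs => rw [hw i]
        rw [hWs]
        simp only [Polynomial.eval_add, Polynomial.eval_mul, Polynomial.eval_pow,
          Polynomial.eval_X, Polynomial.eval_C]
        ring
      rw [h1, map_mul, pow_succ (v (z i)) j]
      have h2 : v (a₂ * z i ^ 2 + a₄ * z i * (w i + (Wp j).eval (z i))) ≤ v (z i) := by
        refine v.map_add_le ?_ ?_
        · rw [map_mul, map_pow]
          calc v a₂ * v (z i) ^ 2 ≤ 1 * v (z i) ^ 1 :=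
                mul_le_mul' h₂ (pow_le_pow_of_le_one zero_le (hz i).le (by norm_num))
            _ = v (z i) := by rw [one_mul, pow_one]
        · rw [map_mul, map_mul]
          calc v a₄ * v (z i) * v (w i + (Wp j).eval (z i)) ≤ 1 * v (z i) * 1 :=
                mul_le_mul' (mul_le_mul' h₄ le_rfl)
                  (v.map_add_le (hw1 i) (bud_eval_le_one v (hWmem j) (hz i).le))
            _ = v (z i) := by rw [one_mul, mul_one]
      exact mul_le_mul' ih h2
  intro n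
  have hc := Polynomial.X_pow_dvd_iff.mp (hWdvd n)
  exact ⟨Wp n, hWmem n, hc 0 (by norm_num), hc 1 (by norm_num), fun i => herr n i⟩

/-- One step of the group law in the jet calculus: from approximations of `z(kP)`, `w(kP)`,
`w(P)` to approximations of `z((k+1)P)`, `w((k+1)P)`, which are characterised by the exact
relations of the group law. -/
theorem bud_jet_step (hz : ∀ i, v (z i) < 1) {a₂ a₄ : K} (h₂ : v a₂ ≤ 1) (h₄ : v a₄ ≤ 1)
    {zk wk w : ι → K} {c : K} (hzk : BudUAj v z zk 0 c) (hwk : BudUAj v z wk 0 0)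
    (hw : BudUAj v z w 0 0) :
    ∃ zk' wk' : ι → K, BudUAj v z zk' 0 (c + 1) ∧ BudUAj v z wk' 0 0 ∧
      ∀ (i : ι) (l t u : K),
        l * (1 + (-(a₂ * zk i ^ 2) - a₄ * zk i * (wk i + w i))) =
          zk i ^ 2 + zk i * z i + z i ^ 2 + a₂ * (zk i + z i) * w i + a₄ * w i ^ 2 →
        t * (1 + (a₂ + 2 * a₄ * l) * zk i * z i) = zk i + z i →
        u = l * (t + z i) - w i → t = zk' i ∧ u = wk' i := by
  have hzle : ∀ i, v (z i) ≤ 1 := fun i => (hz i).le
  have hzid := bud_uaj_id (v := v) z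
  have h2 : v (2 : K) ≤ 1 := by
    have : (2 : K) = 1 + 1 := by norm_num
    rw [this]
    exact v.map_add_le (by simp) (by simp)
  have h24 : v (2 * a₄) ≤ 1 := by
    rw [map_mul]
    exact mul_le_one' h2 h₄
  have hN : BudUAj v z (fun i => zk i ^ 2 + zk i * z i + z i ^ 2 + a₂ * (zk i + z i) * w i
      + a₄ * w i ^ 2) 0 0 := by
    have h := ((((hzk.mul hzle hzk).add (hzk.mul hzle hzid)).add (hzid.mul hzle hzid)).add
      (((hzk.add hzid).mul hzle hw).const_mul hzle h₂)).add ((hw.mul hzle hw).const_mul hzle h₄)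
    exact (h.congr fun i => by ring).congr_jet (by ring) (by ring)
  have hD : BudUAj v z (fun i => -(a₂ * zk i ^ 2) - a₄ * zk i * (wk i + w i)) 0 0 := by
    have h := ((hzk.mul hzle hzk).const_mul hzle h₂).neg.sub
      ((hzk.mul hzle (hwk.add hw)).const_mul hzle h₄)
    exact (h.congr fun i => by ring).congr_jet (by ring) (by ring)
  have hAinv := hD.inv_one_add hz
  have hlam : BudUAj v z (fun i => (zk i ^ 2 + zk i * z i + z i ^ 2 + a₂ * (zk i + z i) * w i
      + a₄ * w i ^ 2) * (1 + (-(a₂ * zk i ^ 2) - a₄ * zk i * (wk i + w i)))⁻¹) 0 0 :=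
    (hN.mul hzle hAinv).congr_jet (by ring) (by ring)
  set lam : ι → K := fun i => (zk i ^ 2 + zk i * z i + z i ^ 2 + a₂ * (zk i + z i) * w i
      + a₄ * w i ^ 2) * (1 + (-(a₂ * zk i ^ 2) - a₄ * zk i * (wk i + w i)))⁻¹ with hlamdef
  have hG : BudUAj v z (fun i => (a₂ + 2 * a₄ * lam i) * zk i * z i) 0 0 := by
    have h := ((((bud_uaj_const z h₂).add (hlam.const_mul hzle h24)).mul hzle hzk).mul hzle hzid)
    exact (h.congr fun i => by ring).congr_jet (by ring) (by ring)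
  have hBinv := hG.inv_one_add hz
  have hzk' : BudUAj v z (fun i => (zk i + z i) * (1 + (a₂ + 2 * a₄ * lam i) * zk i * z i)⁻¹) 0
      (c + 1) :=
    ((hzk.add hzid).mul hzle hBinv).congr_jet (by ring) (by ring)
  set zk' : ι → K := fun i => (zk i + z i) * (1 + (a₂ + 2 * a₄ * lam i) * zk i * z i)⁻¹
    with hzk'def
  have hwk' : BudUAj v z (fun i => lam i * (zk' i + z i) - w i) 0 0 :=
    ((hlam.mul hzle (hzk'.add hzid)).sub hw).congr_jet (by ring) (by ring)
  refine ⟨zk', fun i => lam i * (zk' i + z i) - w i, hzk', hwk', ?_⟩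
  intro i l t u hl ht hu
  have hA1 : v (1 + (-(a₂ * zk i ^ 2) - a₄ * zk i * (wk i + w i))) = 1 :=
    v.map_one_add_of_lt (lt_of_le_of_lt (hD.le_self hzle i) (hz i))
  have hA0 : 1 + (-(a₂ * zk i ^ 2) - a₄ * zk i * (wk i + w i)) ≠ 0 := by
    intro h
    rw [h, map_zero] at hA1
    exact zero_ne_one hA1
  have hB1 : v (1 + (a₂ + 2 * a₄ * lam i) * zk i * z i) = 1 :=
    v.map_one_add_of_lt (lt_of_le_of_lt (hG.le_self hzle i) (hz i))
  have hB0 : 1 + (a₂ + 2 * a₄ * lam i) * zk i * z i ≠ 0 := by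
    intro h
    rw [h, map_zero] at hB1
    exact zero_ne_one hB1
  have hl' : l = lam i := by
    rw [hlamdef]
    exact (eq_mul_inv_iff_mul_eq₀ hA0).mpr hl
  rw [hl'] at ht hu
  have ht' : t = zk' i := by
    rw [hzk'def]
    exact (eq_mul_inv_iff_mul_eq₀ hB0).mpr ht
  exact ⟨ht', by rw [hu, ht']⟩

end Jets

section Interp

variable {K : Type*} [Field K] {Γ₀ : Type*} [LinearOrderedCommGroupWithZero Γ₀]
  (v : Valuation K Γ₀)

/-- Division of an integral polynomial by `X - a`, `a` integral. -/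
theorem bud_exists_div_linear {S : K[X]} (hS : S ∈ bud_intPoly v) {a : K} (ha : v a ≤ 1) :
    ∃ S₁ ∈ bud_intPoly v, S = (X - C a) * S₁ + C (S.eval a) := by
  refine ⟨S /ₘ (X - C a), ?_, ?_⟩
  · intro n
    rw [Polynomial.coeff_divByMonic_X_sub_C]
    refine v.map_sum_le fun i _ => ?_
    rw [map_mul, map_pow]
    exact mul_le_one' (pow_le_one₀ zero_le ha) (hS i)
  · have h := Polynomial.modByMonic_add_div S (X - C a)
    rw [Polynomial.modByMonic_X_sub_C_eq_C_eval, add_comm] at h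
    exact h.symm

/-- Interpolation bound: an integral polynomial which is small at the distinct points of `r`
(all of valuation `< 1`) has constant term of valuation at most `∏ v a`, up to the error. -/
theorem bud_interp_bound [DecidableEq K] (r : Finset K) (hr : ∀ a ∈ r, v a < 1) :
    ∃ e : K, e ≠ 0 ∧ v e ≤ 1 ∧ ∀ S ∈ bud_intPoly v, ∀ ε : Γ₀, (∀ a ∈ r, v (S.eval a) ≤ ε) →
      v e * v (S.coeff 0) ≤ max (v e * ∏ a ∈ r, v a) ε := by
  induction r using Finset.induction_on with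
  | empty =>
    refine ⟨1, one_ne_zero, by simp, fun S hS ε _ => ?_⟩
    rw [map_one, one_mul, Finset.prod_empty, one_mul]
    exact le_max_of_le_left (hS 0)
  | insert a r' ha ih =>
    obtain ⟨e', he', he'1, hI⟩ := ih fun b hb => hr b (Finset.mem_insert_of_mem hb)
    have ha1 : v a < 1 := hr a (Finset.mem_insert_self a r')
    set d : K := ∏ b ∈ r', (b - a) with hd
    have hd0 : d ≠ 0 := by
      rw [hd, Finset.prod_ne_zero_iff]
      intro b hb h0
      exact ha (by rwa [← sub_eq_zero.mp h0])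
    have hsub : ∀ b ∈ r', v (b - a) ≤ 1 := fun b hb =>
      v.map_sub_le (hr b (Finset.mem_insert_of_mem hb)).le ha1.le
    have hd1 : v d ≤ 1 := by
      rw [hd, map_prod]
      exact Finset.prod_le_one' hsub
    have hdb : ∀ b ∈ r', v d ≤ v (b - a) := by
      intro b hb
      rw [hd, map_prod, ← Finset.mul_prod_erase r' _ hb]
      calc v (b - a) * ∏ x ∈ r'.erase b, v (x - a) ≤ v (b - a) * 1 := by
            gcongr
            exact Finset.prod_le_one' fun x hx => hsub x (Finset.mem_of_mem_erase hx)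
        _ = v (b - a) := mul_one _
    have hvd0 : 0 < v d := by
      rw [zero_lt_iff, Valuation.ne_zero_iff]
      exact hd0
    refine ⟨e' * d, mul_ne_zero he' hd0, ?_, fun S hS ε hε => ?_⟩
    · rw [map_mul]
      exact mul_le_one' he'1 hd1
    obtain ⟨S₁, hS₁, hSeq⟩ := bud_exists_div_linear v hS ha1.le
    have hSa : v (S.eval a) ≤ ε := hε a (Finset.mem_insert_self a r')
    -- values of `S₁` on `r'`
    have hS₁b : ∀ b ∈ r', v (S₁.eval b) ≤ ε * (v d)⁻¹ := by
      intro b hb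
      have h1 : (b - a) * S₁.eval b = S.eval b - S.eval a := by
        conv_rhs => rw [hSeq]
        simp
      have h2 : v (b - a) * v (S₁.eval b) ≤ ε := by
        rw [← map_mul, h1]
        exact v.map_sub_le (hε b (Finset.mem_insert_of_mem hb)) hSa
      rw [le_mul_inv_iff₀ hvd0]
      calc v (S₁.eval b) * v d ≤ v (S₁.eval b) * v (b - a) := by
            gcongr
            exact hdb b hb
        _ = v (b - a) * v (S₁.eval b) := mul_comm _ _
        _ ≤ ε := h2
    have hIH := hI S₁ hS₁ (ε * (v d)⁻¹) hS₁b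
    -- constant terms
    have hc0 : S.coeff 0 = -a * S₁.coeff 0 + S.eval a := by
      conv_lhs => rw [hSeq]
      simp [Polynomial.mul_coeff_zero]
    rw [hc0, Finset.prod_insert ha, map_mul]
    have hfirst : v e' * v d * v (-a * S₁.coeff 0) ≤ max (v e' * v d * (v a * ∏ x ∈ r', v x)) ε := by
      rw [map_mul, Valuation.map_neg]
      have h3 : v e' * v d * (v a * v (S₁.coeff 0)) = v d * v a * (v e' * v (S₁.coeff 0)) := by
        ac_rfl
      rw [h3]
      rcases le_max_iff.mp hIH with h | h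
      · refine le_max_of_le_left ?_
        calc v d * v a * (v e' * v (S₁.coeff 0)) ≤ v d * v a * (v e' * ∏ x ∈ r', v x) := by
              gcongr
          _ = v e' * v d * (v a * ∏ x ∈ r', v x) := by ac_rfl
      · refine le_max_of_le_right ?_
        calc v d * v a * (v e' * v (S₁.coeff 0)) ≤ v d * v a * (ε * (v d)⁻¹) := by
              gcongr
          _ = v a * ε * (v d * (v d)⁻¹) := by ac_rfl
          _ = v a * ε := by rw [mul_inv_cancel₀ hvd0.ne', mul_one]
          _ ≤ 1 * ε := mul_le_mul' ha1.le le_rfl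
          _ = ε := one_mul _
    have hsecond : v e' * v d * v (S.eval a) ≤ ε := by
      calc v e' * v d * v (S.eval a) ≤ 1 * 1 * ε := by gcongr
        _ = ε := by rw [one_mul, one_mul]
    have hsum : v e' * v d * v (-a * S₁.coeff 0 + S.eval a) ≤
        max (v e' * v d * v (-a * S₁.coeff 0)) (v e' * v d * v (S.eval a)) := by
      rcases v.map_add' (-a * S₁.coeff 0) (S.eval a) with h | h
      · exact le_max_of_le_left (by gcongr)
      · exact le_max_of_le_right (by gcongr)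
    exact hsum.trans (max_le hfirst (hsecond.trans (le_max_right _ _)))

end Interp

section Curve

open WeierstrassCurve WeierstrassCurve.Affine Fermat.Agent.S05

variable {K : Type*} [Field K] {Γ₀ : Type*} [LinearOrderedCommGroupWithZero Γ₀]
  (v : Valuation K Γ₀)

/-- The formal parameter `z = x / y` of a point (`0` at the origin). -/
noncomputable def zc {W : Affine K} : W.Point → K
  | .zero => 0
  | .some x y _ => x / y

/-- The coordinate `w = 1 / y` of a point (`0` at the origin). -/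
noncomputable def bud_wc {W : Affine K} : W.Point → K
  | .zero => 0
  | .some _ y _ => y⁻¹

/-- The nonzero points of the kernel of reduction: `1 < v x`. -/
def BudInE1 (W : Affine K) (T : W.Point) : Prop :=
  ∃ (x y : K) (h : W.Nonsingular x y), T = .some x y h ∧ 1 < v x

/-- Valuations and the `(z, w)`-equation of a point of the kernel of reduction. -/
theorem bud_e1_val (W : Affine K) (h₁ : W.a₁ = 0) (h₃ : W.a₃ = 0) (h₆ : W.a₆ = 0)
    (hM : v W.a₂ ≤ 1) (hC : v W.a₄ ≤ 1) {x y : K} (h : W.Nonsingular x y) (hx : 1 < v x) :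
    x ≠ 0 ∧ y ≠ 0 ∧ v (x / y) < 1 ∧ v y⁻¹ < 1 ∧
      y⁻¹ = (x / y) ^ 3 + W.a₂ * (x / y) ^ 2 * y⁻¹ + W.a₄ * (x / y) * y⁻¹ ^ 2 := by
  have hE := special_equation W h₁ h₃ h₆ h.1
  obtain ⟨hx0, hy0, hvy⟩ := fg_point v hM hC hE hx
  have hxy : v x < v y := by
    apply lt_of_pow_lt_pow_left₀ 2 zero_le
    rw [hvy]
    exact pow_lt_pow_right₀ hx (by norm_num)
  have hy1 : 1 < v y := hx.trans hxy
  have hy0' : 0 < v y := zero_lt_one.trans hy1
  refine ⟨hx0, hy0, ?_, ?_, ?_⟩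
  · rw [map_div₀, div_lt_one₀ hy0']
    exact hxy
  · rw [map_inv₀, inv_lt_one₀ hy0']
    exact hy1
  · field_simp
    linear_combination hE

variable [DecidableEq K]

/-- The exact group law in the coordinates `z = x / y`, `w = 1 / y` on the kernel of
reduction. -/
theorem bud_zw_add (W : Affine K) (h₁ : W.a₁ = 0) (h₃ : W.a₃ = 0) (h₆ : W.a₆ = 0)
    (hM : v W.a₂ ≤ 1) (hC : v W.a₄ ≤ 1) {x₁ y₁ x₂ y₂ : K} (hP₁ : W.Nonsingular x₁ y₁)
    (hP₂ : W.Nonsingular x₂ y₂) (hx₁ : 1 < v x₁) (hx₂ : 1 < v x₂)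
    (hne : Point.some x₁ y₁ hP₁ + Point.some x₂ y₂ hP₂ ≠ 0) :
    BudInE1 v W (Point.some x₁ y₁ hP₁ + Point.some x₂ y₂ hP₂) ∧ ∃ lam : K,
      lam * (1 + (-(W.a₂ * (x₁ / y₁) ^ 2) - W.a₄ * (x₁ / y₁) * (y₁⁻¹ + y₂⁻¹))) =
        (x₁ / y₁) ^ 2 + (x₁ / y₁) * (x₂ / y₂) + (x₂ / y₂) ^ 2
          + W.a₂ * (x₁ / y₁ + x₂ / y₂) * y₂⁻¹ + W.a₄ * y₂⁻¹ ^ 2 ∧
      zc (Point.some x₁ y₁ hP₁ + Point.some x₂ y₂ hP₂) *
          (1 + (W.a₂ + 2 * W.a₄ * lam) * (x₁ / y₁) * (x₂ / y₂)) = x₁ / y₁ + x₂ / y₂ ∧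
      bud_wc (Point.some x₁ y₁ hP₁ + Point.some x₂ y₂ hP₂) =
        lam * (zc (Point.some x₁ y₁ hP₁ + Point.some x₂ y₂ hP₂) + x₂ / y₂) - y₂⁻¹ := by
  have hinv : ¬(x₁ = x₂ ∧ y₁ = -y₂) := by
    intro hh
    apply hne
    exact Point.add_of_Y_eq hh.1 (by rw [special_negY W h₁ h₃]; exact hh.2)
  obtain ⟨x₃, y₃, ℓ, β, hP₃, hsum, hch, hcase⟩ := exists_chord W h₁ h₃ h₆ hP₁ hP₂ hinv
  have hE₁ := special_equation W h₁ h₃ h₆ hP₁.1
  have hE₂ := special_equation W h₁ h₃ h₆ hP₂.1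
  have hE₃ := special_equation W h₁ h₃ h₆ hP₃.1
  obtain ⟨hx₃, -⟩ := fg_core v hM hC hch hE₁ hE₂ hE₃ hx₁ hx₂
  obtain ⟨hx₁0, hy₁0, hz₁, hw₁, hzw₁⟩ := bud_e1_val v W h₁ h₃ h₆ hM hC hP₁ hx₁
  obtain ⟨hx₂0, hy₂0, hz₂, hw₂, hzw₂⟩ := bud_e1_val v W h₁ h₃ h₆ hM hC hP₂ hx₂
  obtain ⟨hx₃0, hy₃0, hz₃, hw₃, hzw₃⟩ := bud_e1_val v W h₁ h₃ h₆ hM hC hP₃ hx₃
  have hβ0 : β ≠ 0 := by
    intro h0
    have := hch.e3
    rw [h0] at this
    have h3 : x₁ * x₂ * x₃ ≠ 0 := mul_ne_zero (mul_ne_zero hx₁0 hx₂0) hx₃0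
    exact h3 (by rw [this]; ring)
  rw [hsum]
  refine ⟨⟨x₃, y₃, hP₃, rfl, hx₃⟩, -ℓ / β, ?_, ?_, ?_⟩
  · -- the slope relation
    rcases hcase with ⟨hx, hl⟩ | ⟨hx, hy, hy0, hl⟩
    · -- secant
      have hL : y₂⁻¹ - y₁⁻¹ = -ℓ / β * (x₂ / y₂ - x₁ / y₁) := by
        have e1 := hch.l1
        have e2 := hch.l2
        field_simp
        linear_combination (β + ℓ * x₂) * e1 - (β + ℓ * x₁) * e2
      have hzne : x₂ / y₂ - x₁ / y₁ ≠ 0 := by
        intro h0
        rw [h0, mul_zero, sub_eq_zero] at hL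
        have hy : y₂ = y₁ := inv_injective hL
        apply hx
        rw [hy, sub_eq_zero] at h0
        have := congrArg (fun t => t * y₁) h0
        simp only [div_mul_cancel₀ _ hy₁0] at this
        exact this.symm
      apply mul_left_cancel₀ hzne
      linear_combination
        (1 + (-(W.a₂ * (x₁ / y₁) ^ 2) - W.a₄ * (x₁ / y₁) * (y₁⁻¹ + y₂⁻¹))) * (-hL) + hzw₂ - hzw₁
    · -- tangent
      subst hx
      subst hy
      have e1 := hch.l1
      field_simp
      linear_combination (β + ℓ * x₁) * hl + (2 * y₁ * ℓ) * e1 - (3 * ℓ) * hE₁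
  · -- the sum formula
    show x₃ / y₃ * (1 + (W.a₂ + 2 * W.a₄ * (-ℓ / β)) * (x₁ / y₁) * (x₂ / y₂)) = x₁ / y₁ + x₂ / y₂
    have hid := fg_identity hch
    field_simp
    linear_combination hid
  · show y₃⁻¹ = -ℓ / β * (x₃ / y₃ + x₂ / y₂) - y₂⁻¹
    have e2 := hch.l2
    have e3 := hch.l3
    field_simp
    linear_combination (β + ℓ * x₃) * e2 - (β + ℓ * x₂) * e3

omit [DecidableEq K] in
theorem bud_inE1_zw (W : Affine K) (h₁ : W.a₁ = 0) (h₃ : W.a₃ = 0) (h₆ : W.a₆ = 0)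
    (hM : v W.a₂ ≤ 1) (hC : v W.a₄ ≤ 1) {T : W.Point} (hT : BudInE1 v W T) :
    zc T ≠ 0 ∧ v (zc T) < 1 ∧ v (bud_wc T) < 1 ∧
      bud_wc T = zc T ^ 3 + W.a₂ * zc T ^ 2 * bud_wc T + W.a₄ * zc T * bud_wc T ^ 2 := by
  obtain ⟨x, y, h, rfl, hx⟩ := hT
  obtain ⟨hx0, hy0, hz, hw, hzw⟩ := bud_e1_val v W h₁ h₃ h₆ hM hC h hx
  exact ⟨div_ne_zero hx0 hy0, hz, hw, hzw⟩

theorem bud_inE1_nsmul (W : Affine K) (h₁ : W.a₁ = 0) (h₃ : W.a₃ = 0) (h₆ : W.a₆ = 0)
    (hM : v W.a₂ ≤ 1) (hC : v W.a₄ ≤ 1) {T : W.Point} (hT : BudInE1 v W T) {k : ℕ}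
    (hk : k • T ≠ 0) : BudInE1 v W (k • T) := by
  obtain ⟨x, y, h, rfl, hx⟩ := hT
  have hR := (fg_invariant v W h₁ h₃ h₆ hM hC x y h hx k).2
  rcases hQ : k • Point.some x y h with _ | ⟨x', y', h'⟩
  · exact absurd hQ hk
  · rw [hQ] at hR
    exact ⟨x', y', h', rfl, hR.1⟩

theorem bud_zw_add' (W : Affine K) (h₁ : W.a₁ = 0) (h₃ : W.a₃ = 0) (h₆ : W.a₆ = 0)
    (hM : v W.a₂ ≤ 1) (hC : v W.a₄ ≤ 1) {T₁ T₂ : W.Point} (hT₁ : BudInE1 v W T₁)
    (hT₂ : BudInE1 v W T₂) (hne : T₁ + T₂ ≠ 0) :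
    BudInE1 v W (T₁ + T₂) ∧ ∃ lam : K,
      lam * (1 + (-(W.a₂ * zc T₁ ^ 2) - W.a₄ * zc T₁ * (bud_wc T₁ + bud_wc T₂))) =
        zc T₁ ^ 2 + zc T₁ * zc T₂ + zc T₂ ^ 2 + W.a₂ * (zc T₁ + zc T₂) * bud_wc T₂
          + W.a₄ * bud_wc T₂ ^ 2 ∧
      zc (T₁ + T₂) * (1 + (W.a₂ + 2 * W.a₄ * lam) * zc T₁ * zc T₂) = zc T₁ + zc T₂ ∧
      bud_wc (T₁ + T₂) = lam * (zc (T₁ + T₂) + zc T₂) - bud_wc T₂ := by
  obtain ⟨x₁, y₁, h₁', rfl, hx₁⟩ := hT₁
  obtain ⟨x₂, y₂, h₂', rfl, hx₂⟩ := hT₂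
  exact bud_zw_add v W h₁ h₃ h₆ hM hC h₁' h₂' hx₁ hx₂ hne

omit [DecidableEq K] in
theorem bud_nsmul_ne_zero_of_prime {A : Type*} [AddGroup A] {T : A} {p : ℕ} (hp : p.Prime)
    (hT : p • T = 0) (hT0 : T ≠ 0) {k : ℕ} (hk : 0 < k) (hkp : k < p) : k • T ≠ 0 := by
  intro h
  have h1 := addOrderOf_dvd_of_nsmul_eq_zero h
  have h2 := addOrderOf_dvd_of_nsmul_eq_zero hT
  rcases (Nat.dvd_prime hp).mp h2 with h3 | h3
  · exact hT0 (AddMonoid.addOrderOf_eq_one_iff.mp h3)
  · rw [h3] at h1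
    exact absurd (Nat.le_of_dvd hk h1) (not_le.mpr hkp)

theorem bud_zc_neg (W : Affine K) (h₁ : W.a₁ = 0) (h₃ : W.a₃ = 0) (T : W.Point) :
    zc (-T) = -zc T := by
  rcases T with _ | ⟨x, y, h⟩
  · change zc (-(0 : W.Point)) = -zc (0 : W.Point)
    rw [neg_zero]
    change (0 : K) = -0
    rw [neg_zero]
  · rw [Point.neg_some]
    change x / W.negY x y = -(x / y)
    rw [special_negY W h₁ h₃, div_neg]

/-- **Universal torsion polynomials**: for every `n` there is a polynomial `S` with integral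
coefficients and constant term `p` such that `S (z T)` vanishes modulo `z T ^ n` for every
nonzero `p`-torsion point `T` of the kernel of reduction. -/
theorem bud_exists_torsion_poly (W : Affine K) (h₁ : W.a₁ = 0) (h₃ : W.a₃ = 0) (h₆ : W.a₆ = 0)
    (hM : v W.a₂ ≤ 1) (hC : v W.a₄ ≤ 1) (p : ℕ) (hp : p.Prime) (n : ℕ) :
    ∃ S : K[X], S ∈ bud_intPoly v ∧ S.coeff 0 = (p : K) ∧
      ∀ T : W.Point, p • T = 0 → BudInE1 v W T → v (S.eval (zc T)) ≤ v (zc T) ^ n := by
  set z : {T : W.Point // p • T = 0 ∧ BudInE1 v W T} → K := fun T => zc T.1 with hzdef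
  have hzw := fun i : {T : W.Point // p • T = 0 ∧ BudInE1 v W T} =>
    bud_inE1_zw v W h₁ h₃ h₆ hM hC i.2.2
  have hz : ∀ i, v (z i) < 1 := fun i => (hzw i).2.1
  have hw : BudUAj v z (fun T => bud_wc T.1) 0 0 :=
    bud_uaj_w hz hM hC _ (fun i => (hzw i).2.2.1.le) (fun i => (hzw i).2.2.2)
  have hT0 : ∀ i : {T : W.Point // p • T = 0 ∧ BudInE1 v W T}, i.1 ≠ 0 := by
    intro i
    obtain ⟨x, y, h, hh, -⟩ := i.2.2
    rw [hh]
    exact Point.some_ne_zero h
  have hkne : ∀ (i : {T : W.Point // p • T = 0 ∧ BudInE1 v W T}) (k : ℕ), 0 < k → k < p →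
      k • i.1 ≠ 0 := fun i k hk hkp => bud_nsmul_ne_zero_of_prime hp i.2.1 (hT0 i) hk hkp
  have hkE : ∀ (i : {T : W.Point // p • T = 0 ∧ BudInE1 v W T}) (k : ℕ), 0 < k → k < p →
      BudInE1 v W (k • i.1) := fun i k hk hkp =>
    bud_inE1_nsmul v W h₁ h₃ h₆ hM hC i.2.2 (hkne i k hk hkp)
  have key : ∀ k : ℕ, 1 ≤ k → k < p →
      BudUAj v z (fun T => zc (k • T.1)) 0 (k : K) ∧ BudUAj v z (fun T => bud_wc (k • T.1)) 0 0 := by
    intro k hk
    induction k, hk using Nat.le_induction with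
    | base =>
      intro _
      refine ⟨((bud_uaj_id z).congr fun i => by rw [one_nsmul]).congr_jet rfl (by simp),
        hw.congr fun i => by rw [one_nsmul]⟩
    | succ k hk ih =>
      intro hkp
      obtain ⟨hzk, hwk⟩ := ih (by omega)
      obtain ⟨zk', wk', hzk', hwk', huniq⟩ := bud_jet_step hz hM hC hzk hwk hw
      have hpt : ∀ i : {T : W.Point // p • T = 0 ∧ BudInE1 v W T},
          zc ((k + 1) • i.1) = zk' i ∧ bud_wc ((k + 1) • i.1) = wk' i := by
        intro i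
        have hsum : (k + 1) • i.1 = k • i.1 + i.1 := succ_nsmul _ _
        have hne : k • i.1 + i.1 ≠ 0 := by
          rw [← hsum]
          exact hkne i (k + 1) (by omega) hkp
        obtain ⟨-, lam, hI2, hI1, hI3⟩ :=
          bud_zw_add' v W h₁ h₃ h₆ hM hC (hkE i k (by omega) (by omega)) i.2.2 hne
        rw [hsum]
        exact huniq i lam _ _ hI2 hI1 hI3
      refine ⟨(hzk'.congr fun i => (hpt i).1).congr_jet rfl (by push_cast; ring),
        hwk'.congr fun i => (hpt i).2⟩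
  -- `(p - 1) • T = -T`
  have hp1 : 1 ≤ p - 1 := by
    have := hp.two_le
    omega
  obtain ⟨hzp, -⟩ := key (p - 1) hp1 (by have := hp.two_le; omega)
  have hneg : ∀ i : {T : W.Point // p • T = 0 ∧ BudInE1 v W T}, zc ((p - 1) • i.1) = -z i := by
    intro i
    have h1 : (p - 1) • i.1 + i.1 = 0 := by
      rw [← succ_nsmul, Nat.sub_add_cancel hp.one_le]
      exact i.2.1
    rw [eq_neg_of_add_eq_zero_left h1, bud_zc_neg W h₁ h₃]
  have hzero : BudUAj v z (fun _ => (0 : K)) 0 (p : K) := by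
    have h := hzp.add (bud_uaj_id z)
    refine (h.congr fun i => ?_).congr_jet (by ring) ?_
    · rw [hneg]
      ring
    · have : ((p - 1 : ℕ) : K) + 1 = (p : K) := by
        rw [← Nat.cast_succ, Nat.succ_eq_add_one, Nat.sub_add_cancel hp.one_le]
      exact this
  obtain ⟨Q, hQ, hQ0, hQ1, hQz⟩ := hzero (n + 1)
  refine ⟨Q.divX, bud_divX_mem_intPoly v hQ, by rw [Polynomial.coeff_divX, hQ1], ?_⟩
  intro T hT hTE
  have hi := hQz ⟨T, hT, hTE⟩
  have hzT := bud_inE1_zw v W h₁ h₃ h₆ hM hC hTE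
  have hdiv := Polynomial.divX_mul_X_add Q
  rw [hQ0, map_zero, add_zero] at hdiv
  have heval : Q.eval (zc T) = Q.divX.eval (zc T) * zc T := by
    conv_lhs => rw [← hdiv]
    rw [Polynomial.eval_mul, Polynomial.eval_X]
  rw [zero_sub, Valuation.map_neg] at hi
  change v (Q.eval (zc T)) ≤ v (zc T) ^ (n + 1) at hi
  rw [heval, map_mul, pow_succ] at hi
  have hpos : 0 < v (zc T) := by
    rw [zero_lt_iff, Valuation.ne_zero_iff]
    exact hzT.1
  exact le_of_mul_le_mul_right hi hpos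

omit [DecidableEq K] in
/-- The formal parameter is injective on the kernel of reduction. -/
theorem bud_zc_injOn (W : Affine K) (h₁ : W.a₁ = 0) (h₃ : W.a₃ = 0) (h₆ : W.a₆ = 0)
    (hM : v W.a₂ ≤ 1) (hC : v W.a₄ ≤ 1) {T T' : W.Point} (hT : BudInE1 v W T)
    (hT' : BudInE1 v W T') (hzz : zc T = zc T') : T = T' := by
  obtain ⟨hz0, hz1, hw1, hE⟩ := bud_inE1_zw v W h₁ h₃ h₆ hM hC hT
  obtain ⟨-, -, hw1', hE'⟩ := bud_inE1_zw v W h₁ h₃ h₆ hM hC hT'
  rw [← hzz] at hE'
  have hprod : (bud_wc T - bud_wc T') *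
      (1 + (-(W.a₂ * zc T ^ 2) - W.a₄ * zc T * (bud_wc T + bud_wc T'))) = 0 := by
    linear_combination hE - hE'
  have hsmall : v (-(W.a₂ * zc T ^ 2) - W.a₄ * zc T * (bud_wc T + bud_wc T')) < 1 := by
    refine lt_of_le_of_lt (v.map_sub_le (g := v (zc T)) ?_ ?_) hz1
    · rw [Valuation.map_neg, map_mul, map_pow]
      calc v W.a₂ * v (zc T) ^ 2 ≤ 1 * v (zc T) ^ 1 :=
            mul_le_mul' hM (pow_le_pow_of_le_one zero_le hz1.le (by norm_num))
        _ = v (zc T) := by rw [one_mul, pow_one]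
    · rw [map_mul, map_mul]
      calc v W.a₄ * v (zc T) * v (bud_wc T + bud_wc T') ≤ 1 * v (zc T) * 1 :=
            mul_le_mul' (mul_le_mul' hC le_rfl) (v.map_add_le hw1.le hw1'.le)
        _ = v (zc T) := by rw [one_mul, mul_one]
  have hunit : 1 + (-(W.a₂ * zc T ^ 2) - W.a₄ * zc T * (bud_wc T + bud_wc T')) ≠ 0 := by
    intro h
    have h1 := v.map_one_add_of_lt hsmall
    rw [h, map_zero] at h1
    exact zero_ne_one h1
  have hww : bud_wc T = bud_wc T' := sub_eq_zero.mp ((mul_eq_zero.mp hprod).resolve_right hunit)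
  obtain ⟨x, y, h, rfl, hx⟩ := hT
  obtain ⟨x', y', h', rfl, hx'⟩ := hT'
  have hy : y = y' := inv_injective hww
  subst hy
  have hy0 : y ≠ 0 := (bud_e1_val v W h₁ h₃ h₆ hM hC h hx).2.1
  have hx' : x = x' := by
    have h2 : x / y = x' / y := hzz
    field_simp at h2
    exact h2
  subst hx'
  rfl

omit [DecidableEq K] in
theorem bud_val_natCast_le_one (n : ℕ) : v (n : K) ≤ 1 := by
  induction n with
  | zero => simp
  | succ n ih =>
    rw [Nat.cast_succ]
    exact v.map_add_le ih (by simp)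

/-- **The valuation budget.**  On `y^2 = x^3 + M x^2 + C x` with `v`-integral `M`, `C`, for a
rank one valuation `v`: the formal parameters `z T = x T / y T` of distinct nonzero `p`-torsion
points in the kernel of reduction (`1 < v (x T)`) satisfy `v p ≤ ∏ v (z T)`. -/
theorem torsion_budget (W : Affine K) (h₁ : W.a₁ = 0) (h₃ : W.a₃ = 0) (h₆ : W.a₆ = 0)
    (hM : v W.a₂ ≤ 1) (hC : v W.a₄ ≤ 1) (p : ℕ) (hp : p.Prime)
    (harch : ∀ a b : K, v a < 1 → b ≠ 0 → ∃ n : ℕ, v a ^ n < v b)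
    (s : Finset W.Point)
    (hs : ∀ T ∈ s, p • T = 0 ∧
      ∃ (x y : K) (h : W.Nonsingular x y), T = Point.some x y h ∧ 1 < v x) :
    v (p : K) ≤ ∏ T ∈ s, v (zc T) := by
  have hs' : ∀ T ∈ s, p • T = 0 ∧ BudInE1 v W T := hs
  have hinj : ∀ T ∈ s, ∀ T' ∈ s, zc T = zc T' → T = T' := fun T hT T' hT' hzz =>
    bud_zc_injOn v W h₁ h₃ h₆ hM hC (hs' T hT).2 (hs' T' hT').2 hzz
  rw [← Finset.prod_image (f := fun a => v a) hinj]
  have hr : ∀ a ∈ s.image zc, v a < 1 := by
    intro a ha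
    obtain ⟨T, hT, rfl⟩ := Finset.mem_image.mp ha
    exact (bud_inE1_zw v W h₁ h₃ h₆ hM hC (hs' T hT).2).2.1
  obtain ⟨e, he0, he1, hI⟩ := bud_interp_bound v (s.image zc) hr
  have hve : 0 < v e := by
    rw [zero_lt_iff, Valuation.ne_zero_iff]
    exact he0
  by_cases hp0 : (p : K) = 0
  · rw [hp0, map_zero]
    exact zero_le
  rcases (s.image zc).eq_empty_or_nonempty with hre | hrne
  · rw [hre, Finset.prod_empty]
    exact bud_val_natCast_le_one v p
  · obtain ⟨a₀, ha₀, hmax⟩ := (s.image zc).exists_max_image (fun a => v a) hrne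
    obtain ⟨n, hn⟩ := harch a₀ ((p : K) * e) (hr a₀ ha₀) (mul_ne_zero hp0 he0)
    obtain ⟨S, hS, hS0, hSz⟩ := bud_exists_torsion_poly v W h₁ h₃ h₆ hM hC p hp n
    have hε : ∀ a ∈ s.image zc, v (S.eval a) ≤ v a₀ ^ n := by
      intro a ha
      obtain ⟨T, hT, rfl⟩ := Finset.mem_image.mp ha
      exact (hSz T (hs' T hT).1 (hs' T hT).2).trans (pow_le_pow_left₀ zero_le (hmax _ ha) n)
    have h := hI S hS (v a₀ ^ n) hε
    rw [hS0] at h
    rcases le_max_iff.mp h with h' | h'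
    · exact le_of_mul_le_mul_left h' hve
    · exfalso
      rw [map_mul, mul_comm] at hn
      exact absurd h' (not_le.mpr hn)

end Curve

end Fermat.Agent.S13
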