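import Mathlib.AlgebraicGeometry.EllipticCurve.Affine.Point
import Mathlib.AlgebraicGeometry.EllipticCurve.DivisionPolynomial.Degree
import Mathlib.Tactic

/-!
# Explicit identities between the group law and the small division polynomials

All statements are for a Weierstrass curve over a field, in affine coordinates.
-/

set_option autoImplicit false

namespace Fermat.Agent.S13

open WeierstrassCurve WeierstrassCurve.Affine Polynomial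

variable {F : Type*} [Field F] [DecidableEq F] (W : Affine F)

/-- `x(A + C) - x(A - C)` for `x(A) ≠ x(C)`. No curve equation is needed. -/
theorem dp_id_A {x₁ x₂ y₁ y₂ : F} (hx : x₁ ≠ x₂) :
    (x₁ - x₂) ^ 2 * (W.addX x₁ x₂ (W.slope x₁ x₂ y₁ y₂)
      - W.addX x₁ x₂ (W.slope x₁ x₂ y₁ (W.negY x₂ y₂)))
      = -((y₁ - W.negY x₁ y₁) * (y₂ - W.negY x₂ y₂)) := by
  have hd : x₁ - x₂ ≠ 0 := sub_ne_zero.mpr hx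
  rw [slope_of_X_ne hx, slope_of_X_ne hx]
  simp only [addX, negY]
  field_simp
  ring

/-- `(x(A + C) - x(A)) (x(A - C) - x(A))` for `x(A) ≠ x(C)`. -/
theorem dp_id_G {x₁ x₂ y₁ y₂ : F} (h₁ : W.Equation x₁ y₁) (h₂ : W.Equation x₂ y₂)
    (hx : x₁ ≠ x₂) :
    (W.addX x₁ x₂ (W.slope x₁ x₂ y₁ y₂) - x₁)
      * (W.addX x₁ x₂ (W.slope x₁ x₂ y₁ (W.negY x₂ y₂)) - x₁) * (x₁ - x₂) ^ 2
      = (x₁ ^ 4 - W.b₄ * x₁ ^ 2 - 2 * W.b₆ * x₁ - W.b₈)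
        - x₂ * (4 * x₁ ^ 3 + W.b₂ * x₁ ^ 2 + 2 * W.b₄ * x₁ + W.b₆) := by
  have hd : x₁ - x₂ ≠ 0 := sub_ne_zero.mpr hx
  rw [equation_iff] at h₁ h₂
  have key : ((y₁ - y₂) ^ 2 + W.a₁ * (y₁ - y₂) * (x₁ - x₂)
        - (W.a₂ + x₁ + x₂) * (x₁ - x₂) ^ 2 - x₁ * (x₁ - x₂) ^ 2)
      * ((y₁ - (-y₂ - W.a₁ * x₂ - W.a₃)) ^ 2 + W.a₁ * (y₁ - (-y₂ - W.a₁ * x₂ - W.a₃)) * (x₁ - x₂)
        - (W.a₂ + x₁ + x₂) * (x₁ - x₂) ^ 2 - x₁ * (x₁ - x₂) ^ 2)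
      = (x₁ - x₂) ^ 2 * ((x₁ ^ 4 - W.b₄ * x₁ ^ 2 - 2 * W.b₆ * x₁ - W.b₈)
        - x₂ * (4 * x₁ ^ 3 + W.b₂ * x₁ ^ 2 + 2 * W.b₄ * x₁ + W.b₆)) := by
    simp only [b₂, b₄, b₆, b₈]
    linear_combination
      (y₁^2 + y₁*x₁*W.a₁ + y₁*W.a₃ - 2*y₂^2 - 2*y₂*x₂*W.a₁ - 2*y₂*W.a₃ - 3*x₁^3 + 6*x₁^2*x₂
        - x₁^2*W.a₂ + x₁*x₂*W.a₁^2 + 4*x₁*x₂*W.a₂ + x₁*W.a₁*W.a₃ + x₁*W.a₄ - 2*x₂^3
        - x₂^2*W.a₁^2 - 2*x₂^2*W.a₂ - x₂*W.a₁*W.a₃ + W.a₆) * h₁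
      + (y₂^2 + y₂*x₂*W.a₁ + y₂*W.a₃ - 6*x₁^3 + 6*x₁^2*x₂ - x₁^2*W.a₁^2 - 4*x₁^2*W.a₂
        + x₁*x₂*W.a₁^2 + 4*x₁*x₂*W.a₂ - x₁*W.a₁*W.a₃ - 2*x₁*W.a₄ - x₂^3 - x₂^2*W.a₂
        + x₂*W.a₁*W.a₃ + x₂*W.a₄ - W.a₆) * h₂
  have e₁ : W.addX x₁ x₂ (W.slope x₁ x₂ y₁ y₂) - x₁
      = ((y₁ - y₂) ^ 2 + W.a₁ * (y₁ - y₂) * (x₁ - x₂)
        - (W.a₂ + x₁ + x₂) * (x₁ - x₂) ^ 2 - x₁ * (x₁ - x₂) ^ 2) / (x₁ - x₂) ^ 2 := by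
    rw [slope_of_X_ne hx]
    simp only [addX]
    field_simp
    ring
  have e₂ : W.addX x₁ x₂ (W.slope x₁ x₂ y₁ (W.negY x₂ y₂)) - x₁
      = ((y₁ - (-y₂ - W.a₁ * x₂ - W.a₃)) ^ 2
        + W.a₁ * (y₁ - (-y₂ - W.a₁ * x₂ - W.a₃)) * (x₁ - x₂)
        - (W.a₂ + x₁ + x₂) * (x₁ - x₂) ^ 2 - x₁ * (x₁ - x₂) ^ 2) / (x₁ - x₂) ^ 2 := by
    rw [slope_of_X_ne hx]
    simp only [addX, negY]
    field_simp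
    ring
  rw [e₁, e₂, div_mul_div_comm, key]
  field_simp

omit [DecidableEq F] in
/-- `ψ₂(A)² = Ψ₂Sq(x(A))`. -/
theorem dp_id_V {x y : F} (h : W.Equation x y) :
    (y - W.negY x y) ^ 2 = 4 * x ^ 3 + W.b₂ * x ^ 2 + 2 * W.b₄ * x + W.b₆ := by
  rw [equation_iff] at h
  simp only [negY, b₂, b₄, b₆]
  linear_combination 4 * h

/-- `x(2A) ψ₂(A)² = Φ₂(x(A))`. -/
theorem dp_id_D {x y : F} (h : W.Equation x y) (hy : y ≠ W.negY x y) :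
    W.addX x x (W.slope x x y y) * (y - W.negY x y) ^ 2
      = x ^ 4 - W.b₄ * x ^ 2 - 2 * W.b₆ * x - W.b₈ := by
  have hV : y - W.negY x y ≠ 0 := sub_ne_zero.mpr hy
  rw [equation_iff] at h
  rw [slope_of_Y_ne rfl hy]
  simp only [addX]
  field_simp
  simp only [negY, b₄, b₆, b₈]
  linear_combination (-8 * x - W.a₁ ^ 2 - 4 * W.a₂) * h

/-- `ψ₂(2A) ψ₂(A)³ = preΨ₄(x(A))`. -/
theorem dp_id_P {x y : F} (h : W.Equation x y) (hy : y ≠ W.negY x y) :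
    (W.addY x x y (W.slope x x y y)
        - W.negY (W.addX x x (W.slope x x y y)) (W.addY x x y (W.slope x x y y)))
      * (y - W.negY x y) ^ 3
      = 2 * x ^ 6 + W.b₂ * x ^ 5 + 5 * W.b₄ * x ^ 4 + 10 * W.b₆ * x ^ 3 + 10 * W.b₈ * x ^ 2
        + (W.b₂ * W.b₈ - W.b₄ * W.b₆) * x + (W.b₄ * W.b₈ - W.b₆ ^ 2) := by
  have hV : y - W.negY x y ≠ 0 := sub_ne_zero.mpr hy
  rw [equation_iff] at h
  rw [slope_of_Y_ne rfl hy]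
  set V : F := y - W.negY x y with hVdef
  set n : F := 3 * x ^ 2 + 2 * W.a₂ * x + W.a₄ - W.a₁ * y with hndef
  have hℓ : n / V * V = n := div_mul_cancel₀ n hV
  have e : (W.addY x x y (n / V) - W.negY (W.addX x x (n / V)) (W.addY x x y (n / V))) * V ^ 3
      = -2 * (n / V * V) * ((n / V * V) ^ 2 + W.a₁ * (n / V * V) * V - (W.a₂ + 3 * x) * V ^ 2)
        - (2 * y + W.a₃) * V ^ 3
        - W.a₁ * V * ((n / V * V) ^ 2 + W.a₁ * (n / V * V) * V - (W.a₂ + 2 * x) * V ^ 2) := by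
    simp only [addY, negAddY, addX, negY]
    ring
  rw [e, hℓ, hVdef, hndef]
  simp only [negY, b₂, b₄, b₆, b₈]
  linear_combination (-16*y^2 - 16*y*x*W.a₁ - 16*y*W.a₃ + 56*x^3 + 10*x^2*W.a₁^2 + 56*x^2*W.a₂
    + x*W.a₁^4 + 8*x*W.a₁^2*W.a₂ - 4*x*W.a₁*W.a₃ + 16*x*W.a₂^2 + 8*x*W.a₄ + W.a₁^3*W.a₃
    + 2*W.a₁^2*W.a₄ + 4*W.a₁*W.a₂*W.a₃ + 8*W.a₂*W.a₄ - 8*W.a₃^2 - 16*W.a₆) * h

end Fermat.Agent.S13
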