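import Mathlib
import Fermat.Prelude.Def_FLTPrelim_Ramification
import Fermat.Agent.Lib.FrobeniusExists
import Fermat.Agent.S13.Global

/-!
# S13, package G, existential form: it suffices that for every prime `q` SOME valuation subring
over `q` has its inertia group in the kernel.  (Same proof as `Global.lean`: in a non-trivial
finite Galois extension of `ℚ` some prime `q` has all primes above it ramified.)
-/

set_option autoImplicit false

namespace Fermat.Agent.S13

open Fermat.Agent.Lib.FrobeniusExists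
open scoped Pointwise

local notation "Qbar" => AlgebraicClosure ℚ

local instance global2IsAlgebraicQbar : Algebra.IsAlgebraic ℚ Qbar :=
  AlgebraicClosure.isAlgebraic ℚ
local instance global2IsAlgClosureQbar : IsAlgClosure ℚ Qbar :=
  ⟨inferInstance, inferInstance⟩
local instance global2IsGaloisQbar : IsGalois ℚ Qbar :=
  IsAlgClosure.isGalois ℚ Qbar
local instance global2ZbarTopology : TopologicalSpace Zbar := ⊥
local instance global2ZbarDiscrete : DiscreteTopology Zbar := ⟨rfl⟩

open NumberField in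
/-- A non-trivial finite Galois extension `K` of `ℚ` inside `Qbar` has a non-trivial automorphism
which lifts to an element of an inertia group of `Qbar`. -/
theorem exists_inertia_ne_one_forall (K : IntermediateField ℚ Qbar) [FiniteDimensional ℚ K]
    [IsGalois ℚ K] (hK : 1 < Module.finrank ℚ K) :
    ∃ (q : ℕ) (_ : q.Prime), ∀ (V : ValuationSubring Qbar) (_ : V.LiesOverPrime q),
      ∃ (σ : Qbar ≃ₐ[ℚ] Qbar), σ ∈ V.inertiaSubgroupIn ℚ ∧ ∃ x : K, σ (x : Qbar) ≠ x := by
  classical
  have : NumberField K := ⟨⟩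
  obtain ⟨p, hp, hram⟩ := NumberField.exists_not_isUnramifiedAt_int_of_isGalois
    (K := K) (𝒪 := 𝓞 K) hK
  refine ⟨p, hp, ?_⟩
  intro V hV
  -- the integers of `K` inside `Zbar`
  have hint : ∀ x : 𝓞 K, IsIntegral ℤ (((x : K) : Qbar)) := fun x =>
    (x.2 : IsIntegral ℤ (x : K)).map (IsScalarTower.toAlgHom ℤ K Qbar)
  let ι : 𝓞 K →+* Zbar :=
    ((algebraMap K Qbar).comp (algebraMap (𝓞 K) K)).codRestrict Zbar (fun x => hint x)
  have hι : ∀ x : 𝓞 K, ((ι x : Zbar) : Qbar) = ((x : K) : Qbar) := fun x => rfl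
  let P : Ideal (𝓞 K) := (primeBelow V).comap ι
  have hPprime : P.IsPrime := Ideal.comap_isPrime ι (primeBelow V)
  have hpP : ((p : ℕ) : 𝓞 K) ∈ P := by
    show ι ((p : ℕ) : 𝓞 K) ∈ primeBelow V
    rw [mem_primeBelow, hι]
    have : ((((p : ℕ) : 𝓞 K) : K) : Qbar) = (p : Qbar) := by simp
    rw [this]
    exact (V.mem_nonunits_iff).mp hV
  have hPram := hram P hPprime hpP
  -- the Galois action and the inertia group
  have := (IsIntegralClosure.algebraMap_injective (𝓞 K) ℤ K).isDomain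
  have := IsIntegralClosure.isDedekindDomain ℤ ℚ K (𝓞 K)
  have := IsIntegralClosure.isFractionRing_of_finite_extension ℤ ℚ K (𝓞 K)
  have := IsIntegralClosure.finite ℤ ℚ K (𝓞 K)
  have := CharZero.of_module (R := 𝓞 K) K
  let act : MulSemiringAction Gal(K/ℚ) (𝓞 K) := IsIntegralClosure.MulSemiringAction ℤ ℚ K (𝓞 K)
  have := IsGaloisGroup.of_isFractionRing Gal(K/ℚ) ℤ (𝓞 K) ℚ K
  have hact : ∀ (τ : Gal(K/ℚ)) (x : 𝓞 K), ((τ • x : 𝓞 K) : K) = τ (x : K) := fun τ x =>
    algebraMap_galRestrict_apply ℤ τ x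
  have hcard : Nat.card (P.toAddSubgroup.inertia Gal(K/ℚ)) ≠ 1 := by
    intro h1
    apply hPram
    rw [← Ideal.ramificationIdx_eq_one_iff,
      ← Ideal.ramificationIdxIn_eq_ramificationIdx (P.under ℤ) P Gal(K/ℚ),
      ← Ideal.card_inertia_eq_ramificationIdxIn (G := Gal(K/ℚ)) (P.under ℤ) P]
    exact h1
  obtain ⟨τ, hτmem, hτne⟩ : ∃ τ ∈ P.toAddSubgroup.inertia Gal(K/ℚ), τ ≠ 1 := by
    by_contra hcon
    push Not at hcon
    apply hcard
    have hbot : P.toAddSubgroup.inertia Gal(K/ℚ) = ⊥ := (Subgroup.eq_bot_iff_forall _).mpr hcon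
    rw [hbot]
    exact Subgroup.card_bot
  have hτ : ∀ x : K, IsIntegral ℤ (x : Qbar) →
      V.valuation (((τ x : K) : Qbar) - (x : Qbar)) < 1 := by
    intro x hx
    have hxK : IsIntegral ℤ x := (isIntegral_algebraMap_iff (algebraMap K Qbar).injective).mp hx
    let x' : 𝓞 K := ⟨x, hxK⟩
    have h1 := hτmem x'
    have h2 : V.valuation ((ι (τ • x' - x') : Zbar) : Qbar) < 1 := h1
    rw [hι] at h2
    have h3 : ((τ • x' - x' : 𝓞 K) : K) = τ x - x := by
      rw [show ((τ • x' - x' : 𝓞 K) : K) = ((τ • x' : 𝓞 K) : K) - (x' : K) from rfl, hact]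
      rfl
    rw [h3] at h2
    exact h2
  obtain ⟨σ, hσI, hσK⟩ := exists_inertia_lift K V p hp hV τ hτ
  refine ⟨σ, hσI, ?_⟩
  by_contra hcon
  push Not at hcon
  apply hτne
  apply AlgEquiv.ext
  intro x
  have := hcon x
  rw [hσK] at this
  rw [AlgEquiv.one_apply]
  exact Subtype.ext this

/-- **Global lemma (G3), existential form.** A homomorphism from the absolute Galois group of
`ℚ` which is trivial on the pointwise fixer of a finite set and, for every prime `q`, on the
inertia group of SOME valuation subring over `q`, is trivial. -/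
theorem hom_eq_one_of_unramified_exists {G : Type*} [Group G]
    (ψ : (AlgebraicClosure ℚ ≃ₐ[ℚ] AlgebraicClosure ℚ) →* G) (S : Finset (AlgebraicClosure ℚ))
    (hS : ∀ σ : AlgebraicClosure ℚ ≃ₐ[ℚ] AlgebraicClosure ℚ, (∀ x ∈ S, σ x = x) → ψ σ = 1)
    (hunr : ∀ q : ℕ, q.Prime → ∃ A : ValuationSubring (AlgebraicClosure ℚ), A.LiesOverPrime q ∧
      ∀ σ ∈ A.inertiaSubgroupIn ℚ, ψ σ = 1) :
    ∀ σ, ψ σ = 1 := by
  classical
  let E : IntermediateField ℚ Qbar := IntermediateField.adjoin ℚ (S : Set Qbar)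
  have hEfin : FiniteDimensional ℚ E :=
    IntermediateField.finiteDimensional_adjoin (fun x _ => Algebra.IsIntegral.isIntegral x)
  have hEle : E.fixingSubgroup ≤ ψ.ker := by
    intro σ hσ
    rw [MonoidHom.mem_ker]
    apply hS
    intro x hx
    exact (IntermediateField.mem_fixingSubgroup_iff E σ).mp hσ x
      (IntermediateField.subset_adjoin ℚ _ hx)
  have hopen : IsOpen (ψ.ker : Set (Qbar ≃ₐ[ℚ] Qbar)) :=
    Subgroup.isOpen_mono hEle (IntermediateField.fixingSubgroup_isOpen E)
  have hclosed : IsClosed (ψ.ker : Set (Qbar ≃ₐ[ℚ] Qbar)) := Subgroup.isClosed_of_isOpen _ hopen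
  let H : ClosedSubgroup (Qbar ≃ₐ[ℚ] Qbar) := ⟨ψ.ker, hclosed⟩
  let K : IntermediateField ℚ Qbar := IntermediateField.fixedField ψ.ker
  have hKfix : K.fixingSubgroup = ψ.ker := InfiniteGalois.fixingSubgroup_fixedField H
  have hKfin : FiniteDimensional ℚ K := by
    rw [← InfiniteGalois.isOpen_iff_finite, hKfix]
    exact hopen
  have hKgal : IsGalois ℚ K := by
    have hn : K.fixingSubgroup.Normal := by rw [hKfix]; exact MonoidHom.normal_ker ψ
    convert (InfiniteGalois.normal_iff_isGalois K).mp hn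
    exact Subsingleton.elim _ _
  by_contra hcon
  push Not at hcon
  obtain ⟨σ0, hσ0⟩ := hcon
  have hdeg : 1 < Module.finrank ℚ K := by
    by_contra hle
    have h1 : Module.finrank ℚ K = 1 := by
      have := Module.finrank_pos (R := ℚ) (M := K)
      omega
    have hbot : K = ⊥ := IntermediateField.finrank_eq_one_iff.mp h1
    have htop : ψ.ker = ⊤ := by
      rw [← hKfix, hbot, IntermediateField.fixingSubgroup_bot]
    apply hσ0
    have : σ0 ∈ ψ.ker := htop ▸ Subgroup.mem_top σ0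
    exact this
  obtain ⟨q, hq, hall⟩ := exists_inertia_ne_one_forall K hdeg
  obtain ⟨V, hVq, hV1⟩ := hunr q hq
  obtain ⟨σ, hσI, x, hx⟩ := hall V hVq
  have h1 : ψ σ = 1 := hV1 σ hσI
  have h2 : σ ∈ K.fixingSubgroup := by rw [hKfix]; exact h1
  exact hx ((IntermediateField.mem_fixingSubgroup_iff K σ).mp h2 x x.2)

end Fermat.Agent.S13
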