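import Fermat.Agent.S05.Core

/-!
# S13, package D (node at the prime 2): definitions

Model: `W : Y² = x³ + (A + 1/4) x² + C x` over a valued field `(K, v)` with `v 2 < 1`, `A`
integral, `C` a nonzero nonunit.  This is the image of `y² + x y = x³ + A x² + C x` under
`(x, y) ↦ (x, y + x / 2)` (S05 `exists_varChange_hom` with `e = 0`), so the S05 chord calculus
(`Chord`, `exists_chord`, `Chord.U1` ...) applies verbatim; `y / x - 1 / 2` is the integral
slope `t` of the original model.
-/

set_option autoImplicit false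

namespace Fermat.Agent.S13

open WeierstrassCurve WeierstrassCurve.Affine

variable {K : Type*} [Field K] {Γ₀ : Type*} [LinearOrderedCommGroupWithZero Γ₀]

/-- the hypotheses on the model at a place above `2` -/
structure TwoModel (v : Valuation K Γ₀) (W : Affine K) : Prop where
  h₁ : W.a₁ = 0
  h₃ : W.a₃ = 0
  h₆ : W.a₆ = 0
  h2 : v (2 : K) < 1
  h2ne : (2 : K) ≠ 0
  hA : v (W.a₂ - 1 / 4) ≤ 1
  hC0 : W.a₄ ≠ 0
  hC : v W.a₄ < 1

/-- points of order `p` are integral -/
def TwoInt [DecidableEq K] (v : Valuation K Γ₀) (W : Affine K) (p : ℕ) : Prop :=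
  ∀ (x y : K) (h : W.Nonsingular x y), p • Point.some x y h = 0 → v x ≤ 1

end Fermat.Agent.S13
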